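import Fermat.Agent.LanglandsTunnell.Isolation.EigenSpace

/-!
# Averages over the quotient at all levels

The normalised integral over a fundamental domain of an invariant function does not depend on the
domain, on the level, or on a right translation.
-/

set_option autoImplicit false

noncomputable section

namespace FLTAgent.LanglandsTunnell.Isolation

open FLTAgent.LanglandsTunnell MeasureTheory NumberField Matrix
open FLTAgent.LanglandsTunnell.Geom (countable_finPt measurable_act countable_PGLF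
  lintegral_unfold_fundDomain integral_unfold_fundDomain exists_isFundDomain)
open scoped ENNReal

variable {F : Type} [Field F] [NumberField F] {ι : Type} [Fintype ι] {n n' : Ideal (𝓞 F)}

omit [NumberField F] in
theorem volPt_apply (_hn : n ≠ ⊥) {s : Set (Pt F ι n)} (hs : MeasurableSet s) :
    volPt s = ∑' v : FinPt F n, (Measure.pi fun _ : ι => H3.volH3) (Prod.mk v ⁻¹' s) := by
  have : SigmaFinite H3.volH3 := H3.sigmaFinite_volH3
  rw [volPt, Measure.prod_apply hs, lintegral_count]

omit [NumberField F] in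
theorem volPt_univ_ne_zero (hn : n ≠ ⊥) : volPt (Set.univ : Set (Pt F ι n)) ≠ 0 := by
  have := isOpenPosMeasure_volH3
  have : SigmaFinite H3.volH3 := H3.sigmaFinite_volH3
  rw [volPt_apply hn MeasurableSet.univ, ne_eq, ENNReal.tsum_eq_zero]
  intro h
  have h1 := h ((1 : GL (Fin 2) (AF F)) : FinPt F n)
  rw [Set.preimage_univ, Measure.pi_univ, Finset.prod_eq_zero_iff] at h1
  obtain ⟨i, -, hi⟩ := h1
  have : Nonempty H3 := ⟨⟨0, 1, one_pos⟩⟩
  exact isOpen_univ.measure_ne_zero H3.volH3 Set.univ_nonempty hi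

theorem fundDomain_ne_zero {Φ : PlaceChoice F ι} (hn : n ≠ ⊥) {S : Set (Pt F ι n)}
    (hS : IsFundDomain Φ S) : volPt S ≠ 0 := by
  intro h
  refine volPt_univ_ne_zero (F := F) (ι := ι) hn ?_
  rw [← setLIntegral_one, Measure.restrict_univ,
      lintegral_unfold_fundDomain Φ hn hS measurable_const,
    setLIntegral_measure_zero _ _ h]

theorem fundDomain_real_ne_zero {Φ : PlaceChoice F ι} (hn : n ≠ ⊥) {S : Set (Pt F ι n)}
    (hS : IsFundDomain Φ S) : volPt.real S ≠ 0 :=
  (ENNReal.toReal_pos (fundDomain_ne_zero hn hS) hS.finite_volume.ne).ne'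

/-- Bounded invariant functions have the same integral over all fundamental domains. -/
theorem setIntegral_eq_of_invariant {Φ : PlaceChoice F ι} (hn : n ≠ ⊥) {S S' : Set (Pt F ι n)}
    (hS : IsFundDomain Φ S) (hS' : IsFundDomain Φ S') {f : Pt F ι n → ℂ} (hf : BddAuto Φ f) :
    ∫ x in S', f x ∂volPt = ∫ x in S, f x ∂volPt := by
  have := countable_PGLF (F := F)
  obtain ⟨C, hC⟩ := hf.bdd
  have hint : Integrable (S'.indicator f) volPt :=
    (integrable_indicator_iff hS'.measurable).mpr (IntegrableOn.of_bound hS'.finite_volume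
      hf.meas.aestronglyMeasurable C (Filter.Eventually.of_forall hC))
  rw [← integral_indicator hS'.measurable, integral_unfold_fundDomain Φ hn hS hint]
  refine integral_congr_ae ?_
  filter_upwards [ae_restrict_of_ae hS'.unique] with x hx
  obtain ⟨γ, hγ, huniq⟩ := hx
  rw [tsum_eq_single γ fun δ hδ => Set.indicator_of_notMem (fun h => hδ (huniq δ h)) _,
    Set.indicator_of_mem hγ, hf.inv]

open scoped Classical in
/-- A chosen fundamental domain. -/
def dom (Φ : PlaceChoice F ι) (n : Ideal (𝓞 F)) : Set (Pt F ι n) :=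
  if h : ∃ S, IsFundDomain Φ S then h.choose else ∅

theorem isFundDomain_dom (Φ : PlaceChoice F ι) (hn : n ≠ ⊥) : IsFundDomain Φ (dom Φ n) := by
  rw [dom, dif_pos (exists_isFundDomain Φ hn)]
  exact (exists_isFundDomain Φ hn).choose_spec

/-- The mean over the quotient. -/
def avg (Φ : PlaceChoice F ι) (f : Pt F ι n → ℂ) : ℂ :=
  (volPt.real (dom Φ n) : ℂ)⁻¹ * ∫ x in dom Φ n, f x ∂volPt

theorem avg_eq {Φ : PlaceChoice F ι} (hn : n ≠ ⊥) {S : Set (Pt F ι n)} (hS : IsFundDomain Φ S)
    {f : Pt F ι n → ℂ} (hf : BddAuto Φ f) :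
    avg Φ f = (volPt.real S : ℂ)⁻¹ * ∫ x in S, f x ∂volPt := by
  have hone : BddAuto Φ (fun _ : Pt F ι n => (1 : ℂ)) :=
    ⟨fun _ _ => rfl, measurable_const, 1, fun _ => by simp⟩
  have hd := isFundDomain_dom Φ hn
  have h1 := setIntegral_eq_of_invariant hn hS hd hone
  simp only [setIntegral_const, Complex.real_smul, mul_one] at h1
  rw [avg, h1, setIntegral_eq_of_invariant hn hS hd hf]

/-- A sum along a map with equipotent fibres. -/
theorem tsum_comp_eq {α β : Type} (f : α → β) (c : ℝ≥0∞)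
    (hc : ∀ b, ENat.toENNReal {a | f a = b}.encard = c) (G : β → ℝ≥0∞) :
    ∑' a, G (f a) = c * ∑' b, G b := by
  rw [← ENNReal.tsum_mul_left, ← ENNReal.tsum_fiberwise (fun a => G (f a)) f]
  refine tsum_congr fun b => ?_
  rw [← hc b, tsum_congr (fun a : f ⁻¹' {b} => congrArg G a.2), ENNReal.tsum_const]
  rfl

/-- Counting measure times a measure, pulled back along a map with equipotent fibres. -/
theorem prod_count_preimage {α β Y : Type} [MeasurableSpace α] [MeasurableSingletonClass α]
    [Countable α] [MeasurableSpace β] [MeasurableSingletonClass β] [Countable β] [MeasurableSpace Y]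
    (f : α → β) (c : ℝ≥0∞) (hc : ∀ b, ENat.toENNReal {a | f a = b}.encard = c) (μ : Measure Y)
    [SFinite μ] {s : Set (β × Y)} (hs : MeasurableSet s) :
    ((Measure.count : Measure α).prod μ) ((fun x : α × Y => (f x.1, x.2)) ⁻¹' s) =
      c * ((Measure.count : Measure β).prod μ) s := by
  have hf : Measurable fun x : α × Y => (f x.1, x.2) :=
    (measurable_of_countable f).comp measurable_fst |>.prodMk measurable_snd
  rw [Measure.prod_apply (hf hs), Measure.prod_apply hs, lintegral_count, lintegral_count]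
  exact tsum_comp_eq f c hc fun b => μ (Prod.mk b ⁻¹' s)

/-- Pulling back a set with one translate of almost every point along an equivariant map. -/
theorem ae_unique_preimage {G X X' : Type} [MeasurableSpace X] [MeasurableSpace X']
    {μ : Measure X} {μ' : Measure X'} (q : X' → X) (a : G → X → X) (a' : G → X' → X')
    (h : ∀ γ x, q (a' γ x) = a γ (q x)) (S : Set X)
    (hnull : ∀ Z : Set X, MeasurableSet Z → μ Z = 0 → μ' (q ⁻¹' Z) = 0)
    (hu : ∀ᵐ x ∂μ, ∃! γ, a γ x ∈ S) : ∀ᵐ x ∂μ', ∃! γ, a' γ x ∈ q ⁻¹' S := by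
  obtain ⟨Z, hZsub, hZ, hZ0⟩ := exists_measurable_superset_of_null (ae_iff.mp hu)
  refine ae_iff.mpr (measure_mono_null (fun x hx => hZsub ?_) (hnull Z hZ hZ0))
  simpa [Set.mem_preimage, h] using hx

/-! ### Translations between levels -/

section Shift

variable (g₀ : GL (Fin 2) (AF F)) (hg : ∀ k ∈ levelGroup n', g₀⁻¹ * k * g₀ ∈ levelGroup n)

/-- Right multiplication from level `n'` to level `n`. -/
def shiftFin : FinPt F n' → FinPt F n :=
  Quotient.lift (fun g => ((g * g₀ : GL (Fin 2) (AF F)) : FinPt F n)) fun a b h => by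
    refine QuotientGroup.eq.mpr ?_
    rw [show (a * g₀)⁻¹ * (b * g₀) = g₀⁻¹ * (a⁻¹ * b) * g₀ by group]
    exact hg _ (QuotientGroup.leftRel_apply.mp h)

omit [NumberField F] in
@[simp] theorem shiftFin_mk (g : GL (Fin 2) (AF F)) :
    shiftFin g₀ hg (g : FinPt F n') = ((g * g₀ : GL (Fin 2) (AF F)) : FinPt F n) := rfl

omit [NumberField F] in
theorem shiftFin_smul (h : GL (Fin 2) (AF F)) (v : FinPt F n') :
    shiftFin g₀ hg (h • v) = h • shiftFin g₀ hg v := by
  obtain ⟨g, rfl⟩ := QuotientGroup.mk_surjective v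
  simp [mul_assoc]

omit [NumberField F] in
theorem shiftFin_surjective : Function.Surjective (shiftFin g₀ hg) := fun v => by
  obtain ⟨g, rfl⟩ := QuotientGroup.mk_surjective v
  exact ⟨((g * g₀⁻¹ : GL (Fin 2) (AF F)) : FinPt F n'), by simp⟩

/-- The fibre size. -/
def fibreCard : ℝ≥0∞ :=
  ENat.toENNReal {u : FinPt F n' | shiftFin g₀ hg u = shiftFin g₀ hg ((1 : GL (Fin 2) (AF F)) :
    FinPt F n')}.encard

omit [NumberField F] in
theorem encard_fibre (v : FinPt F n) :
    ENat.toENNReal {u : FinPt F n' | shiftFin g₀ hg u = v}.encard = fibreCard g₀ hg := by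
  obtain ⟨v', rfl⟩ := shiftFin_surjective g₀ hg v
  obtain ⟨g, rfl⟩ := QuotientGroup.mk_surjective v'
  rw [fibreCard]
  congr 1
  rw [← (MulAction.injective g).injOn.encard_image (s := {u : FinPt F n' |
    shiftFin g₀ hg u = shiftFin g₀ hg ((1 : GL (Fin 2) (AF F)) : FinPt F n')})]
  congr 1
  ext u
  simp only [Set.mem_image, Set.mem_ofPred_eq]
  constructor
  · intro h
    refine ⟨g⁻¹ • u, ?_, smul_inv_smul g u⟩
    rw [shiftFin_smul, h]
    simp
  · rintro ⟨u', hu', rfl⟩
    rw [shiftFin_smul, hu']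
    simp

/-- The translation of points. -/
def shiftPt (x : Pt F ι n') : Pt F ι n := (shiftFin g₀ hg x.1, x.2)

omit [NumberField F] [Fintype ι] in
theorem shiftPt_act (Φ : PlaceChoice F ι) (γ : GL (Fin 2) F) (x : Pt F ι n') :
    shiftPt g₀ hg (act Φ γ x) = act Φ γ (shiftPt g₀ hg x) := by
  simp [shiftPt, act, shiftFin_smul]

omit [Fintype ι] in
theorem measurable_shiftPt (hn' : n' ≠ ⊥) :
    Measurable (shiftPt (ι := ι) g₀ hg) :=
  measurable_of_fst_sections hn' fun v => by
    show Measurable fun P : ι → H3 => ((shiftFin g₀ hg v, P) : Pt F ι n)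
    exact measurable_const.prodMk measurable_id

theorem volPt_preimage_shiftPt (hn : n ≠ ⊥) (hn' : n' ≠ ⊥) {s : Set (Pt F ι n)}
    (hs : MeasurableSet s) : volPt (shiftPt g₀ hg ⁻¹' s) = fibreCard g₀ hg * volPt s := by
  have := countable_finPt (F := F) hn
  have := countable_finPt (F := F) hn'
  have : SigmaFinite H3.volH3 := H3.sigmaFinite_volH3
  exact prod_count_preimage (shiftFin g₀ hg) (fibreCard g₀ hg) (encard_fibre g₀ hg)
    (Measure.pi fun _ : ι => H3.volH3) hs

variable (Φ : PlaceChoice F ι)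

theorem volPt_congr_null (hn : n ≠ ⊥) (hn' : n' ≠ ⊥) {Z : Set (Pt F ι n)} (hZ : MeasurableSet Z)
    (hZ0 : volPt Z = 0) : volPt (shiftPt g₀ hg ⁻¹' Z) = 0 := by
  rw [volPt_preimage_shiftPt g₀ hg hn hn' hZ, hZ0, mul_zero]

theorem unique_preimage (hn : n ≠ ⊥) (hn' : n' ≠ ⊥) {S : Set (Pt F ι n)}
    (hS : IsFundDomain Φ S) : ∀ᵐ x ∂(volPt : Measure (Pt F ι n')), ∃! γ : PGLF F,
      act Φ γ.out x ∈ shiftPt g₀ hg ⁻¹' S :=
  ae_unique_preimage (shiftPt g₀ hg) (fun γ : PGLF F => act Φ γ.out)
    (fun γ : PGLF F => act Φ γ.out) (fun γ x => shiftPt_act g₀ hg Φ γ.out x) S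
    (fun _ hZ hZ0 => volPt_congr_null g₀ hg hn hn' hZ hZ0) hS.unique

/-- A set with one translate of almost every point has finite volume. -/
theorem finite_of_unique (hn : n ≠ ⊥) {T : Set (Pt F ι n)} (hT : MeasurableSet T)
    (huniq : ∀ᵐ x ∂(volPt : Measure (Pt F ι n)), ∃! γ : PGLF F, act Φ γ.out x ∈ T) :
    volPt T < ⊤ := by
  have := countable_PGLF (F := F)
  have hS' := isFundDomain_dom Φ hn
  refine lt_of_le_of_lt (le_of_eq ?_) hS'.finite_volume
  rw [← lintegral_indicator_one hT,
    lintegral_unfold_fundDomain Φ hn hS' (measurable_one.indicator hT), ← setLIntegral_one]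
  refine lintegral_congr_ae ?_
  filter_upwards [ae_restrict_of_ae huniq] with x hx
  obtain ⟨γ, hγ, hu⟩ := hx
  rw [tsum_eq_single γ fun δ hδ => Set.indicator_of_notMem (fun h => hδ (hu δ h)) _,
    Set.indicator_of_mem hγ, Pi.one_apply]

theorem isFundDomain_preimage (hn : n ≠ ⊥) (hn' : n' ≠ ⊥) {S : Set (Pt F ι n)}
    (hS : IsFundDomain Φ S) : IsFundDomain Φ (shiftPt g₀ hg ⁻¹' S) :=
  have hm : MeasurableSet (shiftPt g₀ hg ⁻¹' S) := measurable_shiftPt g₀ hg hn' hS.measurable
  have hu := unique_preimage g₀ hg Φ hn hn' hS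
  ⟨hm, finite_of_unique Φ hn' hm hu, hu⟩

/-- The mean is invariant under translations between levels. -/
theorem avg_comp_shiftPt (hn : n ≠ ⊥) (hn' : n' ≠ ⊥) {f : Pt F ι n → ℂ} (hf : BddAuto Φ f) :
    avg Φ (fun x => f (shiftPt g₀ hg x)) = avg Φ f := by
  have hm := measurable_shiftPt (ι := ι) g₀ hg hn'
  have hf' : BddAuto Φ (fun x => f (shiftPt g₀ hg x)) :=
    ⟨fun γ x => by simp only [shiftPt_act, hf.inv], hf.meas.comp hm,
      hf.bdd.imp fun C hC x => hC _⟩
  have hS := isFundDomain_dom Φ hn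
  set S := dom Φ n
  have hS' := isFundDomain_preimage g₀ hg Φ hn hn' hS
  have hvol := volPt_preimage_shiftPt g₀ hg hn hn' hS.measurable
  have hmap : Measure.map (shiftPt g₀ hg) (volPt.restrict (shiftPt g₀ hg ⁻¹' S)) =
      fibreCard g₀ hg • volPt.restrict S := by
    refine Measure.ext fun s hs => ?_
    rw [Measure.map_apply hm hs, Measure.restrict_apply (hm hs), Measure.smul_apply,
      Measure.restrict_apply hs, ← Set.preimage_inter,
      volPt_preimage_shiftPt g₀ hg hn hn' (hs.inter hS.measurable), smul_eq_mul]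
  have hc : (fibreCard g₀ hg).toReal ≠ 0 := by
    have h := fundDomain_real_ne_zero hn' hS'
    rw [measureReal_def, hvol, ENNReal.toReal_mul] at h
    exact left_ne_zero_of_mul h
  rw [avg_eq hn' hS' hf', avg_eq hn hS hf,
    ← integral_map hm.aemeasurable hf.meas.aestronglyMeasurable, hmap, integral_smul_measure,
    measureReal_def, hvol, ENNReal.toReal_mul, measureReal_def, Complex.real_smul]
  push_cast
  rw [mul_inv, mul_mul_mul_comm, inv_mul_cancel₀ (Complex.ofReal_ne_zero.mpr hc), one_mul]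

end Shift

end FLTAgent.LanglandsTunnell.Isolation
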