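import Fermat.Agent.LanglandsTunnell.Isolation.Compress

/-!
# The twist on the vectors spherical at all fixed places

The local groups at the remaining places act irreducibly after compression; if these places are
permuted in cycles of length three, the twist has nonzero trace.
-/

set_option autoImplicit false

noncomputable section

namespace FLTAgent.LanglandsTunnell.Isolation

open FLTAgent.LanglandsTunnell NumberField Matrix MeasureTheory Function
open scoped InnerProductSpace ComplexConjugate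

variable {F : Type} [Field F] [NumberField F] {ι : Type} [Fintype ι] [DecidableEq ι]
  {Φ : PlaceChoice F ι}

namespace Ctx

variable (C : Ctx Φ)

/-- The twist on a stage. -/
theorem stageOp_one (Q : Set (Ideal (𝓞 F))) :
    C.stageOp Q 1 (one_mem _) = C.T.twist.restrict fun _ hu => C.twist_mem_stage hu :=
  LinearMap.ext fun u => Subtype.ext (by rw [stageOp_val, map_one]; rfl)

/-- The congruence subgroup of the level. -/
abbrev lvSub : Subgroup (GL (Fin 2) (AF F)) := principalSubgroup (lv F C.N)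

theorem lvSub_le : C.lvSub ≤ principalSubgroup ⊤ := principalSubgroup_mono le_top

/-- A place dividing the level, outside `R`. -/
structure FreePlace (v : Ideal (𝓞 F)) : Prop where
  prime : v.IsPrime
  ne_bot : v ≠ ⊥
  mem_N : (C.N : 𝓞 F) ∈ v
  notMem : v ∉ C.R

theorem fixed_of_stage {u : Smooth Φ} (hu : u ∈ C.stage ∅) {q : GL (Fin 2) (AF F)}
    (hq : q ∈ C.lvSub) : rho Φ q u = u :=
  rho_of_mem_level hu.sys.level (Subgroup.mem_sup_left hq)

variable {v : Ideal (𝓞 F)} (hv : C.FreePlace v)

include hv in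
theorem avg_mem {h : GL (Fin 2) (AF F)} (hh : h ∈ localGroup hv.prime hv.ne_bot) {u : Smooth Φ}
    (hu : u ∈ C.stage ∅) : orbitAvg C.lvSub C.lvSub_le (rho Φ h u) ∈ C.stage ∅ := by
  refine ⟨⟨isLevel_of_fixed C.hN fun q hq => orbitAvg_fixed C.lvSub_le _ hq,
    orbitAvg_induction C.lvSub_le Spherical.zero (fun _ _ => Spherical.add)
      (fun c _ => Spherical.smul c) _ fun q _ => ((hu.sys.spherical).translate _).translate q,
    fun x hx hx0 hxN => ?_⟩, fun x hx _ => ?_⟩
  · refine orbitAvg_induction C.lvSub_le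
      (p := fun z => EigenAt hx hx0 z ((Real.sqrt (Ideal.absNorm x) : ℂ) * C.a x))
      (EigenAt.zero hx hx0 _) (fun _ _ => EigenAt.add) (fun c _ => EigenAt.smul c) _
      fun q hq => ((hu.sys.sys x hx hx0 hxN).rho_away (away_of_local ?_ hh)).rho_top
        (C.lvSub_le hq)
    exact fun e => natCast_notMem hxN (e ▸ hv.mem_N)
  · refine orbitAvg_induction C.lvSub_le
      (p := fun z => EigenAt (C.prime x hx) (C.ne_bot x hx) z (C.s x))
      (EigenAt.zero _ _ _) (fun _ _ => EigenAt.add) (fun c _ => EigenAt.smul c) _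
      fun q hq => ((hu.eigen x hx (Set.notMem_empty x)).rho_away (away_of_local ?_ hh)).rho_top
        (C.lvSub_le hq)
    exact fun e => hv.notMem (e ▸ hx)

/-- The level subgroup with the free places. -/
abbrev freeData : FreeData F where
  H := C.lvSub
  le_top := C.lvSub_le
  Free := C.FreePlace
  prime h := h.prime
  ne_bot h := h.ne_bot
  part_mem _ _ hq := part_mem_principalSubgroup _ _ hq

theorem stable_stage : C.freeData.Stable (C.stage ∅) := fun _ hv _ hh _ hu => C.avg_mem hv hh hu

/-- **Irreducibility**: only zero is orthogonal to a nonzero subspace stable under all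
compressions. -/
theorem eq_zero_of_orthogonal {U : Submodule ℂ (Smooth Φ)} (hU : U ≤ C.stage ∅)
    (hs : C.freeData.Stable U) (hne : U ≠ ⊥) {f : Smooth Φ} (hf : f ∈ C.stage ∅)
    (ho : ∀ u ∈ U, ⟪u, f⟫_ℂ = 0) : f = 0 := by
  by_contra hf0
  obtain ⟨u, hu, hu0⟩ := Submodule.exists_mem_ne_zero_of_ne_bot hne
  obtain ⟨g₀, hg₀, hpair⟩ := C.mult f u hf.sys (hU hu).sys hf0 hu0
  refine hpair ?_
  suffices H : ∀ u ∈ U, ⟪f, rho Φ g₀ u⟫_ℂ = 0 from H u hu
  refine inPlaces_induction (finite_placesOf (F := F) C.hN)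
    (p := fun g => ∀ u ∈ U, ⟪f, rho Φ g u⟫_ℂ = 0) ?_ ?_ (supportedAt_inPlaces hg₀)
  · intro u hu
    rw [map_one]
    show ⟪f, u⟫_ℂ = 0
    rw [← inner_conj_symm, ho u hu, map_zero]
  · intro x hx hx0 hxS h hh g hg _ ih u hu
    by_cases hxR : x ∈ C.R
    · have := finite_residue (F := F) hx0
      let := Fintype.ofFinite (𝓞 F ⧸ x)
      have : Nonempty (𝓞 F ⧸ x) := ⟨0⟩
      obtain ⟨P⟩ := nonempty_localParams hx hx0
      obtain ⟨j, k, k', z, hk, hk', hz, e⟩ := P.cartan ((mem_localGroup hx hx0).mp hh)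
      rw [rho_mul, e, rho_mul _ z, rho_center hz,
        ((((hU hu).eigen x hxR (Set.notMem_empty x)).rho_away hg).isEigen P).inner_coset (central P)
          (hf.eigen x hxR (Set.notMem_empty x)).fixed hk hk' j, ih u hu, mul_zero]
    · have hfree : C.FreePlace x := ⟨hx, hx0, hxS.2, hxR⟩
      rw [(commute_away hh hg).eq, rho_mul, ← C.freeData.inner_compress hfree hh hg
        (fun _ hk => C.fixed_of_stage hf hk) (fun _ hk => C.fixed_of_stage (hU hu) hk)]
      exact ih _ (hs x hfree h hh u hu)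

/-- The twist maps a free place to a free place. -/
theorem FreePlace.ideal {v : Ideal (𝓞 F)} (hv : C.FreePlace v) : C.FreePlace (C.T.ideal v) := by
  refine ⟨C.T.ideal_isPrime hv.prime, C.T.ideal_ne_bot hv.ne_bot,
    (C.T.natCast_mem_ideal C.N).mpr hv.mem_N, fun h => hv.notMem ?_⟩
  have h1 : C.T.symm.ideal (C.T.ideal v) = v := by
    show Ideal.map _ (Ideal.map _ v) = v
    rw [Ideal.map_map]
    convert Ideal.map_id v
    exact RingHom.ext fun z => Subtype.ext (C.T.σ.symm_apply_apply _)
  rw [C.T.symm_ideal (C.fixed _ h)] at h1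
  rwa [h1] at h

/-- **The base trace.** -/
theorem trace_base_of_pos (pos : Ideal (𝓞 F) → Fin 3)
    (hpos : ∀ v, C.FreePlace v → pos (C.T.ideal v) = pos v + 1)
    (hσ : ∀ x, C.T.σ (C.T.σ (C.T.σ x)) = x) :
    LinearMap.trace ℂ _ (C.stageOp ∅ 1 (one_mem _)) ≠ 0 := by
  rw [stageOp_one]
  refine C.freeData.trace_twist_ne_zero C.stable_stage
    (fun u hu k hk => C.fixed_of_stage hu hk) C.T hσ
    (fun h => C.φ_ne ((Submodule.mem_bot ℂ).mp (h ▸ C.φ_mem_stage ∅))) _ (fun k hk => ?_)
    (fun k hk => ?_) (fun v hv => hv.ideal) pos hpos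
    fun U hU hs hne f hf => C.eq_zero_of_orthogonal hU hs hne hf
  · have h1 := C.T.gl_mem_principalSubgroup hk
    rwa [C.T.ideal_lv] at h1
  · have h1 := C.T.symm.gl_mem_principalSubgroup hk
    rwa [C.T.symm.ideal_lv] at h1

end Ctx

end FLTAgent.LanglandsTunnell.Isolation
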