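import Mathlib

/-!
# Spherical eigenvectors on a regular tree, abstractly

A unitary action of a group with a compact subgroup `K`, a translation `D` and the representatives
of one Hecke operator: matrix coefficients of an eigenvector satisfy the recursion of the tree.
-/

set_option autoImplicit false

noncomputable section

namespace FLTAgent.LanglandsTunnell.Isolation

open scoped InnerProductSpace ComplexConjugate

/-- The group data of one vertex of the tree and its neighbours. -/
structure TreeData (G : Type) [Group G] (R : Type) : Type where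
  K : Subgroup G
  D : G
  w0 : G
  n : R → G
  n_conj_mem : ∀ (j : ℕ) (r : R), D ^ j * n r * (D ^ j)⁻¹ ∈ K
  w0_mem : w0 ∈ K

namespace TreeData

variable {G : Type} [Group G] {R : Type} [Fintype R] [Nonempty R]
  {E : Type*} [NormedAddCommGroup E] [InnerProductSpace ℂ E]
  (π : G →* (E ≃ₗᵢ[ℂ] E)) (T : TreeData G R)

theorem apply_mul (g h : G) (x : E) : π (g * h) x = π g (π h x) := by
  rw [map_mul]
  rfl

theorem inner_apply (g : G) (x y : E) : ⟪π g x, π g y⟫_ℂ = ⟪x, y⟫_ℂ := (π g).inner_map_map x y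

theorem inner_of_fixed {g : G} {f : E} (hf : π g f = f) (x : E) :
    ⟪f, π g x⟫_ℂ = ⟪f, x⟫_ℂ := by
  conv_lhs => rw [← hf]
  exact inner_apply π g f x

theorem apply_inv_of_fixed {g : G} {f : E} (hf : π g f = f) : π g⁻¹ f = f := by
  conv_lhs => rw [← hf, ← apply_mul, inv_mul_cancel, map_one]
  rfl

/-- Fixed by `K`. -/
def KFixed (v : E) : Prop := ∀ k ∈ T.K, π k v = v

/-- An eigenvector of the Hecke operator. -/
structure IsEigen (v : E) (s : ℂ) : Prop where
  fixed : T.KFixed π v
  eigen : π (T.w0 * T.D * T.w0) v + ∑ r, π (T.n r * T.D) v = s • v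

/-- The scalar `D w0 D w0` acts trivially. -/
def Central : Prop := ∀ x : E, π (T.D * (T.w0 * T.D * T.w0)) x = x

/-- The representatives conjugated up. -/
def up (j : ℕ) (r : R) : G := T.D ^ j * T.n r * (T.D ^ j)⁻¹

omit [Fintype R] [Nonempty R] in
theorem n_mem (r : R) : T.n r ∈ T.K := by simpa using T.n_conj_mem 0 r

variable {π T}

omit [Nonempty R] in
/-- The eigen equation moved to a vertex at positive distance. -/
theorem IsEigen.step {v : E} {s : ℂ} (h : T.IsEigen π v s) (hc : T.Central π) (k : G) (j : ℕ) :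
    s • π (k * T.D ^ (j + 1)) v =
      π (k * T.D ^ j) v + ∑ r, π (k * T.up (j + 1) r * T.D ^ (j + 2)) v := by
  rw [← map_smul, ← h.eigen, map_add, map_sum]
  congr 1
  · rw [apply_mul π k, apply_mul π k, pow_succ, apply_mul π (T.D ^ j) T.D, ← apply_mul π T.D, hc]
  · refine Finset.sum_congr rfl fun r _ => ?_
    rw [← apply_mul]
    congr 2
    rw [up, pow_succ T.D (j + 1)]
    group

omit [Nonempty R] in
/-- The eigen equation at the centre. -/
theorem IsEigen.step_zero {v : E} {s : ℂ} (h : T.IsEigen π v s) (k : G) :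
    s • π k v = π (k * T.w0 * T.D) v + ∑ r, π (k * T.n r * T.D) v := by
  rw [← map_smul, ← h.eigen, map_add, map_sum]
  congr 1
  · rw [← apply_mul, show k * (T.w0 * T.D * T.w0) = k * T.w0 * T.D * T.w0 by group, apply_mul π,
      h.fixed _ T.w0_mem]
  · exact Finset.sum_congr rfl fun r _ => by rw [← apply_mul, ← mul_assoc]

/-- The spherical function. -/
def phi (q : ℕ) (s : ℂ) : ℕ → ℂ
  | 0 => 1
  | 1 => s / (q + 1)
  | j + 2 => (s * phi q s (j + 1) - phi q s j) / q

/-- Matrix coefficients against a spherical vector. -/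
theorem IsEigen.inner_pow {v : E} {s : ℂ} (h : T.IsEigen π v s) (hc : T.Central π) {f : E}
    (hf : T.KFixed π f) :
    ∀ j : ℕ, ⟪f, π (T.D ^ j) v⟫_ℂ = phi (Fintype.card R) s j * ⟪f, v⟫_ℂ
  | 0 => by simp [phi]
  | 1 => by
    have hq : (Fintype.card R : ℂ) + 1 ≠ 0 := Nat.cast_add_one_ne_zero _
    have h0 := congrArg (inner ℂ f) (h.step_zero 1)
    simp only [map_one, LinearIsometryEquiv.coe_one, id_eq, one_mul, inner_smul_right,
      inner_add_right, inner_sum] at h0
    have h1 : ∀ k ∈ T.K, ⟪f, π (k * T.D) v⟫_ℂ = ⟪f, π (T.D ^ 1) v⟫_ℂ := fun k hk => by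
      rw [apply_mul π, inner_of_fixed π (hf k hk), pow_one]
    rw [h1 _ T.w0_mem, Finset.sum_congr rfl fun r _ => h1 _ (T.n_mem r), Finset.sum_const,
      Finset.card_univ, nsmul_eq_mul] at h0
    rw [phi, div_mul_eq_mul_div, eq_div_iff hq, h0]
    ring
  | j + 2 => by
    have hq : (Fintype.card R : ℂ) ≠ 0 := Nat.cast_ne_zero.mpr Fintype.card_ne_zero
    have h0 := congrArg (inner ℂ f) (h.step hc 1 j)
    simp only [one_mul, inner_smul_right, inner_add_right, inner_sum] at h0
    have h1 : ∀ r, ⟪f, π (T.up (j + 1) r * T.D ^ (j + 2)) v⟫_ℂ = ⟪f, π (T.D ^ (j + 2)) v⟫_ℂ :=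
      fun r => by rw [apply_mul π, inner_of_fixed π (hf (T.up (j + 1) r) (T.n_conj_mem (j + 1) r))]
    rw [Finset.sum_congr rfl fun r _ => h1 r, Finset.sum_const, Finset.card_univ, nsmul_eq_mul,
      h.inner_pow hc hf (j + 1), h.inner_pow hc hf j] at h0
    rw [phi, div_mul_eq_mul_div, eq_div_iff hq]
    linear_combination -h0

/-- Matrix coefficients on a double coset. -/
theorem IsEigen.inner_coset {v : E} {s : ℂ} (h : T.IsEigen π v s) (hc : T.Central π) {f : E}
    (hf : T.KFixed π f) {k k' : G} (hk : k ∈ T.K) (hk' : k' ∈ T.K) (j : ℕ) :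
    ⟪f, π (k * T.D ^ j * k') v⟫_ℂ = phi (Fintype.card R) s j * ⟪f, v⟫_ℂ := by
  rw [apply_mul π, h.fixed k' hk', apply_mul π, inner_of_fixed π (hf k hk), h.inner_pow hc hf j]

/-- Two eigenvectors that are not orthogonal have conjugate eigenvalues. -/
theorem IsEigen.eq_conj {v f : E} {s t : ℂ} (h : T.IsEigen π v s) (h' : T.IsEigen π f t)
    (hc : T.Central π) (hne : ⟪f, v⟫_ℂ ≠ 0) : s = conj t := by
  have hq : (Fintype.card R : ℂ) + 1 ≠ 0 := Nat.cast_add_one_ne_zero _
  have e : ⟪f, π (T.D ^ 1) v⟫_ℂ = ⟪π (T.D ^ 1) f, v⟫_ℂ := by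
    have hz : π (T.D⁻¹) f = π (T.w0 * T.D * T.w0) f := by
      conv_lhs => rw [← hc f]
      rw [← apply_mul, inv_mul_cancel_left]
    have hD : π (T.D⁻¹) f = π T.w0 (π T.D f) := by
      rw [hz, apply_mul π, apply_mul π, h'.fixed _ T.w0_mem]
    rw [pow_one, ← inner_apply π T.D⁻¹ f (π T.D v), ← apply_mul π T.D⁻¹ T.D, inv_mul_cancel, hD,
      map_one]
    show ⟪π T.w0 (π T.D f), v⟫_ℂ = _
    conv_lhs => rw [← h.fixed _ T.w0_mem, inner_apply]
  have e' := congrArg conj (h'.inner_pow hc h.fixed 1)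
  rw [inner_conj_symm, map_mul, inner_conj_symm, ← e, h.inner_pow hc h'.fixed 1] at e'
  simp only [phi, map_div₀, map_add, map_natCast, map_one] at e'
  have e'' := mul_right_cancel₀ hne e'
  field_simp at e''
  exact e''

theorem IsEigen.eq_conj_self {v : E} {s : ℂ} (h : T.IsEigen π v s) (hc : T.Central π)
    (hne : v ≠ 0) : s = conj s :=
  h.eq_conj h hc (inner_self_ne_zero.mpr hne)

/-- `κ j` with `F(y) = κ j * F(parent y)` for a function vanishing on the sphere of radius `n`. -/
def kappa (q : ℕ) (s : ℂ) : ℕ → ℂ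
  | 0 => 0
  | i + 1 => (s - q * kappa q s i)⁻¹

/-- A vector orthogonal to a sphere of translates is orthogonal to all of them. -/
theorem IsEigen.inner_eq_zero_of_sphere {v : E} {s : ℂ} (h : T.IsEigen π v s) (hc : T.Central π)
    {m : ℕ} (hne : ∀ i < m, s - Fintype.card R * kappa (Fintype.card R) s i ≠ 0)
    (hroot : s - (Fintype.card R + 1) * kappa (Fintype.card R) s m ≠ 0) {f : E}
    (hsph : ∀ k ∈ T.K, ⟪f, π (k * T.D ^ (m + 1)) v⟫_ℂ = 0)
    (hup : ∀ k ∈ T.K, ∀ j, m + 1 ≤ j → ∀ r, π (k * T.up j r * k⁻¹) f = f) :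
    ∀ k ∈ T.K, ∀ j, ⟪f, π (k * T.D ^ j) v⟫_ℂ = 0 := by
  set q : ℕ := Fintype.card R with hqdef
  set F : G → ℕ → ℂ := fun k j => ⟪f, π (k * T.D ^ j) v⟫_ℂ with hF
  have hshift : ∀ k j r, F (k * T.up j r) j = F k j := fun k j r => by
    simp only [hF]
    rw [show k * T.up j r * T.D ^ j = k * T.D ^ j * T.n r by rw [up]; group, apply_mul π,
      h.fixed _ (T.n_mem r)]
  have hstep : ∀ k j, s * F k (j + 1) = F k j + ∑ r, F (k * T.up (j + 1) r) (j + 2) :=
    fun k j => by
      have h0 := congrArg (inner ℂ f) (h.step hc k j)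
      simpa only [inner_smul_right, inner_add_right, inner_sum] using h0
  -- every value is a multiple of the parent's
  have hdown : ∀ i, i ≤ m → ∀ k ∈ T.K, F k (m + 1 - i) = kappa q s i * F k (m - i) := by
    intro i
    induction i with
    | zero => exact fun _ k hk => by simpa [kappa, hF] using hsph k hk
    | succ i ih =>
      intro hi k hk
      obtain ⟨j, hj⟩ : ∃ j, m - i = j + 1 := ⟨m - i - 1, by omega⟩
      have e : ∀ r, F (k * T.up (j + 1) r) (j + 2) = kappa q s i * F k (j + 1) := fun r => by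
        have h1 := ih (by omega) (k * T.up (j + 1) r) (mul_mem hk (T.n_conj_mem _ r))
        rw [show m + 1 - i = j + 2 by omega, hj] at h1
        rw [h1, hshift]
      have h2 := hstep k j
      rw [Finset.sum_congr rfl fun r _ => e r, Finset.sum_const, Finset.card_univ, ← hqdef,
        nsmul_eq_mul] at h2
      rw [show m + 1 - (i + 1) = j + 1 by omega, show m - (i + 1) = j by omega, kappa,
        eq_inv_mul_iff_mul_eq₀ (hne i (by omega))]
      linear_combination h2
  have hzero : ∀ k ∈ T.K, F k 0 = 0 := by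
    intro k hk
    have h0 := congrArg (inner ℂ f) (h.step_zero k)
    simp only [inner_smul_right, inner_add_right, inner_sum] at h0
    have e : ∀ k' ∈ T.K, F k' 1 = kappa q s m * F k' 0 := fun k' hk' => by
      simpa using hdown m le_rfl k' hk'
    have e0 : ∀ k' ∈ T.K, F (k * k') 0 = F k 0 := fun k' hk' => by
      simp only [hF, pow_zero, mul_one]
      rw [apply_mul π, h.fixed _ hk']
    have e1 : ∀ k' ∈ T.K, ⟪f, π (k * k' * T.D) v⟫_ℂ = kappa q s m * F k 0 := fun k' hk' => by
      rw [← e0 k' hk', ← e _ (mul_mem hk hk')]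
      simp [hF]
    rw [e1 _ T.w0_mem, Finset.sum_congr rfl fun r _ => e1 _ (T.n_mem r), Finset.sum_const,
      Finset.card_univ, ← hqdef, nsmul_eq_mul] at h0
    have h1 : (s - (q + 1) * kappa q s m) * F k 0 = 0 := by
      have e2 : F k 0 = ⟪f, π k v⟫_ℂ := by simp [hF]
      linear_combination h0 + s * e2
    exact (mul_eq_zero.mp h1).resolve_left hroot
  have hin : ∀ j, j ≤ m + 1 → ∀ k ∈ T.K, F k j = 0 := by
    intro j
    induction j with
    | zero => exact fun _ => hzero
    | succ j ih =>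
      intro hj k hk
      have h1 := hdown (m - j) (by omega) k hk
      rw [show m + 1 - (m - j) = j + 1 by omega, show m - (m - j) = j by omega,
        ih (by omega) k hk, mul_zero] at h1
      exact h1
  have hout : ∀ i, ∀ k ∈ T.K, F k (m + i) = 0 ∧ F k (m + i + 1) = 0 := by
    intro i
    induction i with
    | zero => exact fun k hk => ⟨hin m (by omega) k hk, hin (m + 1) le_rfl k hk⟩
    | succ i ih =>
      intro k hk
      obtain ⟨h1, h2⟩ := ih k hk
      refine ⟨h2, ?_⟩
      have h3 := hstep k (m + i)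
      have e : ∀ r, F (k * T.up (m + i + 1) r) (m + i + 2) = F k (m + i + 2) := fun r => by
        simp only [hF]
        rw [show k * T.up (m + i + 1) r * T.D ^ (m + i + 2) =
          k * T.up (m + i + 1) r * k⁻¹ * (k * T.D ^ (m + i + 2)) by group, apply_mul π,
          inner_of_fixed π (hup k hk _ (by omega) r)]
      rw [h1, h2, mul_zero, zero_add, Finset.sum_congr rfl fun r _ => e r, Finset.sum_const,
        Finset.card_univ, ← hqdef, nsmul_eq_mul] at h3
      exact (mul_eq_zero.mp h3.symm).resolve_left (Nat.cast_ne_zero.mpr Fintype.card_ne_zero)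
  intro k hk j
  rcases le_or_gt j m with hj | hj
  · exact hin j (by omega) k hk
  · obtain ⟨i, rfl⟩ : ∃ i, j = m + i + 1 := ⟨j - m - 1, by omega⟩
    exact (hout i k hk).2

end TreeData

end FLTAgent.LanglandsTunnell.Isolation
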