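import Fermat.Agent.LanglandsTunnell.Isolation.Idempotents
import Fermat.Agent.LanglandsTunnell.Isolation.Radial

/-!
# The local group at one prime

The projection to the factor of a prime, the tree data, and the Cartan decomposition.
-/

set_option autoImplicit false

noncomputable section

namespace FLTAgent.LanglandsTunnell.Isolation

open scoped TensorProduct
open NumberField Matrix FLTAgent.LanglandsTunnell
open FLTAgent.LanglandsTunnell.Killing (intGL intGL_apply intGL_mem_principalSubgroup IsOne)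

/-! ### The part of a matrix in the factor of an idempotent -/

section Generic

variable {R : Type} [CommRing R] {e : R} (he : e * e = e)

/-- `e M + (1 - e)`. -/
def idemMat : Matrix (Fin 2) (Fin 2) R →* Matrix (Fin 2) (Fin 2) R where
  toFun M := e • M + (1 - e) • 1
  map_one' := by rw [← add_smul, add_sub_cancel, one_smul]
  map_mul' M M' := by
    have h1 : e * (1 - e) = 0 := by rw [mul_sub, mul_one, he, sub_self]
    have h2 : (1 - e) * (1 - e) = 1 - e := by linear_combination he
    simp only [add_mul, mul_add, Matrix.smul_mul, Matrix.mul_smul, smul_smul, one_mul,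
      mul_one, he, h1, h2, mul_comm (1 - e) e, zero_smul, add_zero, zero_add]

/-- The part of an invertible matrix. -/
def idemPart : GL (Fin 2) R →* GL (Fin 2) R := Units.map (idemMat he)

@[simp] theorem idemPart_val (g : GL (Fin 2) R) :
    (idemPart he g).1 = e • g.1 + (1 - e) • 1 := rfl

theorem idemPart_congr {g h : GL (Fin 2) R} (hgh : e • g.1 = e • h.1) :
    idemPart he g = idemPart he h := Units.ext (by simp [hgh])

theorem idemPart_idemPart (g : GL (Fin 2) R) : idemPart he (idemPart he g) = idemPart he g := by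
  refine idemPart_congr he ?_
  rw [idemPart_val, smul_add, smul_smul, smul_smul, he, mul_sub, mul_one, he, sub_self, zero_smul,
    add_zero]

theorem map_idemPart {S : Type} [CommRing S] (f : R →+* S) {e' : S} (he' : e' * e' = e')
    (h : f e = e') (g : GL (Fin 2) R) :
    Matrix.GeneralLinearGroup.map f (idemPart he g) =
      idemPart he' (Matrix.GeneralLinearGroup.map f g) := by
  apply Units.ext
  ext i j
  show f ((idemPart he g).1 i j) = (idemPart he' _).1 i j
  simp [idemPart_val, h, Matrix.one_apply, apply_ite f]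

theorem idemPart_eq_self_iff {g : GL (Fin 2) R} :
    idemPart he g = g ↔ ∀ i j, e * (g.1 - 1) i j = (g.1 - 1) i j := by
  constructor
  · intro h i j
    have h1 : (idemPart he g).1 i j = g.1 i j := by rw [h]
    simp only [idemPart_val, Matrix.add_apply, Matrix.smul_apply, smul_eq_mul] at h1
    rw [Matrix.sub_apply]
    linear_combination h1
  · intro h
    refine Units.ext (Matrix.ext fun i j => ?_)
    have h1 := h i j
    rw [Matrix.sub_apply] at h1
    simp only [idemPart_val, Matrix.add_apply, Matrix.smul_apply, smul_eq_mul]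
    linear_combination h1

theorem idemPart_mem_center {z : GL (Fin 2) R} (hz : z ∈ Subgroup.center (GL (Fin 2) R)) :
    idemPart he z ∈ Subgroup.center (GL (Fin 2) R) := by
  rw [GeneralLinearGroup.mem_center_iff_val_mem_range_scalar] at hz ⊢
  obtain ⟨a, ha⟩ := hz
  refine ⟨e * a + (1 - e), ?_⟩
  rw [idemPart_val, ← ha]
  ext i j
  by_cases h : i = j <;> simp [h]

theorem smul_mul_congr (he : e * e = e) {A B A' B' : Matrix (Fin 2) (Fin 2) R}
    (h : e • A = e • B) (h' : e • A' = e • B') : e • (A * A') = e • (B * B') := by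
  rw [← he, ← smul_smul, ← Matrix.mul_smul, ← Matrix.smul_mul, h, h', Matrix.smul_mul,
    Matrix.mul_smul, smul_smul]

theorem smul_sandwich {p : R} {A A' D k k' : Matrix (Fin 2) (Fin 2) R}
    (hA : A = p • A') (h : e • A' = e • (k * D * k')) : e • A = e • (k * (p • D) * k') := by
  rw [Matrix.mul_smul, Matrix.smul_mul, hA, smul_comm e, h, smul_comm]

end Generic

/-- A product of a power of `D` and a conjugated power, in a group. -/
theorem exists_diag_form {G : Type} [Group G] {w D Z : G} (hw : w * w = 1)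
    (hZ : Z ∈ Subgroup.center G) (hDZ : D * (w * D * w) = Z) (a b : ℕ) :
    ∃ (i : ℕ) (s t c : G), s ∈ ({1, w} : Set G) ∧ t ∈ ({1, w} : Set G) ∧
      c ∈ Subgroup.center G ∧ D ^ a * (w * D ^ b * w) = s * D ^ i * t * c := by
  have hZc : ∀ x, x * Z = Z * x := fun x => Subgroup.mem_center_iff.mp hZ x
  have hpow : ∀ e : ℕ, w * D ^ e * w = (w * D * w) ^ e := by
    intro e
    induction e with
    | zero => simp [hw]
    | succ e ih =>
      rw [pow_succ, pow_succ, ← ih,
        show w * D ^ e * w * (w * D * w) = w * D ^ e * (w * w) * D * w by group, hw]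
      group
  have hcomm : Commute D (w * D * w) := by
    have hwd : w * D * w = D⁻¹ * Z := by rw [← hDZ, inv_mul_cancel_left]
    rw [hwd, commute_iff_eq, mul_inv_cancel_left, mul_assoc, ← hZc D, inv_mul_cancel_left]
  have hm : ∀ e : ℕ, D ^ e * (w * D ^ e * w) = Z ^ e := fun e => by
    rw [hpow, ← hcomm.mul_pow, hDZ]
  rcases le_total b a with hab | hab
  · refine ⟨a - b, 1, 1, Z ^ b, Or.inl rfl, Or.inl rfl, pow_mem hZ b, ?_⟩
    rw [one_mul, mul_one, ← hm, ← mul_assoc (D ^ (a - b)), ← pow_add, Nat.sub_add_cancel hab]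
  · refine ⟨b - a, w, w, Z ^ a, Or.inr rfl, Or.inr rfl, pow_mem hZ a, ?_⟩
    rw [Subgroup.mem_center_iff.mp (pow_mem hZ a) (w * D ^ (b - a) * w), ← hm]
    conv_lhs => rw [← Nat.add_sub_cancel' hab, pow_add D a (b - a)]
    rw [show D ^ a * (w * D ^ a * w) * (w * D ^ (b - a) * w) =
      D ^ a * (w * D ^ a * (w * w) * D ^ (b - a) * w) by group, hw]
    group

variable {F : Type} [Field F] [NumberField F] {w : Ideal (𝓞 F)} (hw : w.IsPrime) (hw0 : w ≠ ⊥)

/-- The part at `w`. -/
abbrev part : GL (Fin 2) (AF F) →* GL (Fin 2) (AF F) :=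
  idemPart (placeAF_mul_self hw hw0)

theorem isLocalAt_iff_part {g : GL (Fin 2) (AF F)} :
    IsLocalAt hw hw0 g ↔ part hw hw0 g = g :=
  (idemPart_eq_self_iff _).symm

theorem isLocalAt_part (g : GL (Fin 2) (AF F)) : IsLocalAt hw hw0 (part hw hw0 g) :=
  (isLocalAt_iff_part hw hw0).mpr (idemPart_idemPart _ g)

/-- The local group. -/
def localGroup : Subgroup (GL (Fin 2) (AF F)) :=
  MonoidHom.eqLocus (part hw hw0) (MonoidHom.id _)

theorem mem_localGroup {g : GL (Fin 2) (AF F)} :
    g ∈ localGroup hw hw0 ↔ IsLocalAt hw hw0 g := (isLocalAt_iff_part hw hw0).symm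

/-- The local maximal compact subgroup. -/
def localK : Subgroup (GL (Fin 2) (AF F)) := localGroup hw hw0 ⊓ principalSubgroup ⊤

omit [NumberField F] in
theorem intGL_mem_top (κ : GL (Fin 2) (OH F)) : intGL κ ∈ principalSubgroup (⊤ : Ideal (𝓞 F)) :=
  intGL_mem_principalSubgroup fun i j => by
    show _ ∈ idealOH (⊤ : Ideal (𝓞 F))
    rw [idealOH, Ideal.map_top]
    trivial

theorem part_intGL (κ : GL (Fin 2) (OH F)) :
    part hw hw0 (intGL κ) = intGL (idemPart (isPlaceIdem hw hw0).mul_self κ) :=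
  (map_idemPart (isPlaceIdem hw hw0).mul_self ((intHom F).toRingHom) _ rfl κ).symm

theorem part_intGL_mem (κ : GL (Fin 2) (OH F)) : part hw hw0 (intGL κ) ∈ localK hw hw0 :=
  ⟨(mem_localGroup hw hw0).mpr (isLocalAt_part hw hw0 _), part_intGL hw hw0 κ ▸ intGL_mem_top _⟩

theorem lower_diag_upper {R : Type} [CommRing R] (x p q u b v : R) :
    !![1, 0; x, 1] * !![p, 0; 0, q] * !![u, b; 0, v] =
      !![p * u, p * b; x * p * u, x * p * b + q * v] := by
  rw [Matrix.mul_fin_two, Matrix.mul_fin_two]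
  refine finTwo_congr ?_ ?_ ?_ ?_ <;> ring

/-- The swap. -/
def swapGL {R : Type} [CommRing R] : GL (Fin 2) R where
  val := !![0, 1; 1, 0]
  inv := !![0, 1; 1, 0]
  val_inv := by ext i j; fin_cases i <;> fin_cases j <;> simp
  inv_val := by ext i j; fin_cases i <;> fin_cases j <;> simp

omit [NumberField F] in
theorem intGL_swap : intGL (swapGL : GL (Fin 2) (OH F)) = swapGL := by
  apply Units.ext
  ext i j
  rw [intGL_apply]
  fin_cases i <;> fin_cases j <;> simp [swapGL]

/-- Local uniformizer and residue section. -/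
structure LocalParams (hw : w.IsPrime) (hw0 : w ≠ ⊥) : Type where
  π : (AF F)ˣ
  uniformizer : IsUniformizerAt ⊤ w π
  π_local : placeAF hw hw0 * ((π : AF F) - 1) = (π : AF F) - 1
  c : 𝓞 F ⧸ w → AF F
  c_res : IsResidueSection ⊤ w c
  c_local : ∀ r, placeAF hw hw0 * c r = c r

theorem nonempty_localParams : Nonempty (LocalParams hw hw0) := by
  obtain ⟨π, c, hπ, hc, hl⟩ := exists_local_reps (n := ⊤) hw hw0 fun h =>
    hw.ne_top (top_le_iff.mp (Ideal.dvd_iff_le.mp h))
  refine ⟨⟨π, hπ, ?_, c, hc, fun r => ?_⟩⟩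
  · exact hl none 1 1
  · have h := hl (some r) 0 1
    rw [hRep_some_val, Matrix.sub_apply, Matrix.one_apply_ne Fin.zero_ne_one, sub_zero] at h
    exact h

variable {hw hw0} (P : LocalParams hw hw0)

theorem LocalParams.c_int (r : 𝓞 F ⧸ w) : P.c r ∈ intAF F := idealAF_le_intAF (P.c_res.mem r)

theorem LocalParams.isLocalAt_diag : IsLocalAt hw hw0 (diagUnit P.π) := by
  intro i j
  fin_cases i <;> fin_cases j <;> simp [diagUnit, P.π_local]

theorem isLocalAt_upper {x : AF F} (hx : placeAF hw hw0 * x = x) :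
    IsLocalAt hw hw0 (upperUnip x) := by
  intro i j
  fin_cases i <;> fin_cases j <;> simp [upperUnip, hx]

theorem upperUnip_mem_top {x : AF F} (hx : x ∈ intAF F) :
    (upperUnip x : GL (Fin 2) (AF F)) ∈ principalSubgroup ⊤ := by
  refine ⟨fun i j => ?_, fun i j => ?_⟩ <;> rw [idealAF_top] <;>
    fin_cases i <;> fin_cases j <;> simp [upperUnip, hx]

omit [NumberField F] in
theorem diag_pow_conj (π : (AF F)ˣ) (x : AF F) (j : ℕ) :
    diagUnit π ^ j * upperUnip x * (diagUnit π ^ j)⁻¹ = upperUnip ((π : AF F) ^ j * x) := by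
  induction j with
  | zero => simp
  | succ j ih =>
    rw [pow_succ', _root_.mul_inv_rev, show diagUnit π * diagUnit π ^ j * upperUnip x *
      ((diagUnit π ^ j)⁻¹ * (diagUnit π)⁻¹) =
      diagUnit π * (diagUnit π ^ j * upperUnip x * (diagUnit π ^ j)⁻¹) * (diagUnit π)⁻¹
        by group, ih, mul_inv_eq_iff_eq_mul]
    refine Units.ext ?_
    show !![(π : AF F), 0; 0, 1] * !![1, (π : AF F) ^ j * x; 0, 1] =
      !![1, (π : AF F) ^ (j + 1) * x; 0, 1] * !![(π : AF F), 0; 0, 1]
    rw [Matrix.mul_fin_two, Matrix.mul_fin_two]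
    refine finTwo_congr ?_ ?_ ?_ ?_ <;> ring

theorem LocalParams.pi_mem : (P.π : AF F) ∈ intAF F := by
  obtain ⟨π₀, h, -, -⟩ := isUniformizerAt_iff.mp P.uniformizer
  exact ⟨π₀, h⟩

/-- The tree data at `w`. -/
def LocalParams.tree : TreeData (GL (Fin 2) (AF F)) (𝓞 F ⧸ w) where
  K := localK hw hw0
  D := diagUnit P.π
  w0 := part hw hw0 swapGL
  n r := upperUnip (P.c r)
  n_conj_mem j r := by
    rw [diag_pow_conj]
    refine ⟨(mem_localGroup hw hw0).mpr (isLocalAt_upper ?_),
      upperUnip_mem_top (mul_mem (pow_mem P.pi_mem j) (P.c_int r))⟩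
    rw [mul_left_comm, P.c_local]
  w0_mem := intGL_swap (F := F) ▸ part_intGL_mem hw hw0 swapGL

theorem LocalParams.swap_conj :
    P.tree.w0 * P.tree.D * P.tree.w0 = hRep P.π P.c none := by
  show part hw hw0 swapGL * diagUnit P.π * part hw hw0 swapGL = _
  conv_lhs => rw [← (isLocalAt_iff_part hw hw0).mp P.isLocalAt_diag]
  rw [← map_mul, ← map_mul]
  have hloc : part hw hw0 (hRep P.π P.c none) = hRep P.π P.c none := by
    refine (isLocalAt_iff_part hw hw0).mp fun i j => ?_
    fin_cases i <;> fin_cases j <;> simp [hRep, P.π_local]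
  rw [← hloc]
  congr 1
  refine Units.ext ?_
  show !![(0 : AF F), 1; 1, 0] * !![(P.π : AF F), 0; 0, 1] * !![(0 : AF F), 1; 1, 0] =
    !![1, 0; 0, (P.π : AF F)]
  rw [Matrix.mul_fin_two, Matrix.mul_fin_two]
  refine finTwo_congr ?_ ?_ ?_ ?_ <;>
    simp only [mul_one, mul_zero, zero_mul, one_mul, add_zero, zero_add]

theorem LocalParams.n_mul (r : 𝓞 F ⧸ w) :
    P.tree.n r * P.tree.D = hRep P.π P.c (some r) := by
  show upperUnip (P.c r) * diagUnit P.π = _
  rfl

theorem LocalParams.central_elt :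
    P.tree.D * (P.tree.w0 * P.tree.D * P.tree.w0) =
      GeneralLinearGroup.scalar (Fin 2) P.π := by
  rw [P.swap_conj]
  show diagUnit P.π * hRep P.π P.c none = _
  refine Units.ext ?_
  show !![(P.π : AF F), 0; 0, 1] * !![1, 0; 0, (P.π : AF F)] = Matrix.scalar (Fin 2) (P.π : AF F)
  rw [Matrix.mul_fin_two, Matrix.scalar_apply,
    Matrix.eta_fin_two (Matrix.diagonal fun _ : Fin 2 => (P.π : AF F)),
    Matrix.diagonal_apply_eq, Matrix.diagonal_apply_eq, Matrix.diagonal_apply_ne _ Fin.zero_ne_one,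
    Matrix.diagonal_apply_ne _ (Fin.zero_ne_one.symm)]
  refine finTwo_congr ?_ ?_ ?_ ?_ <;>
    simp only [mul_one, mul_zero, zero_mul, one_mul, add_zero, zero_add]

/-! ### Cartan decomposition -/

/-- Scalars in the factor: a power of the uniformizer times a unit. -/
theorem exists_pow_mul_unit {π₀ : OH F} (hπ : idealOH w = Ideal.span {π₀}) :
    ∀ (j : ℕ) (x d : OH F), placeIdem hw hw0 * (x * d) = placeIdem hw hw0 * π₀ ^ j →
      intHom F π₀ * intHom F 1 ≠ 0 → IsUnit (intHom F π₀) →
      ∃ (i : ℕ) (u : (OH F)ˣ), placeIdem hw hw0 * x = placeIdem hw hw0 * (π₀ ^ i * u) := by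
  intro j
  induction j using Nat.strong_induction_on with
  | _ j ih =>
    intro x d h hne hunit
    set ε := placeIdem hw hw0 with hε
    by_cases hx : x ∈ idealOH w
    · obtain ⟨x', rfl⟩ := Ideal.mem_span_singleton.mp (hπ ▸ hx)
      rcases j with _ | j
      · exfalso
        refine placeIdem_not_mem hw hw0 ?_
        have h1 : ε = ε * (x' * d) * π₀ := by linear_combination -h
        rw [← hε, h1]
        exact Ideal.mul_mem_left _ _ (hπ ▸ Ideal.mem_span_singleton_self π₀)
      · have hcancel : ε * (x' * d) = ε * π₀ ^ j := intHom_injective <| hunit.mul_right_cancel <| by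
          rw [← map_mul, ← map_mul]
          congr 1
          linear_combination h
        obtain ⟨i, u, hu⟩ := ih j (Nat.lt_succ_self j) x' d hcancel hne hunit
        exact ⟨i + 1, u, by linear_combination π₀ * hu⟩
    · obtain ⟨z, hz⟩ := exists_inv_of_not_mem hw hw0 hx
      have hεε := (isPlaceIdem hw hw0).mul_self
      refine ⟨0, ⟨ε * x + (1 - ε), ε * z + (1 - ε), ?_, ?_⟩, ?_⟩
      · linear_combination (x * z + 1 - x - z) * hεε + hz
      · linear_combination (x * z + 1 - x - z) * hεε + hz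
      · show ε * x = ε * (π₀ ^ 0 * (ε * x + (1 - ε)))
        linear_combination (1 - x) * hεε

/-- An element outside the prime is a unit in the factor. -/
theorem exists_unit_eq {x : OH F} (hx : x ∉ idealOH w) :
    ∃ u : (OH F)ˣ, placeIdem hw hw0 * x = placeIdem hw hw0 * u := by
  obtain ⟨z, hz⟩ := exists_inv_of_not_mem hw hw0 hx
  have hεε := (isPlaceIdem hw hw0).mul_self
  set ε := placeIdem hw hw0
  refine ⟨⟨ε * x + (1 - ε), ε * z + (1 - ε), ?_, ?_⟩, ?_⟩
  · linear_combination (x * z + 1 - x - z) * hεε + hz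
  · linear_combination (x * z + 1 - x - z) * hεε + hz
  · show ε * x = ε * (ε * x + (1 - ε))
    linear_combination (1 - x) * hεε

variable (hw hw0) in
/-- Equal in the factor of `w`. -/
def EqAt (A B : Matrix (Fin 2) (Fin 2) (OH F)) : Prop :=
  placeIdem hw hw0 • A = placeIdem hw hw0 • B

theorem EqAt.mul {A B A' B' : Matrix (Fin 2) (Fin 2) (OH F)} (h : EqAt hw hw0 A B)
    (h' : EqAt hw hw0 A' B') : EqAt hw hw0 (A * A') (B * B') :=
  smul_mul_congr (isPlaceIdem hw hw0).mul_self h h'

/-- Cartan decomposition in the factor. -/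
theorem cartan_factor {π₀ : OH F} (hπ : idealOH w = Ideal.span {π₀})
    (hunit : IsUnit (intHom F π₀)) :
    ∀ (j : ℕ) (A : Matrix (Fin 2) (Fin 2) (OH F)) (d : OH F),
      placeIdem hw hw0 * (A.det * d) = placeIdem hw hw0 * π₀ ^ j →
      ∃ (k k' : GL (Fin 2) (OH F)) (a b : ℕ),
        EqAt hw hw0 A (k.1 * !![π₀ ^ a, 0; 0, π₀ ^ b] * k'.1) := by
  have hne : intHom F π₀ * intHom F 1 ≠ 0 := by rw [map_one, mul_one]; exact hunit.ne_zero
  have hεπ : ∀ {x y : OH F}, placeIdem hw hw0 * (π₀ * x) = placeIdem hw hw0 * (π₀ * y) →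
      placeIdem hw hw0 * x = placeIdem hw hw0 * y := fun {x y} h =>
    intHom_injective <| hunit.mul_right_cancel <| by
      rw [← map_mul, ← map_mul]
      congr 1
      linear_combination h
  intro j
  induction j using Nat.strong_induction_on with
  | _ j ih =>
    intro A d hA
    set ε := placeIdem hw hw0 with hε
    by_cases hall : ∀ i l, A i l ∈ idealOH w
    · have hdiv : ∀ i l, ∃ y, π₀ * y = A i l := fun i l =>
        (Ideal.mem_span_singleton.mp (hπ ▸ hall i l)).imp fun y hy => hy.symm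
      choose A' hA' using hdiv
      have hAA : A = π₀ • Matrix.of A' := by
        ext i l
        simp [hA' i l]
      rw [hAA, Matrix.det_smul, Fintype.card_fin] at hA
      rcases j with _ | _ | j
      · exfalso
        refine placeIdem_not_mem hw hw0 ?_
        have h1 : ε = ε * ((Matrix.of A').det * d * π₀) * π₀ := by linear_combination -hA
        rw [← hε, h1]
        exact Ideal.mul_mem_left _ _ (hπ ▸ Ideal.mem_span_singleton_self π₀)
      · exfalso
        refine placeIdem_not_mem hw hw0 ?_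
        have h1 : ε * (π₀ * ((Matrix.of A').det * d)) = ε * 1 :=
          hεπ (by linear_combination hA)
        have h2 : ε = ε * ((Matrix.of A').det * d) * π₀ := by linear_combination -h1
        rw [← hε, h2]
        exact Ideal.mul_mem_left _ _ (hπ ▸ Ideal.mem_span_singleton_self π₀)
      · have hA2 : ε * ((Matrix.of A').det * d) = ε * π₀ ^ j :=
          hεπ (hεπ (by linear_combination hA))
        obtain ⟨k, k', a, b, h⟩ := ih j (by omega) _ d hA2
        refine ⟨k, k', a + 1, b + 1, ?_⟩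
        show ε • A = ε • _
        have hd : (!![π₀ ^ (a + 1), 0; 0, π₀ ^ (b + 1)] : Matrix (Fin 2) (Fin 2) (OH F)) =
            π₀ • !![π₀ ^ a, 0; 0, π₀ ^ b] := by
          ext i l
          fin_cases i <;> fin_cases l
          · exact pow_succ' π₀ a
          · exact (mul_zero π₀).symm
          · exact (mul_zero π₀).symm
          · exact pow_succ' π₀ b
        rw [hd]
        exact smul_sandwich hAA h
    · simp only [not_forall] at hall
      obtain ⟨i₁, l₁, hu⟩ := hall
      -- move the unit entry to the corner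
      let s : GL (Fin 2) (OH F) := if i₁ = 0 then 1 else swapGL
      let t : GL (Fin 2) (OH F) := if l₁ = 0 then 1 else swapGL
      set B := s.1 * A * t.1 with hB
      have hB00 : B 0 0 = A i₁ l₁ := by
        fin_cases i₁ <;> fin_cases l₁ <;>
          simp [hB, s, t, swapGL, Matrix.mul_apply, Matrix.vecMul, dotProduct]
      obtain ⟨u, hu'⟩ := exists_unit_eq (hw := hw) (hw0 := hw0) hu
      have hsd : ∀ r : GL (Fin 2) (OH F), ∃ v, r.1.det * v = 1 := fun r =>
        ⟨(r⁻¹).1.det, by rw [← Matrix.det_mul, ← Units.val_mul, mul_inv_cancel, Units.val_one,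
          Matrix.det_one]⟩
      obtain ⟨s', hs'⟩ := hsd s
      obtain ⟨t', ht'⟩ := hsd t
      have hBd : ε * (B.det * (d * s' * t')) = ε * π₀ ^ j := by
        rw [hB, Matrix.det_mul, Matrix.det_mul]
        linear_combination hA + ε * A.det * d * t.1.det * t' * hs' + ε * A.det * d * ht'
      rw [← hB00] at hu'
      set c := B 1 1 - B 1 0 * B 0 1 * ↑u⁻¹ with hc
      let L : GL (Fin 2) (OH F) :=
        { val := !![1, 0; B 1 0 * ↑u⁻¹, 1]
          inv := !![1, 0; -(B 1 0 * ↑u⁻¹), 1]
          val_inv := by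
            rw [Matrix.mul_fin_two, Matrix.one_fin_two]
            refine finTwo_congr ?_ ?_ ?_ ?_ <;> ring
          inv_val := by
            rw [Matrix.mul_fin_two, Matrix.one_fin_two]
            refine finTwo_congr ?_ ?_ ?_ ?_ <;> ring }
      have hcd : ε * (c * ((u : OH F) * (d * s' * t'))) = ε * π₀ ^ j := by
        rw [← hBd, Matrix.det_fin_two, hc]
        have hui : (u : OH F) * ↑u⁻¹ = 1 := Units.mul_inv u
        linear_combination (-(B 1 1) * (d * s' * t')) * hu' -
          ε * B 1 0 * B 0 1 * (d * s' * t') * hui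
      obtain ⟨i, v, hv⟩ := exists_pow_mul_unit (hw := hw) (hw0 := hw0) hπ j c _ hcd hne hunit
      rw [← hε] at hv
      let U : GL (Fin 2) (OH F) :=
        { val := !![(u : OH F), B 0 1; 0, v]
          inv := !![(↑u⁻¹ : OH F), -(↑u⁻¹ * B 0 1 * ↑v⁻¹); 0, ↑v⁻¹]
          val_inv := by
            rw [Matrix.mul_fin_two, Matrix.one_fin_two]
            refine finTwo_congr ?_ ?_ ?_ ?_
            · linear_combination Units.mul_inv u
            · linear_combination (-(B 0 1 * (↑v⁻¹ : OH F))) * Units.mul_inv u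
            · ring
            · linear_combination Units.mul_inv v
          inv_val := by
            rw [Matrix.mul_fin_two, Matrix.one_fin_two]
            refine finTwo_congr ?_ ?_ ?_ ?_
            · linear_combination Units.inv_mul u
            · linear_combination (-((↑u⁻¹ : OH F) * B 0 1)) * Units.inv_mul v
            · ring
            · linear_combination Units.inv_mul v }
      refine ⟨s⁻¹ * L, U * t⁻¹, 0, i, ?_⟩
      have hBeq : EqAt hw hw0 B (L.1 * !![π₀ ^ 0, 0; 0, π₀ ^ i] * U.1) := by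
        show ε • B = ε • (!![1, 0; B 1 0 * ↑u⁻¹, 1] * !![π₀ ^ 0, 0; 0, π₀ ^ i] *
          !![(u : OH F), B 0 1; 0, (v : OH F)])
        rw [lower_diag_upper]
        ext a b
        fin_cases a <;> fin_cases b
        · show ε * B 0 0 = ε * (π₀ ^ 0 * u)
          linear_combination hu'
        · show ε * B 0 1 = ε * (π₀ ^ 0 * B 0 1)
          ring
        · show ε * B 1 0 = ε * (B 1 0 * ↑u⁻¹ * π₀ ^ 0 * u)
          linear_combination (-(ε * B 1 0)) * Units.inv_mul u
        · show ε * B 1 1 = ε * (B 1 0 * ↑u⁻¹ * π₀ ^ 0 * B 0 1 + π₀ ^ i * v)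
          rw [hc] at hv
          linear_combination hv
      have h3 := ((show EqAt hw hw0 (s⁻¹).1 (s⁻¹).1 from rfl).mul hBeq).mul
        (show EqAt hw hw0 (t⁻¹).1 (t⁻¹).1 from rfl)
      convert h3 using 1
      · rw [hB, ← mul_assoc, ← mul_assoc, ← Units.val_mul, inv_mul_cancel, Units.val_one, one_mul,
          mul_assoc, ← Units.val_mul, mul_inv_cancel, Units.val_one, mul_one]
      · simp only [Units.val_mul, mul_assoc]

variable (hw hw0) in
/-- A natural number in the factor is a power of the uniformizer up to a multiple. -/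
theorem exists_natCast_mul_eq_pow {π₀ : OH F} (hπ : idealOH w = Ideal.span {π₀}) :
    ∀ N : ℕ, N ≠ 0 → ∃ (j : ℕ) (z : OH F),
      placeIdem hw hw0 * ((N : OH F) * z) = placeIdem hw hw0 * π₀ ^ j := by
  obtain ⟨a, ha, h⟩ := exists_eq_pow_mul hw hw0
  set p := placePrime hw hw0
  set ε := placeIdem hw hw0 with hε
  intro N
  induction N using induction_on_primes with
  | zero => simp
  | one => exact fun _ => ⟨0, 1, by simp⟩
  | prime_mul q M hq ih =>
    intro h0
    obtain ⟨j, z, hz⟩ := ih (right_ne_zero_of_mul h0)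
    rcases eq_or_ne q p with rfl | hqp
    · obtain ⟨d, hd⟩ := h 1 (π₀ ^ a) (by
        rw [mul_one, idealOH, Ideal.map_pow]
        refine Ideal.pow_mem_pow ?_ _
        show π₀ ∈ idealOH w
        rw [hπ]
        exact Ideal.mem_span_singleton_self π₀)
      classical
      obtain ⟨y, hy⟩ := FLTAgent.LanglandsTunnell.Local.exists_oh_comp (F := F)
        (Function.update (fun _ => 0) p d)
      have hpy : ((p : ℕ) : OH F) * y = ε * π₀ ^ a :=
          FLTAgent.LanglandsTunnell.Local.oh_ext fun l => by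
        rcases eq_or_ne l p with rfl | hl
        · rw [hd, pow_one, map_mul, map_natCast, hy, Function.update_self]
        · rw [supp_mul hw hw0 hl, map_mul, hy, Function.update_of_ne hl, mul_zero]
      refine ⟨a + j, y * z, ?_⟩
      rw [Nat.cast_mul]
      linear_combination (ε * π₀ ^ a) * hz + ε * (M : OH F) * z * hpy +
        (π₀ ^ a * π₀ ^ j) * (isPlaceIdem hw hw0).mul_self
    · have hnot : (q : OH F) ∉ idealOH w := by
        intro hmem
        rw [← map_natCast (Algebra.TensorProduct.includeLeftRingHom : 𝓞 F →+* OH F)] at hmem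
        have hqw : (q : 𝓞 F) ∈ w := (tmul_one_mem_idealOH_iff hw0).mp hmem
        have hcop : Nat.Coprime q p := (Nat.coprime_primes hq p.2).mpr hqp
        obtain ⟨x, y, hxy⟩ : IsCoprime ((q : ℕ) : 𝓞 F) ((p : ℕ) : 𝓞 F) := by
          simpa using hcop.isCoprime.map (Int.castRingHom (𝓞 F))
        exact hw.ne_top ((Ideal.eq_top_iff_one w).mpr (hxy ▸ add_mem
          (Ideal.mul_mem_left _ _ hqw) (Ideal.mul_mem_left _ _ (isPlaceIdem hw hw0).mem)))
      obtain ⟨y, hy⟩ := exists_inv_of_not_mem hw hw0 hnot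
      refine ⟨j, y * z, ?_⟩
      rw [Nat.cast_mul]
      linear_combination (M : OH F) * z * hy + hz

/-- **Cartan decomposition** of the local group. -/
theorem LocalParams.cartan {g : GL (Fin 2) (AF F)} (hg : IsLocalAt hw hw0 g) :
    ∃ (j : ℕ) (k k' z : GL (Fin 2) (AF F)), k ∈ P.tree.K ∧ k' ∈ P.tree.K ∧
      z ∈ Subgroup.center (GL (Fin 2) (AF F)) ∧ g = k * P.tree.D ^ j * k' * z := by
  obtain ⟨π₀, hπ, -, hspan⟩ := isUniformizerAt_iff.mp P.uniformizer
  have hunit : IsUnit (intHom F π₀) := hπ ▸ P.π.isUnit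
  obtain ⟨M, hM0, hMg⟩ := exists_natCast_mul_mem_intAF_finset
    (Finset.univ : Finset ((Fin 2 × Fin 2) ⊕ Unit))
    (Sum.elim (fun q => g.1 q.1 q.2) fun _ =>
      ((Matrix.GeneralLinearGroup.det g)⁻¹ : (AF F)ˣ).1)
  have hent : ∀ i l, ∃ y, intHom F y = (M : AF F) * g.1 i l := fun i l =>
    hMg (Sum.inl (i, l)) (Finset.mem_univ _)
  choose A hA using hent
  obtain ⟨d₀, hd₀⟩ := hMg (Sum.inr ()) (Finset.mem_univ _)
  have hdet : (Matrix.of A).det * d₀ = ((M ^ 3 : ℕ) : OH F) := intHom_injective <| by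
    have h1 := Units.mul_inv (Matrix.GeneralLinearGroup.det g)
    have h2 : intHom F d₀ = (M : AF F) * ((Matrix.GeneralLinearGroup.det g)⁻¹ : (AF F)ˣ).1 := hd₀
    rw [← det_eq_GLdet g] at h1
    rw [map_mul, map_natCast, Matrix.det_fin_two, map_sub, map_mul, map_mul, Matrix.of_apply,
      Matrix.of_apply, Matrix.of_apply, Matrix.of_apply, hA, hA, hA, hA, h2]
    push_cast
    linear_combination (M : AF F) ^ 3 * h1
  obtain ⟨j, z₀, hj⟩ := exists_natCast_mul_eq_pow hw hw0 hspan _ (pow_ne_zero 3 hM0)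
  obtain ⟨k₀, k₀', a, b, hkk⟩ := cartan_factor hspan hunit j (Matrix.of A) (d₀ * z₀) (by
    rw [← mul_assoc (Matrix.of A).det d₀ z₀, hdet]
    exact hj)
  -- back to the adelic group
  let sM : (AF F)ˣ := (isUnit_natCast_AF (F := F) hM0).unit
  let Da : GL (Fin 2) (AF F) :=
    diagUnit P.π ^ a * (swapGL * diagUnit P.π ^ b * swapGL)
  have hDa : Da.1 = (!![π₀ ^ a, 0; 0, π₀ ^ b] : Matrix (Fin 2) (Fin 2) (OH F)).map (intHom F) := by
    have hpow : ∀ e : ℕ, (diagUnit P.π ^ e).1 = !![(P.π : AF F) ^ e, 0; 0, 1] := by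
      intro e
      induction e with
      | zero => rw [pow_zero, pow_zero, Units.val_one, Matrix.one_fin_two]
      | succ e ih =>
        rw [pow_succ, Units.val_mul, ih]
        show _ * !![(P.π : AF F), 0; 0, 1] = _
        rw [Matrix.mul_fin_two]
        refine finTwo_congr ?_ ?_ ?_ ?_ <;> ring
    simp only [Da, Units.val_mul, hpow]
    show _ * (!![(0 : AF F), 1; 1, 0] * _ * !![(0 : AF F), 1; 1, 0]) = _
    rw [Matrix.mul_fin_two, Matrix.mul_fin_two, Matrix.mul_fin_two]
    refine Eq.trans (finTwo_congr ?_ ?_ ?_ ?_)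
      (Matrix.eta_fin_two ((!![π₀ ^ a, 0; 0, π₀ ^ b]).map (intHom F))).symm
    · show _ = intHom F (π₀ ^ a); rw [map_pow, hπ]; ring
    · show _ = intHom F 0; rw [map_zero]; ring
    · show _ = intHom F 0; rw [map_zero]; ring
    · show _ = intHom F (π₀ ^ b); rw [map_pow, hπ]; ring
  have hkey : part hw hw0 (GeneralLinearGroup.scalar (Fin 2) sM * g) =
      part hw hw0 (intGL k₀ * Da * intGL k₀') := by
    refine idemPart_congr _ ?_
    have h1 : (GeneralLinearGroup.scalar (Fin 2) sM * g).1 =
        (Matrix.of A).map (intHom F) := by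
      ext i l
      rw [Matrix.map_apply, Matrix.of_apply, hA, Units.val_mul]
      show (Matrix.scalar (Fin 2) (sM : AF F) * g.1) i l = _
      rw [Matrix.scalar_apply, Matrix.diagonal_mul]
      rfl
    have h2 : (intGL k₀ * Da * intGL k₀').1 =
        (k₀.1 * !![π₀ ^ a, 0; 0, π₀ ^ b] * k₀'.1).map (intHom F) := by
      rw [Units.val_mul, Units.val_mul, hDa, Matrix.map_mul, Matrix.map_mul]
      rfl
    rw [h1, h2]
    ext i l
    have h3 := congrArg (fun X : Matrix (Fin 2) (Fin 2) (OH F) => intHom F (X i l)) hkk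
    simp only [Matrix.smul_apply, smul_eq_mul, map_mul] at h3
    simp only [Matrix.smul_apply, smul_eq_mul, Matrix.map_apply]
    exact h3
  have hgl := (isLocalAt_iff_part hw hw0).mp hg
  have hD := (isLocalAt_iff_part hw hw0).mp P.isLocalAt_diag
  have hz := idemPart_mem_center (placeAF_mul_self hw hw0)
    (z := GeneralLinearGroup.scalar (Fin 2) sM) (Subgroup.mem_center_iff.mpr fun x =>
      (FLTAgent.LanglandsTunnell.Killing.scalar_comm x sM).symm)
  set zM := part hw hw0 (GeneralLinearGroup.scalar (Fin 2) sM) with hzM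
  simp only [Da, map_mul, map_pow, hgl, hD, ← hzM] at hkey
  set w₁ := part hw hw0 swapGL with hw₁
  have hKk := part_intGL_mem hw hw0 k₀
  have hKk' := part_intGL_mem hw hw0 k₀'
  set k := part hw hw0 (intGL k₀)
  set k' := part hw hw0 (intGL k₀')
  set D := diagUnit P.π with hDdef
  have hcz : D * (w₁ * D * w₁) = GeneralLinearGroup.scalar (Fin 2) P.π := P.central_elt
  have hzπ : GeneralLinearGroup.scalar (Fin 2) P.π ∈ Subgroup.center (GL (Fin 2) (AF F)) :=
    Subgroup.mem_center_iff.mpr fun x =>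
      (FLTAgent.LanglandsTunnell.Killing.scalar_comm x P.π).symm
  set Z := GeneralLinearGroup.scalar (Fin 2) P.π with hZ
  have hw₁sq : w₁ * w₁ = 1 := by
    rw [hw₁, ← map_mul]
    convert map_one (part hw hw0) using 2
    refine Units.ext ?_
    show !![(0 : AF F), 1; 1, 0] * !![(0 : AF F), 1; 1, 0] = 1
    rw [Matrix.mul_fin_two, Matrix.one_fin_two]
    refine finTwo_congr ?_ ?_ ?_ ?_ <;> ring
  obtain ⟨i, s, t, c, hs, ht, hc, he⟩ := exists_diag_form hw₁sq hzπ hcz a b
  have hmem : ∀ x ∈ ({1, w₁} : Set (GL (Fin 2) (AF F))), x ∈ localK hw hw0 := by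
    rintro x (rfl | rfl)
    exacts [one_mem _, P.tree.w0_mem]
  refine ⟨i, k * s, t * k', zM⁻¹ * c, mul_mem hKk (hmem _ hs), mul_mem (hmem _ ht) hKk',
    mul_mem (inv_mem hz) hc, ?_⟩
  show g = k * s * D ^ i * (t * k') * (zM⁻¹ * c)
  have hgeq : g = zM⁻¹ * (k * (D ^ a * (w₁ * D ^ b * w₁)) * k') := eq_inv_mul_of_mul_eq hkey
  rw [hgeq, he]
  simp only [mul_assoc]
  rw [← Subgroup.mem_center_iff.mp hc k']
  exact (Subgroup.mem_center_iff.mp (inv_mem hz) _).symm.trans (by simp only [mul_assoc]; rw [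
    ← Subgroup.mem_center_iff.mp (inv_mem hz) c])

end FLTAgent.LanglandsTunnell.Isolation
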