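import Fermat.Agent.LanglandsTunnell.Isolation.Seed

/-!
# The systems over `M` close to the seed

Agreement up to finitely many primes and at infinity is agreement at every prime; the close members
of the basis are an orthogonal basis of the system of the seed.
-/

set_option autoImplicit false

noncomputable section

namespace FLTAgent.LanglandsTunnell.Isolation

open FLTAgent.LanglandsTunnell MeasureTheory NumberField Matrix
open scoped InnerProductSpace ComplexConjugate

section General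

variable {F : Type} [Field F] [NumberField F] {ι : Type} [Fintype ι] {n : Ideal (𝓞 F)}

theorem term1_hermitian (hn : n ≠ ⊥) {h : ι → ℝ → ℝ} (hh : GoodW h) {ws : List (Ideal (𝓞 F))}
    (hws : ∀ w ∈ ws, Killing.OKPrime n w) (hrev : ws.reverse = ws) (x y : Pt F ι n) :
    Comb.kernel n [term1 1 ws h] y x = conj (Comb.kernel n [term1 1 ws h] x y) := by
  have hC : Killing.Fine n ([term1 1 ws h] : Comb F ι) := fun T hT => by
    rw [List.mem_singleton] at hT
    subst hT
    exact ⟨hh.weightsOK, hws⟩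
  rw [← Killing.kernel_adjoint hn hC x y]
  simp [Killing.adjoint, term1, hrev, cw]
  rfl

variable {ok : Ideal (𝓞 F) → Prop} {f : Pt F ι n → ℂ} {b b' : Ideal (𝓞 F) → ℂ}
  {z z' : (ι → ℝ → ℝ) → ℂ}

omit [NumberField F] in
theorem Joint.z_unique (h : Joint ok f b z) (h' : Joint ok f b' z') (hne : ∃ x, f x ≠ 0)
    {g : ι → ℝ → ℝ} (hg : GoodW g) : z g = z' g := by
  obtain ⟨x, hx⟩ := hne
  exact mul_right_cancel₀ hx ((h.inf g hg x).symm.trans (h'.inf g hg x))

omit [NumberField F] in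
theorem Joint.b_unique (h : Joint ok f b z) (h' : Joint ok f b' z') (hne : ∃ x, f x ≠ 0)
    {w : Ideal (𝓞 F)} (hw : ok w) : b w = b' w := by
  obtain ⟨x, hx⟩ := hne
  exact mul_right_cancel₀ hx ((h.hecke w hw x).symm.trans (h'.hecke w hw x))

end General

variable {D : Datum} {P : ExtPlaces D} {S : Frame D P}

/-- A member of the basis over `M` as a smooth vector. -/
def Frame.vecM (sM : Systems S.dM (D.TestOK S.N')) (j : Fin sM.m) : Smooth P.placesM :=
  ofFun S.test.ne_zero
    (f := sM.f j) ⟨(S.dM.bddAuto_efun _).inv, (sM.joint j).cts, (S.dM.bddAuto_efun _).bdd⟩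

variable (sM : Systems S.dM (D.TestOK S.N'))

theorem Frame.restrict_vecM (j : Fin sM.m) :
    restrictLevel S.N' (Frame.vecM sM j).1 = sM.f j := restrictLevel_liftForm (sM.f j)

theorem Frame.level_vecM (j : Fin sM.m) : IsLevel P.placesM S.N' (Frame.vecM sM j).1 :=
  ⟨S.test.ne_zero, _, ⟨(S.dM.bddAuto_efun _).inv, (sM.joint j).cts, (S.dM.bddAuto_efun _).bdd⟩, rfl⟩

theorem Frame.vecM_ne (j : Fin sM.m) : Frame.vecM sM j ≠ 0 := fun h => by
  obtain ⟨x, hx⟩ := sM.f_ne_zero j
  refine hx ?_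
  rw [← Frame.restrict_vecM sM j, h]
  rfl

theorem Frame.testOK_of_not_dvd {w : Ideal (𝓞 D.M)} (hw : w.IsPrime) (hw0 : w ≠ ⊥)
    (hwN : ¬ w ∣ lv D.M S.N') : D.TestOK S.N' w := by
  have := hw
  exact ⟨degreeOne_or_three hw0 (unramified_of_testLevel D S.test hw0 hwN), hwN,
    not_dvd_under D hwN⟩

theorem Frame.eigen_vecM (j : Fin sM.m) {w : Ideal (𝓞 D.M)} (hw : w.IsPrime) (hw0 : w ≠ ⊥)
    (hwN : ¬ w ∣ lv D.M S.N') : EigenAt hw hw0 (Frame.vecM sM j) (sM.b j w) := by
  have hs : (Real.sqrt (Ideal.absNorm w) : ℂ) ≠ 0 := Complex.ofReal_ne_zero.mpr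
    (Real.sqrt_pos.mpr (Nat.cast_pos.mpr (Nat.pos_of_ne_zero fun e =>
      hw0 (Ideal.absNorm_eq_zero_iff.mp e)))).ne'
  rw [← mul_div_cancel₀ (sM.b j w) hs]
  refine (eigenAt_iff_heckeEigen (Frame.level_vecM sM j) hwN _).mpr fun v Q => ?_
  rw [Frame.restrict_vecM, mul_div_cancel₀ _ hs]
  exact (sM.joint j).hecke w (Frame.testOK_of_not_dvd hw hw0 hwN) (v, Q)

namespace SeedAt

variable (s : SeedAt S)

/-- The eigenvalue of the seed, not normalised. -/
def bSeed (w : Ideal (𝓞 D.M)) : ℂ := (Real.sqrt (Ideal.absNorm w) : ℂ) * s.a w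

/-- The parameter of the seed at infinity. -/
def zSeed (h : Fin 3 → ℝ → ℝ) : ℂ := ∏ i, (sphValue (h i) : ℂ)

theorem joint_of_sys {u : Smooth P.placesM} (hu : InSys P.placesM S.N' s.a u) :
    Joint (D.TestOK S.N') (restrictLevel S.N' u.1) s.bSeed zSeed where
  cts := hu.level.automorphic.continuous
  inf h hh x := Killing.infOp_spherical _ (hu.level.automorphic.continuous x.1)
    (fun i k hk hks Q => sphericalZero_of_sys hu i k hk hks x.1 Q) h (fun i => (hh i).1)
    (fun i => (hh i).2) x.2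
  hecke w hw x :=
    have h := S.okPrime_testOK hw
    heckeEigen_of_sys hu w h.1 h.2.1 h.2.2 x.1 x.2

theorem spherical_of_z {j : Fin sM.m} (hz : ∀ h, GoodW h → sM.z j h = zSeed h) :
    Spherical (Frame.vecM sM j) := by
  have h1 : SphericalZero (sM.f j) :=
    sphericalZero_of_prod (sM.joint j).cts fun h hh x => by
      rw [← show sM.z j h = ∏ i, (sphValue (h i) : ℂ) from hz h hh]
      exact (sM.joint j).inf h hh x
  exact fun i k hk hks g Q => h1 i k hk hks _ Q

/-- The full agreement. -/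
theorem inSys_of_eq {j : Fin sM.m} (hz : ∀ h, GoodW h → sM.z j h = zSeed h)
    (hb : ∀ w, D.TestOK S.N' w → sM.b j w = s.bSeed w) :
    InSys P.placesM S.N' s.a (Frame.vecM sM j) :=
  ⟨Frame.level_vecM sM j, spherical_of_z sM hz, fun w hw hw0 hwN => by
    have h := Frame.eigen_vecM sM j hw hw0 hwN
    rwa [hb w (Frame.testOK_of_not_dvd hw hw0 hwN)] at h⟩

theorem eq_of_inSys {j : Fin sM.m} (hj : InSys P.placesM S.N' s.a (Frame.vecM sM j)) :
    (∀ h, GoodW h → sM.z j h = zSeed h) ∧ ∀ w, D.TestOK S.N' w → sM.b j w = s.bSeed w := by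
  have h := s.joint_of_sys hj
  rw [Frame.restrict_vecM] at h
  exact ⟨fun g hg => (sM.joint j).z_unique h (sM.f_ne_zero j) hg,
    fun w hw => (sM.joint j).b_unique h (sM.f_ne_zero j) hw⟩

/-- **Closeness is equality.** -/
theorem inSys_of_close {u₀ : Ideal (𝓞 D.M)} (hu₀ : D.SplitOK S.N' u₀) {j : Fin sM.m}
    (hz : ∀ h, GoodW h → sM.z j h = zSeed h)
    (hfin : {w | (D.TestOK S.N' w ∧ D.under w ≠ D.under u₀) ∧ sM.b j w ≠ s.bSeed w}.Finite) :
    InSys P.placesM S.N' s.a (Frame.vecM sM j) := by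
  classical
  have hq : Ideal.absNorm (D.under u₀) ≠ 0 := fun e => by
    have := hu₀.1.1
    exact under_ne_bot D hu₀.1.2.1 (Ideal.absNorm_eq_zero_iff.mp e)
  have hX : {w | D.TestOK S.N' w ∧ sM.b j w ≠ s.bSeed w}.Finite := by
    refine (hfin.union (finite_placesOf (F := D.M) hq)).subset fun w hw => ?_
    by_cases he : D.under w = D.under u₀
    · exact Or.inr ⟨(S.okPrime_testOK hw.1).1, (natCast_mem_under D _).mp
        (he ▸ Ideal.absNorm_mem (D.under u₀))⟩
    · exact Or.inl ⟨⟨hw.1, he⟩, hw.2⟩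
  set M' := S.N' * ∏ w ∈ hX.toFinset, Ideal.absNorm w with hM'
  have hM0 : M' ≠ 0 := mul_ne_zero S.test.ne_zero (Finset.prod_ne_zero_iff.mpr fun w hw e =>
    (S.okPrime_testOK (hX.mem_toFinset.mp hw).1).2.1 (Ideal.absNorm_eq_zero_iff.mp e))
  have hdvd : S.N' ∣ M' := dvd_mul_right _ _
  have hnN : ∀ {w : Ideal (𝓞 D.M)}, ¬ w ∣ lv D.M M' → ¬ w ∣ lv D.M S.N' := fun h h' =>
    h (h'.trans (Ideal.dvd_iff_le.mpr (lv_le hdvd)))
  have hF : InSys P.placesM M' s.a (Frame.vecM sM j) := by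
    refine ⟨(Frame.level_vecM sM j).mono hM0 hdvd, spherical_of_z sM hz, fun w hw hw0 hwM => ?_⟩
    have h1 := Frame.eigen_vecM sM j hw hw0 (hnN hwM)
    suffices e : sM.b j w = s.bSeed w by rwa [e] at h1
    by_contra hne
    refine hwM (Ideal.dvd_iff_le.mpr ((Ideal.span_singleton_le_iff_mem _).mpr ?_))
    rw [hM', Nat.cast_mul]
    refine Ideal.mul_mem_left _ _ (Ideal.mem_of_dvd w
      (Nat.cast_dvd_cast (Finset.dvd_prod_of_mem _ (hX.mem_toFinset.mpr
        ⟨Frame.testOK_of_not_dvd hw hw0 (hnN hwM), hne⟩))) (Ideal.absNorm_mem w))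
  have hφ := s.sys.mono hM0 hdvd
  have hcF : IsCuspidal P.placesM (restrictLevel S.N' (Frame.vecM sM j).1) := by
    rw [Frame.restrict_vecM]
    exact S.dM.isCuspidal_efun _
  obtain ⟨g, -, hg⟩ := exists_inner_ne_zero LanglandsTunnell.Expansion.commonTranslateSpec hF hφ
    (Frame.vecM_ne sM j) s.ne (isCuspidal_mono (Frame.level_vecM sM j) hdvd hcF)
    (isCuspidal_mono s.sys.level hdvd (s.cuspidal_of_sys s.sys))
  refine s.inSys_of_eq sM hz fun w hw => ?_
  obtain ⟨hwp, hw0, hwN⟩ := S.okPrime_testOK hw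
  have := finite_residue (F := D.M) hw0
  let := Fintype.ofFinite (𝓞 D.M ⧸ w)
  have : Nonempty (𝓞 D.M ⧸ w) := ⟨0⟩
  obtain ⟨Q⟩ := nonempty_localParams hwp hw0
  have hFw := Frame.eigen_vecM sM j hwp hw0 hwN
  have hv := ((s.sys.sys w hwp hw0 hwN).rho_away (copart_mem_awayGroup hwp hw0 g)).isEigen Q
  obtain ⟨i, k, k', z, hk, hk', hz', e⟩ :=
    Q.cartan ((mem_localGroup hwp hw0).mp (part_mem_localGroup hwp hw0 g))
  rw [← part_mul_copart hwp hw0 g, rho_mul, e, rho_mul _ z, rho_center hz',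
    hv.inner_coset (central Q) hFw.fixed hk hk' i] at hg
  have hne := right_ne_zero_of_mul hg
  have hreal := (hFw.isEigen Q).eq_conj_self (central Q) (Frame.vecM_ne sM j)
  exact hreal.trans (hv.eq_conj (hFw.isEigen Q) (central Q) hne).symm

/-- Members outside the system are orthogonal to it. -/
theorem inner_toV_eq_zero {j : Fin sM.m} (hj : ¬ InSys P.placesM S.N' s.a (Frame.vecM sM j))
    (u : sysSub P.placesM S.test.ne_zero s.a) :
    ⟪(sM.e j : S.dM.V), s.toV u⟫_ℂ = 0 := by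
  obtain ⟨ws, hws, hrev, h, hh, hne⟩ : ∃ ws : List (Ideal (𝓞 D.M)),
      (∀ w ∈ ws, D.TestOK S.N' w) ∧ ws.reverse = ws ∧ ∃ h, GoodW h ∧
        (ws.map (sM.b j)).prod * sM.z j h ≠ (ws.map s.bSeed).prod * zSeed h := by
    by_contra hcon
    push Not at hcon
    have hz : ∀ h, GoodW h → sM.z j h = zSeed h := fun h hh => by
      simpa using hcon [] (by simp) rfl h hh
    refine hj (s.inSys_of_eq sM hz fun w hw => ?_)
    have h2 := hcon [w] (by simpa using hw) rfl _ (goodW_tent (ι := Fin 3))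
    simp only [List.map_cons, List.map_nil, List.prod_cons, List.prod_nil, mul_one,
      hz _ goodW_tent] at h2
    exact mul_right_cancel₀ (Finset.prod_ne_zero_iff.mpr fun _ _ =>
      Complex.ofReal_ne_zero.mpr Killing.sphValue_tent_pos.ne') h2
  set A : Comb D.M (Fin 3) := [term1 1 ws h]
  have hA : A.Good (D.TestOK S.N') := fun T hT => by
    rw [List.mem_singleton] at hT
    subst hT
    exact ⟨hh.weightsOK, hws⟩
  have hT := S.testedM hA
  have hok : ∀ w, D.TestOK S.N' w → Killing.OKPrime (lv D.M S.N') w := fun _ => S.okPrime_testOK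
  set θ := (ws.map (sM.b j)).prod * sM.z j h
  set θ₀ := (ws.map s.bSeed).prod * zSeed h
  have e1 : hT.opV (sM.e j) = θ • sM.e j := S.dM.efun_injective (by
    rw [hT.efun_opV, S.dM.efun_smul]
    exact funext fun x => (sM.joint j).op_term S.dM.hn hok hh hws x)
  have e2 : hT.opV (s.toV u) = θ₀ • s.toV u := S.dM.efun_injective (by
    rw [hT.efun_opV, S.dM.efun_smul, s.efun_toV]
    exact funext fun x => (s.joint_of_sys (mem_sysSub.mp u.2)).op_term S.dM.hn hok hh hws x)
  have hsym := hT.isSymmetric_opV fun x y =>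
    term1_hermitian S.dM.hn hh (fun w hw => hok w (hws w hw)) hrev x y
  have h1 : conj θ = θ := by
    have h := hsym (sM.e j) (sM.e j)
    rw [e1, inner_smul_left, inner_smul_right, inner_self_eq_norm_sq_to_K,
      sM.e.orthonormal.norm_eq_one, RCLike.ofReal_one, one_pow, mul_one, mul_one] at h
    exact h
  have h := hsym (sM.e j) (s.toV u)
  rw [e1, e2, inner_smul_left, inner_smul_right, h1, mul_eq_mul_right_iff] at h
  exact h.resolve_left hne

end SeedAt

end FLTAgent.LanglandsTunnell.Isolation
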