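import Fermat.Agent.LanglandsTunnell.Isolation.Spectral

/-!
# Kernels with uniformly square integrable rows

Such a kernel gives a bounded operator on square integrable functions; the eigenspaces of a
hermitian one for nonzero eigenvalues are finite dimensional.
-/

set_option autoImplicit false

noncomputable section

namespace FLTAgent.LanglandsTunnell.Isolation

open MeasureTheory Filter
open scoped InnerProductSpace ComplexConjugate ENNReal

variable {X : Type*} [MeasurableSpace X]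

/-- A measurable kernel with uniformly square integrable rows. -/
structure IsRowKernel (μ : Measure X) (k : X → X → ℂ) (B : ℝ) : Prop where
  meas : Measurable (Function.uncurry k)
  row : ∀ x, Integrable (fun y => ‖k x y‖ ^ 2) μ ∧ ∫ y, ‖k x y‖ ^ 2 ∂μ ≤ B

namespace IsRowKernel

variable {μ : Measure X} [IsFiniteMeasure μ] {k : X → X → ℂ} {B : ℝ} (h : IsRowKernel μ k B)

include h in
omit [IsFiniteMeasure μ] in
theorem measurable_apply (x : X) : Measurable (k x) :=
  h.meas.comp (measurable_const.prodMk measurable_id)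

include h in
omit [IsFiniteMeasure μ] in
theorem memLp_row (x : X) : MemLp (fun y => conj (k x y)) 2 μ := by
  refine (memLp_two_iff_integrable_sq_norm
    (Complex.continuous_conj.measurable.comp (h.measurable_apply x)).aestronglyMeasurable).mpr ?_
  simpa using (h.row x).1

/-- The conjugated row. -/
def rowVec (x : X) : Lp ℂ 2 μ := (h.memLp_row x).toLp _

omit [IsFiniteMeasure μ] in
theorem inner_rowVec (x : X) (f : Lp ℂ 2 μ) :
    ⟪h.rowVec x, f⟫_ℂ = ∫ y, k x y * f y ∂μ := by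
  rw [L2.inner_def]
  refine integral_congr_ae ?_
  filter_upwards [(h.memLp_row x).coeFn_toLp] with y hy
  show ⟪(h.rowVec x : X → ℂ) y, f y⟫_ℂ = _
  rw [rowVec, hy, RCLike.inner_apply, RCLike.conj_conj, mul_comm]

omit [IsFiniteMeasure μ] in
theorem norm_rowVec_sq (x : X) : ‖h.rowVec x‖ ^ 2 = ∫ y, ‖k x y‖ ^ 2 ∂μ := by
  rw [← inner_self_eq_norm_sq (𝕜 := ℂ), L2.inner_def,
    ← integral_re (L2.integrable_inner _ _)]
  refine integral_congr_ae ?_
  filter_upwards [(h.memLp_row x).coeFn_toLp] with y hy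
  rw [inner_self_eq_norm_sq, rowVec, hy, RCLike.norm_conj]

omit [IsFiniteMeasure μ] in
theorem norm_rowVec_le (x : X) : ‖h.rowVec x‖ ≤ Real.sqrt B :=
  Real.le_sqrt_of_sq_le ((h.norm_rowVec_sq x).le.trans (h.row x).2)

include h in
theorem stronglyMeasurable_apply (f : Lp ℂ 2 μ) :
    StronglyMeasurable fun x => ∫ y, k x y * f y ∂μ :=
  StronglyMeasurable.integral_prod_right' (f := fun p : X × X => k p.1 p.2 * f p.2)
    (h.meas.stronglyMeasurable.mul ((Lp.stronglyMeasurable f).comp_measurable measurable_snd))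

omit [IsFiniteMeasure μ] in
theorem norm_inner_rowVec_le (x : X) (f : Lp ℂ 2 μ) :
    ‖⟪h.rowVec x, f⟫_ℂ‖ ≤ Real.sqrt B * ‖f‖ :=
  (norm_inner_le_norm _ _).trans (mul_le_mul_of_nonneg_right (h.norm_rowVec_le x) (norm_nonneg f))

theorem stronglyMeasurable_inner (f : Lp ℂ 2 μ) :
    StronglyMeasurable fun x => ⟪h.rowVec x, f⟫_ℂ := by
  simpa only [h.inner_rowVec] using h.stronglyMeasurable_apply f

theorem memLp_apply (f : Lp ℂ 2 μ) : MemLp (fun x => ⟪h.rowVec x, f⟫_ℂ) 2 μ :=
  MemLp.of_bound (h.stronglyMeasurable_inner f).aestronglyMeasurable _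
    (Eventually.of_forall fun x => h.norm_inner_rowVec_le x f)

/-- The operator. -/
def toOpLin : Lp ℂ 2 μ →ₗ[ℂ] Lp ℂ 2 μ where
  toFun f := (h.memLp_apply f).toLp _
  map_add' f g := by
    rw [← MemLp.toLp_add]
    exact MemLp.toLp_congr _ _ (Eventually.of_forall fun x => by simp [inner_add_right])
  map_smul' c f := by
    rw [RingHom.id_apply, ← MemLp.toLp_const_smul c (h.memLp_apply f)]
    exact MemLp.toLp_congr _ _ (Eventually.of_forall fun x => by simp [inner_smul_right])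

theorem toOpLin_ae (f : Lp ℂ 2 μ) : h.toOpLin f =ᵐ[μ] fun x => ⟪h.rowVec x, f⟫_ℂ :=
  (h.memLp_apply f).coeFn_toLp

theorem norm_toOpLin_le (f : Lp ℂ 2 μ) :
    ‖h.toOpLin f‖ ≤ (μ Set.univ).toReal ^ (1 / 2 : ℝ) * Real.sqrt B * ‖f‖ := by
  have hb := Lp.norm_le_of_ae_bound (f := h.toOpLin f)
    (mul_nonneg (Real.sqrt_nonneg B) (norm_nonneg f))
    (by filter_upwards [h.toOpLin_ae f] with x hx; rw [hx]; exact h.norm_inner_rowVec_le x f)
  simpa [measureUnivNNReal, ENNReal.coe_toNNReal_eq_toReal, mul_assoc,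
    ENNReal.toReal_ofNat] using hb

/-- The bounded operator. -/
def toOp : Lp ℂ 2 μ →L[ℂ] Lp ℂ 2 μ :=
  h.toOpLin.mkContinuous _ h.norm_toOpLin_le

theorem toOp_ae (f : Lp ℂ 2 μ) : h.toOp f =ᵐ[μ] fun x => ⟪h.rowVec x, f⟫_ℂ := h.toOpLin_ae f

include h in
theorem integrable_triple (f g : Lp ℂ 2 μ) :
    Integrable (fun p : X × X => conj (g p.1) * (k p.1 p.2 * f p.2)) (μ.prod μ) := by
  have hg : Integrable (fun x => ‖g x‖) μ := ((Lp.memLp g).integrable one_le_two).norm
  have hf2 : Integrable (fun y => ‖f y‖ ^ 2) μ :=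
    (memLp_two_iff_integrable_sq_norm (Lp.aestronglyMeasurable f)).mp (Lp.memLp f)
  have hm : AEStronglyMeasurable (fun p : X × X => conj (g p.1) * (k p.1 p.2 * f p.2))
      (μ.prod μ) :=
    ((Complex.continuous_conj.comp_stronglyMeasurable
      ((Lp.stronglyMeasurable g).comp_measurable measurable_fst)).mul
      (h.meas.stronglyMeasurable.mul
        ((Lp.stronglyMeasurable f).comp_measurable measurable_snd))).aestronglyMeasurable
  have hsec : ∀ x, Integrable (fun y => conj (g x) * (k x y * f y)) μ := fun x => by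
    refine Integrable.const_mul (Integrable.mono' ((h.row x).1.add hf2)
      ((h.measurable_apply x).stronglyMeasurable.mul (Lp.stronglyMeasurable f)).aestronglyMeasurable
      (Eventually.of_forall fun y => ?_)) _
    rw [Pi.mul_apply, norm_mul]
    show ‖k x y‖ * ‖f y‖ ≤ ‖k x y‖ ^ 2 + ‖f y‖ ^ 2
    nlinarith [sq_nonneg (‖k x y‖ - ‖f y‖), norm_nonneg (k x y), norm_nonneg (f y)]
  refine (integrable_prod_iff hm).mpr ⟨Eventually.of_forall hsec, ?_⟩
  refine Integrable.mono' (hg.mul_const (B + ∫ y, ‖f y‖ ^ 2 ∂μ))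
    hm.norm.integral_prod_right' (Eventually.of_forall fun x => ?_)
  rw [Real.norm_of_nonneg (integral_nonneg fun y => norm_nonneg _)]
  simp only [norm_mul, RCLike.norm_conj]
  rw [integral_const_mul]
  refine mul_le_mul_of_nonneg_left ?_ (norm_nonneg _)
  refine le_trans (integral_mono_of_nonneg (Eventually.of_forall fun y =>
    mul_nonneg (norm_nonneg _) (norm_nonneg _)) ((h.row x).1.add hf2)
    (Eventually.of_forall fun y => ?_)) ?_
  · show ‖k x y‖ * ‖f y‖ ≤ ‖k x y‖ ^ 2 + ‖f y‖ ^ 2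
    nlinarith [sq_nonneg (‖k x y‖ - ‖f y‖), norm_nonneg (k x y), norm_nonneg (f y)]
  · show ∫ y, (‖k x y‖ ^ 2 + ‖f y‖ ^ 2) ∂μ ≤ _
    rw [integral_add (h.row x).1 hf2]
    linarith [(h.row x).2]

/-- A hermitian kernel gives a symmetric operator. -/
theorem symm_toOp (hk : ∀ x y, k y x = conj (k x y)) (f g : Lp ℂ 2 μ) :
    ⟪h.toOp f, g⟫_ℂ = ⟪f, h.toOp g⟫_ℂ := by
  have key : ∀ u v : Lp ℂ 2 μ, ⟪u, h.toOp v⟫_ℂ = ∫ x, ∫ y, conj (u x) * (k x y * v y) ∂μ ∂μ := by
    intro u v
    rw [L2.inner_def]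
    refine integral_congr_ae ?_
    filter_upwards [h.toOp_ae v] with x hx
    rw [hx, h.inner_rowVec, RCLike.inner_apply, integral_const_mul, mul_comm]
  rw [← inner_conj_symm, key g f, key f g, integral_integral_swap (h.integrable_triple f g),
    ← integral_conj]
  refine integral_congr_ae (Eventually.of_forall fun x => ?_)
  simp only
  rw [← integral_conj]
  refine integral_congr_ae (Eventually.of_forall fun y => ?_)
  simp only [map_mul, RCLike.conj_conj, hk x y]
  ring

omit [IsFiniteMeasure μ] in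
theorem norm_sq_eq_integral (f : Lp ℂ 2 μ) : ‖f‖ ^ 2 = ∫ x, ‖f x‖ ^ 2 ∂μ := by
  rw [← inner_self_eq_norm_sq (𝕜 := ℂ), L2.inner_def, ← integral_re (L2.integrable_inner _ _)]
  exact integral_congr_ae (Eventually.of_forall fun x => inner_self_eq_norm_sq _)

/-- Eigenspaces for nonzero eigenvalues are finite dimensional. -/
theorem finiteDimensional_eigenSub {l : ℝ} (hl : l ≠ 0) :
    FiniteDimensional ℂ (eigenSub h.toOp l) := by
  refine finiteDimensional_of_orthonormal_bound _ ⌊B * (μ Set.univ).toReal / l ^ 2⌋₊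
    fun n v hv hmem => Nat.le_floor ?_
  rw [le_div_iff₀ (by positivity)]
  have hsq : ∀ i, Integrable (fun x => ‖⟪h.rowVec x, v i⟫_ℂ‖ ^ 2) μ ∧
      ∫ x, ‖⟪h.rowVec x, v i⟫_ℂ‖ ^ 2 ∂μ = l ^ 2 := by
    intro i
    have hm := h.memLp_apply (v i)
    refine ⟨(memLp_two_iff_integrable_sq_norm hm.1).mp hm, ?_⟩
    have e : ‖h.toOp (v i)‖ ^ 2 = l ^ 2 := by
      rw [mem_eigenSub.mp (hmem i), norm_smul, hv.1 i, mul_one, Complex.norm_real,
        Real.norm_eq_abs, sq_abs]
    rw [← e, norm_sq_eq_integral]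
    refine integral_congr_ae ?_
    filter_upwards [h.toOp_ae (v i)] with x hx
    rw [hx]
  have hle : ∀ x, ∑ i, ‖⟪h.rowVec x, v i⟫_ℂ‖ ^ 2 ≤ B := fun x => by
    refine le_trans ?_ ((h.norm_rowVec_sq x).le.trans (h.row x).2)
    refine le_of_eq_of_le ?_ (hv.sum_inner_products_le (h.rowVec x) (s := Finset.univ))
    exact Finset.sum_congr rfl fun i _ => by rw [norm_inner_symm]
  calc (n : ℝ) * l ^ 2 = ∫ x, ∑ i, ‖⟪h.rowVec x, v i⟫_ℂ‖ ^ 2 ∂μ := by
        rw [integral_finsetSum _ fun i _ => (hsq i).1]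
        simp [(hsq _).2]
    _ ≤ ∫ _x, B ∂μ :=
        integral_mono (integrable_finsetSum _ fun i _ => (hsq i).1) (integrable_const B) hle
    _ = B * (μ Set.univ).toReal := by simp [Measure.real, mul_comm]

end IsRowKernel

end FLTAgent.LanglandsTunnell.Isolation
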