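import Fermat.Agent.LanglandsTunnell.Isolation.KernelCalc
import Fermat.Agent.LanglandsTunnell.Isolation.RowOp
import Fermat.Agent.LanglandsTunnell.Internal

/-!
# Combinations inserted between a test combination and the isolating polynomial

For `C = X * K * (1 - c (K - l)²) ^ m` the periodised kernel of `K * C * K` is a matrix
coefficient of a power of the isolator.
-/

set_option autoImplicit false

noncomputable section

namespace FLTAgent.LanglandsTunnell.Isolation

open FLTAgent.LanglandsTunnell MeasureTheory NumberField Matrix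
open FLTAgent.LanglandsTunnell.Trace (continuous_h3conv hasCompactSupport_h3conv h3conv_assoc)
open scoped InnerProductSpace ComplexConjugate

variable {F : Type} [Field F] {ι : Type}

/-- A scalar multiple of a combination. -/
def cscale (a : ℂ) (C : Comb F ι) : Comb F ι :=
  C.map fun T => ⟨a * T.coeff, T.word, T.inf⟩

variable {ok : Ideal (𝓞 F) → Prop} {A B C : Comb F ι}

theorem good_append (hA : A.Good ok) (hB : B.Good ok) : Comb.Good ok (A ++ B) :=
  fun T hT => (List.mem_append.mp hT).elim (hA T) (hB T)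

theorem good_cscale (a : ℂ) (hA : A.Good ok) : (cscale a A).Good ok := fun T hT => by
  obtain ⟨T', hT', rfl⟩ := List.mem_map.mp hT
  exact hA T' hT'

theorem good_mul (hA : A.Good ok) (hB : B.Good ok) : (A.mul B).Good ok := fun T hT => by
  simp only [Comb.mul, List.mem_flatMap, List.mem_map] at hT
  obtain ⟨T₁, h1, T₂, h2, rfl⟩ := hT
  refine ⟨fun i => ⟨continuous_h3conv ((hA T₁ h1).1 i).1 ((hA T₁ h1).1 i).2 ((hB T₂ h2).1 i).1,
    hasCompactSupport_h3conv ((hA T₁ h1).1 i).2 ((hB T₂ h2).1 i).2⟩, fun w hw => ?_⟩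
  rcases List.mem_append.mp hw with h | h
  exacts [(hA T₁ h1).2 w h, (hB T₂ h2).2 w h]

/-- Products associate as lists. -/
theorem mul_assoc_comb (hA : A.Good ok) (hB : B.Good ok) (hC : C.Good ok) :
    (A.mul B).mul C = A.mul (B.mul C) := by
  simp only [Comb.mul, List.flatMap_map, List.flatMap_assoc, List.map_flatMap]
  refine List.flatMap_congr fun T hT => ?_
  refine List.flatMap_congr fun T' hT' => ?_
  rw [List.map_map]
  refine List.map_congr_left fun T'' hT'' => ?_
  simp only [Function.comp_apply, mul_assoc, List.append_assoc, Term.mk.injEq, true_and]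
  funext i
  exact h3conv_assoc ((hA T hT).1 i).1 ((hA T hT).1 i).2 ((hB T' hT').1 i).1
    ((hC T'' hT'').1 i).1 ((hC T'' hT'').1 i).2

variable [Fintype ι]

theorem kernel_append (n : Ideal (𝓞 F)) (A B : Comb F ι) (x y : Pt F ι n) :
    Comb.kernel n (A ++ B) x y = A.kernel n x y + B.kernel n x y := by
  simp [Comb.kernel]

theorem kernel_cscale (n : Ideal (𝓞 F)) (a : ℂ) (A : Comb F ι) (x y : Pt F ι n) :
    (cscale a A).kernel n x y = a * A.kernel n x y := by
  simp only [Comb.kernel, cscale, List.map_map, ← List.sum_map_mul_left]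
  refine congrArg List.sum (List.map_congr_left fun T _ => ?_)
  simp only [Function.comp_apply, Term.kernel]
  ring

/-- One step of the isolating polynomial on the right. -/
def isoStep (K : Comb F ι) (l c : ℝ) (C : Comb F ι) : Comb F ι :=
  C ++ cscale (-(c : ℂ)) ((C.mul K).mul K) ++ cscale (2 * (c : ℂ) * l) (C.mul K) ++
    cscale (-(c : ℂ) * l * l) C

/-- `X * K * (1 - c (K - l)²) ^ m`. -/
def isoSeq (K X : Comb F ι) (l c : ℝ) : ℕ → Comb F ι
  | 0 => X.mul K
  | m + 1 => isoStep K l c (isoSeq K X l c m)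

omit [Fintype ι] in
theorem good_isoStep {K : Comb F ι} (hK : K.Good ok) (l c : ℝ) (hC : C.Good ok) :
    (isoStep K l c C).Good ok :=
  good_append (good_append (good_append hC (good_cscale _ (good_mul (good_mul hC hK) hK)))
    (good_cscale _ (good_mul hC hK))) (good_cscale _ hC)

omit [Fintype ι] in
theorem good_isoSeq {K X : Comb F ι} (hK : K.Good ok) (hX : X.Good ok) (l c : ℝ) (m : ℕ) :
    (isoSeq K X l c m).Good ok := by
  induction m with
  | zero => exact good_mul hX hK
  | succ m ih => exact good_isoStep hK l c ih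

section Kernels

variable [NumberField F] {n : Ideal (𝓞 F)} (Φ : PlaceChoice F ι) (hn : n ≠ ⊥)

include Φ hn in
theorem kernel_mul_congr {A A' B B' : Comb F ι} (hA : A.Good fun w => w ≠ ⊥)
    (hA' : A'.Good fun w => w ≠ ⊥) (hB : B.Good fun w => w ≠ ⊥) (hB' : B'.Good fun w => w ≠ ⊥)
    (eA : A.kernel n = A'.kernel n) (eB : B.kernel n = B'.kernel n) :
    (A.mul B).kernel n = (A'.mul B').kernel n := by
  funext x z
  rw [kernel_mul Φ hn hA hB, kernel_mul Φ hn hA' hB', eA, eB]

theorem periodise_conj {κ : Kernel F ι n} (h : IsNice Φ κ)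
    (hsymm : ∀ x y, κ y x = conj (κ x y)) (x y : Pt F ι n) :
    Kernel.periodise Φ κ y x = conj (Kernel.periodise Φ κ x y) := by
  have e : ∀ q : PGLF F, κ y (act Φ q.out x) = conj (κ x (act Φ (q⁻¹).out y)) := fun q => by
    let := LanglandsTunnell.Geom.pglAction (n := n) Φ
    have h1 : act Φ q.out (act Φ (q⁻¹).out y) = y := smul_inv_smul q y
    rw [← hsymm, ← h.invariant q.out (act Φ (q⁻¹).out y) x, h1]
  simp only [Kernel.periodise, e, Complex.conj_tsum]
  exact Equiv.tsum_eq (Equiv.inv (PGLF F)) fun q => conj (κ x (act Φ q.out y))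

/-- The measure on the fundamental domain. -/
abbrev domMeasure (S : Set (Pt F ι n)) : Measure (Pt F ι n) := volPt.restrict S

omit [NumberField F] in
theorem isFiniteMeasure_dom {S : Set (Pt F ι n)} (hS : IsFundDomain Φ S) :
    IsFiniteMeasure (domMeasure S) :=
  ⟨by rw [Measure.restrict_apply_univ]; exact hS.finite_volume⟩

variable {Φ}

theorem isRowKernel_of_killing {S : Set (Pt F ι n)} {κ : Kernel F ι n} (hκ : IsNice Φ κ)
    (h : IsKillingKernel Φ S κ) :
    ∃ B, IsRowKernel (domMeasure S) (Kernel.periodise Φ κ) B := by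
  obtain ⟨B, hB⟩ := h.square
  exact ⟨B, hκ.measurable_periodise, hB⟩

theorem isRowKernel_of_bounded {S : Set (Pt F ι n)} (hS : IsFundDomain Φ S) {κ : Kernel F ι n}
    (hκ : IsNice Φ κ) {b : ℝ} (hb : ∀ x y, ‖Kernel.periodise Φ κ x y‖ ≤ b) :
    IsRowKernel (domMeasure S) (Kernel.periodise Φ κ) ((domMeasure S).real Set.univ * b ^ 2) := by
  have := isFiniteMeasure_dom Φ hS
  refine ⟨hκ.measurable_periodise, fun x => ?_⟩
  have hle : ∀ y, ‖Kernel.periodise Φ κ x y‖ ^ 2 ≤ b ^ 2 := fun y =>
    pow_le_pow_left₀ (norm_nonneg _) (hb x y) 2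
  have hm : Measurable fun y => ‖Kernel.periodise Φ κ x y‖ ^ 2 :=
    (hκ.measurable_periodise.comp (measurable_const.prodMk measurable_id)).norm.pow_const 2
  have hint : Integrable (fun y => ‖Kernel.periodise Φ κ x y‖ ^ 2) (domMeasure S) :=
    Integrable.of_bound hm.aestronglyMeasurable (b ^ 2) (Filter.Eventually.of_forall fun y => by
      rw [Real.norm_of_nonneg (sq_nonneg _)]; exact hle y)
  refine ⟨hint, (integral_mono hint (integrable_const _) hle).trans (le_of_eq ?_)⟩
  simp

variable {S : Set (Pt F ι n)} (hS : IsFundDomain Φ S) {K X : Comb F ι}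
  (hK : K.Good fun w => w ≠ ⊥) (hX : X.Good fun w => w ≠ ⊥) {BK BA : ℝ}
  [IsFiniteMeasure (domMeasure S)]
  (hRK : IsRowKernel (domMeasure S) (Kernel.periodise Φ (K.kernel n)) BK)
  (hRA : IsRowKernel (domMeasure S) (Kernel.periodise Φ (((K.mul X).mul K).kernel n)) BA)
  (hsymm : ∀ x y, K.kernel n y x = conj (K.kernel n x y))

include hn hK hsymm in
omit [IsFiniteMeasure (domMeasure S)] in
theorem rowVec_ae (z : Pt F ι n) :
    hRK.rowVec z =ᵐ[domMeasure S] fun y => Kernel.periodise Φ (K.kernel n) y z := by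
  filter_upwards [(hRK.memLp_row z).coeFn_toLp] with y hy
  rw [IsRowKernel.rowVec, hy, periodise_conj Φ (isNice_of_good Φ hn hK) hsymm z y]

/-- `per (K C K)` is the matrix coefficient of `Q`. -/
def Rep (C : Comb F ι) (Q : Lp ℂ 2 (domMeasure S) →L[ℂ] Lp ℂ 2 (domMeasure S)) : Prop :=
  C.Good (fun w => w ≠ ⊥) ∧ ∀ x z, Kernel.periodise Φ (((K.mul C).mul K).kernel n) x z =
    ⟪hRA.rowVec x, Q (hRK.rowVec z)⟫_ℂ

include hn hS hK hX hsymm in
omit [IsFiniteMeasure (domMeasure S)] in
theorem rep_base : Rep hRK hRA (X.mul K) 1 := by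
  refine ⟨good_mul hX hK, fun x z => ?_⟩
  rw [← mul_assoc_comb hK hX hK, one_apply_eq_self, hRA.inner_rowVec]
  have e : ((((K.mul X).mul K).mul K).kernel n) =
      Kernel.comp (((K.mul X).mul K).kernel n) (K.kernel n) := by
    funext a b
    exact kernel_mul Φ hn (good_mul (good_mul hK hX) hK) hK a b
  rw [e, (isNice_of_good Φ hn (good_mul (good_mul hK hX) hK)).periodise_comp
    (isNice_of_good Φ hn hK) hn hS]
  refine integral_congr_ae ?_
  filter_upwards [rowVec_ae hn hK hRK hsymm z] with y hy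
  rw [hy]

include hn hS hK hsymm in
theorem rep_mul {C : Comb F ι} {Q : Lp ℂ 2 (domMeasure S) →L[ℂ] Lp ℂ 2 (domMeasure S)}
    (hQ : ∀ u v, ⟪Q u, v⟫_ℂ = ⟪u, Q v⟫_ℂ) (h : Rep hRK hRA C Q) :
    Rep hRK hRA (C.mul K) (Q * hRK.toOp) := by
  obtain ⟨hC, hrep⟩ := h
  refine ⟨good_mul hC hK, fun x z => ?_⟩
  rw [← mul_assoc_comb hK hC hK]
  have e : ((((K.mul C).mul K).mul K).kernel n) =
      Kernel.comp (((K.mul C).mul K).kernel n) (K.kernel n) := by
    funext a b
    exact kernel_mul Φ hn (good_mul (good_mul hK hC) hK) hK a b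
  rw [e, (isNice_of_good Φ hn (good_mul (good_mul hK hC) hK)).periodise_comp
    (isNice_of_good Φ hn hK) hn hS]
  set v := Q (hRA.rowVec x) with hv
  have hR := hRK.symm_toOp fun a b => periodise_conj Φ (isNice_of_good Φ hn hK) hsymm a b
  rw [show (Q * hRK.toOp) (hRK.rowVec z) = Q (hRK.toOp (hRK.rowVec z)) from rfl, ← hQ, ← hv,
    ← hR, L2.inner_def]
  refine integral_congr_ae ?_
  filter_upwards [rowVec_ae hn hK hRK hsymm z, hRK.toOp_ae v] with y hy hy'
  rw [hy, hy', hrep, ← hQ, ← hv, RCLike.inner_apply, inner_conj_symm, mul_comm]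

include hn in
omit [IsFiniteMeasure (domMeasure S)] in
theorem rep_linear {C D : Comb F ι}
    {Q Q' : Lp ℂ 2 (domMeasure S) →L[ℂ] Lp ℂ 2 (domMeasure S)} (a : ℂ)
    (h : Rep hRK hRA C Q) (h' : Rep hRK hRA D Q') (hK : K.Good fun w => w ≠ ⊥) :
    Rep hRK hRA (C ++ cscale a D) (Q + a • Q') := by
  refine ⟨good_append h.1 (good_cscale a h'.1), fun x z => ?_⟩
  have hk : ((K.mul (C ++ cscale a D)).mul K).kernel n =
      fun u v => ((K.mul C).mul K).kernel n u v + a * ((K.mul D).mul K).kernel n u v := by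
    have e1 : (K.mul (C ++ cscale a D)).kernel n =
        ((K.mul C) ++ cscale a (K.mul D)).kernel n := by
      funext u v
      rw [kernel_append, kernel_cscale, kernel_mul Φ hn hK (good_append h.1 (good_cscale a h'.1)),
        kernel_mul Φ hn hK h.1, kernel_mul Φ hn hK h'.1]
      simp only [Kernel.comp, kernel_append, kernel_cscale, mul_add]
      rw [integral_add, ← integral_const_mul]
      · refine congrArg₂ (· + ·) rfl (integral_congr_ae (Filter.Eventually.of_forall fun y => ?_))
        simp only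
        ring
      · exact (isNice_of_good Φ hn hK).integrable_mul u
          ((isNice_of_good Φ hn h.1).measurable_col v) fun w L _ => by
            obtain ⟨B, hB⟩ := (isNice_of_good Φ hn h.1).bounded
            exact ⟨B, fun P _ => hB _ _⟩
      · exact (isNice_of_good Φ hn hK).integrable_mul u
          (((isNice_of_good Φ hn h'.1).measurable_col v).const_mul a) fun w L _ => by
            obtain ⟨B, hB⟩ := (isNice_of_good Φ hn h'.1).bounded
            exact ⟨‖a‖ * B, fun P _ => by
              rw [norm_mul]; exact mul_le_mul_of_nonneg_left (hB _ _) (norm_nonneg a)⟩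
    rw [kernel_mul_congr Φ hn (good_mul hK (good_append h.1 (good_cscale a h'.1)))
      (good_append (good_mul hK h.1) (good_cscale a (good_mul hK h'.1))) hK hK e1 rfl]
    have hlist : Comb.mul ((K.mul C) ++ cscale a (K.mul D)) K =
        (K.mul C).mul K ++ cscale a ((K.mul D).mul K) := by
      simp only [Comb.mul, cscale, List.flatMap_append, List.flatMap_map, List.map_flatMap,
        List.map_map, List.flatMap_assoc]
      refine congrArg₂ (· ++ ·) rfl (List.flatMap_congr fun T _ => ?_)
      refine List.flatMap_congr fun T' _ => List.map_congr_left fun T'' _ => ?_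
      simp only [Function.comp_apply, mul_assoc]
    funext u v
    rw [hlist, kernel_append, kernel_cscale]
  simp only [Kernel.periodise, hk]
  rw [(summable_of_hasFiniteSupport
      ((isNice_of_good Φ hn (good_mul (good_mul hK h.1) hK)).finite_support
      x z)).tsum_add ((summable_of_hasFiniteSupport ((isNice_of_good Φ hn
      (good_mul (good_mul hK h'.1) hK)).finite_support x z)).mul_left a), tsum_mul_left]
  show Kernel.periodise Φ _ x z + a * Kernel.periodise Φ _ x z = _
  rw [h.2, h'.2, _root_.add_apply, _root_.smul_apply, inner_add_right,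
    inner_smul_right]

include hn hS hK hX hsymm in
/-- The isolating sequence gives powers of the isolator. -/
theorem rep_isoSeq (l c : ℝ) (m : ℕ) :
    Rep hRK hRA (isoSeq K X l c m) (isolator hRK.toOp l c ^ m) := by
  set R := hRK.toOp
  set p := isolator R l c with hp
  have hR : ∀ u v, ⟪R u, v⟫_ℂ = ⟪u, R v⟫_ℂ :=
    hRK.symm_toOp fun a b => periodise_conj Φ (isNice_of_good Φ hn hK) hsymm a b
  have hpR : Commute p R := by
    simp only [hp, isolator]
    refine Commute.sub_left (Commute.one_left _) (Commute.smul_left ?_ _)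
    have : Commute (R - (l : ℂ) • 1) R :=
      Commute.sub_left (Commute.refl R) (Commute.smul_left (Commute.one_left R) _)
    exact Commute.mul_left this this
  have hpsymm : ∀ u v, ⟪p u, v⟫_ℂ = ⟪u, p v⟫_ℂ := fun u v => by
    show ⟪u - (c : ℂ) • (R (R u - (l : ℂ) • u) - (l : ℂ) • (R u - (l : ℂ) • u)), v⟫_ℂ =
      ⟪u, v - (c : ℂ) • (R (R v - (l : ℂ) • v) - (l : ℂ) • (R v - (l : ℂ) • v))⟫_ℂ
    simp [-Complex.coe_smul, inner_sub_left, inner_sub_right, inner_smul_left, inner_smul_right, hR]
  have hpm : ∀ (k : ℕ) (u v), ⟪(p ^ k) u, v⟫_ℂ = ⟪u, (p ^ k) v⟫_ℂ := fun k => by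
    induction k with
    | zero => exact fun _ _ => rfl
    | succ k ih =>
      intro u v
      show ⟪(p ^ (k + 1)) u, v⟫_ℂ = _
      rw [pow_succ]
      show ⟪(p ^ k) (p u), v⟫_ℂ = ⟪u, (p ^ k * p) v⟫_ℂ
      rw [ih, hpsymm, ← pow_succ, pow_succ']
      rfl
  induction m with
  | zero => rw [pow_zero]; exact rep_base hn hS hK hX hRK hRA hsymm
  | succ m ih =>
    have hQR : ∀ u v, ⟪(p ^ m * R) u, v⟫_ℂ = ⟪u, (p ^ m * R) v⟫_ℂ := fun u v => by
      show ⟪(p ^ m) (R u), v⟫_ℂ = _
      rw [hpm, hR, (hpR.pow_left m).eq]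
      rfl
    have h1 := rep_mul hn hS hK hRK hRA hsymm (hpm m) ih
    have h2 := rep_mul hn hS hK hRK hRA hsymm hQR h1
    have h3 := rep_linear hn hRK hRA (-(c : ℂ) * l * l) (rep_linear hn hRK hRA (2 * (c : ℂ) * l)
      (rep_linear hn hRK hRA (-(c : ℂ)) ih h2 hK) h1 hK) ih hK
    have he : p ^ m + (-(c : ℂ)) • (p ^ m * R * R) + (2 * (c : ℂ) * l) • (p ^ m * R) +
        (-(c : ℂ) * l * l) • p ^ m = p ^ (m + 1) := by
      rw [pow_succ]
      conv_rhs => arg 2; rw [hp, isolator]
      simp only [mul_sub, sub_mul, mul_one, one_mul, mul_smul_comm, smul_mul_assoc, smul_sub,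
        smul_smul, mul_assoc]
      module
    rw [← he]
    exact h3

end Kernels

end FLTAgent.LanglandsTunnell.Isolation
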