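import Mathlib

/-!
# The trace of an automorphism permuting three commuting operator algebras

Three commuting star algebras of operators without common invariant subspace, cyclically permuted
by conjugation: the conjugating operator has nonzero trace.
-/

set_option autoImplicit false

noncomputable section

namespace FLTAgent.LanglandsTunnell.Isolation

open scoped InnerProductSpace

variable {U : Type*} [NormedAddCommGroup U] [InnerProductSpace ℂ U] [FiniteDimensional ℂ U]

/-- Three commuting algebras permuted by `Θ`. -/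
structure CyclicTriple (U : Type*) [NormedAddCommGroup U] [InnerProductSpace ℂ U]
    [FiniteDimensional ℂ U] : Type _ where
  Θ : Module.End ℂ U
  A : Fin 3 → Subalgebra ℂ (Module.End ℂ U)
  cube : Θ * Θ * Θ = 1
  comm : ∀ i j, i ≠ j → ∀ x ∈ A i, ∀ y ∈ A j, x * y = y * x
  conj_mem : ∀ i, ∀ x ∈ A (i + 1), ∃ y ∈ A i, x * Θ = Θ * y
  star_mem : ∀ x ∈ A 0, LinearMap.adjoint x ∈ A 0
  irreducible : ∀ W : Submodule ℂ U,
    (∀ i, ∀ x ∈ A i, ∀ u ∈ W, x u ∈ W) → W = ⊥ ∨ W = ⊤

namespace CyclicTriple

variable (C : CyclicTriple U)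

/-- The algebra generated by the three. -/
def all : Subalgebra ℂ (Module.End ℂ U) := Algebra.adjoin ℂ (⋃ i, (C.A i : Set (Module.End ℂ U)))

theorem mem_all {i : Fin 3} {x : Module.End ℂ U} (hx : x ∈ C.A i) : x ∈ C.all :=
  Algebra.subset_adjoin (Set.mem_iUnion.mpr ⟨i, hx⟩)

/-- Operators commuting with the three algebras are scalars. -/
theorem eq_smul_of_commute [Nontrivial U] {f : Module.End ℂ U}
    (hf : ∀ i, ∀ x ∈ C.A i, f * x = x * f) : ∃ a : ℂ, f = a • 1 := by
  obtain ⟨a, ha⟩ := Module.End.exists_eigenvalue f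
  refine ⟨a, LinearMap.ext fun u => ?_⟩
  have hW : ∀ i, ∀ x ∈ C.A i, ∀ u ∈ f.eigenspace a, x u ∈ f.eigenspace a := by
    intro i x hx u hu
    rw [Module.End.mem_eigenspace_iff] at hu ⊢
    rw [← Module.End.mul_apply, hf i x hx, Module.End.mul_apply, hu, map_smul]
  rcases C.irreducible _ hW with h | h
  · exact absurd h ha
  · simpa using Module.End.mem_eigenspace_iff.mp (h ▸ Submodule.mem_top : u ∈ f.eigenspace a)

/-- The algebra generated by the three is everything. -/
theorem all_eq_top [Nontrivial U] : C.all = ⊤ := by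
  refine eq_top_iff.mpr fun T _ => ?_
  have : IsScalarTower ℂ C.all U := ⟨fun a x u => rfl⟩
  have : IsSimpleModule C.all U := by
    refine (isSimpleModule_iff _ _).mpr ⟨fun m => ?_⟩
    have h := C.irreducible (m.restrictScalars ℂ) fun i x hx u hu =>
      m.smul_mem (⟨x, C.mem_all hx⟩ : C.all) hu
    rcases h with h | h
    · exact Or.inl (Submodule.restrictScalars_injective ℂ C.all U (by simpa using h))
    · exact Or.inr (Submodule.restrictScalars_injective ℂ C.all U (by simpa using h))
  let f : Module.End (Module.End C.all U) U :=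
    { toFun := fun u => T u
      map_add' := T.map_add
      map_smul' := fun g u => by
        obtain ⟨a, ha⟩ := C.eq_smul_of_commute (f := g.restrictScalars ℂ) fun i x hx =>
          LinearMap.ext fun v => g.map_smul (⟨x, C.mem_all hx⟩ : C.all) v
        have hg : ∀ v, g v = a • v := fun v => by simpa using LinearMap.congr_fun ha v
        show T (g u) = g (T u)
        rw [hg, hg, map_smul] }
  classical
  let b := Module.finBasis ℂ U
  obtain ⟨r, hr⟩ := jacobson_density f (Finset.univ.image b)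
  have : T = (r : Module.End ℂ U) := b.ext fun i => hr (b i) (by simp)
  rw [this]
  exact r.2

/-- Ordered products. -/
def products : Submodule ℂ (Module.End ℂ U) :=
  Submodule.span ℂ {t | ∃ x ∈ C.A 0, ∃ y ∈ C.A 1, ∃ z ∈ C.A 2, t = x * y * z}

theorem all_le_products : ∀ t ∈ C.all, t ∈ C.products := by
  have h01 : (0 : Fin 3) ≠ 1 := by decide
  have h02 : (0 : Fin 3) ≠ 2 := by decide
  have h12 : (1 : Fin 3) ≠ 2 := by decide
  have hmul : ∀ s ∈ C.products, ∀ t ∈ C.products, s * t ∈ C.products := by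
    intro s hs t ht
    induction hs using Submodule.span_induction with
    | zero => rw [zero_mul]; exact zero_mem _
    | add a b _ _ ha hb => rw [add_mul]; exact add_mem ha hb
    | smul c a _ ha => rw [smul_mul_assoc]; exact Submodule.smul_mem _ c ha
    | mem a ha =>
      induction ht using Submodule.span_induction with
      | zero => rw [mul_zero]; exact zero_mem _
      | add u v _ _ hu hv => rw [mul_add]; exact add_mem hu hv
      | smul c u _ hu => rw [mul_smul_comm]; exact Submodule.smul_mem _ c hu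
      | mem b hb =>
        obtain ⟨x, hx, y, hy, z, hz, rfl⟩ := ha
        obtain ⟨x', hx', y', hy', z', hz', rfl⟩ := hb
        refine Submodule.subset_span ⟨x * x', mul_mem hx hx', y * y', mul_mem hy hy', z * z',
          mul_mem hz hz', ?_⟩
        calc x * y * z * (x' * y' * z') = x * (y * (z * x')) * y' * z' := by
              simp only [mul_assoc]
          _ = x * (y * (x' * z)) * y' * z' := by rw [C.comm 0 2 h02 x' hx' z hz]
          _ = x * ((y * x') * z) * y' * z' := by simp only [mul_assoc]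
          _ = x * ((x' * y) * z) * y' * z' := by rw [C.comm 0 1 h01 x' hx' y hy]
          _ = x * x' * y * (z * y') * z' := by simp only [mul_assoc]
          _ = x * x' * y * (y' * z) * z' := by rw [C.comm 1 2 h12 y' hy' z hz]
          _ = x * x' * (y * y') * (z * z') := by simp only [mul_assoc]
  have hgen : ∀ {i : Fin 3} {x : Module.End ℂ U}, x ∈ C.A i → x ∈ C.products := by
    intro i x hx
    refine Submodule.subset_span ?_
    fin_cases i
    · exact ⟨x, hx, 1, one_mem _, 1, one_mem _, by simp⟩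
    · exact ⟨1, one_mem _, x, hx, 1, one_mem _, by simp⟩
    · exact ⟨1, one_mem _, 1, one_mem _, x, hx, by simp⟩
  intro t ht
  induction ht using Algebra.adjoin_induction with
  | mem x hx =>
    obtain ⟨i, hi⟩ := Set.mem_iUnion.mp hx
    exact hgen hi
  | algebraMap r => exact hgen ((C.A 0).algebraMap_mem r)
  | add x y _ _ hx hy => exact add_mem hx hy
  | mul x y _ _ hx hy => exact hmul x hx y hy

local notation "tr" => LinearMap.trace ℂ U

theorem trace_mul_rotate {i : Fin 3} {x w : Module.End ℂ U} (hx : x ∈ C.A (i + 1)) :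
    ∃ y ∈ C.A i, x * C.Θ = C.Θ * y ∧ tr (C.Θ * w * x) = tr (C.Θ * y * w) := by
  obtain ⟨y, hy, hxy⟩ := C.conj_mem i x hx
  refine ⟨y, hy, hxy, ?_⟩
  rw [LinearMap.trace_mul_comm, ← mul_assoc, hxy]

theorem trace_eq_of_product {x y z : Module.End ℂ U} (hx : x ∈ C.A 0) (hy : y ∈ C.A 1)
    (hz : z ∈ C.A 2) : ∃ v ∈ C.A 0, tr (C.Θ * (x * y * z)) = tr (C.Θ * v) := by
  obtain ⟨z', hz', -, e⟩ := C.trace_mul_rotate (i := 1) (w := x * y) hz
  obtain ⟨w', hw', -, e'⟩ := C.trace_mul_rotate (i := 0) (w := x) (mul_mem hz' hy)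
  refine ⟨w' * x, mul_mem hw' hx, ?_⟩
  rw [← mul_assoc C.Θ (x * y) z, e, mul_assoc C.Θ z' (x * y), ← mul_assoc z' x y,
    ← C.comm 0 1 (by decide) x hx z' hz', mul_assoc x z' y, ← mul_assoc C.Θ x (z' * y), e',
    mul_assoc]

theorem trace_tracial {x y : Module.End ℂ U} (hx : x ∈ C.A 0) (hy : y ∈ C.A 0) :
    tr (C.Θ * (x * y)) = tr (C.Θ * (y * x)) := by
  obtain ⟨y₂, hy₂, h2, e2⟩ := C.trace_mul_rotate (i := 2) (w := x) (x := y) (by simpa using hy)
  obtain ⟨y₁, hy₁, h1, e1⟩ := C.trace_mul_rotate (i := 1) (w := x) hy₂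
  obtain ⟨y₀, hy₀, h0, e0⟩ := C.trace_mul_rotate (i := 0) (w := x) hy₁
  have hc : y₀ = y := by
    have e : C.Θ * C.Θ * C.Θ * y₀ = y * (C.Θ * C.Θ * C.Θ) := by
      rw [mul_assoc (C.Θ * C.Θ) C.Θ y₀, ← h0, ← mul_assoc (C.Θ * C.Θ) y₁ C.Θ,
        mul_assoc C.Θ C.Θ y₁, ← h1, ← mul_assoc C.Θ y₂ C.Θ, ← h2]
      simp only [mul_assoc]
    rw [C.cube, one_mul, mul_one] at e
    exact e
  calc tr (C.Θ * (x * y)) = tr (C.Θ * y₂ * x) := by rw [← mul_assoc]; exact e2
    _ = tr (C.Θ * x * y₂) := by
        rw [mul_assoc, mul_assoc, C.comm 0 2 (by decide) x hx y₂ hy₂]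
    _ = tr (C.Θ * y₁ * x) := e1
    _ = tr (C.Θ * x * y₁) := by
        rw [mul_assoc, mul_assoc, C.comm 0 1 (by decide) x hx y₁ hy₁]
    _ = tr (C.Θ * y₀ * x) := e0
    _ = tr (C.Θ * (y * x)) := by rw [hc, mul_assoc]

theorem eq_zero_of_trace_adjoint_mul {x : Module.End ℂ U}
    (h : tr (LinearMap.adjoint x * x) = 0) : x = 0 := by
  let b := stdOrthonormalBasis ℂ U
  rw [LinearMap.trace_eq_sum_inner _ b] at h
  simp only [Module.End.mul_apply, LinearMap.adjoint_inner_right] at h
  have h' := congrArg Complex.re h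
  simp only [Complex.re_sum, Complex.zero_re] at h'
  refine b.toBasis.ext fun i => ?_
  have h2 := (Finset.sum_eq_zero_iff_of_nonneg fun j _ => by
    rw [← RCLike.re_to_complex]
    exact inner_self_nonneg).mp h' i (Finset.mem_univ i)
  rw [← RCLike.re_to_complex, inner_self_eq_norm_sq] at h2
  simpa using h2

/-- **The cyclic trace is nonzero.** -/
theorem trace_ne_zero [Nontrivial U] : tr C.Θ ≠ 0 := by
  intro h0
  let A₀ := C.A 0
  let F : A₀ →ₗ[ℂ] ℂ := (LinearMap.trace ℂ U).comp
    ((LinearMap.mulLeft ℂ C.Θ).comp A₀.toSubmodule.subtype)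
  have hF : ∀ x : A₀, F x = tr (C.Θ * (x : Module.End ℂ U)) := fun x => rfl
  -- the pairing on `A₀` is perfect, and `F` is represented by a central element
  let B : A₀ →ₗ[ℂ] Module.Dual ℂ A₀ :=
    { toFun := fun c => (LinearMap.trace ℂ U).comp
        ((LinearMap.mulLeft ℂ (c : Module.End ℂ U)).comp A₀.toSubmodule.subtype)
      map_add' := fun c c' => LinearMap.ext fun x => by simp [add_mul]
      map_smul' := fun a c => LinearMap.ext fun x => by simp }
  have hBi : Function.Injective B := by
    refine (injective_iff_map_eq_zero B).mpr fun c hc => Subtype.ext ?_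
    refine eq_zero_of_trace_adjoint_mul ?_
    rw [LinearMap.trace_mul_comm]
    exact LinearMap.congr_fun hc ⟨_, C.star_mem _ c.2⟩
  obtain ⟨c, hc⟩ := (LinearMap.injective_iff_surjective_of_finrank_eq_finrank
    (Subspace.dual_finrank_eq (K := ℂ) (V := A₀)).symm).mp hBi F
  have hcx : ∀ x : Module.End ℂ U, x ∈ A₀ →
      tr ((c : Module.End ℂ U) * x) = tr (C.Θ * x) :=
    fun x hx => LinearMap.congr_fun hc ⟨x, hx⟩
  have hcentral : ∀ y ∈ A₀, (c : Module.End ℂ U) * y = y * c := by
    intro y hy
    have hd : (c : Module.End ℂ U) * y - y * c ∈ A₀ := sub_mem (mul_mem c.2 hy) (mul_mem hy c.2)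
    have hz : B ⟨_, hd⟩ = 0 := LinearMap.ext fun x => by
      show tr (((c : Module.End ℂ U) * y - y * c) * x) = 0
      have e1 : tr ((c : Module.End ℂ U) * y * x) = tr (C.Θ * (y * x)) := by
        rw [mul_assoc]
        exact hcx _ (mul_mem hy x.2)
      have e2 : tr (y * (c : Module.End ℂ U) * x) = tr (C.Θ * (x * y)) := by
        rw [mul_assoc, LinearMap.trace_mul_comm, mul_assoc]
        exact hcx _ (mul_mem x.2 hy)
      rw [sub_mul, map_sub, e1, e2, C.trace_tracial x.2 hy, sub_self]
    exact sub_eq_zero.mp (congrArg Subtype.val (hBi (hz.trans (map_zero B).symm)))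
  obtain ⟨a, ha⟩ := C.eq_smul_of_commute (f := (c : Module.End ℂ U)) fun i x hx => by
    rcases eq_or_ne i 0 with rfl | hi
    · exact hcentral x hx
    · exact C.comm 0 i hi.symm _ c.2 x hx
  have h1 := hcx 1 (one_mem _)
  rw [mul_one, mul_one, ha, map_smul, LinearMap.trace_one, smul_eq_mul, h0, mul_eq_zero] at h1
  have ha0 : a = 0 := h1.resolve_right (by exact_mod_cast Module.finrank_pos.ne')
  have hvan : ∀ v ∈ A₀, tr (C.Θ * v) = 0 := fun v hv => by
    rw [← hcx v hv, ha, ha0, zero_smul, zero_mul, map_zero]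
  have hall : ∀ t : Module.End ℂ U, tr (C.Θ * t) = 0 := by
    intro t
    have ht : t ∈ C.products := C.all_le_products t (by rw [C.all_eq_top]; exact Algebra.mem_top)
    induction ht using Submodule.span_induction with
    | zero => simp
    | add a b _ _ ha hb => rw [mul_add, map_add, ha, hb, add_zero]
    | smul k a _ ha => rw [mul_smul_comm, map_smul, ha, smul_zero]
    | mem p hp =>
      obtain ⟨x, hx, y, hy, z, hz, rfl⟩ := hp
      obtain ⟨v, hv, e⟩ := C.trace_eq_of_product hx hy hz
      rw [e, hvan v hv]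
  have hone : C.Θ = 0 := by
    refine eq_zero_of_trace_adjoint_mul ?_
    rw [LinearMap.trace_mul_comm]
    exact hall _
  have hc1 := C.cube
  rw [hone, zero_mul, zero_mul] at hc1
  exact zero_ne_one hc1

end CyclicTriple

end FLTAgent.LanglandsTunnell.Isolation
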