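import Fermat.Agent.LanglandsTunnell.Isolation.StageTrace
import Fermat.Agent.LanglandsTunnell.Isolation.CyclicTrace

/-!
# Compressions of the local translations at free places

On vectors fixed by a subgroup `H` of the integral elements, the translations by the local group at
a place where `H` contains the local parts of its elements are followed by the average over `H`.
If these compressions act irreducibly and the twist permutes the places in cycles of length three,
the twist has nonzero trace.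
-/

set_option autoImplicit false

noncomputable section

namespace FLTAgent.LanglandsTunnell.Isolation

open FLTAgent.LanglandsTunnell NumberField Matrix MeasureTheory Function
open scoped InnerProductSpace ComplexConjugate

variable {F : Type} [Field F] [NumberField F] {ι : Type} [Fintype ι] [DecidableEq ι]
  {Φ : PlaceChoice F ι}

/-- A linear functional invariant along the orbit sees the vector itself on the average. -/
theorem map_orbitAvg {H : Subgroup (GL (Fin 2) (AF F))} (hH : H ≤ principalSubgroup ⊤)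
    (L : Smooth Φ →ₗ[ℂ] ℂ) (u : Smooth Φ) (hL : ∀ k ∈ H, L (rho Φ k u) = L u) :
    L (orbitAvg H hH u) = L u := by
  have hne : (finite_orbit hH u).toFinset.card ≠ 0 := by
    rw [Ne, Finset.card_eq_zero, Set.Finite.toFinset_eq_empty]
    exact (Set.Nonempty.image _ ⟨1, one_mem H⟩).ne_empty
  rw [orbitAvg, map_smul, map_sum, Finset.sum_congr rfl (g := fun _ => L u) fun x hx => ?_]
  · rw [Finset.sum_const, nsmul_eq_mul, smul_eq_mul, ← mul_assoc,
      inv_mul_cancel₀ (Nat.cast_ne_zero.mpr hne), one_mul]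
  · obtain ⟨j, hj, rfl⟩ := (finite_orbit hH u).mem_toFinset.mp hx
    exact hL j hj

/-- A twist by an automorphism of order three has order three. -/
theorem twist_cube (T : TwistData Φ) (hσ : ∀ x, T.σ (T.σ (T.σ x)) = x) (u : Smooth Φ) :
    T.twist (T.twist (T.twist u)) = u := by
  have he : ∀ i, T.e (T.e (T.e i)) = i := fun i => by
    refine Φ.bijective.1 ?_
    show InfinitePlace.mk _ = InfinitePlace.mk _
    rw [T.emb, T.emb, T.emb]
    exact congrArg _ (RingHom.ext fun z => congrArg (Φ.emb i) (hσ z))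
  have hf : T.σ.toAlgHom.toRingHom.comp
      (T.σ.toAlgHom.toRingHom.comp T.σ.toAlgHom.toRingHom) = RingHom.id F :=
    RingHom.ext hσ
  refine Subtype.ext (funext fun g => funext fun P => ?_)
  rw [T.twist_val, T.twist_val, T.twist_val]
  refine congrArg₂ u.1 (Units.ext (Matrix.ext fun a b => ?_)) (funext fun i => by rw [he])
  have e1 := AlgHom.congr_fun (mapAF_comp (T.σ.toAlgHom.toRingHom.comp T.σ.toAlgHom.toRingHom)
    T.σ.toAlgHom.toRingHom) (g.1 a b)
  rw [AlgHom.comp_apply, hf, TwistData.mapAF_id_apply] at e1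
  have e2 := AlgHom.congr_fun (mapAF_comp T.σ.toAlgHom.toRingHom T.σ.toAlgHom.toRingHom) (g.1 a b)
  rw [AlgHom.comp_apply] at e2
  rw [← e2] at e1
  exact e1

section Average

variable {H : Subgroup (GL (Fin 2) (AF F))} (hH : H ≤ principalSubgroup ⊤)

theorem inner_orbitAvg_of_fixed (u : Smooth Φ) {f : Smooth Φ} (hf : ∀ k ∈ H, rho Φ k f = f) :
    ⟪f, orbitAvg H hH u⟫_ℂ = ⟪f, u⟫_ℂ :=
  map_orbitAvg hH (innerₛₗ ℂ f) u fun _ hk => TreeData.inner_of_fixed (rho Φ) (hf _ hk) _

omit [DecidableEq ι] in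
/-- Two fixed vectors with the same pairings against fixed vectors agree. -/
theorem eq_of_inner_fixed {x y : Smooth Φ} (hx : ∀ k ∈ H, rho Φ k x = x)
    (hy : ∀ k ∈ H, rho Φ k y = y)
    (h : ∀ f : Smooth Φ, (∀ k ∈ H, rho Φ k f = f) → ⟪f, x⟫_ℂ = ⟪f, y⟫_ℂ) : x = y := by
  refine sub_eq_zero.mp (inner_self_eq_zero (𝕜 := ℂ) |>.mp ?_)
  rw [inner_sub_right, h _ (fun k hk => by rw [map_sub, hx k hk, hy k hk]), sub_self]

variable (Φ) in
/-- The average over the orbits as a linear map. -/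
def avgLin : Smooth Φ →ₗ[ℂ] Smooth Φ where
  toFun := orbitAvg H hH
  map_add' u v := eq_of_inner_fixed (H := H) (fun _ hk => orbitAvg_fixed hH _ hk)
    (fun k hk => by rw [map_add, orbitAvg_fixed hH _ hk, orbitAvg_fixed hH _ hk]) fun f hf => by
      rw [inner_add_right, inner_orbitAvg_of_fixed hH _ hf, inner_orbitAvg_of_fixed hH _ hf,
        inner_orbitAvg_of_fixed hH _ hf, inner_add_right]
  map_smul' c u := eq_of_inner_fixed (H := H) (fun _ hk => orbitAvg_fixed hH _ hk)
    (fun k hk => by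
      show rho Φ k (c • orbitAvg H hH u) = c • orbitAvg H hH u
      rw [map_smul, orbitAvg_fixed hH _ hk]) fun f hf => by
      show _ = ⟪f, c • orbitAvg H hH u⟫_ℂ
      rw [inner_smul_right, inner_orbitAvg_of_fixed hH _ hf, inner_orbitAvg_of_fixed hH _ hf,
        inner_smul_right]

@[simp] theorem avgLin_apply (u : Smooth Φ) : avgLin Φ hH u = orbitAvg H hH u := rfl

theorem orbitAvg_zero : orbitAvg H hH (0 : Smooth Φ) = 0 := (avgLin Φ hH).map_zero

/-- A linear map normalising the subgroup commutes with the averaging. -/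
theorem map_orbitAvg_conj (Λ : Smooth Φ →ₗ[ℂ] Smooth Φ)
    (h₁ : ∀ k ∈ H, ∃ k' ∈ H, ∀ v, Λ (rho Φ k v) = rho Φ k' (Λ v))
    (h₂ : ∀ k ∈ H, ∃ k' ∈ H, ∀ v, rho Φ k (Λ v) = Λ (rho Φ k' v)) (u : Smooth Φ) :
    Λ (orbitAvg H hH u) = orbitAvg H hH (Λ u) := by
  refine eq_of_inner_fixed (H := H) (fun k hk => ?_) (fun _ hk => orbitAvg_fixed hH _ hk)
    fun f hf => ?_
  · obtain ⟨k', hk', e⟩ := h₂ k hk
    rw [e, orbitAvg_fixed hH u hk']
  · rw [inner_orbitAvg_of_fixed hH _ hf]
    refine map_orbitAvg hH ((innerₛₗ ℂ f).comp Λ) u fun k hk => ?_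
    obtain ⟨k', hk', e⟩ := h₁ k hk
    show ⟪f, Λ (rho Φ k u)⟫_ℂ = ⟪f, Λ u⟫_ℂ
    rw [e, TreeData.inner_of_fixed (rho Φ) (hf k' hk')]

/-- A linear map commuting with the subgroup commutes with the averaging. -/
theorem map_orbitAvg' (Λ : Smooth Φ →ₗ[ℂ] Smooth Φ)
    (h : ∀ k ∈ H, ∀ v, Λ (rho Φ k v) = rho Φ k (Λ v)) (u : Smooth Φ) :
    Λ (orbitAvg H hH u) = orbitAvg H hH (Λ u) :=
  map_orbitAvg_conj hH Λ
      (fun k hk => ⟨k, hk, h k hk⟩) (fun k hk => ⟨k, hk, fun v => (h k hk v).symm⟩)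
    u

end Average

variable (F) in
/-- A subgroup of the integral elements, with places at which it contains the local parts of its
elements. -/
structure FreeData : Type where
  H : Subgroup (GL (Fin 2) (AF F))
  le_top : H ≤ principalSubgroup ⊤
  Free : Ideal (𝓞 F) → Prop
  prime : ∀ {v}, Free v → v.IsPrime
  ne_bot : ∀ {v}, Free v → v ≠ ⊥
  part_mem : ∀ {v} (hv : Free v) {q}, q ∈ H → part (prime hv) (ne_bot hv) q ∈ H

namespace FreeData

variable (G : FreeData F) {v : Ideal (𝓞 F)} (hv : G.Free v)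

omit [Fintype ι] [DecidableEq ι] in
include hv in
theorem copart_mem {q : GL (Fin 2) (AF F)} (hq : q ∈ G.H) :
    copart (G.prime hv) (G.ne_bot hv) q ∈ G.H := by
  have h := mul_mem (inv_mem (G.part_mem hv hq)) hq
  rwa [inv_mul_eq_of_eq_mul (part_mul_copart _ _ q).symm] at h

include hv in
/-- Pairings after one compression. -/
theorem inner_compress {h g : GL (Fin 2) (AF F)} (hh : h ∈ localGroup (G.prime hv) (G.ne_bot hv))
    (hg : g ∈ awayGroup (G.prime hv) (G.ne_bot hv)) {f u : Smooth Φ}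
    (hf : ∀ k ∈ G.H, rho Φ k f = f) (hu : ∀ k ∈ G.H, rho Φ k u = u) :
    ⟪f, rho Φ g (orbitAvg G.H G.le_top (rho Φ h u))⟫_ℂ = ⟪f, rho Φ g (rho Φ h u)⟫_ℂ := by
  refine inner_orbitAvg G.le_top _ fun q hq => ?_
  have h2 : rho Φ q (rho Φ h u) = rho Φ (part (G.prime hv) (G.ne_bot hv) q) (rho Φ h u) := by
    conv_lhs => rw [← part_mul_copart (G.prime hv) (G.ne_bot hv) q, rho_mul,
      ← rho_mul (copart _ _ q),
      ← (commute_away hh (copart_mem_awayGroup (G.prime hv) (G.ne_bot hv) q)).eq, rho_mul,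
      hu _ (G.copart_mem hv hq)]
  rw [h2, ← rho_mul, ← (commute_away (part_mem_localGroup _ _ q) hg).eq, rho_mul,
    TreeData.inner_of_fixed (rho Φ) (hf _ (G.part_mem hv hq))]

/-- Stable under the averaged translations at the free places. -/
def Stable (W : Submodule ℂ (Smooth Φ)) : Prop :=
  ∀ (v : Ideal (𝓞 F)) (hv : G.Free v), ∀ h ∈ localGroup (G.prime hv) (G.ne_bot hv), ∀ u ∈ W,
    orbitAvg G.H G.le_top (rho Φ h u) ∈ W

variable {W : Submodule ℂ (Smooth Φ)} (hs : G.Stable W)

/-- The compression of a local translation. -/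
def compress (h : localGroup (G.prime hv) (G.ne_bot hv)) : Module.End ℂ W :=
  LinearMap.restrict (avgLin Φ G.le_top ∘ₗ (rho Φ h.1).toLinearEquiv.toLinearMap)
    fun u hu => hs v hv h.1 h.2 u hu

@[simp] theorem compress_val (h : localGroup (G.prime hv) (G.ne_bot hv)) (u : W) :
    (G.compress hv hs h u : Smooth Φ) = orbitAvg G.H G.le_top (rho Φ h.1 u.1) := rfl

variable (hW : ∀ u ∈ W, ∀ k ∈ G.H, rho Φ k u = u)

include hW in
theorem adjoint_compress [FiniteDimensional ℂ W] (h : localGroup (G.prime hv) (G.ne_bot hv)) :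
    LinearMap.adjoint (G.compress hv hs h) = G.compress hv hs h⁻¹ := by
  refine ((LinearMap.eq_adjoint_iff _ _).mpr fun x y => ?_).symm
  simp only [Submodule.coe_inner, compress_val, Subgroup.coe_inv]
  rw [← inner_conj_symm, inner_orbitAvg_of_fixed G.le_top _ (hW _ y.2),
    inner_orbitAvg_of_fixed G.le_top _ (hW _ x.2), inner_conj_symm,
    ← TreeData.inner_apply (rho Φ) h.1 (rho Φ h.1⁻¹ x.1), ← rho_mul, mul_inv_cancel, map_one]
  rfl

include hW in
theorem commute_compress {v' : Ideal (𝓞 F)} (hv' : G.Free v') (hne : v ≠ v')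
    (h : localGroup (G.prime hv) (G.ne_bot hv)) (h' : localGroup (G.prime hv') (G.ne_bot hv')) :
    Commute (G.compress hv hs h) (G.compress hv' hs h') := by
  refine LinearMap.ext fun u => ext_inner_left ℂ fun f => ?_
  simp only [Module.End.mul_apply, Submodule.coe_inner, compress_val]
  have e : ∀ {x y : Ideal (𝓞 F)} (hx : G.Free x) (hy : G.Free y), x ≠ y →
      ∀ (k : localGroup (G.prime hx) (G.ne_bot hx)) (k' : localGroup (G.prime hy) (G.ne_bot hy)),
      ⟪(f : Smooth Φ), orbitAvg G.H G.le_top (rho Φ k.1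
        (orbitAvg G.H G.le_top (rho Φ k'.1 u.1)))⟫_ℂ =
        ⟪(f : Smooth Φ), rho Φ (k.1 * k'.1) u.1⟫_ℂ := fun {x y} hx hy hxy k k' => by
    rw [inner_orbitAvg_of_fixed G.le_top _ (hW _ f.2),
      G.inner_compress hy k'.2 (away_of_local (Ne.symm hxy) k.2) (hW _ f.2) (hW _ u.2), rho_mul]
  rw [e hv hv' hne, e hv' hv (Ne.symm hne), (commute_away h.2 (away_of_local hne h'.2)).eq]

/-- The algebra of the compressions at the free places in one position. -/
def posAlg (pos : Ideal (𝓞 F) → Fin 3) (i : Fin 3) : Subalgebra ℂ (Module.End ℂ W) :=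
  Algebra.adjoin ℂ {x | ∃ (v : Ideal (𝓞 F)) (hv : G.Free v)
    (h : localGroup (G.prime hv) (G.ne_bot hv)), pos v = -i ∧ x = G.compress hv hs h}

include hs hW in
/-- **The trace of the twist** on an irreducible system of compressions. -/
theorem trace_twist_ne_zero [FiniteDimensional ℂ W] (T : TwistData Φ)
    (hσ : ∀ x, T.σ (T.σ (T.σ x)) = x) (hne : W ≠ ⊥) (hΘ : ∀ u ∈ W, T.twist u ∈ W)
    (hgl : ∀ k ∈ G.H, T.gl k ∈ G.H) (hgl' : ∀ k ∈ G.H, T.symm.gl k ∈ G.H)
    (hfree : ∀ v, G.Free v → G.Free (T.ideal v)) (pos : Ideal (𝓞 F) → Fin 3)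
    (hpos : ∀ v, G.Free v → pos (T.ideal v) = pos v + 1)
    (horth : ∀ U : Submodule ℂ (Smooth Φ), U ≤ W → G.Stable U → U ≠ ⊥ → ∀ f ∈ W,
      (∀ u ∈ U, ⟪u, f⟫_ℂ = 0) → f = 0) :
    LinearMap.trace ℂ W (T.twist.restrict hΘ) ≠ 0 := by
  have : Nontrivial W := Submodule.nontrivial_iff_ne_bot.mpr hne
  let triple : CyclicTriple W :=
    { Θ := T.twist.restrict hΘ
      A := G.posAlg hs pos
      cube := LinearMap.ext fun u => Subtype.ext (twist_cube T hσ u.1)
      comm := fun i j hij x hx y hy => ?_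
      conj_mem := fun i x hx => ?_
      star_mem := fun x hx => ?_
      irreducible := fun U hU => ?_ }
  · exact triple.trace_ne_zero
  · refine (Algebra.commute_of_mem_adjoin_of_forall_mem_commute hy ?_).eq
    rintro _ ⟨v', hv', h', hp', rfl⟩
    refine (Algebra.commute_of_mem_adjoin_of_forall_mem_commute hx ?_).symm
    rintro _ ⟨v₁, hv₁, h₁, hp₁, rfl⟩
    exact (G.commute_compress hv₁ hs hW hv' (fun e => hij (neg_injective (hp₁.symm.trans
      ((congrArg pos e).trans hp')))) h₁ h').symm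
  · induction hx using Algebra.adjoin_induction with
    | mem x hx =>
      obtain ⟨v₁, hv₁, h, hp, rfl⟩ := hx
      refine ⟨_, Algebra.subset_adjoin ⟨T.ideal v₁, hfree v₁ hv₁,
        ⟨_, T.gl_mem_localGroup rfl h.2⟩, ?_, rfl⟩, LinearMap.ext fun u => Subtype.ext ?_⟩
      · rw [hpos v₁ hv₁, hp, neg_add, neg_add_cancel_right]
      · show orbitAvg G.H G.le_top (rho Φ h.1 (T.twist u.1)) =
          T.twist (orbitAvg G.H G.le_top (rho Φ (T.gl h.1) u.1))
        rw [T.rho_twist, map_orbitAvg_conj G.le_top T.twist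
          (fun k hk => ⟨_, hgl' k hk, fun x => T.twist_rho k x⟩)
          (fun k hk => ⟨_, hgl k hk, fun x => T.rho_twist k x⟩)]
    | algebraMap r => exact ⟨_, Subalgebra.algebraMap_mem _ r, Algebra.commutes r _⟩
    | add a b _ _ ha hb =>
      obtain ⟨a', ha', e⟩ := ha
      obtain ⟨b', hb', e'⟩ := hb
      exact ⟨a' + b', add_mem ha' hb', by rw [add_mul, e, e', mul_add]⟩
    | mul a b _ _ ha hb =>
      obtain ⟨a', ha', e⟩ := ha
      obtain ⟨b', hb', e'⟩ := hb
      exact ⟨a' * b', mul_mem ha' hb', by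
        rw [mul_assoc, e', ← mul_assoc, e, mul_assoc]⟩
  · induction hx using Algebra.adjoin_induction with
    | mem x hx =>
      obtain ⟨v₁, hv₁, h, hp, rfl⟩ := hx
      rw [G.adjoint_compress hv₁ hs hW]
      exact Algebra.subset_adjoin ⟨v₁, hv₁, h⁻¹, hp, rfl⟩
    | algebraMap r =>
      rw [Algebra.algebraMap_eq_smul_one, ← LinearMap.star_eq_adjoint, star_smul, star_one,
        ← Algebra.algebraMap_eq_smul_one]
      exact Subalgebra.algebraMap_mem _ _
    | add x y _ _ hx hy =>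
      rw [map_add]
      exact add_mem hx hy
    | mul x y _ _ hx hy =>
      rw [Module.End.mul_eq_comp, LinearMap.adjoint_comp, ← Module.End.mul_eq_comp]
      exact mul_mem hy hx
  · rw [or_iff_not_imp_left]
    intro hbot
    rw [← Submodule.orthogonal_eq_bot_iff, Submodule.eq_bot_iff]
    refine fun f hf => Subtype.ext (horth (U.map W.subtype) (Submodule.map_subtype_le W U)
      (fun v₁ hv₁ h hh u hu => ?_) (fun h => hbot (Submodule.map_injective_of_injective
        W.injective_subtype (h.trans (Submodule.map_bot _).symm))) _ f.2 ?_)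
    · obtain ⟨u', hu', rfl⟩ := Submodule.mem_map.mp hu
      exact ⟨_, hU (-pos v₁) _ (Algebra.subset_adjoin ⟨v₁, hv₁, ⟨h, hh⟩, (neg_neg _).symm, rfl⟩)
        u' hu', rfl⟩
    · rintro _ ⟨u', hu', rfl⟩
      exact (Submodule.inner_right_of_mem_orthogonal hu' hf : ⟪u', f⟫_ℂ = 0)

end FreeData

end FLTAgent.LanglandsTunnell.Isolation
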