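import Fermat.Agent.LanglandsTunnell.Internal

/-!
# Functions of all levels, translations, and the common translate statement

An automorphic function of any level is a function on `GL(2, AF F) × H`; right translations act.
-/

set_option autoImplicit false

noncomputable section

namespace FLTAgent.LanglandsTunnell.Isolation

open FLTAgent.LanglandsTunnell NumberField Matrix

variable (F : Type) [Field F] (ι : Type)

/-- Functions of all levels. -/
abbrev AForm : Type := GL (Fin 2) (AF F) → (ι → H3) → ℂ

variable {F} {ι}

/-- A function of level `n` as a function of all levels. -/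
def liftForm {n : Ideal (𝓞 F)} (φ : Pt F ι n → ℂ) : AForm F ι :=
  fun g P => φ ((g : FinPt F n), P)

/-- Right translation. -/
def rtrans (g : GL (Fin 2) (AF F)) (Ψ : AForm F ι) : AForm F ι := fun h P => Ψ (h * g) P

@[simp] theorem rtrans_one (Ψ : AForm F ι) : rtrans 1 Ψ = Ψ := by
  funext h P
  simp [rtrans]

theorem rtrans_mul (g g' : GL (Fin 2) (AF F)) (Ψ : AForm F ι) :
    rtrans (g * g') Ψ = rtrans g (rtrans g' Ψ) := by
  funext h P
  simp [rtrans, mul_assoc]

/-- A combination of translates. -/
def combo (s : List (ℂ × GL (Fin 2) (AF F))) (Ψ : AForm F ι) : AForm F ι :=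
  fun h P => (s.map fun x => x.1 * rtrans x.2 Ψ h P).sum

/-- The components at primes not dividing `N` are trivial. -/
def SupportedAt (N : ℕ) (g : GL (Fin 2) (AF F)) : Prop :=
  ∀ p : Nat.Primes, ¬ (p : ℕ) ∣ N →
    Matrix.GeneralLinearGroup.map (compAF p).toRingHom g = 1

/-- Strong multiplicity one in translation form: two eigenforms of level `N` with the same
eigenvalue system away from `N` have a common nonzero combination of translates at the primes
dividing `N`. -/
def CommonTranslateSpec : Prop :=
  ∀ (F : Type) [Field F] [NumberField F] (ι : Type) [Fintype ι] [DecidableEq ι]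
    (Φ : PlaceChoice F ι) (N : ℕ), N ≠ 0 →
    ∀ (f f' : Pt F ι (Ideal.span {(N : 𝓞 F)}) → ℂ) (a : Ideal (𝓞 F) → ℂ),
      IsEigenform Φ f a → IsEigenform Φ f' a →
      ∃ s t : List (ℂ × GL (Fin 2) (AF F)),
        (∀ x ∈ s, SupportedAt N x.2) ∧ (∀ x ∈ t, SupportedAt N x.2) ∧
          combo s (liftForm f) = combo t (liftForm f') ∧ combo s (liftForm f) ≠ 0

end FLTAgent.LanglandsTunnell.Isolation
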