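import Fermat.Agent.LanglandsTunnell.Isolation.CombCalc
import Fermat.Agent.LanglandsTunnell.Words

/-!
# Descending products of combinations

The descent of combinations from `M` to `E` respects products on the level of kernels, hence
carries the isolating sequence over `M` to the one over `E`.
-/

set_option autoImplicit false

noncomputable section

namespace FLTAgent.LanglandsTunnell.Isolation

open FLTAgent.LanglandsTunnell NumberField
open FLTAgent.LanglandsTunnell.Trace (h3conv_assoc h3conv_comm continuous_h3conv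
  hasCompactSupport_h3conv)

/-! ### Sums over lists -/

theorem sum_map_comm {α β : Type} (L : List α) (M : List β) (h : α → β → ℂ) :
    (L.map fun a => (M.map fun b => h a b).sum).sum =
      (M.map fun b => (L.map fun a => h a b).sum).sum := by
  induction L with
  | nil => simp
  | cons a L ih =>
    simp only [List.map_cons, List.sum_cons, ih]
    exact List.sum_map_add.symm

/-! ### Words -/

variable (D : Datum)

theorem descWord_append (ws ws' : List (Ideal (𝓞 D.M))) :
    D.descWord (ws ++ ws') = (D.descWord ws).flatMap fun a =>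
      (D.descWord ws').map fun b => (a.1 * b.1, a.2 ++ b.2) := by
  induction ws with
  | nil => simp [Datum.descWord]
  | cons w ws ih =>
    simp only [List.cons_append, Datum.descWord, ih, List.flatMap_assoc, List.map_flatMap]
    refine List.flatMap_congr fun a _ => ?_
    rw [List.flatMap_map]
    refine List.flatMap_congr fun b _ => ?_
    rw [List.map_map]
    refine List.map_congr_left fun c _ => ?_
    simp [mul_assoc]

theorem good_descComb {ok : Ideal (𝓞 D.M) → Prop} {ok' : Ideal (𝓞 D.E) → Prop}
    (h : ∀ w, ok w → ok' (D.under w)) {C : Comb D.M (Fin 3)} (hC : C.Good ok) :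
    (D.descComb C).Good ok' := fun T hT => by
  simp only [Datum.descComb, List.mem_flatMap, List.mem_map] at hT
  obtain ⟨T₀, h0, a, ha, rfl⟩ := hT
  have hi := (hC T₀ h0).1
  refine ⟨fun _ => ?_, fun v hv => ?_⟩
  · have hc := continuous_h3conv (hi 0).1 (hi 0).2 (hi 1).1
    have hs := hasCompactSupport_h3conv (hi 0).2 (hi 1).2
    exact ⟨continuous_h3conv hc hs (hi 2).1, hasCompactSupport_h3conv hs (hi 2).2⟩
  · obtain ⟨w, hw, rfl⟩ := mem_descWord D ha v hv
    exact h w ((hC T₀ h0).2 w hw)

theorem descComb_append (A B : Comb D.M (Fin 3)) :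
    D.descComb (A ++ B) = D.descComb A ++ D.descComb B :=
  List.flatMap_append

theorem descComb_cscale (a : ℂ) (A : Comb D.M (Fin 3)) :
    D.descComb (cscale a A) = cscale a (D.descComb A) := by
  simp only [Datum.descComb, cscale, List.flatMap_map, List.map_flatMap, List.map_map]
  refine List.flatMap_congr fun T _ => List.map_congr_left fun b _ => ?_
  simp [mul_assoc]

/-- The inner convolutions commute past each other. -/
theorem h3conv_triple {a b : Fin 3 → ℝ → ℂ} (ha : ∀ i, Continuous (a i) ∧ HasCompactSupport (a i))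
    (hb : ∀ i, Continuous (b i) ∧ HasCompactSupport (b i)) :
    h3conv (h3conv (h3conv (a 0) (b 0)) (h3conv (a 1) (b 1))) (h3conv (a 2) (b 2)) =
      h3conv (h3conv (h3conv (a 0) (a 1)) (a 2)) (h3conv (h3conv (b 0) (b 1)) (b 2)) := by
  have hcc : ∀ {k l : ℝ → ℂ}, Continuous k ∧ HasCompactSupport k →
      Continuous l ∧ HasCompactSupport l →
      Continuous (h3conv k l) ∧ HasCompactSupport (h3conv k l) := fun hk hl =>
    ⟨continuous_h3conv hk.1 hk.2 hl.1, hasCompactSupport_h3conv hk.2 hl.2⟩
  have assoc : ∀ {k l m : ℝ → ℂ}, Continuous k ∧ HasCompactSupport k →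
      Continuous l ∧ HasCompactSupport l → Continuous m ∧ HasCompactSupport m →
      h3conv (h3conv k l) m = h3conv k (h3conv l m) := fun hk hl hm =>
    h3conv_assoc hk.1 hk.2 hl.1 hm.1 hm.2
  have swap : ∀ {k l m p : ℝ → ℂ}, Continuous k ∧ HasCompactSupport k →
      Continuous l ∧ HasCompactSupport l → Continuous m ∧ HasCompactSupport m →
      Continuous p ∧ HasCompactSupport p →
      h3conv (h3conv k l) (h3conv m p) = h3conv (h3conv k m) (h3conv l p) := by
    intro k l m p hk hl hm hp
    rw [assoc hk hl (hcc hm hp), ← assoc hl hm hp, h3conv_comm l m, assoc hm hl hp,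
      ← assoc hk hm (hcc hl hp)]
  rw [swap (ha 0) (hb 0) (ha 1) (hb 1),
    swap (hcc (ha 0) (ha 1)) (hcc (hb 0) (hb 1)) (ha 2) (hb 2)]

theorem descComb_singleton_mul {T T' : Term D.M (Fin 3)}
    (hT : ∀ i, Continuous (T.inf i) ∧ HasCompactSupport (T.inf i))
    (hT' : ∀ i, Continuous (T'.inf i) ∧ HasCompactSupport (T'.inf i)) :
    D.descComb (Comb.mul [T] [T']) = (D.descComb [T]).mul (D.descComb [T']) := by
  simp only [Datum.descComb, Comb.mul, List.flatMap_cons, List.flatMap_nil, List.append_nil,
    List.map_cons, List.map_nil, descWord_append, List.map_flatMap, List.flatMap_map,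
    List.map_map]
  refine List.flatMap_congr fun a _ => List.map_congr_left fun b _ => ?_
  simp only [Function.comp_apply, Term.mk.injEq, true_and]
  refine ⟨by ring, funext fun _ => ?_⟩
  exact h3conv_triple hT hT'

theorem kernel_descComb_mul {ok : Ideal (𝓞 D.M) → Prop} {X Y : Comb D.M (Fin 3)}
    (hX : X.Good ok) (hY : Y.Good ok) (n : Ideal (𝓞 D.E)) :
    (D.descComb (X.mul Y)).kernel n = ((D.descComb X).mul (D.descComb Y)).kernel n := by
  funext x y
  let k : Term D.E Unit → ℂ := fun S => S.kernel n x y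
  let t : Term D.M (Fin 3) → ℂ × List (Ideal (𝓞 D.E)) → Term D.E Unit := fun T a =>
    ⟨T.coeff * a.1, a.2, fun _ => h3conv (h3conv (T.inf 0) (T.inf 1)) (T.inf 2)⟩
  let pr : Term D.E Unit → Term D.E Unit → Term D.E Unit := fun T T' =>
    ⟨T.coeff * T'.coeff, T.word ++ T'.word, fun i => h3conv (T.inf i) (T'.inf i)⟩
  have e2 : ∀ A B : Comb D.E Unit,
      (A.mul B).kernel n x y = (A.map fun a => (B.map fun b => k (pr a b)).sum).sum := fun A B => by
    simp only [Comb.kernel, Comb.mul, sum_flatMap_map, List.map_map]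
    rfl
  have e1 : ∀ L : Comb D.M (Fin 3),
      (D.descComb L).kernel n x y =
          (L.map fun T => (D.descComb [T]).kernel n x y).sum := fun L => by
    simp only [Comb.kernel, Datum.descComb, sum_flatMap_map, List.map_cons, List.map_nil,
      List.sum_cons, List.sum_nil, add_zero]
  rw [e1, e2]
  simp only [Comb.mul, sum_flatMap_map, List.map_map]
  show _ = ((X.flatMap fun T => (D.descWord T.word).map (t T)).map fun a =>
    ((Y.flatMap fun T => (D.descWord T.word).map (t T)).map fun b => k (pr a b)).sum).sum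
  simp only [sum_flatMap_map, List.map_map]
  refine congrArg List.sum (List.map_congr_left fun T hT => ?_)
  simp only [Function.comp_def]
  rw [sum_map_comm]
  refine congrArg List.sum (List.map_congr_left fun T' hT' => ?_)
  have h := congrArg (fun C : Comb D.E Unit => C.kernel n x y)
    (descComb_singleton_mul D (hX T hT).1 (hY T' hT').1)
  refine Eq.trans ?_ (h.trans ?_)
  · rfl
  · show ((D.descComb [T]).mul (D.descComb [T'])).kernel n x y = _
    rw [e2]
    simp only [Datum.descComb, List.flatMap_cons, List.flatMap_nil, List.append_nil, List.map_map,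
      Function.comp_def, t]

/-- The descended isolating sequence. -/
theorem kernel_descComb_isoSeq {n : Ideal (𝓞 D.E)} (Φ : PlaceChoice D.E Unit) (hn : n ≠ ⊥)
    {K X : Comb D.M (Fin 3)} {ok : Ideal (𝓞 D.M) → Prop} (hok : ∀ w, ok w → D.under w ≠ ⊥)
    (hK : K.Good ok) (hX : X.Good ok) (l c : ℝ) (m : ℕ) :
    (D.descComb (isoSeq K X l c m)).kernel n =
      (isoSeq (D.descComb K) (D.descComb X) l c m).kernel n := by
  have dK := good_descComb D (ok' := fun v => v ≠ ⊥) hok hK
  have dX := good_descComb D (ok' := fun v => v ≠ ⊥) hok hX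
  induction m with
  | zero => exact kernel_descComb_mul D hX hK n
  | succ m ih =>
    set C := isoSeq K X l c m with hC
    set C' := isoSeq (D.descComb K) (D.descComb X) l c m with hC'
    have hCg : C.Good ok := good_isoSeq hK hX l c m
    have hC'g : C'.Good (fun v => v ≠ ⊥) := good_isoSeq dK dX l c m
    have dC := good_descComb D (ok' := fun v => v ≠ ⊥) hok hCg
    have h1 : (D.descComb (C.mul K)).kernel n = (C'.mul (D.descComb K)).kernel n :=
      (kernel_descComb_mul D hCg hK n).trans (kernel_mul_congr Φ hn dC hC'g dK dK ih rfl)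
    have h2 : (D.descComb ((C.mul K).mul K)).kernel n =
        ((C'.mul (D.descComb K)).mul (D.descComb K)).kernel n :=
      (kernel_descComb_mul D (good_mul hCg hK) hK n).trans (kernel_mul_congr Φ hn
        (good_descComb D (ok' := fun v => v ≠ ⊥) hok (good_mul hCg hK)) (good_mul hC'g dK)
        dK dK h1 rfl)
    funext x y
    simp only [isoSeq, isoStep, ← hC, ← hC', descComb_append, descComb_cscale, kernel_append,
      kernel_cscale, ih, h1, h2]

/-- Words of the isolating sequence: a word of `X` followed by letters of `K`. -/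
theorem word_isoSeq {F : Type} [Field F] {ι : Type} (K X : Comb F ι) (l c : ℝ) (m : ℕ) :
    ∀ T ∈ isoSeq K X l c m, ∃ T₀ ∈ X, ∃ ks : List (Ideal (𝓞 F)),
      T.word = T₀.word ++ ks ∧ ∀ w ∈ ks, ∃ T' ∈ K, w ∈ T'.word := by
  have step : ∀ C : Comb F ι, (∀ T ∈ C, ∃ T₀ ∈ X, ∃ ks : List (Ideal (𝓞 F)),
      T.word = T₀.word ++ ks ∧ ∀ w ∈ ks, ∃ T' ∈ K, w ∈ T'.word) →
      ∀ T ∈ C.mul K, ∃ T₀ ∈ X, ∃ ks : List (Ideal (𝓞 F)),
      T.word = T₀.word ++ ks ∧ ∀ w ∈ ks, ∃ T' ∈ K, w ∈ T'.word := by
    intro C hC T hT
    simp only [Comb.mul, List.mem_flatMap, List.mem_map] at hT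
    obtain ⟨T₁, h1, T₂, h2, rfl⟩ := hT
    obtain ⟨T₀, h0, ks, hw, hks⟩ := hC T₁ h1
    exact ⟨T₀, h0, ks ++ T₂.word, by simp [hw, List.append_assoc], fun w hw' =>
      (List.mem_append.mp hw').elim (hks w) fun h => ⟨T₂, h2, h⟩⟩
  induction m with
  | zero =>
    exact step X fun T hT => ⟨T, hT, [], by simp, by simp⟩
  | succ m ih =>
    intro T hT
    simp only [isoSeq, isoStep, cscale, List.mem_append, List.mem_map] at hT
    rcases hT with ((h | ⟨T', h, rfl⟩) | ⟨T', h, rfl⟩) | ⟨T', h, rfl⟩
    exacts [ih T h, step _ (step _ ih) T' h, step _ ih T' h, ih T' h]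

end FLTAgent.LanglandsTunnell.Isolation
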