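import Fermat.Agent.LanglandsTunnell.Isolation.SystemsExist

/-!
# A close system over `E` gives the descended form

A joint system over `E` agreeing with the seed at infinity and at the test places of degree one
is an eigenform satisfying `Descended` (`Frame.descended_of_close`).
-/

set_option autoImplicit false

noncomputable section

namespace FLTAgent.LanglandsTunnell.Isolation

open FLTAgent.LanglandsTunnell MeasureTheory NumberField

theorem Frame.descended_of_close {D : Datum} {P : ExtPlaces D} (S : Frame D P)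
    (sE : Systems S.dE S.okE) (a₀ : Ideal (𝓞 D.M) → ℂ)
    (hA : ∀ w, D.TestOK S.N' w → ∀ g, IsFrobOver D.M w g → a₀ w = trLift (D.ρ g))
    (j : Fin sE.m)
    (hz : ∀ h : Fin 3 → ℝ → ℝ, GoodW h → sE.z j (descW h) = ∏ i, (sphValue (h i) : ℂ))
    (hb : ∀ w, D.TestOK S.N' w → D.DegreeOne w →
      sE.b j (D.under w) = (Real.sqrt (Ideal.absNorm w) : ℂ) * a₀ w) :
    ∃ φ a, Descended D P S.N φ a := by
  have hN0 : S.N ≠ 0 := by
    intro h0
    have h := S.test.dvd
    rw [h0, zero_dvd_iff] at h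
    exact S.test.ne_zero h
  have hn : lv D.E S.N ≠ ⊥ := lv_ne_bot hN0
  set a : Ideal (𝓞 D.E) → ℂ := fun v => sE.b j v / (Real.sqrt (Ideal.absNorm v) : ℂ) with ha
  have hsq : ∀ v : Ideal (𝓞 D.E), v ≠ ⊥ → ((Real.sqrt (Ideal.absNorm v) : ℝ) : ℂ) ≠ 0 :=
    fun v hv => Complex.ofReal_ne_zero.mpr (Real.sqrt_ne_zero'.mpr
      (Nat.cast_pos.mpr (Nat.pos_of_ne_zero (mt Ideal.absNorm_eq_zero_iff.mp hv))))
  have hj := sE.joint j
  have hsph : SphericalZero (sE.f j) := by
    refine sphericalZero_of_cube hj.cts (fun h hh => ⟨(sE.z j h).re, funext fun x => ?_⟩)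
      fun h hh x => ?_
    · rw [Complex.conj_eq_iff_re.mp (sE.conj_z (fun A hA' => S.testedE hA') j hh)]
      exact hj.inf h hh x
    · rw [← cw_descW, ← hz h hh]
      exact hj.inf _ hh.descW x
  have heig : IsEigenform P.placesE (sE.f j) a :=
    { automorphic := ⟨(S.dE.bddAuto_efun _).inv, hj.cts, (S.dE.bddAuto_efun _).bdd⟩
      cuspidal := S.dE.isCuspidal_efun _
      ne_zero := sE.f_ne_zero j
      spherical := hsph
      eigen := fun v hv hv0 hvN x Q => by
        rw [ha, mul_div_cancel₀ _ (hsq v hv0)]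
        exact hj.hecke v ⟨hv, hv0, hvN⟩ (x, Q) }
  refine ⟨sE.f j, a, hN0, heig, S.test.squarefree_away, S.test.three_not_dvd, S.test.three_dvd,
    fun v hv hv0 hvN => ⟨heig.im_eigenvalue hn hv hv0 hvN, heig.norm_eigenvalue_le hn hv hv0 hvN⟩,
    fun v hv hv0 hvN g hg hgM => ?_⟩
  obtain ⟨w, A, hw, hw0, hwv, hgE, hwA, hAg⟩ := exists_prime_over_frob D hv0 hg
  have := hw
  subst hwv
  have hwN : ¬ w ∣ lv D.M S.N' := by
    intro hdvd
    have hmem : ((S.N' : ℕ) : 𝓞 D.M) ∈ w :=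
      Ideal.dvd_iff_le.mp hdvd (Ideal.mem_span_singleton_self _)
    obtain ⟨q, hq, hqN', hqw⟩ : ∃ q : ℕ, q.Prime ∧ q ∣ S.N' ∧ (q : 𝓞 D.M) ∈ w := by
      have key : ∀ N : ℕ, N ≠ 0 → (N : 𝓞 D.M) ∈ w →
          ∃ q : ℕ, q.Prime ∧ q ∣ N ∧ (q : 𝓞 D.M) ∈ w := by
        intro N
        induction N using Nat.recOnMul with
        | zero => exact fun h => absurd rfl h
        | one => exact fun _ h => absurd ((Ideal.eq_top_iff_one w).mpr (by simpa using h)) hw.ne_top
        | prime p hp => exact fun _ h => ⟨p, hp, dvd_rfl, h⟩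
        | mul a b iha ihb =>
          intro hab h
          rw [Nat.cast_mul] at h
          rcases hw.mem_or_mem h with h | h
          · obtain ⟨q, hq, hqa, hqw⟩ := iha (left_ne_zero_of_mul hab) h
            exact ⟨q, hq, dvd_mul_of_dvd_left hqa b, hqw⟩
          · obtain ⟨q, hq, hqb, hqw⟩ := ihb (right_ne_zero_of_mul hab) h
            exact ⟨q, hq, dvd_mul_of_dvd_right hqb a, hqw⟩
      exact key _ S.test.ne_zero hmem
    obtain ⟨c, hc⟩ := (S.test.same_primes q hq).mp hqN'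
    refine hvN (Ideal.dvd_iff_le.mpr ((Ideal.span_singleton_le_iff_mem _).mpr ?_))
    rw [natCast_mem_under D, hc, Nat.cast_mul]
    exact Ideal.mul_mem_right _ _ hqw
  obtain ⟨hdeg, hfrob⟩ :=
    (degree_of_frob hw0 (unramified_of_testLevel D S.test hw0 hwN) hwA hgE hAg).1 hgM
  have htest : D.TestOK S.N' w := ⟨Or.inl hdeg, hwN, not_dvd_under D hwN⟩
  rw [ha]
  show sE.b j (D.under w) / _ = _
  rw [hb w htest hdeg, hdeg.2.2, mul_div_cancel_left₀ _ (hsq _ hv0), hA w htest g hfrob]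

end FLTAgent.LanglandsTunnell.Isolation
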