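import Mathlib

/-!
# Separating finitely many systems of eigenvalues

Finitely many systems satisfy a linear relation on admissible words. Then the systems that differ
from a given one in finitely many restricted places only satisfy it by themselves.
-/

set_option autoImplicit false

noncomputable section

namespace FLTAgent.LanglandsTunnell.Isolation

/-- Distinct choices from infinite sets. -/
theorem exists_injOn_choice {L W : Type*} (A : L → Set W) (s : Finset L)
    (hA : ∀ l ∈ s, (A l).Infinite) (X : Set W) (hX : X.Finite) (w₀ : L → W) :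
    ∃ f : L → W, Set.InjOn f s ∧ ∀ l ∈ s, f l ∈ A l ∧ f l ∉ X := by
  classical
  induction s using Finset.induction with
  | empty => exact ⟨w₀, by simp, by simp⟩
  | insert a s ha ih =>
    obtain ⟨f, hf, hf'⟩ := ih fun l hl => hA l (Finset.mem_insert_of_mem hl)
    obtain ⟨w, hw, hwX⟩ := ((hA a (Finset.mem_insert_self a s)).sdiff
      (hX.union (s.finite_toSet.image f))).nonempty
    simp only [Set.mem_union, Set.mem_image, Finset.mem_coe, not_or, not_exists, not_and] at hwX
    refine ⟨Function.update f a w, ?_, ?_⟩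
    · intro x hx y hy hxy
      simp only [Finset.coe_insert, Set.mem_insert_iff, Finset.mem_coe] at hx hy
      by_cases hxa : x = a <;> by_cases hya : y = a
      · rw [hxa, hya]
      · rw [hxa, Function.update_self, Function.update_of_ne hya] at hxy
        exact absurd hxy.symm (hwX.2 y (hy.resolve_left hya))
      · rw [hya, Function.update_self, Function.update_of_ne hxa] at hxy
        exact absurd hxy (hwX.2 x (hx.resolve_left hxa))
      · rw [Function.update_of_ne hxa, Function.update_of_ne hya] at hxy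
        exact hf (hx.resolve_left hxa) (hy.resolve_left hya) hxy
    · intro l hl
      rcases eq_or_ne l a with rfl | hla
      · rw [Function.update_self]
        exact ⟨hw, hwX.1⟩
      · rw [Function.update_of_ne hla]
        exact hf' l ((Finset.mem_insert.mp hl).resolve_left hla)

variable {L W H : Type*} [Fintype L] (ok one : W → Prop)

open scoped Classical in
/-- Admissible words: allowed places, the restricted ones at most once. -/
def Adm (ws : List W) : Prop := ∀ w ∈ ws, ok w ∧ (¬ one w → ws.count w ≤ 1)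

variable {ok one}

theorem Adm.sublist {ws ws' : List W} (h : Adm ok one ws) (hs : ws'.Sublist ws) :
    Adm ok one ws' := by
  classical
  intro w hw
  obtain ⟨h1, h2⟩ := h w (hs.subset hw)
  exact ⟨h1, fun hn => (hs.count_le w).trans (h2 hn)⟩

variable (m : L → ℂ) (b : L → W → ℂ) (z : L → H → ℂ)

section Expand

variable (hyp : ∀ (ws : List W) (h : H), Adm ok one ws →
  ∑ l, m l * (ws.map (b l)).prod * z l h = 0)

include hyp in
theorem sum_factors_eq_zero (F : List (W × ℂ)) :
    ∀ (ws : List W) (h : H), Adm ok one (ws ++ F.map Prod.fst) →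
      ∑ l, m l * (ws.map (b l)).prod * (F.map fun x => b l x.1 - x.2).prod * z l h = 0 := by
  induction F with
  | nil =>
    intro ws h hadm
    simpa using hyp ws h (by simpa using hadm)
  | cons x F ih =>
    intro ws h hadm
    simp only [List.map_cons] at hadm
    have h1 := ih (ws ++ [x.1]) h (by simpa using hadm)
    have h2 := ih ws h (hadm.sublist
      ((List.sublist_cons_self _ _).append_left ws))
    calc _ = ∑ l, (m l * ((ws ++ [x.1]).map (b l)).prod * (F.map fun y => b l y.1 - y.2).prod *
            z l h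
          - x.2 * (m l * (ws.map (b l)).prod * (F.map fun y => b l y.1 - y.2).prod * z l h)) :=
          Finset.sum_congr rfl fun l _ => by simp; ring
      _ = 0 := by rw [Finset.sum_sub_distrib, ← Finset.mul_sum, h1, h2, mul_zero, sub_zero]

variable (mul : H → H → H) (hmul : ∀ l g h, z l (mul g h) = z l g * z l h)

include hyp hmul in
theorem sum_factors_inf_eq_zero (F : List (W × ℂ)) (hF : Adm ok one (F.map Prod.fst))
    (G : List (H × ℂ)) : ∀ h : H,
      ∑ l, m l * (F.map fun x => b l x.1 - x.2).prod * (G.map fun y => z l y.1 - y.2).prod *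
        z l h = 0 := by
  induction G with
  | nil =>
    intro h
    simpa using sum_factors_eq_zero m b z hyp F [] h (by simpa using hF)
  | cons y G ih =>
    intro h
    calc _ = ∑ l, (m l * (F.map fun x => b l x.1 - x.2).prod *
            (G.map fun y => z l y.1 - y.2).prod * z l (mul y.1 h)
          - y.2 * (m l * (F.map fun x => b l x.1 - x.2).prod *
            (G.map fun y => z l y.1 - y.2).prod * z l h)) :=
          Finset.sum_congr rfl fun l _ => by simp [hmul]; ring
      _ = 0 := by rw [Finset.sum_sub_distrib, ← Finset.mul_sum, ih, ih, mul_zero, sub_zero]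

variable (b₀ : W → ℂ) (z₀ : H → ℂ)

/-- The systems that agree with `(b₀, z₀)` up to finitely many restricted places. -/
def Close (l : L) : Prop :=
  z l = z₀ ∧ (∀ w, ok w → one w → b l w = b₀ w) ∧
    {w | ok w ∧ b l w ≠ b₀ w}.Finite

include hyp hmul in
open scoped Classical in
/-- **Separation.** -/
theorem sum_close_eq_zero [Nonempty W] {hs : H} (hs0 : z₀ hs ≠ 0) (F : List (W × ℂ))
    (hF : Adm ok one (F.map Prod.fst)) :
    ∑ l ∈ Finset.univ.filter (Close (ok := ok) (one := one) b z b₀ z₀),
      m l * (F.map fun x => b l x.1 - x.2).prod = 0 := by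
  set R := Finset.univ.filter (Close (ok := ok) (one := one) b z b₀ z₀) with hR
  set B0 := Finset.univ.filter (fun l : L => z l ≠ z₀) with hB0
  set B1 := Finset.univ.filter (fun l : L => z l = z₀ ∧ ∃ w, ok w ∧ one w ∧ b l w ≠ b₀ w) with hB1
  set B3 := Finset.univ.filter (fun l : L => z l = z₀ ∧ (∀ w, ok w → one w → b l w = b₀ w) ∧
    ¬ {w | ok w ∧ b l w ≠ b₀ w}.Finite) with hB3
  obtain ⟨w₀⟩ := ‹Nonempty W›
  have hg : ∀ l : B0, ∃ g, z l g ≠ z₀ g := fun l =>
    Function.ne_iff.mp (Finset.mem_filter.mp l.2).2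
  choose g hg using hg
  have hu : ∀ l : B1, ∃ w, ok w ∧ one w ∧ b l w ≠ b₀ w := fun l =>
    (Finset.mem_filter.mp l.2).2.2
  choose u hu using hu
  set X : Set W := {w | w ∈ F.map Prod.fst} ∪ ⋃ l ∈ R, {w | ok w ∧ b l w ≠ b₀ w}
  have hX : X.Finite := (List.finite_toSet _).union
    (R.finite_toSet.biUnion fun l hl => (Finset.mem_filter.mp hl).2.2.2)
  obtain ⟨v, hvinj, hv⟩ := exists_injOn_choice
    (fun l => {w | ok w ∧ ¬ one w ∧ b l w ≠ b₀ w}) B3 (fun l hl hfin => by
      obtain ⟨-, -, h1, h3⟩ := Finset.mem_filter.mp hl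
      exact h3 (hfin.subset fun w hw => ⟨hw.1, fun ho => hw.2 (h1 w hw.1 ho), hw.2⟩)) X hX
    (fun _ => w₀)
  set G : List (H × ℂ) := B0.attach.toList.map fun l => (g l, z l (g l)) with hG
  set F1 : List (W × ℂ) := B1.attach.toList.map fun l => (u l, b l (u l)) with hF1
  set F3 : List (W × ℂ) := B3.toList.map fun l => (v l, b l (v l)) with hF3
  have hadm : Adm ok one ((F ++ (F1 ++ F3)).map Prod.fst) := by
    intro w hw
    have hn1 : w ∈ F1.map Prod.fst → ok w ∧ one w := by
      intro h
      obtain ⟨x, hx, rfl⟩ := List.mem_map.mp h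
      obtain ⟨l, -, rfl⟩ := List.mem_map.mp hx
      exact ⟨(hu l).1, (hu l).2.1⟩
    have hn3 : w ∈ F3.map Prod.fst → ok w ∧ w ∉ F.map Prod.fst := by
      intro h
      obtain ⟨x, hx, rfl⟩ := List.mem_map.mp h
      obtain ⟨l, hl, rfl⟩ := List.mem_map.mp hx
      obtain ⟨⟨h1, -, -⟩, h2⟩ := hv l (Finset.mem_toList.mp hl)
      exact ⟨h1, fun h => h2 (Or.inl h)⟩
    simp only [List.map_append, List.mem_append] at hw
    refine ⟨?_, fun hone => ?_⟩
    · rcases hw with h | h | h
      exacts [(hF w h).1, (hn1 h).1, (hn3 h).1]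
    · have hc1 : (F1.map Prod.fst).count w = 0 :=
        List.count_eq_zero.mpr fun h => hone (hn1 h).2
      simp only [List.map_append, List.count_append, hc1, zero_add]
      have hc3 : (F3.map Prod.fst).count w ≤ 1 := by
        refine List.nodup_iff_count_le_one.mp ?_ w
        rw [hF3, List.map_map]
        exact B3.nodup_toList.map_on fun x hx y hy h =>
          hvinj (Finset.mem_toList.mp hx) (Finset.mem_toList.mp hy) h
      by_cases h3 : w ∈ F3.map Prod.fst
      · rw [List.count_eq_zero.mpr (hn3 h3).2]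
        omega
      · rw [List.count_eq_zero.mpr h3, add_zero]
        by_cases hwF : w ∈ F.map Prod.fst
        · exact (hF w hwF).2 hone
        · rw [List.count_eq_zero.mpr hwF]
          omega
  have key := sum_factors_inf_eq_zero m b z hyp mul hmul _ hadm G hs
  set Γ : ℂ := ((F1 ++ F3).map fun x => b₀ x.1 - x.2).prod * (G.map fun y => z₀ y.1 - y.2).prod *
    z₀ hs with hΓ
  have hΓ0 : Γ ≠ 0 := by
    refine mul_ne_zero (mul_ne_zero (List.prod_ne_zero fun h => ?_) (List.prod_ne_zero fun h => ?_))
      hs0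
    · obtain ⟨x, hx, hx0⟩ := List.mem_map.mp h
      rcases List.mem_append.mp hx with hx | hx <;> obtain ⟨l, hl, rfl⟩ := List.mem_map.mp hx
      · exact (hu l).2.2 (sub_eq_zero.mp hx0).symm
      · exact (hv l (Finset.mem_toList.mp hl)).1.2.2 (sub_eq_zero.mp hx0).symm
    · obtain ⟨y, hy, hy0⟩ := List.mem_map.mp h
      obtain ⟨l, -, rfl⟩ := List.mem_map.mp hy
      exact hg l (sub_eq_zero.mp hy0).symm
  refine (mul_eq_zero.mp ((Finset.sum_mul _ _ Γ).trans ?_)).resolve_right hΓ0
  rw [← key, hR, Finset.sum_filter]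
  refine Finset.sum_congr rfl fun l _ => ?_
  split_ifs with hl
  · have hF13 : ((F1 ++ F3).map fun x => b l x.1 - x.2) =
        (F1 ++ F3).map fun x => b₀ x.1 - x.2 := by
      refine List.map_congr_left fun x hx => ?_
      have : b l x.1 = b₀ x.1 := by
        rcases List.mem_append.mp hx with hx | hx <;> obtain ⟨k, hk, rfl⟩ := List.mem_map.mp hx
        · exact hl.2.1 _ (hu k).1 (hu k).2.1
        · obtain ⟨⟨hok, -, -⟩, hnX⟩ := hv k (Finset.mem_toList.mp hk)
          by_contra hne
          exact hnX (Or.inr (Set.mem_biUnion (Finset.mem_filter.mpr ⟨Finset.mem_univ _, hl⟩)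
            (show v k ∈ {w | ok w ∧ b l w ≠ b₀ w} from ⟨hok, hne⟩)))
      rw [this]
    rw [List.map_append (l₁ := F), List.prod_append, hF13, hl.1, hΓ]
    ring
  · have h0 : ((F1 ++ F3).map fun x => b l x.1 - x.2).prod *
        (G.map fun y => z l y.1 - y.2).prod = 0 := by
      by_cases hz : z l = z₀
      · refine mul_eq_zero_of_left (List.prod_eq_zero ?_) _
        by_cases h1 : ∃ w, ok w ∧ one w ∧ b l w ≠ b₀ w
        · have hl1 : l ∈ B1 := Finset.mem_filter.mpr ⟨Finset.mem_univ _, hz, h1⟩
          exact List.mem_map.mpr ⟨(u ⟨l, hl1⟩, b l (u ⟨l, hl1⟩)), List.mem_append_left _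
            (List.mem_map.mpr ⟨⟨l, hl1⟩, by simp, rfl⟩), sub_self _⟩
        · have h1' : ∀ w, ok w → one w → b l w = b₀ w := fun w hw hw' =>
            not_not.mp fun hne => h1 ⟨w, hw, hw', hne⟩
          have hl3 : l ∈ B3 := Finset.mem_filter.mpr
            ⟨Finset.mem_univ _, hz, h1', fun hfin => hl ⟨hz, h1', hfin⟩⟩
          exact List.mem_map.mpr ⟨(v l, b l (v l)), List.mem_append_right _
            (List.mem_map.mpr ⟨l, Finset.mem_toList.mpr hl3, rfl⟩), sub_self _⟩
      · have hl0 : l ∈ B0 := Finset.mem_filter.mpr ⟨Finset.mem_univ _, hz⟩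
        exact mul_eq_zero_of_right _ (List.prod_eq_zero (List.mem_map.mpr
          ⟨(g ⟨l, hl0⟩, z l (g ⟨l, hl0⟩)), List.mem_map.mpr ⟨⟨l, hl0⟩, by simp, rfl⟩, sub_self _⟩))
    rw [List.map_append (l₁ := F), List.prod_append]
    linear_combination (-(m l * (F.map fun x => b l x.1 - x.2).prod * z l hs)) * h0

end Expand

end FLTAgent.LanglandsTunnell.Isolation
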