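import Fermat.Agent.LanglandsTunnell.Isolation.Weights

/-!
# Operators at infinity: separation, spherical parameter zero, complex weights

A function on which every product of point pair invariants acts by the product of the spherical
values is spherical with parameter zero; likewise for cubes on a single copy of the space.
-/

set_option autoImplicit false

noncomputable section

namespace FLTAgent.LanglandsTunnell.Isolation

open FLTAgent.LanglandsTunnell MeasureTheory NumberField Filter Function
open FLTAgent.LanglandsTunnell.Killing (infApply infOp infKer volPi WeightsOK cconv tent)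
open FLTAgent.LanglandsTunnell.Trace (continuous_coshDist exists_radius isCompact_ball
  continuous_h3conv hasCompactSupport_h3conv)
open scoped ComplexConjugate Topology

variable {F : Type} [Field F] [NumberField F] {ι : Type} [Fintype ι] {n : Ideal (𝓞 F)}

/-! ### Separation -/

/-- Small hyperbolic balls lie in a given neighbourhood. -/
theorem exists_ball_subset {P : ι → H3} {U : Set (ι → H3)} (hU : IsOpen U) (hP : P ∈ U) :
    ∃ δ : ℝ, 0 < δ ∧ ∀ Q, (∀ i, H3.coshDist (P i) (Q i) < 1 + δ) → Q ∈ U := by
  classical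
  have hcomp : IsCompact ((Set.univ.pi fun i => {Q | H3.coshDist (P i) Q ≤ 2}) ∩ Uᶜ) :=
    (isCompact_univ_pi fun i => isCompact_ball (P i) 2).inter_right hU.isClosed_compl
  set K := (Set.univ.pi fun i => {Q | H3.coshDist (P i) Q ≤ 2}) ∩ Uᶜ with hK
  have hcont : Continuous fun Q : ι → H3 => ∑ i, (H3.coshDist (P i) (Q i) - 1) :=
    continuous_finsetSum _ fun i _ => (continuous_coshDist (f := fun _ : ι → H3 => P i)
      (g := fun Q => Q i) continuous_const (continuous_apply i)).sub continuous_const
  rcases K.eq_empty_or_nonempty with he | hne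
  · refine ⟨1, one_pos, fun Q hQ => ?_⟩
    by_contra h
    exact Set.notMem_empty Q (he ▸ (⟨fun i _ => show _ ≤ (2 : ℝ) by linarith [hQ i], h⟩ : Q ∈ K))
  · obtain ⟨Q₀, hQ₀, hmin⟩ := hcomp.exists_isMinOn hne hcont.continuousOn
    set m := ∑ i, (H3.coshDist (P i) (Q₀ i) - 1) with hm
    have hmpos : 0 < m := by
      refine (Finset.sum_nonneg fun i _ => sub_nonneg.mpr (H3.one_le_coshDist _ _)).lt_of_ne
        fun h0 => hQ₀.2 ?_
      have h1 := (Finset.sum_eq_zero_iff_of_nonneg
        (fun i _ => sub_nonneg.mpr (H3.one_le_coshDist _ _))).mp h0.symm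
      have e : Q₀ = P := funext fun i => by
        have h2 := sub_eq_zero.mp (h1 i (Finset.mem_univ i))
        have hd : (0 : ℝ) < 2 * (P i).t * (Q₀ i).t :=
          mul_pos (mul_pos two_pos (P i).t_pos) (Q₀ i).t_pos
        rw [H3.coshDist, div_eq_one_iff_eq hd.ne'] at h2
        have h3 : ‖(P i).z - (Q₀ i).z‖ ^ 2 + ((P i).t - (Q₀ i).t) ^ 2 = 0 := by linarith
        rw [add_eq_zero_iff_of_nonneg (sq_nonneg _) (sq_nonneg _), sq_eq_zero_iff, norm_eq_zero,
          sq_eq_zero_iff, sub_eq_zero, sub_eq_zero] at h3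
        exact H3.ext h3.1.symm h3.2.symm
      rw [e]; exact hP
    refine ⟨min 1 (m / (Fintype.card ι + 1)), lt_min one_pos (by positivity), fun Q hQ => ?_⟩
    by_contra h
    have hle : m ≤ ∑ i, (H3.coshDist (P i) (Q i) - 1) := hmin (a := Q)
      ⟨fun i _ => show _ ≤ (2 : ℝ) by linarith [hQ i, min_le_left 1 (m / (Fintype.card ι + 1))], h⟩
    have hsum : ∑ i, (H3.coshDist (P i) (Q i) - 1) ≤ ∑ _i : ι, m / (Fintype.card ι + 1) :=
      Finset.sum_le_sum fun i _ => by
        linarith [hQ i, min_le_right 1 (m / (Fintype.card ι + 1))]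
    rw [Finset.sum_const, Finset.card_univ, nsmul_eq_mul] at hsum
    have h4 : (Fintype.card ι : ℝ) * (m / (Fintype.card ι + 1)) < m := by
      rw [mul_div_assoc', div_lt_iff₀ (by positivity)]
      nlinarith
    linarith

omit [NumberField F] in
/-- Invariants at infinity separate continuous functions. -/
theorem exists_infApply_ne_zero {f : Pt F ι n → ℂ}
    (hf : ∀ v, Continuous fun P : ι → H3 => f (v, P)) (h0 : f ≠ 0) :
    ∃ h : ι → ℝ → ℝ, GoodW h ∧ infApply (cw h) f ≠ 0 := by
  have := isOpenPosMeasure_volH3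
  have : SigmaFinite H3.volH3 := H3.sigmaFinite_volH3
  obtain ⟨⟨v, P⟩, hx⟩ := Function.ne_iff.mp h0
  simp only [Pi.zero_apply] at hx
  set ψ : (ι → H3) → ℝ := fun Q => (conj (f (v, P)) * f (v, Q)).re with hψ
  have hψc : Continuous ψ := Complex.continuous_re.comp (continuous_const.mul (hf v))
  have hψ0 : 0 < ψ P := by
    simp only [hψ, Complex.conj_mul', ← Complex.ofReal_pow, Complex.ofReal_re]
    positivity
  obtain ⟨δ, hδ, hball⟩ := exists_ball_subset (isOpen_lt continuous_const hψc) hψ0
  set b : ℝ → ℝ := fun c => max 0 (δ - |c - 1|) with hb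
  have hbc : Continuous b :=
    continuous_const.max (continuous_const.sub ((continuous_id.sub continuous_const).abs))
  have hbs : HasCompactSupport b := by
    refine HasCompactSupport.intro (isCompact_Icc (a := 1 - δ) (b := 1 + δ)) fun c hc => ?_
    refine max_eq_left (sub_nonpos.mpr ?_)
    by_contra hlt
    rw [not_le, abs_lt] at hlt
    exact hc ⟨by linarith, by linarith⟩
  have hgood : GoodW fun _ : ι => b := fun _ => ⟨hbc, hbs⟩
  refine ⟨fun _ => b, hgood, fun h => ?_⟩
  have hI := congrFun h (v, P)
  simp only [infApply, infOp, Pi.zero_apply] at hI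
  set g : (ι → H3) → ℝ := fun Q => (∏ i, b (H3.coshDist (P i) (Q i))) * ψ Q with hg
  have hgc : Continuous g := (continuous_finsetProd _ fun i _ => hbc.comp (continuous_coshDist
    (f := fun _ : ι → H3 => P i) (g := fun Q => Q i) continuous_const (continuous_apply i))).mul hψc
  have hgs : HasCompactSupport g := by
    refine HasCompactSupport.intro (isCompact_univ_pi fun i => isCompact_ball (P i) (1 + δ))
      fun Q hQ => ?_
    obtain ⟨i, hi⟩ : ∃ i, 1 + δ < H3.coshDist (P i) (Q i) := by
      by_contra hne
      push Not at hne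
      exact hQ fun i _ => hne i
    have hbi : b (H3.coshDist (P i) (Q i)) = 0 := by
      refine max_eq_left ?_
      rw [abs_of_nonneg (by linarith)]
      linarith
    exact mul_eq_zero_of_left
      (Finset.prod_eq_zero (f := fun i => b (H3.coshDist (P i) (Q i))) (Finset.mem_univ i) hbi) _
  have hg0 : 0 ≤ g := fun Q => by
    by_cases hz : (∏ i, b (H3.coshDist (P i) (Q i))) = 0
    · simp [hg, hz]
    · refine mul_nonneg (Finset.prod_nonneg fun i _ => le_max_left _ _) (hball Q fun i => ?_).le
      have hi := Finset.prod_ne_zero_iff.mp hz i (Finset.mem_univ i)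
      by_contra hle
      refine hi (max_eq_left ?_)
      rw [not_lt] at hle
      rw [abs_of_nonneg (by linarith)]
      linarith
  have hgP : g P ≠ 0 := by
    refine mul_ne_zero (Finset.prod_ne_zero_iff.mpr fun i _ => ne_of_gt ?_) hψ0.ne'
    refine lt_max_of_lt_right ?_
    have hPi : H3.coshDist (P i) (P i) = 1 := by
      have := (P i).t_pos
      simp [H3.coshDist]
      field_simp
      ring
    simp [hPi, hδ]
  have hpos := hgc.integral_pos_of_hasCompactSupport_nonneg_nonzero (μ := volPi ι) hgs hg0 hgP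
  refine hpos.ne' ?_
  have hint := Killing.integrable_infKer_mul hgood.weightsOK (hf v).locallyIntegrable P
  have h1 : ∫ Q, conj (f (v, P)) * (infKer (cw fun _ : ι => b) P Q * f (v, Q)) ∂volPi ι = 0 := by
    rw [integral_const_mul, hI, mul_zero]
  have h2 := congrArg RCLike.re h1
  rw [← integral_re (hint.const_mul _), map_zero] at h2
  refine Eq.trans (integral_congr_ae (Eventually.of_forall fun Q => ?_)) h2
  simp only [hg, hψ, infKer, cw, ← Complex.ofReal_prod]
  rw [mul_left_comm]
  exact (Complex.re_ofReal_mul _ _).symm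

/-! ### Composition and merging -/

omit [NumberField F] in
theorem infApply_infApply {g g' : ι → ℝ → ℂ} (hg : WeightsOK g) (hg' : WeightsOK g')
    {f : Pt F ι n → ℂ} (hf : ∀ v, Continuous fun P : ι → H3 => f (v, P)) :
    infApply g (infApply g' f) = infApply (fun i => h3conv (g i) (g' i)) f := by
  funext x
  show infOp g (infOp g' fun Q => f (x.1, Q)) x.2 = _
  rw [Killing.infOp_infOp hg hg' (hf x.1).locallyIntegrable]
  exact integral_congr_ae (Eventually.of_forall fun Q => by
    simp only [infKer, Killing.cconv_eq _ _ (H3.one_le_coshDist _ _)])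

omit [NumberField F] in
theorem infApply_mul_left (g : ι → ℝ → ℂ) (c : ℂ) (f : Pt F ι n → ℂ) :
    infApply g (fun x => c * f x) = fun x => c * infApply g f x := by
  funext x
  simp only [infApply, infOp, ← integral_const_mul]
  exact integral_congr_ae (Eventually.of_forall fun Q => by ring)

/-- An invariant in one coordinate merges into an operator. -/
theorem integral_update_infOp [DecidableEq ι] (i : ι) {k : ℝ → ℂ} (hk : Continuous k)
    (hks : HasCompactSupport k) {g : ι → ℝ → ℂ} (hg : WeightsOK g) {ψ : (ι → H3) → ℂ}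
    (hψ : Continuous ψ) (P : ι → H3) :
    ∫ Q, k (H3.coshDist (P i) Q) * infOp g ψ (update P i Q) ∂H3.volH3 =
      infOp (update g i (h3conv k (g i))) ψ P := by
  have : SigmaFinite H3.volH3 := H3.sigmaFinite_volH3
  obtain ⟨B, hB⟩ := exists_radius hks
  have hupd : Continuous fun Q : H3 => update P i Q := continuous_const.update i continuous_id
  obtain ⟨K, hK, hK0⟩ := Killing.exists_support (fun j => (hg j).2)
    ((isCompact_ball (P i) B).image hupd)
  set G : H3 × (ι → H3) → ℂ := fun p =>
    k (H3.coshDist (P i) p.1) * (infKer g (update P i p.1) p.2 * ψ p.2) with hG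
  have hGc : Continuous G := (hk.comp (continuous_coshDist (f := fun _ : H3 × (ι → H3) => P i)
    (g := fun p => p.1) continuous_const continuous_fst)).mul
      (((Killing.continuous_infKer fun j => (hg j).1).comp
        ((hupd.comp continuous_fst).prodMk continuous_snd)).mul (hψ.comp continuous_snd))
  have hGs : HasCompactSupport G := by
    refine HasCompactSupport.intro ((isCompact_ball (P i) B).prod hK) fun p hp => ?_
    by_contra hne
    simp only [hG, mul_eq_zero, not_or] at hne
    exact hne.2.1 (hK0 _ ⟨p.1, hB _ _ hne.1, rfl⟩ p.2 fun h2 => hp ⟨hB _ _ hne.1, h2⟩)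
  have hGi : Integrable G (H3.volH3.prod (volPi ι)) := hGc.integrable_of_hasCompactSupport hGs
  simp only [infOp, ← integral_const_mul]
  rw [integral_integral_swap hGi]
  refine integral_congr_ae (Eventually.of_forall fun R => ?_)
  simp only [← mul_assoc, integral_mul_const]
  congr 1
  simp only [infKer, ← Finset.mul_prod_erase Finset.univ _ (Finset.mem_univ i), update_self]
  have he : ∀ Q, ∏ j ∈ Finset.univ.erase i, g j (H3.coshDist (update P i Q j) (R j)) =
      ∏ j ∈ Finset.univ.erase i, update g i (h3conv k (g i)) j (H3.coshDist (P j) (R j)) := fun Q =>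
    Finset.prod_congr rfl fun j hj => by
      rw [update_of_ne (Finset.ne_of_mem_erase hj), update_of_ne (Finset.ne_of_mem_erase hj)]
  simp only [he, ← mul_assoc, integral_mul_const]
  rw [← Killing.cconv_coshDist, Killing.cconv_eq _ _ (H3.one_le_coshDist _ _)]

/-! ### Parameter zero -/

/-- The real convolution. -/
def rconv (a b : ℝ → ℝ) (c : ℝ) : ℝ := (h3conv (fun x => (a x : ℂ)) (fun x => (b x : ℂ)) c).re

theorem ofReal_rconv (a b : ℝ → ℝ) (c : ℝ) :
    (rconv a b c : ℂ) = h3conv (fun x => (a x : ℂ)) (fun x => (b x : ℂ)) c := by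
  refine Complex.conj_eq_iff_re.mp ?_
  rw [Killing.conj_h3conv]
  simp only [Complex.conj_ofReal]

theorem rconv_nonneg {a b : ℝ → ℝ} (ha : ∀ x, 0 ≤ a x) (hb : ∀ x, 0 ≤ b x) (c : ℝ) :
    0 ≤ rconv a b c := by
  simp only [rconv, h3conv, ← Complex.ofReal_mul, integral_complex_ofReal, Complex.ofReal_re]
  exact mul_nonneg (unitClamp_nonneg c) (integral_nonneg fun Q => mul_nonneg (ha _) (hb _))

theorem good_rconv {a b : ℝ → ℝ} (ha : Continuous a) (has : HasCompactSupport a)
    (hb : Continuous b) (hbs : HasCompactSupport b) :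
    Continuous (rconv a b) ∧ HasCompactSupport (rconv a b) :=
  ⟨Complex.continuous_re.comp (continuous_h3conv (Complex.continuous_ofReal.comp ha)
      (has.comp_left Complex.ofReal_zero) (Complex.continuous_ofReal.comp hb)),
    (hasCompactSupport_h3conv (has.comp_left Complex.ofReal_zero)
      (hbs.comp_left Complex.ofReal_zero)).comp_left (g := Complex.re) Complex.zero_re⟩

theorem sphValue_nonneg {a : ℝ → ℝ} (ha : ∀ x, 0 ≤ a x) : 0 ≤ sphValue a :=
  mul_nonneg (by positivity) (setIntegral_nonneg measurableSet_Ioi fun r hr =>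
    mul_nonneg (mul_nonneg (ha _) (le_of_lt hr)) (Real.sinh_nonneg_iff.mpr (le_of_lt hr)))

omit [Fintype ι] in
theorem goodW_tent : GoodW fun _ : ι => tent := fun _ =>
  ⟨Killing.continuous_tent, Killing.hasCompactSupport_tent⟩

omit [NumberField F] in
/-- Products of invariants acting by products of spherical values force parameter zero. -/
theorem sphericalZero_of_prod [DecidableEq ι] {f : Pt F ι n → ℂ}
    (hf : ∀ v, Continuous fun P : ι → H3 => f (v, P))
    (h : ∀ h, GoodW h → ∀ x, infApply (cw h) f x = (∏ i, (sphValue (h i) : ℂ)) * f x) :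
    SphericalZero f := by
  intro i k hk hks v P
  by_cases hz : f = 0
  · simp [hz]
  obtain ⟨y, hy⟩ := Function.ne_iff.mp hz
  simp only [Pi.zero_apply] at hy
  set τ := sphValue tent with hτdef
  have hτ : 0 < τ := Killing.sphValue_tent_pos
  have comp : ∀ a b : ι → ℝ → ℝ, GoodW a → GoodW b →
      ∏ j, sphValue (rconv (a j) (b j)) = (∏ j, sphValue (a j)) * ∏ j, sphValue (b j) := by
    intro a b ha hb
    have hr : GoodW fun j => rconv (a j) (b j) := fun j =>
      good_rconv (ha j).1 (ha j).2 (hb j).1 (hb j).2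
    have h1 := congrFun (infApply_infApply ha.weightsOK hb.weightsOK hf) y
    rw [show infApply (cw b) f = fun x => (∏ j, (sphValue (b j) : ℂ)) * f x from funext (h b hb),
      infApply_mul_left] at h1
    simp only [h a ha] at h1
    rw [show (fun j => h3conv (cw a j) (cw b j)) = cw fun j => rconv (a j) (b j) from
        funext fun j => funext fun c => (ofReal_rconv (a j) (b j) c).symm, h _ hr] at h1
    exact_mod_cast mul_right_cancel₀ hy
      (show (∏ j, (sphValue (rconv (a j) (b j)) : ℂ)) * f y =
        ((∏ j, (sphValue (a j) : ℂ)) * ∏ j, (sphValue (b j) : ℂ)) * f y by linear_combination -h1)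
  set s := sphValue (rconv tent tent) with hs
  have ht0 : ∀ x, 0 ≤ tent x := fun x => le_max_left _ _
  have hcard : Fintype.card ι ≠ 0 := haveI : Nonempty ι := ⟨i⟩; Fintype.card_ne_zero
  have hs2 : s = τ * τ := by
    have := comp _ _ (goodW_tent (ι := ι)) goodW_tent
    simp only [Finset.prod_const, Finset.card_univ, ← mul_pow] at this
    exact (pow_left_inj₀ (sphValue_nonneg fun x => rconv_nonneg ht0 ht0 x) (by positivity)
      hcard).mp this
  have hgk : GoodW (update (fun _ : ι => tent) i k) := fun j => by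
    rcases eq_or_ne j i with rfl | hj
    · rw [update_self]; exact ⟨hk, hks⟩
    · rw [update_of_ne hj]; exact goodW_tent j
  have hkt : sphValue (rconv k tent) = sphValue k * τ := by
    have := comp _ _ hgk (goodW_tent (ι := ι))
    rw [← Finset.mul_prod_erase Finset.univ _ (Finset.mem_univ i),
      ← Finset.mul_prod_erase Finset.univ (fun j => sphValue (update (fun _ : ι => tent) i k j))
        (Finset.mem_univ i),
      ← Finset.mul_prod_erase Finset.univ (fun _ => sphValue tent) (Finset.mem_univ i),
      update_self] at this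
    have e1 : ∏ j ∈ Finset.univ.erase i, sphValue (rconv (update (fun _ : ι => tent) i k j) tent) =
        ∏ _j ∈ Finset.univ.erase i, τ * τ := Finset.prod_congr rfl fun j hj => by
      rw [update_of_ne (Finset.ne_of_mem_erase hj), ← hs, hs2]
    have e2 : ∏ j ∈ Finset.univ.erase i, sphValue (update (fun _ : ι => tent) i k j) =
        ∏ _j ∈ Finset.univ.erase i, τ := Finset.prod_congr rfl fun j hj => by
      rw [update_of_ne (Finset.ne_of_mem_erase hj)]
    rw [e1, e2, Finset.prod_mul_distrib, Finset.prod_const, ← hτdef] at this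
    refine mul_right_cancel₀ (mul_ne_zero (pow_ne_zero (Finset.univ.erase i).card hτ.ne')
      (pow_ne_zero (Finset.univ.erase i).card hτ.ne')) ?_
    linear_combination this
  have hm : GoodW (update (fun _ : ι => tent) i (rconv k tent)) := fun j => by
    rcases eq_or_ne j i with rfl | hj
    · rw [update_self]
      exact good_rconv hk hks Killing.continuous_tent Killing.hasCompactSupport_tent
    · rw [update_of_ne hj]; exact goodW_tent j
  have hC : (∏ _j : ι, (τ : ℂ)) ≠ 0 :=
    Finset.prod_ne_zero_iff.mpr fun _ _ => Complex.ofReal_ne_zero.mpr hτ.ne'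
  have he : ∀ Q, f (v, Q) = (∏ _j : ι, (τ : ℂ))⁻¹ *
      infOp (cw fun _ : ι => tent) (fun R => f (v, R)) Q := fun Q => by
    rw [show infOp (cw fun _ : ι => tent) (fun R => f (v, R)) Q = _ from h _ goodW_tent (v, Q),
      ← mul_assoc, inv_mul_cancel₀ hC, one_mul]
  have hmerge := integral_update_infOp i (k := fun c => (k c : ℂ))
    (Complex.continuous_ofReal.comp hk) (hks.comp_left Complex.ofReal_zero)
    goodW_tent.weightsOK (hf v) P
  have hw : update (cw fun _ : ι => tent) i
      (h3conv (fun c => (k c : ℂ)) (cw (fun _ : ι => tent) i)) =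
        cw (update (fun _ : ι => tent) i (rconv k tent)) := by
    funext j c
    rcases eq_or_ne j i with rfl | hj
    · rw [update_self, cw, update_self]
      exact (ofReal_rconv k tent c).symm
    · simp [cw, update_of_ne hj]
  rw [hw] at hmerge
  calc ∫ Q, (k (H3.coshDist (P i) Q) : ℂ) * f (v, update P i Q) ∂H3.volH3
      = (∏ _j : ι, (τ : ℂ))⁻¹ * ∫ Q, (k (H3.coshDist (P i) Q) : ℂ) *
          infOp (cw fun _ : ι => tent) (fun R => f (v, R)) (update P i Q) ∂H3.volH3 := by
        rw [← integral_const_mul]
        exact integral_congr_ae (Eventually.of_forall fun Q => by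
          simp only
          rw [he (update P i Q)]
          ring)
    _ = (∏ _j : ι, (τ : ℂ))⁻¹ *
          ((∏ j, (sphValue (update (fun _ : ι => tent) i (rconv k tent) j) : ℂ)) * f (v, P)) := by
        rw [hmerge]
        exact congrArg _ (h _ hm (v, P))
    _ = (sphValue k : ℂ) * f (v, P) := by
        have e3 : (∏ j, (sphValue (update (fun _ : ι => tent) i (rconv k tent) j) : ℂ)) =
            (sphValue k : ℂ) * ∏ _j : ι, (τ : ℂ) := by
          rw [← Finset.mul_prod_erase Finset.univ _ (Finset.mem_univ i), update_self, hkt,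
            ← Finset.mul_prod_erase Finset.univ (fun _ => (τ : ℂ)) (Finset.mem_univ i),
            Complex.ofReal_mul, mul_assoc]
          exact congrArg _ (congrArg _ (Finset.prod_congr rfl fun j hj => by
            rw [update_of_ne (Finset.ne_of_mem_erase hj)]))
        rw [e3]
        field_simp

omit [NumberField F] in
/-- On one copy, real eigenvalues with the correct cubes force parameter zero. -/
theorem sphericalZero_of_cube {f : Pt F Unit n → ℂ}
    (hf : ∀ v, Continuous fun P : Unit → H3 => f (v, P))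
    (hr : ∀ h : Unit → ℝ → ℝ, GoodW h → ∃ r : ℝ, infApply (cw h) f = fun x => (r : ℂ) * f x)
    (h : ∀ h : Fin 3 → ℝ → ℝ, GoodW h → ∀ x,
      infApply (fun _ : Unit => h3conv (h3conv (cw h 0) (cw h 1)) (cw h 2)) f x =
        (∏ i, (sphValue (h i) : ℂ)) * f x) :
    SphericalZero f := by
  by_cases hz : f = 0
  · intro i k _ _ v P
    simp [hz]
  obtain ⟨y, hy⟩ := Function.ne_iff.mp hz
  simp only [Pi.zero_apply] at hy
  refine sphericalZero_of_prod hf fun g hg x => ?_
  obtain ⟨r, hgr⟩ := hr g hg
  have hw := hg.weightsOK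
  have h2 : WeightsOK fun i => h3conv (cw g i) (cw g i) := fun i =>
    ⟨continuous_h3conv (hw i).1 (hw i).2 (hw i).1, hasCompactSupport_h3conv (hw i).2 (hw i).2⟩
  have e3 : infApply (fun i => h3conv (h3conv (cw g i) (cw g i)) (cw g i)) f y =
      (r : ℂ) * r * r * f y := by
    rw [← infApply_infApply h2 hw hf, hgr, infApply_mul_left, ← infApply_infApply hw hw hf, hgr,
      infApply_mul_left, hgr]
    ring
  have hc := h (fun _ => g ()) (fun _ => hg ()) y
  simp only [Fin.prod_univ_three] at hc
  rw [show (fun i : Unit => h3conv (h3conv (cw g i) (cw g i)) (cw g i)) = fun _ : Unit =>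
      h3conv (h3conv (cw (fun _ : Fin 3 => g ()) 0) (cw (fun _ : Fin 3 => g ()) 1))
        (cw (fun _ : Fin 3 => g ()) 2) from rfl, hc] at e3
  have e4 : sphValue (g ()) ^ 3 = r ^ 3 := by
    exact_mod_cast mul_right_cancel₀ hy
        (show ((sphValue (g ()) : ℂ)) ^ 3 * f y = (r : ℂ) ^ 3 * f y by
      linear_combination e3)
  rw [hgr]
  show (r : ℂ) * f x = _
  rw [← Odd.pow_inj (⟨1, rfl⟩ : Odd 3) |>.mp e4]
  simp

/-! ### Complex weights -/

/-- The spherical value of a complex weight. -/
def csph (k : ℝ → ℂ) : ℂ :=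
  (sphValue fun c => (k c).re : ℂ) + Complex.I * (sphValue fun c => (k c).im : ℂ)

theorem integral_csph {N : ℕ} {ψ : (Fin N → H3) → ℂ} (hψ : Continuous ψ)
    (hsph : ∀ (i : Fin N) (k : ℝ → ℝ), Continuous k → HasCompactSupport k → ∀ P,
      ∫ Q, (k (H3.coshDist (P i) Q) : ℂ) * ψ (update P i Q) ∂H3.volH3 = (sphValue k : ℂ) * ψ P)
    (i : Fin N) {k : ℝ → ℂ} (hk : Continuous k) (hks : HasCompactSupport k) (P : Fin N → H3) :
    ∫ Q, k (H3.coshDist (P i) Q) * ψ (update P i Q) ∂H3.volH3 = csph k * ψ P := by
  obtain ⟨B, hB⟩ := exists_radius hks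
  have hc : Continuous fun Q : H3 => H3.coshDist (P i) Q :=
    continuous_coshDist continuous_const continuous_id
  have hint : ∀ g : ℂ → ℝ, Continuous g → g 0 = 0 →
      Integrable (fun Q => (g (k (H3.coshDist (P i) Q)) : ℂ) * ψ (update P i Q)) H3.volH3 := by
    intro g hg hg0
    refine Continuous.integrable_of_hasCompactSupport ((Complex.continuous_ofReal.comp
      (hg.comp (hk.comp hc))).mul (hψ.comp (continuous_const.update i continuous_id))) ?_
    refine HasCompactSupport.intro (isCompact_ball (P i) B) fun Q hQ => ?_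
    have hk0 : k (H3.coshDist (P i) Q) = 0 := by_contra fun h => hQ (hB _ _ h)
    simp [hk0, hg0]
  rw [integral_congr_ae (Eventually.of_forall fun Q => show
      k (H3.coshDist (P i) Q) * ψ (update P i Q) =
        ((k (H3.coshDist (P i) Q)).re : ℂ) * ψ (update P i Q) +
          Complex.I * (((k (H3.coshDist (P i) Q)).im : ℂ) * ψ (update P i Q)) by
      conv_lhs => rw [← Complex.re_add_im (k (H3.coshDist (P i) Q))]
      ring),
    integral_add (hint _ Complex.continuous_re Complex.zero_re)
      ((hint _ Complex.continuous_im Complex.zero_im).const_mul _), integral_const_mul,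
    hsph i (fun c => (k c).re) (Complex.continuous_re.comp hk) (hks.comp_left Complex.zero_re) P,
    hsph i (fun c => (k c).im) (Complex.continuous_im.comp hk) (hks.comp_left Complex.zero_im) P,
    csph]
  ring

/-- Products of complex invariants act on spherical functions by scalars. -/
theorem infOp_csph {N : ℕ} (ψ : (Fin N → H3) → ℂ) (hψ : Continuous ψ)
    (hsph : ∀ (i : Fin N) (k : ℝ → ℝ), Continuous k → HasCompactSupport k → ∀ P,
      ∫ Q, (k (H3.coshDist (P i) Q) : ℂ) * ψ (update P i Q) ∂H3.volH3 = (sphValue k : ℂ) * ψ P)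
    (g : Fin N → ℝ → ℂ) (hg : Killing.WeightsOK g) (P : Fin N → H3) :
    infOp g ψ P = (∏ i, csph (g i)) * ψ P :=
  Killing.infOp_scalar ψ hψ g hg _ (fun i P => integral_csph hψ hsph i (hg i).1 (hg i).2 P) P

section Eigen

variable {N : ℕ} {f : Pt F (Fin N) n → ℂ} {a : Ideal (𝓞 F) → ℂ}

/-- The scalar of a combination with complex weights. -/
theorem op_eigen_complex (hf : ∀ v, Continuous fun P : Fin N → H3 => f (v, P))
    (hs : SphericalZero f)
    (ha : ∀ w : Ideal (𝓞 F), w.IsPrime → w ≠ ⊥ → ¬ w ∣ n → HeckeEigen f w (a w))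
    (hn : n ≠ ⊥) {C : Comb F (Fin N)} (hC : Killing.Fine n C) (x : Pt F (Fin N) n) :
    Kernel.op (C.kernel n) f x =
      (C.map fun T => T.coeff * Killing.wordEigen a T.word * ∏ i, csph (T.inf i)).sum * f x := by
  rw [Killing.op_kernel hn hC (Killing.LocI.of_continuous hf), ← List.sum_map_mul_right]
  refine congrArg List.sum (List.map_congr_left fun T hT => ?_)
  have e : ∀ u, infOp T.inf (fun Q => f (u, Q)) x.2 = (∏ i, csph (T.inf i)) * f (u, x.2) :=
    fun u => infOp_csph _ (hf u) (fun i k hc hks P => hs i k hc hks u P) T.inf (hC T hT).1 x.2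
  simp only [e, Killing.wordSum_const_mul, Killing.wordSum_eigen hn ha (hC T hT).2]
  ring

end Eigen

/-! ### Joint eigenbasis -/

/-- Commuting symmetric operators have a joint orthonormal eigenbasis with real eigenvalues. -/
theorem exists_joint_eigenbasis {E : Type} [NormedAddCommGroup E] [InnerProductSpace ℂ E]
    [FiniteDimensional ℂ E] {κ : Type} (T : κ → E →ₗ[ℂ] E) (hT : ∀ k, (T k).IsSymmetric)
    (hC : ∀ k l, Commute (T k) (T l)) :
    ∃ (m : ℕ) (e : OrthonormalBasis (Fin m) ℂ E) (θ : κ → Fin m → ℝ),
      ∀ k j, T k (e j) = (θ k j : ℂ) • e j := by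
  classical
  set V : (κ → ℂ) → Submodule ℂ E := fun γ => ⨅ k, Module.End.eigenspace (T k) (γ k) with hV
  have hsup : ⨆ γ, V γ = ⊤ :=
    LinearMap.IsSymmetric.iSup_iInf_eq_top_of_commute hT fun k l _ => hC k l
  obtain ⟨s, hs⟩ := CompleteLattice.IsCompactElement.exists_finset_of_le_iSup (Submodule ℂ E)
    ((Submodule.fg_iff_compact ⊤).mp Module.Finite.fg_top) V hsup.ge
  rw [iSup_subtype'] at hs
  have hO : OrthogonalFamily ℂ (fun γ : s => V γ) fun γ : s => (V γ).subtypeₗᵢ :=
    (LinearMap.IsSymmetric.orthogonalFamily_iInf_eigenspaces hT).comp Subtype.val_injective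
  have hint : DirectSum.IsInternal fun γ : s => V γ := by
    rw [hO.isInternal_iff, top_unique hs, Submodule.top_orthogonal_eq_bot]
  set e := hint.subordinateOrthonormalBasis (rfl : Module.finrank ℂ E = _) hO
  set γ : Fin (Module.finrank ℂ E) → κ → ℂ := fun j =>
    Subtype.val (hint.subordinateOrthonormalBasisIndex (rfl : Module.finrank ℂ E = _) j hO)
  have hmem : ∀ j k, T k (e j) = γ j k • e j := fun j k =>
    Module.End.mem_eigenspace_iff.mp ((Submodule.mem_iInf _).mp
      (hint.subordinateOrthonormalBasis_subordinate (rfl : Module.finrank ℂ E = _) j hO) k)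
  have hreal : ∀ j k, ((γ j k).re : ℂ) = γ j k := fun j k =>
    Complex.conj_eq_iff_re.mp ((hT k).conj_eigenvalue_eq_self
      (Module.End.hasEigenvalue_of_hasEigenvector
        ⟨Module.End.mem_eigenspace_iff.mpr (hmem j k), e.orthonormal.ne_zero j⟩))
  exact ⟨_, e, fun k j => (γ j k).re, fun k j => by rw [hreal, hmem]⟩

end FLTAgent.LanglandsTunnell.Isolation
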