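import Fermat.Agent.LanglandsTunnell.Isolation.Systems
import Fermat.Agent.LanglandsTunnell.Isolation.Infinity

/-!
# Existence of joint systems

The combinations with one prime and real weights are commuting symmetric operators on the
eigenspace of a killing combination.
-/

set_option autoImplicit false

noncomputable section

namespace FLTAgent.LanglandsTunnell.Isolation

open FLTAgent.LanglandsTunnell MeasureTheory NumberField
open FLTAgent.LanglandsTunnell.Killing (WeightsOK infApply infOp wordSum wordSum_cons wordSum_nil)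
open scoped InnerProductSpace ComplexConjugate

variable {F : Type} [Field F] [NumberField F] {ι : Type} [Fintype ι] {n : Ideal (𝓞 F)}
  {Φ : PlaceChoice F ι} {d : Side Φ n} {ok : Ideal (𝓞 F) → Prop}

omit [NumberField F] [Fintype ι] in
theorem good_term1 {ws : List (Ideal (𝓞 F))} {h : ι → ℝ → ℝ} (hh : GoodW h)
    (hws : ∀ w ∈ ws, ok w) : Comb.Good ok ([term1 1 ws h] : Comb F ι) := fun T hT => by
  rw [List.mem_singleton] at hT
  subst hT
  exact ⟨hh.weightsOK, hws⟩

/-- At most one prime and real weights: the kernel is hermitian. -/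
theorem kernel_term1_symm (hn : n ≠ ⊥) {ws : List (Ideal (𝓞 F))} {h : ι → ℝ → ℝ} (hh : GoodW h)
    (hws : ∀ w ∈ ws, Killing.OKPrime n w) (hr : ws.reverse = ws) (x y : Pt F ι n) :
    Comb.kernel n [term1 1 ws h] y x = conj (Comb.kernel n [term1 1 ws h] x y) := by
  rw [← Killing.kernel_adjoint hn (good_term1 hh hws) x y]
  simp [Killing.adjoint, term1, cw, hr]
  rfl

/-- The values at infinity of a system are real. -/
theorem Systems.conj_z (hT : ∀ A : Comb F ι, A.Good ok → d.Tested A) (s : Systems d ok)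
    (j : Fin s.m) {h : ι → ℝ → ℝ} (hh : GoodW h) : conj (s.z j h) = s.z j h := by
  have hA := hT [term1 1 [] h] (good_term1 hh (by simp))
  have hsym := hA.isSymmetric_opV (kernel_term1_symm d.hn hh (by simp) rfl)
  refine hsym.conj_eigenvalue_eq_self (Module.End.hasEigenvalue_of_hasEigenvector
    ⟨Module.End.mem_eigenspace_iff.mpr (d.efun_injective ?_), s.e.orthonormal.ne_zero j⟩)
  rw [hA.efun_opV, d.efun_smul]
  funext x
  rw [show ([term1 1 [] h] : Comb F ι) = Killing.single (cw h) from rfl,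
    Killing.op_single d.hn hh.weightsOK (d.bddAuto_efun _).locI]
  exact (s.joint j).inf h hh x

/-- A side has a joint orthonormal basis. -/
theorem exists_systems (d : Side Φ n) (ok : Ideal (𝓞 F) → Prop)
    (hok : ∀ w, ok w → Killing.OKPrime n w) (hT : ∀ A : Comb F ι, A.Good ok → d.Tested A) :
    Nonempty (Systems d ok) := by
  classical
  let word : {h : ι → ℝ → ℝ // GoodW h} × Option {w // ok w} → List (Ideal (𝓞 F)) :=
    fun k => k.2.elim [] fun w => [w.1]
  have hword : ∀ k, ∀ w ∈ word k, ok w := by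
    rintro ⟨h, _ | v⟩ w hw
    · simp [word] at hw
    · simp [word] at hw; exact hw ▸ v.2
  have hrev : ∀ k, (word k).reverse = word k := by rintro ⟨h, _ | v⟩ <;> rfl
  let hA : ∀ k : {h : ι → ℝ → ℝ // GoodW h} × Option {w // ok w},
      d.Tested [term1 1 (word k) k.1.1] := fun k => hT _ (good_term1 k.1.2 (hword k))
  obtain ⟨m, e, θ, hθ⟩ := exists_joint_eigenbasis (fun k => (hA k).opV)
    (fun k => (hA k).isSymmetric_opV (kernel_term1_symm d.hn k.1.2
      (fun w hw => hok w (hword k w hw)) (hrev k)))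
    (fun k l => (hA k).commute_opV (hA l))
  have hop : ∀ k j x,
      Kernel.op (Comb.kernel n [term1 1 (word k) k.1.1]) (d.efun (e j)) x =
        (θ k j : ℂ) * d.efun (e j) x := fun k j x => by
    rw [← (hA k).efun_opV, hθ, d.efun_smul]
  have hinf : ∀ j (h : {h : ι → ℝ → ℝ // GoodW h}) x,
      infApply (cw h.1) (d.efun (e j)) x = (θ (h, none) j : ℂ) * d.efun (e j) x := fun j h x => by
    rw [← hop (h, none) j x]
    exact (congrFun (Killing.op_single d.hn h.2.weightsOK (d.bddAuto_efun (e j)).locI) x).symm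
  have hne : ∀ j, d.efun (e j) ≠ 0 := fun j h0 => by
    refine e.orthonormal.ne_zero j (d.efun_injective ?_)
    rw [h0]
    funext x
    simp [Side.efun]
  have hsep : ∀ j, ∃ h : {h : ι → ℝ → ℝ // GoodW h}, (θ (h, none) j : ℂ) ≠ 0 := fun j => by
    obtain ⟨h, hh, h0⟩ := exists_infApply_ne_zero (d.continuous_efun (e j)) (hne j)
    exact ⟨⟨h, hh⟩, fun hz => h0 (funext fun x => by rw [hinf j ⟨h, hh⟩ x, hz, zero_mul]; rfl)⟩
  choose h₁ hh₁ using hsep
  let z : Fin m → (ι → ℝ → ℝ) → ℂ := fun j h =>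
    if hg : GoodW h then (θ (⟨h, hg⟩, none) j : ℂ) else 0
  let b : Fin m → Ideal (𝓞 F) → ℂ := fun j w =>
    if hw : ok w then (θ (h₁ j, some ⟨w, hw⟩) j : ℂ) / (θ (h₁ j, none) j : ℂ) else 0
  refine ⟨⟨m, e, b, z, fun j => ⟨d.continuous_efun _, fun h hg x => ?_, fun w hw x => ?_⟩⟩⟩
  · simp only [z, dif_pos hg]
    exact hinf j ⟨h, hg⟩ x
  · have h2 := hop (h₁ j, some ⟨w, hw⟩) j x
    rw [Killing.op_kernel d.hn
        (Comb.Good.mono (good_term1 (h₁ j).2 (hword (h₁ j, some ⟨w, hw⟩))) hok)
      (d.bddAuto_efun _).locI] at h2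
    simp only [List.map_cons, List.map_nil, List.sum_cons, List.sum_nil, add_zero, term1, one_mul,
      word, Option.elim] at h2
    rw [wordSum_cons d.hn (hok w hw) (by simp)] at h2
    simp only [wordSum_nil] at h2
    have h3 : ∀ u, infOp (cw (h₁ j).1) (fun Q => d.efun (e j) (u, Q)) x.2 =
        (θ (h₁ j, none) j : ℂ) * d.efun (e j) (u, x.2) := fun u => hinf j (h₁ j) (u, x.2)
    simp only [h3] at h2
    rw [← mul_finsum_mem (s := nbrs n w x.1) (fun u => d.efun (e j) (u, x.2))] at h2
    simp only [b, dif_pos hw]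
    rw [div_mul_eq_mul_div, eq_div_iff (hh₁ j), ← h2]
    ring

end FLTAgent.LanglandsTunnell.Isolation
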