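import Fermat.Agent.LanglandsTunnell.Isolation.Nonvanish
import Fermat.Agent.LanglandsTunnell.Isolation.SystemsExist
import Fermat.Agent.LanglandsTunnell.Isolation.Descended
import Fermat.Agent.LanglandsTunnell.Isolation.Interpolation

/-!
# Separation of the systems and the descended form

The systems agreeing with the seed satisfy the trace identity by themselves; their weight over `M`
is not zero, so one of them lives over `E`.
-/

set_option autoImplicit false

noncomputable section

namespace FLTAgent.LanglandsTunnell.Isolation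

open FLTAgent.LanglandsTunnell MeasureTheory NumberField

variable {D : Datum} {P : ExtPlaces D}

/-- **The descent at one test level.** -/
theorem Frame.exists_descended (S : Frame D P) (s : SeedAt S) (hs : SeedProps s) :
    ∃ φ a, Descended D P S.N φ a := by
  classical
  obtain ⟨sM⟩ := exists_systems S.dM (D.TestOK S.N') (fun _ => S.okPrime_testOK)
    fun A hA => S.testedM hA
  obtain ⟨sE⟩ := exists_systems S.dE S.okE (fun _ h => h) fun A hA => S.testedE hA
  -- witnesses of disagreement at the split places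
  set bad : Fin sE.m → Prop := fun j => ∃ w, D.TestOK S.N' w ∧ D.DegreeOne w ∧
    sE.b j (D.under w) ≠ s.bSeed w
  have hbad : ∀ j : {j // bad j}, ∃ w, D.TestOK S.N' w ∧ D.DegreeOne w ∧
      sE.b j (D.under w) ≠ s.bSeed w := fun j => j.2
  choose wit hwit using hbad
  set X : Finset (Ideal (𝓞 D.E)) :=
    ((S.dM.K.flatMap fun T => T.word).map D.under).toFinset ∪
      Finset.univ.image fun j => D.under (wit j)
  obtain ⟨u₀, hu₀, hX, g, hg, hρ⟩ := exists_split D S.test.ne_zero X
  have hKu : ∀ T ∈ S.dM.K, ∀ w ∈ T.word, D.under w ≠ D.under u₀ := fun T hT w hw e =>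
    hX (Finset.mem_union_left _ (List.mem_toFinset.mpr (e ▸ List.mem_map_of_mem
      (List.mem_flatMap.mpr ⟨T, hT, hw⟩))))
  have hwu : ∀ j, D.under (wit j) ≠ D.under u₀ := fun j e =>
    hX (Finset.mem_union_right _ (Finset.mem_image.mpr ⟨j, Finset.mem_univ _, e⟩))
  have hb0 : s.bSeed u₀ ≠ 0 := by
    refine mul_ne_zero (Complex.ofReal_ne_zero.mpr (Real.sqrt_pos.mpr (Nat.cast_pos.mpr
      (Nat.pos_of_ne_zero fun e => hu₀.1.2.1 (Ideal.absNorm_eq_zero_iff.mp e)))).ne') ?_
    rw [hs.frob u₀ (S.testOK_of_splitOK hu₀) g hg, hρ, trLift_one]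
    exact two_ne_zero
  let ok : Ideal (𝓞 D.M) → Prop := fun w => D.TestOK S.N' w ∧ D.under w ≠ D.under u₀
  let H : Type := {h : Fin 3 → ℝ → ℝ // GoodW h}
  let L : Type := Fin sM.m ⊕ Fin sE.m
  let m : L → ℂ := Sum.elim (fun j => sM.b j u₀ * S.tauM (sM.f j))
    fun j => -(S.c * (bdesc D (sE.b j) u₀ * S.tauE (sE.f j)))
  let b : L → Ideal (𝓞 D.M) → ℂ := Sum.elim sM.b fun j => bdesc D (sE.b j)
  let z : L → H → ℂ := Sum.elim (fun j h => sM.z j h.1) fun j h => sE.z j (descW h.1)
  let z₀ : H → ℂ := fun h => SeedAt.zSeed h.1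
  let mulH : H → H → H := fun g h => ⟨mulW g.1 h.1, g.2.mulW h.2⟩
  have hyp : ∀ (ws : List (Ideal (𝓞 D.M))) (h : H), Adm ok D.DegreeOne ws →
      ∑ l, m l * (ws.map (b l)).prod * z l h = 0 := by
    intro ws h hadm
    have hid := S.identity sM sE hu₀ hKu (ws := ws) (fun w hw => ⟨(hadm w hw).1.1, (hadm w hw).1.2,
      fun h3 => by
        have := (hadm w hw).2 fun h1 => LanglandsTunnell.not_degreeThree h1 h3
        convert this⟩) h.2
    rw [Fintype.sum_sum_type]
    simp only [m, b, z, Sum.elim_inl, Sum.elim_inr]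
    simp only [List.map_cons, List.prod_cons, Finset.mul_sum] at hid
    rw [← sub_eq_zero, sub_eq_add_neg, ← Finset.sum_neg_distrib] at hid
    refine (congrArg₂ (· + ·) (Finset.sum_congr rfl fun j _ => ?_)
      (Finset.sum_congr rfl fun j _ => ?_)).trans hid <;> ring
  have hmul : ∀ l g h, z l (mulH g h) = z l g * z l h := by
    rintro (j | j) g h
    · exact sM.z_mulW j g.2 h.2
    · show sE.z j (descW (mulW g.1 h.1)) = _
      rw [descW_mulW g.2 h.2]
      exact sE.z_mulW j g.2.descW h.2.descW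
  have : Nonempty (Ideal (𝓞 D.M)) := ⟨⊤⟩
  have key := sum_close_eq_zero (ok := ok) (one := D.DegreeOne) m b z hyp mulH hmul s.bSeed z₀
    (hs := (⟨_, goodW_tent⟩ : H))
    (Finset.prod_ne_zero_iff.mpr fun _ _ =>
      Complex.ofReal_ne_zero.mpr Killing.sphValue_tent_pos.ne') [] (fun w hw => absurd hw (by simp))
  simp only [List.map_nil, List.prod_nil, mul_one] at key
  rw [Finset.sum_filter, Fintype.sum_sum_type] at key
  have hclose : ∀ j : Fin sM.m, Close (ok := ok) (one := D.DegreeOne) b z s.bSeed z₀ (Sum.inl j) ↔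
      InSys P.placesM S.N' s.a (Frame.vecM sM j) := fun j => by
    refine ⟨fun h => s.inSys_of_close sM hu₀ (fun g hg => congrFun h.1 ⟨g, hg⟩) h.2.2, fun h => ?_⟩
    obtain ⟨hz, hb⟩ := s.eq_of_inSys sM h
    exact ⟨funext fun g => hz g.1 g.2, fun w hw _ => hb w hw.1,
      Set.Finite.subset Set.finite_empty fun w hw => hw.2 (hb w hw.1.1)⟩
  by_contra hnone
  have hE : ∀ j : Fin sE.m,
      ¬ Close (ok := ok) (one := D.DegreeOne) b z s.bSeed z₀ (Sum.inr j) := by
    intro j h
    refine hnone (S.descended_of_close sE s.a hs.frob j (fun g hg => congrFun h.1 ⟨g, hg⟩)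
      fun w hw h1 => ?_)
    by_contra hne
    have hb : bad j := ⟨w, hw, h1, hne⟩
    obtain ⟨hw', h1', hne'⟩ := hwit ⟨j, hb⟩
    have e := h.2.1 (wit ⟨j, hb⟩) ⟨hw', hwu _⟩ h1'
    rw [show b (Sum.inr j) = bdesc D (sE.b j) from rfl, bdesc_degreeOne D _ h1'] at e
    exact hne' e
  simp only [hclose, hE, if_false, Finset.sum_const_zero, add_zero] at key
  refine s.sum_tauM_ne_zero hs sM ((mul_eq_zero.mp ?_).resolve_left hb0)
  rw [Finset.mul_sum, ← key, ← Finset.sum_filter, SeedAt.closeSet]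
  refine Finset.sum_congr rfl fun j hj => ?_
  show _ = sM.b j u₀ * _
  rw [(s.eq_of_inSys sM (Finset.mem_filter.mp hj).2).2 u₀ (S.testOK_of_splitOK hu₀)]

end FLTAgent.LanglandsTunnell.Isolation
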