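import Fermat.Agent.LanglandsTunnell.Isolation.Galois
import Fermat.Agent.LanglandsTunnell.BadPrimes
import Fermat.Agent.LanglandsTunnell.Local.RamifiedPrimes
import Fermat.Agent.LanglandsTunnell.Local.BadSplit

/-!
# Galois facts of the twist

The twist permutes the places and fixes the primes over the ramified set; at those which are not
bad Frobenius elements act by `± 1`.  Outside that set it moves every prime over `3` and over a bad
prime, in cycles of length three.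
-/

set_option autoImplicit false
set_option maxSynthPendingDepth 3

noncomputable section

namespace FLTAgent.LanglandsTunnell.Isolation

open FLTAgent.LanglandsTunnell FLTAgent.LanglandsTunnell.Local NumberField Matrix
open FLTAgent.LanglandsTunnell.CFT (PlaceOver)
open FLTAgent.Density FLTAgent.ExtVanishing
open scoped Pointwise

local notation "G₃" => GL (Fin 2) (ZMod 3)
local notation "M₃" => Matrix (Fin 2) (Fin 2) (ZMod 3)

variable {D : Datum}

/-- The image of an ideal under an automorphism of `M`. -/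
def sigmaIdeal (σ : D.M ≃ₐ[ℚ] D.M) (w : Ideal (𝓞 D.M)) : Ideal (𝓞 D.M) :=
  Ideal.map (RingOfIntegers.mapRingHom σ.toAlgHom.toRingHom) w

/-! ### The twist -/

/-- A nontrivial automorphism over `E`, with the permutation it induces on the places. -/
theorem exists_twist (D : Datum) (P : ExtPlaces D) :
    ∃ (σ : D.M ≃ₐ[ℚ] D.M) (e : Fin 3 ≃ Fin 3), σ ≠ AlgEquiv.refl ∧
      (∀ x, σ (D.incl x) = D.incl x) ∧
      (∀ i, P.placesM.emb (e i) = (P.placesM.emb i).comp σ.toAlgHom.toRingHom) := by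
  obtain ⟨g, hgE, hgM⟩ := LanglandsTunnell.Local.exists_galE_notMem_galM (D := D)
  obtain ⟨τ, hτ⟩ := exists_restrict hgE
  set σ : D.M ≃ₐ[ℚ] D.M := τ.restrictScalars ℚ
  have hfix : ∀ x, σ (D.incl x) = D.incl x := fun x => τ.commutes x
  have hex : ∀ i, ∃ j, P.placesM.emb j = (P.placesM.emb i).comp σ.toAlgHom.toRingHom := by
    intro i
    set φ := (P.placesM.emb i).comp σ.toAlgHom.toRingHom
    obtain ⟨j, hj⟩ := P.placesM.bijective.2 (InfinitePlace.mk φ)
    refine ⟨j, (InfinitePlace.mk_eq_iff.mp hj).resolve_right fun hc => ?_⟩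
    have hφE : ∀ x, φ (D.incl x) = P.placesE.emb () x := fun x => by
      show P.placesM.emb i (σ (D.incl x)) = _
      rw [hfix]
      exact RingHom.congr_fun (P.compat i) x
    have hreal : ComplexEmbedding.IsReal (P.placesE.emb ()) := RingHom.ext fun x => by
      have h1 := RingHom.congr_fun hc (D.incl x)
      have h2 : P.placesM.emb j (D.incl x) = P.placesE.emb () x :=
        RingHom.congr_fun (P.compat j) x
      rw [ComplexEmbedding.conjugate_coe_eq, hφE, h2] at h1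
      rw [ComplexEmbedding.conjugate_coe_eq]
      exact h1
    exact InfinitePlace.not_isReal_iff_isComplex.mpr (P.placesE.isComplex ())
      ⟨_, hreal, rfl⟩
  choose f hf using hex
  have hinj : Function.Injective f := fun a b hab => P.placesM.bijective.1 (by
    have h := (hf a).symm.trans ((congrArg P.placesM.emb hab).trans (hf b))
    refine congrArg InfinitePlace.mk (RingHom.ext fun x => ?_)
    have h' := RingHom.congr_fun h (σ.symm x)
    simpa using h')
  refine ⟨σ, Equiv.ofBijective f (Finite.injective_iff_bijective.mp hinj), fun h => hgM ?_, hfix,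
    hf⟩
  exact (eq_one_iff_mem_galM hτ).mp (AlgEquiv.ext fun x => DFunLike.congr_fun h x)

/-! ### Matrix facts -/

theorem lineShape_unipotent : ∀ a b c d : ZMod 3, a * d - b * c = 1 →
    (!![a, b; c, d] - 1 : M₃).det = 0 →
    (!![a, b; c, d] - 1 : M₃) * (!![a, b; c, d] - 1) = 0 := by
  decide +kernel

theorem cube_one_unipotent : ∀ a b c d : ZMod 3, a * d - b * c = 1 →
    (!![a, b; c, d] : M₃) ^ 3 = 1 →
    (!![a, b; c, d] - 1 : M₃) * (!![a, b; c, d] - 1) = 0 := by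
  decide +kernel

set_option synthInstance.maxSize 2048 in
theorem q8_normaliser_unipotent : ∀ a b c d : ZMod 3, a * d - b * c = 1 →
    (a + d = 0 ∨ (!![a, b; c, d] : M₃) = 1 ∨ (!![a, b; c, d] : M₃) = -1) →
    ∀ e f k l : ZMod 3, e * l - f * k = 1 →
    (!![e, f; k, l] - 1 : M₃) * (!![e, f; k, l] - 1) = 0 → (!![e, f; k, l] : M₃) ≠ 1 →
    (!![e, f; k, l] * (!![a, b; c, d] * !![e, f; k, l] * !![d, -b; -c, a]) - 1 : M₃) *
        (!![e, f; k, l] * (!![a, b; c, d] * !![e, f; k, l] * !![d, -b; -c, a]) - 1) = 0 →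
    (!![a, b; c, d] : M₃) = 1 ∨ (!![a, b; c, d] : M₃) = -1 := by
  decide +kernel

theorem trLift_of_eq_one_or {g : G₃} (h : g.1 = 1 ∨ g.1 = -1) :
    trLift g = 2 ∨ trLift g = -2 := by
  have hne : (-1 : M₃) ≠ 1 := by decide +kernel
  rcases h with h | h <;> simp [trLift, h, hne, det_fin_two]

theorem inv_entries {g : G₃} (hd : g.1.det = 1) :
    (g⁻¹).1 = !![g.1 1 1, -g.1 0 1; -g.1 1 0, g.1 0 0] := by
  rw [Matrix.coe_units_inv, Matrix.inv_def, hd, Ring.inverse_one, one_smul,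
    Matrix.adjugate_fin_two]

open scoped Classical in
/-- Positions in the cycles of length three of a map. -/
theorem exists_shift_position {α : Type*} (f : α → α) :
    ∃ pos : α → Fin 3, ∀ a, f (f (f a)) = a → f a ≠ a → pos (f a) = pos a + 1 := by
  let : LinearOrder α := linearOrderOfSTO WellOrderingRel
  let first : α → Prop := fun a => a < f a ∧ a < f (f a)
  refine ⟨fun a => if first a then 0 else if first (f a) then 2 else 1, fun a h3 hne => ?_⟩
  have hne2 : f (f a) ≠ a := fun e => hne ((congrArg f e).symm.trans h3)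
  have hne12 : f (f a) ≠ f a := fun e => hne ((h3.symm.trans ((congrArg f e).trans e)).symm)
  simp only [first, h3]
  rcases lt_trichotomy a (f a) with h1 | h1 | h1
  · rcases lt_trichotomy a (f (f a)) with h2 | h2 | h2
    · simp [h1, h2, not_lt_of_gt h1, not_lt_of_gt h2]
    · exact absurd h2.symm hne2
    · simp [h1, h2, not_lt_of_gt h1, not_lt_of_gt h2, h2.trans h1, not_lt_of_gt (h2.trans h1)]
  · exact absurd h1.symm hne
  · rcases lt_trichotomy (f a) (f (f a)) with h2 | h2 | h2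
    · simp [h1, h2, not_lt_of_gt h1]
    · exact absurd h2.symm hne12
    · simp [h1, h2, not_lt_of_gt h1, not_lt_of_gt h2, h2.trans h1, not_lt_of_gt (h2.trans h1)]

/-! ### The primes over the ramified set -/

section Ramified

variable {σ : D.M ≃ₐ[ℚ] D.M} {k B : ℕ} {R : Finset Nat.Primes} {N₀ N₁ N N' : ℕ}

theorem mem_galE_conj {g i : GQ} (hi : i ∈ D.galE) : g * i * g⁻¹ ∈ D.galE := by
  simp only [Datum.galE, MonoidHom.mem_ker, map_mul, map_inv] at *
  rw [hi, mul_one, mul_inv_cancel]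

theorem inertia_conj {A : ValuationSubring QB} {i : GQ} (hi : i ∈ A.inertiaSubgroupIn ℚ)
    (g : GQ) : g * i * g⁻¹ ∈ (g • A).inertiaSubgroupIn ℚ :=
  mem_inertiaSubgroupIn_smul hi g

variable (h : IsTestLevel D σ k B R N₀ N₁ N N') (hσ1 : σ ≠ AlgEquiv.refl)
  (hσ : ∀ x, σ (D.incl x) = D.incl x)
include h hσ1 hσ

/-- Over a prime of `R` inertia moves `M` at every place. -/
theorem exists_inertia_of_mem_R {p : Nat.Primes} (hp : p ∈ R) {A : ValuationSubring QB}
    (hA : A.LiesOverPrime (p : ℕ)) :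
    ∃ i ∈ A.inertiaSubgroupIn ℚ, i ∈ D.galE ∧ i ∉ D.galM := by
  obtain ⟨w, hwp, hpw, hr⟩ := (h.mem_R p).mp hp
  have hw0 := ne_bot_of_natCast_mem p.2 hpw
  obtain ⟨-, B, -, -, -, hB⟩ := LanglandsTunnell.CFT.exists_placeOver w hw0
  obtain ⟨i, hi, hiE, hiM⟩ := exists_inertia_notMem_galM hσ1 hσ hw0 hr hB p.2 hpw
  obtain ⟨g, rfl⟩ := Density.exists_smul_eq_of_liesOverPrime p.2 (hB.liesOverPrime hpw) hA
  refine ⟨g * i * g⁻¹, inertia_conj hi g, mem_galE_conj hiE, fun hm => hiM ?_⟩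
  simpa [mul_assoc] using conj_mem_galM D g⁻¹ hm

/-- With `3` in `R` the shape at `3` is a line. -/
theorem lineShape_of_three_mem_R (h3 : ∃ p ∈ R, (p : ℕ) = 3) :
    ∀ A : ValuationSubring QB, A.LiesOverPrime 3 → LineShape D.ρ A := by
  intro A hA
  obtain ⟨p, hp, hp3⟩ := h3
  refine (D.three A hA).resolve_right fun hss => ?_
  obtain ⟨i, hi, hiE, hiM⟩ := exists_inertia_of_mem_R h hσ1 hσ hp (A := A) (hp3.symm ▸ hA)
  refine hiM ((mem_galM D).mpr ⟨(mem_galE D).mp hiE, ?_⟩)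
  have h8 : (⟨D.ρ i, i, hi, rfl⟩ : (A.inertiaSubgroupIn ℚ).map D.ρ) ^ 8 = 1 := by
    rw [← hss.2]
    exact pow_card_eq_one'
  have h8' : (D.ρ i).1 ^ 8 = 1 := congrArg (fun x => (x.1 : G₃).1) h8
  have hd := (mem_galE D).mp hiE
  rw [eta_fin_two (D.ρ i).1] at h8' hd ⊢
  rw [det_fin_two_of] at hd
  rw [trace_fin_two_of]
  exact inQ8_of_pow_eight _ _ _ _ hd h8'

/-- Over a prime of `R` which is not bad inertia is unipotent on `Gal(QB/E)`. -/
theorem inertia_unipotent_of_mem_R {p : Nat.Primes} (hp : p ∈ R) (hbad : ¬ D.IsBad p)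
    {A : ValuationSubring QB}
    (hA : A.LiesOverPrime (p : ℕ)) {j : GQ} (hj : j ∈ A.inertiaSubgroupIn ℚ) (hjE : j ∈ D.galE) :
    ((D.ρ j).1 - 1) * ((D.ρ j).1 - 1) = 0 := by
  by_cases hp3 : (p : ℕ) = 3
  · have hl := lineShape_of_three_mem_R h hσ1 hσ ⟨p, hp, hp3⟩ A (hp3 ▸ hA) j hj
    have hd := (mem_galE D).mp hjE
    rw [eta_fin_two (D.ρ j).1] at hl hd ⊢
    rw [det_fin_two_of] at hd
    exact lineShape_unipotent _ _ _ _ hd hl
  · have h3 : D.ρ (j ^ 3) = 1 := by
      by_contra hne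
      exact hbad ⟨p.2, hp3, A, hA, j ^ 3, pow_mem hj 3, cube_mem_galM D hjE, hne⟩
    have h3' : (D.ρ j).1 ^ 3 = 1 := by
      rw [← Units.val_pow_eq_pow_val, ← map_pow, h3, Units.val_one]
    have hd := (mem_galE D).mp hjE
    rw [eta_fin_two (D.ρ j).1] at h3' hd ⊢
    rw [det_fin_two_of] at hd
    exact cube_one_unipotent _ _ _ _ hd h3'

/-- The twist fixes the primes over `R`. -/
theorem sigmaIdeal_eq_of_mem_R {w : Ideal (𝓞 D.M)} [w.IsPrime] (hw : w ≠ ⊥) {p : Nat.Primes}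
    (hp : p ∈ R) (hpw : ((p : ℕ) : 𝓞 D.M) ∈ w) : sigmaIdeal σ w = w := by
  obtain ⟨-, A, -, -, -, hA⟩ := LanglandsTunnell.CFT.exists_placeOver w hw
  obtain ⟨i, hi, hiE, hiM⟩ :=
    exists_inertia_of_mem_R h hσ1 hσ hp (hA.liesOverPrime hpw)
  obtain ⟨τ, hτ⟩ := exists_restrict hiE
  have hτ1 : τ ≠ 1 := fun e => hiM ((eq_one_iff_mem_galM hτ).mp e)
  have := isGalois_EM hσ1 hσ
  have : FiniteDimensional D.E D.M := Module.Finite.of_restrictScalars_finite ℚ D.E D.M
  have : Fact (Nat.Prime 3) := ⟨Nat.prime_three⟩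
  have hcard : Nat.card (D.M ≃ₐ[D.E] D.M) = 3 := by
    rw [IsGalois.card_aut_eq_finrank, finrank_EM]
  have hstep : ∀ y : 𝓞 D.M, τ • y - y ∈ w := fun y => by
    rw [hA]
    have := (mem_inertiaSubgroupIn_iff.mp hi).2 ((y : D.M) : QB)
      (mem_of_isIntegral A ((y.isIntegral_coe).map (D.M.val.restrictScalars ℤ)))
    rw [hτ] at this
    exact this
  have hpow : ∀ ρ' : D.M ≃ₐ[D.E] D.M, ∀ y ∈ w, ρ' • y ∈ w := by
    intro ρ' y hy
    obtain ⟨n, rfl⟩ := mem_powers_of_prime_card (p := 3) hcard hτ1 (g' := ρ')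
    induction n with
    | zero => simpa using hy
    | succ n ih =>
      show τ ^ (n + 1) • y ∈ w
      rw [pow_succ', mul_smul]
      simpa using add_mem (hstep (τ ^ n • y)) ih
  refine le_antisymm (Ideal.map_le_iff_le_comap.mpr fun y hy => hpow (overE hσ) y hy) fun y hy => ?_
  have h2 := Ideal.mem_map_of_mem (RingOfIntegers.mapRingHom σ.toAlgHom.toRingHom)
    (hpow (overE hσ)⁻¹ y hy)
  rwa [show RingOfIntegers.mapRingHom σ.toAlgHom.toRingHom ((overE hσ)⁻¹ • y) = y from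
    RingOfIntegers.ext ((overE hσ).apply_symm_apply (y : D.M))] at h2

/-- A Frobenius element at a prime over `R` which is not bad has trace `± 2`. -/
theorem trLift_frob_of_mem_R {w : Ideal (𝓞 D.M)} [w.IsPrime] (hw : w ≠ ⊥) {p : Nat.Primes}
    (hp : p ∈ R) (hbad : ¬ D.IsBad p) (hpw : ((p : ℕ) : 𝓞 D.M) ∈ w) :
    ∃ g, IsFrobOver D.M w g ∧ (trLift (D.ρ g) = 2 ∨ trLift (D.ρ g) = -2) := by
  obtain ⟨-, A, -, -, -, hA⟩ := LanglandsTunnell.CFT.exists_placeOver w hw
  obtain ⟨g, hg, hAg⟩ := LanglandsTunnell.CFT.exists_frobenius_over hw hA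
  refine ⟨g, ⟨hg, A, hA, hAg⟩, trLift_of_eq_one_or ?_⟩
  have hAp := hA.liesOverPrime hpw
  obtain ⟨i, hi, hiE, hiM⟩ := exists_inertia_of_mem_R h hσ1 hσ hp hAp
  rw [fixingSubgroup_M, mem_galM] at hg
  have hgA : g • A = A := MulAction.mem_stabilizer_iff.mp (isFrobeniusAt_iff.1 hAg).1
  have hci : g * i * g⁻¹ ∈ A.inertiaSubgroupIn ℚ := by
    have := inertia_conj hi g
    rwa [hgA] at this
  have hu := inertia_unipotent_of_mem_R h hσ1 hσ hp hbad hAp hi hiE
  have hprod := inertia_unipotent_of_mem_R h hσ1 hσ hp hbad hAp (mul_mem hi hci)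
    (mul_mem hiE (mem_galE_conj hiE))
  simp only [map_mul, map_inv, Units.val_mul, inv_entries hg.1] at hprod
  have hid := (mem_galE D).mp hiE
  have hi1 : (D.ρ i).1 ≠ 1 := fun e => hiM ((mem_galM D).mpr ⟨hid, Or.inr (Or.inl e)⟩)
  obtain ⟨hgd, hgq⟩ := hg
  rw [eta_fin_two (D.ρ g).1] at hgd hgq ⊢
  rw [eta_fin_two (D.ρ i).1] at hu hid hi1
  rw [det_fin_two_of] at hgd hid
  rw [trace_fin_two_of] at hgq
  refine q8_normaliser_unipotent _ _ _ _ hgd hgq _ _ _ _ hid hu hi1 ?_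
  rw [← eta_fin_two (D.ρ g).1, ← eta_fin_two (D.ρ i).1]
  exact hprod

/-- The twist moves the primes over `3` and over a bad prime when these are outside `R`. -/
theorem sigmaIdeal_ne_of_notMem_R {q : ℕ} (hq : q.Prime) (hb : q = 3 ∨ D.IsBad q) (hqN : q ∣ N')
    (hqR : ∀ p ∈ R, (p : ℕ) ≠ q) {u : Ideal (𝓞 D.M)} [hu : u.IsPrime]
    (hqu : (q : 𝓞 D.M) ∈ u) : sigmaIdeal σ u ≠ u := by
  have hnr : ¬ IsRamPrime D u := fun hr => hqR ⟨q, hq⟩ ((h.mem_R _).mpr ⟨u, hu, hqu, hr⟩) rfl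
  rcases hb with rfl | hb
  · exact map_ne_of_not_split hσ1 hσ
      (fun hs => h.three_not_dvd hs ((h.same_primes 3 hq).mp hqN)) (by exact_mod_cast hqu) hnr
  · exact map_ne_of_isBad hσ1 hσ hb hqu hnr

omit h in
/-- The twist has order three on ideals. -/
theorem sigmaIdeal_cube (u : Ideal (𝓞 D.M)) :
    sigmaIdeal σ (sigmaIdeal σ (sigmaIdeal σ u)) = u := by
  simp only [sigmaIdeal, Ideal.map_map]
  conv_rhs => rw [← Ideal.map_id u]
  congr 1
  exact RingHom.ext fun y => RingOfIntegers.ext ((cubicData hσ1 hσ).cube (y : D.M))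

/-- Positions in the cycles of the primes over `3` and the bad primes outside `R`. -/
theorem exists_position : ∃ pos : Ideal (𝓞 D.M) → Fin 3,
    ∀ (u : Ideal (𝓞 D.M)) (q : ℕ), u.IsPrime → q.Prime → (q = 3 ∨ D.IsBad q) → q ∣ N' →
      (∀ p ∈ R, (p : ℕ) ≠ q) → (q : 𝓞 D.M) ∈ u → pos (sigmaIdeal σ u) = pos u + 1 := by
  obtain ⟨pos, hpos⟩ := exists_shift_position (sigmaIdeal (D := D) σ)
  exact ⟨pos, fun u q hu hq hb hqN hqR hqu =>
    hpos u (sigmaIdeal_cube hσ1 hσ u)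
      (haveI := hu; sigmaIdeal_ne_of_notMem_R h hσ1 hσ hq hb hqN hqR hqu)⟩

end Ramified

end FLTAgent.LanglandsTunnell.Isolation

end
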