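import Fermat.Agent.LanglandsTunnell.Isolation.Twist

/-!
# The spaces between the spherical line and the full level

For a finite set `R` of fixed places, the vectors of one system and level that are spherical
eigenvectors at the places outside a given part of `R`.
-/

set_option autoImplicit false

noncomputable section

namespace FLTAgent.LanglandsTunnell.Isolation

open FLTAgent.LanglandsTunnell NumberField Matrix MeasureTheory Function
open scoped InnerProductSpace ComplexConjugate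

variable {F : Type} [Field F] [NumberField F] {ι : Type} [Fintype ι] [DecidableEq ι]
  {Φ : PlaceChoice F ι}

section Translations

variable {w : Ideal (𝓞 F)} {hw : w.IsPrime} {hw0 : w ≠ ⊥} {u : Smooth Φ} {s : ℂ}

omit [DecidableEq ι] in
/-- Integral translations preserve eigenvectors. -/
theorem EigenAt.rho_top (h : EigenAt hw hw0 u s) {g : GL (Fin 2) (AF F)}
    (hg : g ∈ principalSubgroup ⊤) : EigenAt hw hw0 (rho Φ g u) s := by
  have e : g = copart hw hw0 g * part hw hw0 g :=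
    ((part_mul_copart hw hw0 g).symm).trans
      (commute_away (part_mem_localGroup hw hw0 g) (copart_mem_awayGroup hw hw0 g))
  rw [e, rho_mul, h.fixed _ (part_mem_localK hw hw0 hg)]
  exact h.rho_away (copart_mem_awayGroup hw hw0 g)

omit [DecidableEq ι] in
/-- A fixed vector only sees the rest of an integral element. -/
theorem rho_eq_rho_copart (h : LocalFixed hw hw0 u) {g : GL (Fin 2) (AF F)}
    (hg : g ∈ principalSubgroup ⊤) : rho Φ g u = rho Φ (copart hw hw0 g) u := by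
  conv_lhs => rw [← part_mul_copart hw hw0 g,
    (commute_away (part_mem_localGroup hw hw0 g) (copart_mem_awayGroup hw hw0 g)).eq, rho_mul,
    h _ (part_mem_localK hw hw0 hg)]

theorem InSys.rho_top {M : ℕ} {a : Ideal (𝓞 F) → ℂ} (h : InSys Φ M a u)
    {g : GL (Fin 2) (AF F)} (hg : g ∈ principalSubgroup ⊤) : InSys Φ M a (rho Φ g u) := by
  refine ⟨isLevel_of_fixed h.level.ne_zero fun k hk => ?_, h.spherical.translate g,
    fun v hv hv0 hvM => (h.sys v hv hv0 hvM).rho_top hg⟩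
  rw [← rho_mul, show k * g = g * (g⁻¹ * k * g) by group, rho_mul,
    rho_of_mem_level h.level (Subgroup.mem_sup_left (conj_mem_principalSubgroup hg hk))]

omit [DecidableEq ι] in
theorem EigenAt.eq_of_ne_zero {t : ℂ} (h : EigenAt hw hw0 u s) (h' : EigenAt hw hw0 u t)
    (hu : u ≠ 0) : s = t := smul_left_injective ℂ hu (h.eigen.symm.trans h'.eigen)

end Translations

/-- The eigenvalues of a nonzero vector fixed by the twist are invariant. -/
theorem InSys.a_ideal {M : ℕ} {a : Ideal (𝓞 F) → ℂ} {φ : Smooth Φ} (hφ : InSys Φ M a φ)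
    (T : TwistData Φ) (h0 : φ ≠ 0) (hT : T.twist φ = φ) {v : Ideal (𝓞 F)} (hv : v.IsPrime)
    (hv0 : v ≠ ⊥) (hvN : ¬ v ∣ lv F M) : a (T.ideal v) = a v := by
  have h := T.sysOff_twist hφ.sys v hv hv0 hvN
  rw [hT] at h
  exact mul_left_cancel₀ (Complex.ofReal_ne_zero.mpr (Real.sqrt_pos.mpr
    (Nat.cast_pos.mpr (Nat.pos_of_ne_zero fun e => hv0 (Ideal.absNorm_eq_zero_iff.mp e)))).ne')
    (h.eq_of_ne_zero (hφ.sys v hv hv0 hvN) h0)

/-- The data of the multiplicity argument. -/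
structure Ctx (Φ : PlaceChoice F ι) : Type where
  T : TwistData Φ
  N : ℕ
  hN : N ≠ 0
  a : Ideal (𝓞 F) → ℂ
  φ : Smooth Φ
  φ_mem : InSys Φ N a φ
  φ_ne : φ ≠ 0
  twist_φ : T.twist φ = φ
  mult : ∀ u v : Smooth Φ, InSys Φ N a u → InSys Φ N a v → u ≠ 0 → v ≠ 0 →
    ∃ g, SupportedAt N g ∧ ⟪u, rho Φ g v⟫_ℂ ≠ 0
  finite : FiniteDimensional ℂ (sysSub Φ hN a)
  R : Finset (Ideal (𝓞 F))
  prime : ∀ w ∈ R, w.IsPrime
  ne_bot : ∀ w ∈ R, w ≠ ⊥
  mem_N : ∀ w ∈ R, (N : 𝓞 F) ∈ w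
  fixed : ∀ w ∈ R, T.ideal w = w
  sign : Ideal (𝓞 F) → ℝ
  sign_eq : ∀ w ∈ R, sign w = 1 ∨ sign w = -1
  φ_eigen : ∀ w (h : w ∈ R), EigenAt (prime w h) (ne_bot w h) φ
    ((2 * sign w * Real.sqrt (Ideal.absNorm w) : ℝ) : ℂ)

namespace Ctx

variable (C : Ctx Φ)

/-- The eigenvalue at a place of `R`. -/
def s (w : Ideal (𝓞 F)) : ℂ := ((2 * C.sign w * Real.sqrt (Ideal.absNorm w) : ℝ) : ℂ)

theorem a_ideal {v : Ideal (𝓞 F)} (hv : v.IsPrime) (hv0 : v ≠ ⊥) (hvN : ¬ v ∣ lv F C.N) :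
    C.a (C.T.ideal v) = C.a v :=
  C.φ_mem.a_ideal C.T C.φ_ne C.twist_φ hv hv0 hvN

theorem inSys_twist {u : Smooth Φ} (hu : InSys Φ C.N C.a u) :
    InSys Φ C.N C.a (C.T.twist u) := by
  refine ⟨C.T.isLevel_twist hu.level, C.T.spherical_twist hu.spherical, fun v hv hv0 hvN => ?_⟩
  have h := C.T.sysOff_twist hu.sys v hv hv0 hvN
  simp only [C.a_ideal hv hv0 hvN] at h
  exact h

/-- Spherical eigenvectors at the places of `R` outside `Q`. -/
structure InStage (Q : Set (Ideal (𝓞 F))) (u : Smooth Φ) : Prop where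
  sys : InSys Φ C.N C.a u
  eigen : ∀ w (h : w ∈ C.R), w ∉ Q → EigenAt (C.prime w h) (C.ne_bot w h) u (C.s w)

/-- The stage as a subspace. -/
def stage (Q : Set (Ideal (𝓞 F))) : Submodule ℂ (Smooth Φ) where
  carrier := {u | C.InStage Q u}
  zero_mem' := ⟨InSys.zero C.hN, fun _ _ _ => EigenAt.zero _ _ _⟩
  add_mem' h h' := ⟨h.sys.add h'.sys, fun w hw hQ => (h.eigen w hw hQ).add (h'.eigen w hw hQ)⟩
  smul_mem' c _ h := ⟨h.sys.smul c, fun w hw hQ => (h.eigen w hw hQ).smul c⟩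

theorem stage_le (Q : Set (Ideal (𝓞 F))) : C.stage Q ≤ sysSub Φ C.hN C.a := fun _ h => h.sys

theorem stage_full : C.stage (↑C.R) = sysSub Φ C.hN C.a :=
  le_antisymm (C.stage_le _) fun _ h => ⟨h, fun _ hw hQ => absurd (Finset.mem_coe.mpr hw) hQ⟩

instance finite_stage (Q : Set (Ideal (𝓞 F))) : FiniteDimensional ℂ (C.stage Q) :=
  haveI := C.finite
  Submodule.finiteDimensional_of_le (C.stage_le Q)

theorem φ_mem_stage (Q : Set (Ideal (𝓞 F))) : C.φ ∈ C.stage Q :=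
  ⟨C.φ_mem, fun w hw _ => C.φ_eigen w hw⟩

theorem rho_mem_stage {Q : Set (Ideal (𝓞 F))} {u : Smooth Φ} (hu : u ∈ C.stage Q)
    {g : GL (Fin 2) (AF F)} (hg : g ∈ principalSubgroup ⊤) : rho Φ g u ∈ C.stage Q :=
  ⟨hu.sys.rho_top hg, fun w hw hQ => (hu.eigen w hw hQ).rho_top hg⟩

theorem twist_mem_stage {Q : Set (Ideal (𝓞 F))} {u : Smooth Φ} (hu : u ∈ C.stage Q) :
    C.T.twist u ∈ C.stage Q :=
  ⟨C.inSys_twist hu.sys, fun w hw hQ => C.T.eigenAt_twist (C.fixed w hw) (hu.eigen w hw hQ)⟩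

/-- An integral translation after the twist. -/
def stageOp (Q : Set (Ideal (𝓞 F))) (g : GL (Fin 2) (AF F)) (hg : g ∈ principalSubgroup ⊤) :
    C.stage Q →ₗ[ℂ] C.stage Q where
  toFun u := ⟨rho Φ g (C.T.twist u.1), C.rho_mem_stage (C.twist_mem_stage u.2) hg⟩
  map_add' u v := Subtype.ext (by simp)
  map_smul' c u := Subtype.ext (by simp)

@[simp] theorem stageOp_val (Q : Set (Ideal (𝓞 F))) (g : GL (Fin 2) (AF F))
    (hg : g ∈ principalSubgroup ⊤) (u : C.stage Q) :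
    (C.stageOp Q g hg u : Smooth Φ) = rho Φ g (C.T.twist u.1) := rfl

end Ctx

end FLTAgent.LanglandsTunnell.Isolation
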