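import Fermat.Agent.LanglandsTunnell.Isolation.SeedProps
import Fermat.Agent.LanglandsTunnell.Isolation.GaloisPlaces
import Fermat.Agent.LanglandsTunnell.Isolation.Tame.ShellVector

/-!
# A test level with the seed on it

`exists_frame` chooses a test level and a killing pair whose eigenspace carries the seed, together
with the properties of the seed used by the descent (`SeedProps`).
-/

set_option autoImplicit false

noncomputable section

namespace FLTAgent.LanglandsTunnell.Isolation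

open FLTAgent.LanglandsTunnell MeasureTheory NumberField Matrix
open scoped InnerProductSpace ComplexConjugate

/-- A nonzero automorphic eigenfunction of a hermitian killing kernel has a real eigenvalue. -/
theorem im_eq_zero_of_killing {F : Type} [Field F] [NumberField F] {ι : Type} [Fintype ι]
    {Φ : PlaceChoice F ι} {n : Ideal (𝓞 F)} (hn : n ≠ ⊥) {S : Set (Pt F ι n)}
    (hS : IsFundDomain Φ S) {K : Comb F ι} (hK : K.Good fun w => w ≠ ⊥)
    (hkill : IsKillingKernel Φ S (K.kernel n)) {φ : Pt F ι n → ℂ} (hφ : IsAutomorphic Φ φ)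
    (hne : ∃ x, φ x ≠ 0) {l : ℂ} (he : ∀ x, Kernel.op (K.kernel n) φ x = l * φ x) : l.im = 0 := by
  have : IsFiniteMeasure (domMeasure S) := isFiniteMeasure_dom Φ hS
  have hnice := isNice_of_good Φ hn hK
  obtain ⟨B, hR⟩ := isRowKernel_of_killing hnice hkill
  have hm : Measurable φ := measurable_of_fst_sections hn fun v => (hφ.continuous v).measurable
  obtain ⟨C, hC⟩ := hφ.bounded
  have hmem : MemLp φ 2 (domMeasure S) :=
    MemLp.of_bound hm.aestronglyMeasurable C (Filter.Eventually.of_forall hC)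
  set f := hmem.toLp φ with hf
  have hop : hR.toOp f = l • f := by
    refine Lp.ext ?_
    filter_upwards [hR.toOp_ae f, Lp.coeFn_smul l f, hmem.coeFn_toLp] with x h1 h2 h3
    rw [h1, h2, Pi.smul_apply, hf, h3, smul_eq_mul, hR.inner_rowVec, ← he]
    refine Eq.trans (integral_congr_ae (hmem.coeFn_toLp.mono fun y hy => by simp only [hy]))
      (hnice.integral_mul_invariant hn hS x hm (fun v K' _ => ⟨C, fun Q _ => hC _⟩)
        hφ.invariant).symm
  have h := hR.symm_toOp (fun a b => periodise_conj Φ hnice hkill.symm a b) f f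
  rw [hop, inner_smul_left, inner_smul_right] at h
  have hff : ⟪f, f⟫_ℂ ≠ 0 := by
    rw [Ne, inner_self_eq_zero]
    intro h0
    obtain ⟨x, hx⟩ := hne
    refine hx (congrFun (eq_zero_of_ae_domain Φ hn hS hφ.invariant hφ.continuous hm
      ((ae_restrict_iff' hS.measurable).mp ?_)) x)
    filter_upwards [hmem.coeFn_toLp, Lp.coeFn_zero ℂ 2 (domMeasure S)] with y h1 h2
    rw [← h1, ← hf, h0, h2]
    rfl
  exact Complex.conj_eq_iff_im.mp (mul_right_cancel₀ hff h)

/-- A test level, a killing pair and the seed in its eigenspace. -/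
theorem exists_frame (hkill : KillingSpec) (htr : TraceSpec) (hred : ReductionSpec)
    (hseed : SeedSpec) (D : Datum) (P : ExtPlaces D) :
    ∃ (S : Frame D P) (s : SeedAt S), SeedProps s := by
  obtain ⟨σ, e, hne, hfix, hemb⟩ := exists_twist D P
  obtain ⟨k, B₁, φ₀, a₀, heig, hgal, hk, hfrob⟩ := hseed D P
  generalize hL : 3 ^ k * D.badPart ^ B₁ = L at φ₀ heig hgal hfrob
  have h3k : L ≠ 0 :=
    hL ▸ mul_ne_zero (pow_ne_zero _ (by norm_num)) (pow_ne_zero _ D.badPart_ne_zero)
  set u := ofFun h3k heig.automorphic with hu_def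
  have hu : InSys P.placesM L a₀ u := inSys_ofFun h3k heig
  have hres : restrictLevel L u.1 = φ₀ := restrictLevel_liftForm φ₀
  have hu0 : u ≠ 0 := by
    intro h0
    obtain ⟨x, hx⟩ := heig.ne_zero
    rw [← hres, h0] at hx
    exact hx rfl
  have hcusp₀ : IsCuspidal P.placesM (restrictLevel L u.1) := hres.symm ▸ heig.cuspidal
  have htwist : (⟨σ, e, hemb⟩ : TwistData P.placesM).twist u = u := by
    refine Subtype.ext (funext fun g => funext fun Q => ?_)
    rw [TwistData.twist_val]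
    exact hgal σ e hfix hemb g Q
  have hpos : ∀ b, 3 ^ k * D.badPart ^ b ≠ 0 := fun b =>
    mul_ne_zero (pow_ne_zero _ (by norm_num)) (pow_ne_zero _ D.badPart_ne_zero)
  have hL₀ : L ∣ 3 ^ k * D.badPart ^ max B₁ 1 :=
    hL ▸ mul_dvd_mul_left _ (pow_dvd_pow _ (le_max_left B₁ 1))
  obtain ⟨e₀, he₀⟩ := Tame.exists_hasShell (⟨σ, e, hemb⟩ : TwistData P.placesM)
    (fun x => (LanglandsTunnell.Local.cubicData hne hfix).cube x)
    (by
      by_contra h
      push Not at h
      exact hne (AlgEquiv.ext h))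
    (hu.mono (hpos _) hL₀) hu0 ⟨L, hu.level, hcusp₀⟩ htwist
  set B : ℕ := max (max B₁ 1) e₀ with hB_def
  have hB : 0 < B := lt_of_lt_of_le zero_lt_one ((le_max_right B₁ 1).trans (le_max_left _ e₀))
  have hB₁ : max B₁ 1 ≤ B := le_max_left _ _
  have hLB : L ∣ 3 ^ k * D.badPart ^ B :=
    hL₀.trans (mul_dvd_mul_left _ (pow_dvd_pow _ hB₁))
  have hshell := he₀ (3 ^ k * D.badPart ^ B) (hpos B) (mul_dvd_mul_left _ (pow_dvd_pow _ hB₁))
    (fun q hq hd => by
      rcases hq.dvd_mul.mp hd with h | h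
      · exact h.trans (dvd_mul_right _ _)
      · exact dvd_mul_of_dvd_right ((hq.dvd_of_dvd_pow h).trans
          (dvd_pow_self _ (Nat.one_le_iff_ne_zero.mp (le_max_right B₁ 1)))) _)
    (fun q hq hq3 hd => by
      rcases hq.dvd_mul.mp hd with h | h
      · exact absurd ((Nat.prime_dvd_prime_iff_eq hq Nat.prime_three).mp (hq.dvd_of_dvd_pow h)) hq3
      · exact dvd_mul_of_dvd_right ((pow_dvd_pow q (le_max_right _ e₀)).trans
          (pow_dvd_pow_of_dvd (hq.dvd_of_dvd_pow h) B)) _)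
  obtain ⟨R, N₀, N₁, N, N', c, hc, htest, htrace⟩ := htr D P σ e hne hfix hemb k B hB hk
  have hLN' : L ∣ N' := hLB.trans htest.seed
  have hN' := htest.ne_zero
  have hnM : lv D.M N' ≠ ⊥ := lv_ne_bot hN'
  have hN : N ≠ 0 := fun h0 => hN' (zero_dvd_iff.mp (h0 ▸ htest.dvd))
  have hnE : lv D.E N ≠ ⊥ := lv_ne_bot hN
  obtain ⟨SM, hSM⟩ := hred D.M (Fin 3) P.placesM (lv D.M N') hnM
  obtain ⟨SE, hSE⟩ := hred D.E Unit P.placesE (lv D.E N) hnE
  have hu' : InSys P.placesM N' a₀ u := hu.mono hN' hLN'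
  have hcusp : IsCuspidal P.placesM (restrictLevel N' u.1) :=
    isCuspidal_mono hu.level hLN' hcusp₀
  have heig' := hu'.isEigenform hu0 hcusp
  have h3dvd : ∀ {w : Ideal (𝓞 D.M)}, ¬ w ∣ lv D.M N' → ¬ w ∣ lv D.M L :=
    fun hw h => hw (h.trans (Ideal.dvd_iff_le.mpr (lv_le hLN')))
  have htriv : ∀ w : Ideal (𝓞 D.M), w.IsPrime → w ≠ ⊥ → ¬ w ∣ lv D.M N' →
      ∀ g, IsFrobOver D.M w g → a₀ w = trLift (D.ρ g) :=
    fun w hw hw0 hwN => hfrob w hw hw0 (h3dvd hwN)
  obtain ⟨K, hK, l, hl, hop⟩ := hkill D P N N' hN' htest.dvd SM SE hSM hSE _ a₀ heig'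
    fun w hw => htriv w hw.1.1 hw.1.2.1 hw.2.2
  have hfineM : Killing.Fine (lv D.M N') K :=
    Comb.Good.mono hK.good fun w hw => ⟨hw.1.1, hw.1.2.1, hw.2.2⟩
  have hfineE : Killing.Fine (lv D.E N) (D.descComb K) := by
    refine good_descComb D (fun w hw => ?_) hK.good
    have := hw.1.1
    exact ⟨under_isPrime D w, under_ne_bot D hw.1.2.1, fun h => not_dvd_under D hw.2.2
      (h.trans (Ideal.dvd_iff_le.mpr (lv_le htest.dvd)))⟩
  have him : l.im = 0 := im_eq_zero_of_killing hnM hSM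
    (Comb.Good.mono hfineM fun _ h => h.2.1) hK.sideM heig'.automorphic heig'.ne_zero hop
  have hlre : ((l.re : ℝ) : ℂ) = l := Complex.ext (by simp) (by simp [him])
  have hlre0 : l.re ≠ 0 := fun h0 => hl (Complex.ext h0 him)
  let S : Frame D P :=
    { σ := σ, e := e, σ_ne := hne, σ_fix := hfix, e_emb := hemb, k := k, B := B, hB := hB
      R := R, N₀ := N₀
      N₁ := N₁, N := N, N' := N', c := c, hc := hc, test := htest
      dM := ⟨SM, hnM, hSM, K, hfineM, hK.sideM, l.re, hlre0⟩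
      dE := ⟨SE, hnE, hSE, D.descComb K, hfineE, hK.sideE, l.re, hlre0⟩
      pair := hK, hK := rfl, hl := rfl
      trace := htrace SM SE hSM hSE K hK }
  refine ⟨S, ⟨a₀, u, hu', hu0, fun x => ?_⟩, ⟨?_, hu.mono (hpos B) hLB, hshell,
    fun p hp h3 => hk (lineShape_of_three_mem_R htest hne hfix ⟨p, hp, h3⟩), ?_, ?_⟩⟩
  · show Kernel.op (K.kernel _) _ x = ((l.re : ℝ) : ℂ) * _
    rw [hlre]
    exact hop x
  · exact htwist
  · intro w hw g hg
    obtain ⟨h1, h2, h3⟩ := S.okPrime_testOK hw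
    exact htriv w h1 h2 h3 g hg
  · intro w hw hw0 hpw
    obtain ⟨p, hp, hbad, hpw⟩ := hpw
    have := hw
    have hnd : ¬ w ∣ lv D.M L := by
      intro hdvd
      have hmem : ((L : ℕ) : 𝓞 D.M) ∈ w :=
        Ideal.dvd_iff_le.mp hdvd (Ideal.mem_span_singleton_self _)
      have hpL : (p : ℕ) ∣ L := by
        by_contra hnd'
        obtain ⟨x, y, hxy⟩ := (p.2.coprime_iff_not_dvd.mpr hnd').cast (R := 𝓞 D.M)
        refine hw.ne_top ((Ideal.eq_top_iff_one w).mpr (hxy ▸ ?_))
        exact add_mem (w.mul_mem_left _ hpw) (w.mul_mem_left _ hmem)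
      rw [← hL] at hpL
      rcases p.2.dvd_mul.mp hpL with h3 | h3
      · have hp3 : (p : ℕ) = 3 :=
          (Nat.prime_dvd_prime_iff_eq p.2 Nat.prime_three).mp (p.2.dvd_of_dvd_pow h3)
        have hk0 : k ≠ 0 := by
          rintro rfl
          exact p.2.ne_one (Nat.dvd_one.mp (by simpa using h3))
        exact hk0 (hk (lineShape_of_three_mem_R htest hne hfix ⟨p, hp, hp3⟩))
      · exact hbad ((D.prime_dvd_badPart p.2).mp (p.2.dvd_of_dvd_pow h3))
    obtain ⟨g, hg, htr2⟩ := trLift_frob_of_mem_R htest hne hfix hw0 hp hbad hpw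
    have ha : a₀ w = trLift (D.ρ g) := hfrob w hw hw0 hnd g hg
    have hat := hu.sys w hw hw0 hnd
    rcases htr2 with h2 | h2
    · refine ⟨1, Or.inl rfl, ?_⟩
      convert hat using 1
      rw [ha, h2]
      push_cast
      ring
    · refine ⟨-1, Or.inr rfl, ?_⟩
      convert hat using 1
      rw [ha, h2]
      push_cast
      ring

end FLTAgent.LanglandsTunnell.Isolation
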