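import Fermat.Agent.LanglandsTunnell.Isolation.Descent
import Fermat.Agent.LanglandsTunnell.Isolation.FrameExist
import Fermat.Agent.LanglandsTunnell.Killing.Nondeg
import Fermat.Agent.LanglandsTunnell.Trace.TraceFinal
import Fermat.Agent.LanglandsTunnell.Geom.Domain
import Fermat.Agent.LanglandsTunnell.Seed.SeedSpec

/-!
# The cubic descent

`descentSpec` proves `DescentSpec`, feeding the killing, trace, reduction and seed results to
`Frame.exists_descended`.
-/

set_option autoImplicit false

noncomputable section

namespace FLTAgent.LanglandsTunnell.Isolation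

open FLTAgent.LanglandsTunnell

/-- The descent from its analytic inputs. -/
theorem descentSpec_of (hkill : KillingSpec) (htr : TraceSpec) (hred : ReductionSpec)
    (hseed : SeedSpec) : DescentSpec := fun D P => by
  obtain ⟨S, s, hs⟩ := exists_frame hkill htr hred hseed D P
  obtain ⟨φ, a, h⟩ := S.exists_descended s hs
  exact ⟨S.N, φ, a, h⟩

/-- **The cubic descent.** -/
theorem descentSpec : DescentSpec :=
  descentSpec_of Killing.killingSpec LanglandsTunnell.Trace.traceSpec
    LanglandsTunnell.Geom.reductionSpec LanglandsTunnell.Seed.seedSpec

end FLTAgent.LanglandsTunnell.Isolation
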