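import Fermat.Agent.LanglandsTunnell.Isolation.DescComb

/-!
# Limit of twisted diagonal integrals along the isolating sequence

The limit only sees the eigenspace of the isolated eigenvalue.
-/

set_option autoImplicit false

noncomputable section

namespace FLTAgent.LanglandsTunnell.Isolation

open FLTAgent.LanglandsTunnell MeasureTheory NumberField Filter
open FLTAgent.LanglandsTunnell.Geom (countable_finPt)
open scoped InnerProductSpace ComplexConjugate Topology

variable {F : Type} [Field F] [NumberField F] {ι : Type} [Fintype ι] {n : Ideal (𝓞 F)}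

/-- A finite kernel with real entries and rows of bounded size. -/
structure IsFiniteReal (r : FinPt F n → FinPt F n → ℂ) : Prop where
  real : ∀ v u, conj (r v u) = r v u
  le_one : ∀ v u, ‖r v u‖ ≤ 1
  supp : ∃ N : ℕ, ∀ v, ∃ U : Finset (FinPt F n), U.card ≤ N ∧ ∀ u, r v u ≠ 0 → u ∈ U

omit [Fintype ι] in
theorem measurable_of_fst_sections (hn : n ≠ ⊥) {β : Type*} [MeasurableSpace β]
    {f : Pt F ι n → β} (hf : ∀ v, Measurable fun P => f (v, P)) : Measurable f := by
  have := countable_finPt (F := F) hn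
  exact measurable_from_prod_countable_right hf

variable {Φ : PlaceChoice F ι} {S : Set (Pt F ι n)} [IsFiniteMeasure (domMeasure S)]

/-- The limit of the diagonal integrals of `K * (X K p(K)^m) * K`. -/
theorem tendsto_diag (hn : n ≠ ⊥) (hS : IsFundDomain Φ S) {K X : Comb F ι}
    (hK : K.Good fun w => w ≠ ⊥) (hX : X.Good fun w => w ≠ ⊥) {BK BA : ℝ}
    (hRK : IsRowKernel (domMeasure S) (Kernel.periodise Φ (K.kernel n)) BK)
    (hRA : IsRowKernel (domMeasure S) (Kernel.periodise Φ (((K.mul X).mul K).kernel n)) BA)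
    (hsymm : ∀ x y, K.kernel n y x = conj (K.kernel n x y))
    {r : FinPt F n → FinPt F n → ℂ} (hr : IsFiniteReal r) {τ : Pt F ι n → Pt F ι n}
    (hτ : Measurable τ) (l : ℝ) {c : ℝ} (hc0 : 0 < c)
    (hc : c * (‖hRK.toOp‖ + |l|) ^ 2 ≤ 1) {N : ℕ}
    (e : OrthonormalBasis (Fin N) ℂ (eigenSub hRK.toOp l)) :
    Tendsto (fun m : ℕ => ∫ x, (∑ᶠ u, r x.1 u * Kernel.periodise Φ
        (((K.mul (isoSeq K X l c m)).mul K).kernel n) (u, x.2) (τ x)) ∂domMeasure S) atTop
      (𝓝 (∫ x, (∑ᶠ u, r x.1 u * ∑ j, ⟪hRA.rowVec (u, x.2), (e j : Lp ℂ 2 (domMeasure S))⟫_ℂ *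
        ⟪(e j : Lp ℂ 2 (domMeasure S)), hRK.rowVec (τ x)⟫_ℂ) ∂domMeasure S)) := by
  classical
  obtain ⟨Nr, hNr⟩ := hr.supp
  choose U hU hsupp using hNr
  have hsum : ∀ (v : FinPt F n) (f : FinPt F n → ℂ),
      ∑ᶠ u, r v u * f u = ∑ u ∈ U v, r v u * f u := fun v f =>
    finsum_eq_sum_of_support_subset _ fun u hu => hsupp v u (left_ne_zero_of_mul hu)
  let α : Pt F ι n → Lp ℂ 2 (domMeasure S) := fun x => ∑ u ∈ U x.1, r x.1 u • hRA.rowVec (u, x.2)
  let k : Pt F ι n → Lp ℂ 2 (domMeasure S) := fun x => hRK.rowVec (τ x)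
  have hαv : ∀ (x : Pt F ι n) (g : Lp ℂ 2 (domMeasure S)),
      ⟪α x, g⟫_ℂ = ∑ᶠ u, r x.1 u * ⟪hRA.rowVec (u, x.2), g⟫_ℂ := fun x g => by
    simp only [α, sum_inner, inner_smul_left, hr.real, hsum]
  have hrep := rep_isoSeq hn hS hK hX hRK hRA hsymm l c
  have hinteg : ∀ (m : ℕ) (x : Pt F ι n),
      (∑ᶠ u, r x.1 u * Kernel.periodise Φ
        (((K.mul (isoSeq K X l c m)).mul K).kernel n) (u, x.2) (τ x)) =
      ⟪α x, (isolator hRK.toOp l c ^ m) (k x)⟫_ℂ := fun m x => by
    simp only [hαv, (hrep m).2, k]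
  simp only [hinteg]
  have hlim := tendsto_integral_isolator (domMeasure S)
    (hRK.symm_toOp fun a b => periodise_conj Φ (isNice_of_good Φ hn hK) hsymm a b) l hc0 hc e α k
    (a := Nr * Real.sqrt BA) (b := Real.sqrt BK) (fun x => ?_) (fun x => hRK.norm_rowVec_le _)
    (fun m => ?_)
  · refine (congrArg _ (congrArg 𝓝 (integral_congr_ae
      (Eventually.of_forall fun x => ?_)))).mp hlim
    simp only [hαv]
    simp only [hsum]
    simp only [k, Finset.mul_sum]
    rw [Finset.sum_comm]
    exact Finset.sum_congr rfl fun u _ => Finset.sum_congr rfl fun j _ => by ring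
  · refine (norm_sum_le _ _).trans ((Finset.sum_le_sum fun u _ =>
      le_trans (norm_smul _ _).le (mul_le_mul (hr.le_one _ _) (hRA.norm_rowVec_le _)
        (norm_nonneg _) zero_le_one)).trans ?_)
    rw [Finset.sum_const, nsmul_eq_mul, one_mul]
    exact mul_le_mul_of_nonneg_right (Nat.cast_le.mpr (hU x.1)) (Real.sqrt_nonneg _)
  · simp only [← hinteg m, hsum]
    have hmeas := (isNice_of_good Φ hn (good_mul (good_mul hK (hrep m).1) hK)).measurable_periodise
    have hpair : ∀ v u, Measurable fun P : ι → H3 => (((u, P), τ (v, P)) : Pt F ι n × Pt F ι n) :=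
      fun v u =>
      (measurable_const.prodMk measurable_id).prodMk
        (hτ.comp (measurable_const.prodMk measurable_id))
    exact (measurable_of_fst_sections hn fun v => Finset.measurable_sum (U v) fun u _ =>
      (measurable_const (a := r v u)).mul (hmeas.comp (hpair v u))).aestronglyMeasurable

/-- The identity kernel. -/
def oneKernel (v u : FinPt F n) : ℂ := by classical exact if u = v then 1 else 0

omit [NumberField F] in
theorem isFiniteReal_oneKernel : IsFiniteReal (oneKernel (F := F) (n := n)) := by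
  classical
  refine ⟨fun v u => ?_, fun v u => ?_, 1, fun v => ⟨{v}, by simp, fun u hu => ?_⟩⟩
  · simp only [oneKernel]; split_ifs <;> simp
  · simp only [oneKernel]; split_ifs <;> simp
  · by_contra hne
    exact hu (if_neg (by simpa using hne))

omit [NumberField F] in
theorem finsum_oneKernel (v : FinPt F n) (f : FinPt F n → ℂ) :
    ∑ᶠ u, oneKernel v u * f u = f v := by
  classical
  rw [finsum_eq_single _ v fun u hu => by simp [oneKernel, hu]]
  simp [oneKernel]

end FLTAgent.LanglandsTunnell.Isolation
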