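import Fermat.Agent.LanglandsTunnell.AdelicNbrs
import Fermat.Agent.LanglandsTunnell.Local.Components
import Fermat.Agent.LanglandsTunnell.Killing.Operators

/-!
# The idempotent of one prime, local representatives, commutation of Hecke words

Each prime `w` cuts an idempotent out of the integral adeles. Hecke representatives can be taken
inside the corresponding factor, so representatives at different primes commute.
-/

set_option autoImplicit false

noncomputable section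

namespace FLTAgent.LanglandsTunnell.Isolation

open scoped TensorProduct
open NumberField FLTAgent.LanglandsTunnell
open FLTAgent.LanglandsTunnell.Local
    (Op compOH compAF_intHom oh_ext exists_oh_comp isPComplete_op φp)

variable {F : Type} [Field F] [NumberField F] {n w w' : Ideal (𝓞 F)}

/-- The characterising properties of the idempotent of `w` over `p`. -/
structure IsPlaceIdem (p : Nat.Primes) (w : Ideal (𝓞 F)) (ε : OH F) : Prop where
  mem : ((p : ℕ) : 𝓞 F) ∈ w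
  mul_self : ε * ε = ε
  one_sub_mem : 1 - ε ∈ idealOH w
  supp : ∀ q : Nat.Primes, q ≠ p → compOH q ε = 0
  approx : ∀ k : ℕ, ∃ x : 𝓞 F, (((p : ℕ) : Op F p)) ^ k ∣ compOH p ε - x ⊗ₜ 1 ∧
    ∀ J : Ideal (𝓞 F), J ⊔ w = ⊤ → Ideal.span {((p : ℕ) : 𝓞 F)} ≤ J → x ∈ J ^ k

omit [NumberField F] in
theorem compOH_tmul_one (q : Nat.Primes) (x : 𝓞 F) :
    compOH q (x ⊗ₜ[ℤ] (1 : Zhat)) = x ⊗ₜ[ℤ] (1 : ℤ_[(q : ℕ)]) := rfl

omit [NumberField F] in
theorem pow_dvd_tmul_one_of_mem {p : Nat.Primes} {k : ℕ} {x : 𝓞 F}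
    (h : x ∈ Ideal.span {((p : ℕ) : 𝓞 F)} ^ k) :
    ((p : ℕ) : Op F p) ^ k ∣ x ⊗ₜ[ℤ] (1 : ℤ_[(p : ℕ)]) := by
  rw [Ideal.span_singleton_pow, Ideal.mem_span_singleton] at h
  obtain ⟨y, rfl⟩ := h
  have := map_dvd (Algebra.TensorProduct.includeLeftRingHom : 𝓞 F →+* Op F p)
    (dvd_mul_right (((p : ℕ) : 𝓞 F) ^ k) y)
  rw [map_pow, map_natCast] at this
  exact this

theorem exists_isPlaceIdem (hw : w.IsPrime) (hw0 : w ≠ ⊥) :
    ∃ (p : Nat.Primes) (ε : OH F), IsPlaceIdem p w ε := by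
  obtain ⟨p, hp⟩ := exists_prime_natCast_mem hw hw0
  set P : Ideal (𝓞 F) := Ideal.span {((p : ℕ) : 𝓞 F)} with hP
  have hP0 : P ≠ 0 := by
    rw [hP, Ne, Submodule.zero_eq_bot, Ideal.span_singleton_eq_bot]
    exact Nat.cast_ne_zero.mpr p.2.ne_zero
  obtain ⟨a, B, hB, hPB⟩ := WfDvdMonoid.max_power_factor' hP0
    (fun hu => hw.ne_top (Ideal.isUnit_iff.mp hu))
  have ha : a ≠ 0 := by
    rintro rfl
    rw [pow_zero, one_mul] at hPB
    exact hB (Ideal.dvd_iff_le.mpr (hPB ▸ (Ideal.span_singleton_le_iff_mem _).mpr hp))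
  have hcop : w ⊔ B = ⊤ := (hw.isMaximal hw0).out.2 _ (lt_of_le_of_ne le_sup_left fun h =>
    hB (Ideal.dvd_iff_le.mpr (h ▸ le_sup_right)))
  have hcrt : ∀ k : ℕ, ∃ x : 𝓞 F, x ∈ B ^ k ∧ x - 1 ∈ (w ^ a) ^ k := by
    intro k
    have h1 : B ^ k ⊔ (w ^ a) ^ k = ⊤ := by
      rw [← pow_mul]
      exact Ideal.pow_sup_pow_eq_top (by rwa [sup_comm] at hcop)
    obtain ⟨x, hx, y, hy, hxy⟩ := Submodule.mem_sup.mp (h1 ▸ Submodule.mem_top : (1 : 𝓞 F) ∈ _)
    exact ⟨x, hx, by rw [show x - 1 = -y by linear_combination hxy]; exact neg_mem hy⟩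
  choose x hxB hxw using hcrt
  have hmem : ∀ {k : ℕ} {u v : 𝓞 F}, u ∈ B ^ k → v ∈ (w ^ a) ^ k → u * v ∈ P ^ k := by
    intro k u v hu hv
    rw [hPB, mul_pow, mul_comm (u : 𝓞 F) v]
    exact Ideal.mul_mem_mul hv hu
  have hstep : ∀ k, x (k + 1) - x k ∈ P ^ k := by
    intro k
    have h1 : x (k + 1) - x k ∈ B ^ k := sub_mem (Ideal.pow_le_pow_right k.le_succ (hxB _)) (hxB k)
    have h2 : x (k + 1) - x k ∈ (w ^ a) ^ k := by
      have := sub_mem (Ideal.pow_le_pow_right k.le_succ (hxw (k + 1))) (hxw k)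
      simpa using this
    have h3 : B ^ k ⊔ (w ^ a) ^ k = ⊤ := by
      rw [← pow_mul]
      exact Ideal.pow_sup_pow_eq_top (by rwa [sup_comm] at hcop)
    rw [hPB, mul_pow, mul_comm]
    rw [Ideal.mul_eq_inf_of_coprime h3]
    exact ⟨h1, h2⟩
  obtain ⟨L, hL⟩ :=
      (isPComplete_op (F := F) (p := (p : ℕ))).prec (fun k => x k ⊗ₜ (1 : ℤ_[(p : ℕ)]))
    fun k => by rw [← TensorProduct.sub_tmul]; exact pow_dvd_tmul_one_of_mem (hstep k)
  have hidem : L * L = L := by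
    refine sub_eq_zero.mp ((isPComplete_op (F := F) (p := (p : ℕ))).haus _ fun k => ?_)
    obtain ⟨d, hd⟩ := hL k
    have h1 : ((p : ℕ) : Op F p) ^ k ∣ ((x k * x k - x k) ⊗ₜ (1 : ℤ_[(p : ℕ)])) :=
      pow_dvd_tmul_one_of_mem (by
        have := hmem (hxB k) (hxw k)
        rwa [mul_sub, mul_one] at this)
    obtain ⟨e, he⟩ := h1
    refine ⟨d * (L + x k ⊗ₜ 1) + e - d, ?_⟩
    have hxx : ((x k * x k - x k) ⊗ₜ (1 : ℤ_[(p : ℕ)]) : Op F p) =
        x k ⊗ₜ 1 * x k ⊗ₜ 1 - x k ⊗ₜ 1 := by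
      rw [Algebra.TensorProduct.tmul_mul_tmul, mul_one, TensorProduct.sub_tmul]
    rw [hxx] at he
    linear_combination (L + x k ⊗ₜ 1) * hd + he - hd
  classical
  obtain ⟨ε, hε⟩ := exists_oh_comp (F := F) (Function.update (fun _ => 0) p L)
  have hεp : compOH p ε = L := by rw [hε, Function.update_self]
  have hεq : ∀ q, q ≠ p → compOH q ε = 0 := fun q hq => by rw [hε, Function.update_of_ne hq]
  refine ⟨p, ε, hp, oh_ext fun q => ?_, ?_, hεq, fun k => ⟨x k, hεp ▸ hL k, fun J hJ hPJ => ?_⟩⟩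
  · rcases eq_or_ne q p with rfl | hq
    · rw [map_mul, hεp, hidem]
    · rw [map_mul, hεq q hq, mul_zero]
  · -- modulo `w`
    obtain ⟨v, hv⟩ := exists_natCast_mul_eq_one_sub_deltaZhat p
    obtain ⟨d, hd⟩ := hL 1
    obtain ⟨z, hz⟩ := exists_oh_comp (F := F) (Function.update (fun _ => 0) p d)
    set δ : OH F := (1 : 𝓞 F) ⊗ₜ[ℤ] deltaZhat p
    have hδ : ∀ q, compOH q δ = if q = p then 1 else 0 := fun q => by
      show (1 : 𝓞 F) ⊗ₜ[ℤ] (deltaZhat p q) = _
      split_ifs with h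
      · subst h; simp [deltaZhat, Algebra.TensorProduct.one_def]
      · simp [deltaZhat, h]
    have e : (1 : OH F) - ε =
        (1 - δ) + δ * ((1 - x 1) ⊗ₜ[ℤ] (1 : Zhat)) - ((p : ℕ) : OH F) * z := by
      refine oh_ext fun q => ?_
      rcases eq_or_ne q p with rfl | hq
      · simp only [map_sub, map_one, map_add, map_mul, hδ, if_true, hεp, map_natCast, hz,
          Function.update_self, compOH_tmul_one, TensorProduct.sub_tmul,
          ← Algebra.TensorProduct.one_def]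
        rw [pow_one] at hd
        linear_combination -hd
      · simp only [map_sub, map_one, map_add, map_mul, hδ, if_neg hq, hεq q hq, map_natCast, hz,
          Function.update_of_ne hq]
        ring
    rw [e]
    refine sub_mem (add_mem ?_ (Ideal.mul_mem_left _ _ (tmul_one_mem_idealOH ?_)))
      (Ideal.mul_mem_right _ _ (natCast_mem_idealOH hp))
    · have e1 : (1 : OH F) - δ = ((p : ℕ) : OH F) * ((1 : 𝓞 F) ⊗ₜ[ℤ] v) := by
        have hc : ((p : ℕ) : OH F) = (1 : 𝓞 F) ⊗ₜ[ℤ] ((p : ℕ) : Zhat) :=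
          (map_natCast (Algebra.TensorProduct.includeRight : Zhat →ₐ[ℤ] OH F) (p : ℕ)).symm
        rw [Algebra.TensorProduct.one_def, hc, Algebra.TensorProduct.tmul_mul_tmul, one_mul, hv,
          TensorProduct.tmul_sub]
      rw [e1]
      exact Ideal.mul_mem_right _ _ (natCast_mem_idealOH hp)
    · have h1 := hxw 1
      rw [pow_one] at h1
      rw [show 1 - x 1 = -(x 1 - 1) by ring]
      exact neg_mem (Ideal.pow_le_self ha h1)
  · refine Ideal.pow_right_mono ?_ k (hxB k)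
    calc B = B * ⊤ := (Ideal.mul_top B).symm
      _ = B * (w ^ a ⊔ J) := by rw [Ideal.pow_sup_eq_top (by rwa [sup_comm] at hJ)]
      _ = B * w ^ a ⊔ B * J := Ideal.mul_sup ..
      _ ≤ J := sup_le (by rw [mul_comm, ← hPB]; exact hPJ) Ideal.mul_le_right

theorem IsPlaceIdem.mul_eq_zero {p p' : Nat.Primes} {ε ε' : OH F} (h : IsPlaceIdem p w ε)
    (h' : IsPlaceIdem p' w' ε') (hw : w.IsPrime) (hw0 : w ≠ ⊥) (hw' : w'.IsPrime) (hw0' : w' ≠ ⊥)
    (hne : w ≠ w') : ε * ε' = 0 := by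
  refine oh_ext fun q => ?_
  rw [map_mul, map_zero]
  rcases eq_or_ne q p with rfl | hq
  swap
  · rw [h.supp q hq, zero_mul]
  rcases eq_or_ne q p' with rfl | hq'
  swap
  · rw [h'.supp q hq', mul_zero]
  refine (isPComplete_op (F := F) (p := (q : ℕ))).haus _ fun k => ?_
  obtain ⟨x, ⟨d, hd⟩, hxJ⟩ := h.approx k
  obtain ⟨x', ⟨d', hd'⟩, hxJ'⟩ := h'.approx k
  set P : Ideal (𝓞 F) := Ideal.span {((q : ℕ) : 𝓞 F)} with hP
  have hP0 : P ≠ 0 := by
    rw [hP, Ne, Submodule.zero_eq_bot, Ideal.span_singleton_eq_bot]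
    exact Nat.cast_ne_zero.mpr q.2.ne_zero
  obtain ⟨a, B, hB, hPB⟩ := WfDvdMonoid.max_power_factor' hP0
    (fun hu => hw.ne_top (Ideal.isUnit_iff.mp hu))
  have hcop : B ⊔ w = ⊤ := by
    rw [sup_comm]
    exact (hw.isMaximal hw0).out.2 _ (lt_of_le_of_ne le_sup_left fun e =>
      hB (Ideal.dvd_iff_le.mpr (e ▸ le_sup_right)))
  have hww : w ⊔ w' = ⊤ := (hw.isMaximal hw0).coprime_of_ne (hw'.isMaximal hw0') hne
  have h1 := hxJ B hcop (hPB ▸ Ideal.mul_le_right)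
  have h2 := hxJ' (w ^ a) (Ideal.pow_sup_eq_top hww) (hPB ▸ Ideal.mul_le_left)
  obtain ⟨c, hc⟩ := pow_dvd_tmul_one_of_mem (p := q) (k := k) (x := x * x') (by
    rw [← hP, hPB, mul_pow, mul_comm x x']
    exact Ideal.mul_mem_mul h2 h1)
  refine ⟨d * compOH q ε' + d' * x ⊗ₜ 1 + c, ?_⟩
  have hxx : ((x * x') ⊗ₜ (1 : ℤ_[(q : ℕ)]) : Op F q) = x ⊗ₜ 1 * x' ⊗ₜ 1 := by
    rw [Algebra.TensorProduct.tmul_mul_tmul, mul_one]
  rw [hxx] at hc
  linear_combination (compOH q ε') * hd + (x ⊗ₜ (1 : ℤ_[(q : ℕ)]) : Op F q) * hd' + hc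

/-- The prime below, and the idempotent. -/
def placeIdem (hw : w.IsPrime) (hw0 : w ≠ ⊥) : OH F :=
  (exists_isPlaceIdem hw hw0).choose_spec.choose

theorem isPlaceIdem (hw : w.IsPrime) (hw0 : w ≠ ⊥) :
    IsPlaceIdem (exists_isPlaceIdem hw hw0).choose w (placeIdem hw hw0) :=
  (exists_isPlaceIdem hw hw0).choose_spec.choose_spec

/-- The idempotent among the finite adeles. -/
def placeAF (hw : w.IsPrime) (hw0 : w ≠ ⊥) : AF F := intHom F (placeIdem hw hw0)

theorem placeAF_mul_self (hw : w.IsPrime) (hw0 : w ≠ ⊥) :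
    placeAF hw hw0 * placeAF hw hw0 = placeAF hw hw0 := by
  rw [placeAF, ← map_mul, (isPlaceIdem hw hw0).mul_self]

theorem one_sub_placeAF_mem (hw : w.IsPrime) (hw0 : w ≠ ⊥) :
    1 - placeAF hw hw0 ∈ idealAF F w := by
  rw [placeAF, ← map_one (intHom F), ← map_sub, intHom_mem_idealAF_iff]
  exact (isPlaceIdem hw hw0).one_sub_mem

theorem placeAF_mul_eq_zero (hw : w.IsPrime) (hw0 : w ≠ ⊥) (hw' : w'.IsPrime) (hw0' : w' ≠ ⊥)
    (hne : w ≠ w') : placeAF hw hw0 * placeAF hw' hw0' = 0 := by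
  rw [placeAF, placeAF, ← map_mul,
    (isPlaceIdem hw hw0).mul_eq_zero (isPlaceIdem hw' hw0') hw hw0 hw' hw0' hne, map_zero]

/-- A matrix supported in the factor of `w`. -/
def IsLocalAt (hw : w.IsPrime) (hw0 : w ≠ ⊥) (g : GL (Fin 2) (AF F)) : Prop :=
  ∀ i j, placeAF hw hw0 * (g.1 - 1) i j = (g.1 - 1) i j

/-- Elements local at different primes commute. -/
theorem IsLocalAt.commute {hw : w.IsPrime} {hw0 : w ≠ ⊥} {hw' : w'.IsPrime} {hw0' : w' ≠ ⊥}
    {g h : GL (Fin 2) (AF F)} (hg : IsLocalAt hw hw0 g) (hh : IsLocalAt hw' hw0' h)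
    (hne : w ≠ w') : Commute g h := by
  have key : (g.1 - 1) * (h.1 - 1) = 0 ∧ (h.1 - 1) * (g.1 - 1) = 0 := by
    have h0 := placeAF_mul_eq_zero hw hw0 hw' hw0' hne
    constructor <;> ext i j <;> rw [Matrix.mul_apply, Matrix.zero_apply] <;>
      refine Finset.sum_eq_zero fun k _ => ?_
    · rw [← hg i k, ← hh k j]
      linear_combination ((g.1 - 1) i k * (h.1 - 1) k j) * h0
    · rw [← hh i k, ← hg k j]
      linear_combination ((h.1 - 1) i k * (g.1 - 1) k j) * h0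
  refine Units.ext ?_
  show g.1 * h.1 = h.1 * g.1
  calc g.1 * h.1 = (g.1 - 1) * (h.1 - 1) + g.1 + h.1 - 1 := by
        simp only [sub_mul, mul_sub, mul_one, one_mul]; abel
    _ = (h.1 - 1) * (g.1 - 1) + g.1 + h.1 - 1 := by rw [key.1, key.2]
    _ = h.1 * g.1 := by simp only [sub_mul, mul_sub, mul_one, one_mul]; abel

/-- The local unit with the component of `u` at `w`. -/
def localUnit (hw : w.IsPrime) (hw0 : w ≠ ⊥) (u : (AF F)ˣ) : (AF F)ˣ where
  val := placeAF hw hw0 * u + (1 - placeAF hw hw0)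
  inv := placeAF hw hw0 * (u⁻¹ : (AF F)ˣ) + (1 - placeAF hw hw0)
  val_inv := by
    have h := placeAF_mul_self hw hw0
    linear_combination (placeAF hw hw0 * placeAF hw hw0) * u.mul_inv +
      (2 - (u : AF F) - ((u⁻¹ : (AF F)ˣ) : AF F)) * h
  inv_val := by
    have h := placeAF_mul_self hw hw0
    linear_combination (placeAF hw hw0 * placeAF hw hw0) * u.mul_inv +
      (2 - (u : AF F) - ((u⁻¹ : (AF F)ˣ) : AF F)) * h

theorem localUnit_sub_one (hw : w.IsPrime) (hw0 : w ≠ ⊥) (u : (AF F)ˣ) :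
    ((localUnit hw hw0 u : (AF F)ˣ) : AF F) - 1 = placeAF hw hw0 * ((u : AF F) - 1) := by
  show placeAF hw hw0 * (u : AF F) + (1 - placeAF hw hw0) - 1 = _
  ring

theorem isUniformizerAt_localUnit (hw : w.IsPrime) (hw0 : w ≠ ⊥) {π : (AF F)ˣ}
    (hπ : IsUniformizerAt n w π) : IsUniformizerAt n w (localUnit hw hw0 π) := by
  obtain ⟨π₀, hπ₀, h1, h2⟩ := isUniformizerAt_iff.mp hπ
  set ε := placeIdem hw hw0 with hε
  refine isUniformizerAt_iff.mpr ⟨ε * π₀ + (1 - ε), ?_, ?_, le_antisymm ?_ ?_⟩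
  · rw [map_add, map_mul, map_sub, map_one, hπ₀]
    rfl
  · rw [show ε * π₀ + (1 - ε) - 1 = ε * (π₀ - 1) by ring]
    exact Ideal.mul_mem_left _ _ h1
  · rw [h2, Ideal.span_singleton_le_iff_mem, Ideal.mem_span_singleton]
    exact ⟨ε + (1 - ε) * π₀,
      by linear_combination ((π₀ - 1) ^ 2) * (isPlaceIdem hw hw0).mul_self⟩
  · rw [Ideal.span_singleton_le_iff_mem]
    refine add_mem (Ideal.mul_mem_left _ _ ?_) (isPlaceIdem hw hw0).one_sub_mem
    rw [h2]
    exact Ideal.mem_span_singleton_self π₀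

theorem isResidueSection_local (hw : w.IsPrime) (hw0 : w ≠ ⊥) {ρ : Type} {c : ρ → AF F}
    (hc : IsResidueSection n w c) :
    IsResidueSection n w fun r => placeAF hw hw0 * c r := by
  refine ⟨fun r => mul_mem_idealAF_left ⟨placeIdem hw hw0, rfl⟩ (hc.mem r), fun x hx => ?_⟩
  obtain ⟨r, hr, hu⟩ := hc.exists_unique x hx
  have hdiff : ∀ s, c s - placeAF hw hw0 * c s ∈ idealAF F w := fun s => by
    rw [show c s - placeAF hw hw0 * c s = c s * (1 - placeAF hw hw0) by ring]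
    exact mul_mem_idealAF_left (idealAF_le_intAF (hc.mem s)) (one_sub_placeAF_mem hw hw0)
  refine ⟨r, ?_, fun s hs => hu s ?_⟩
  · show x - placeAF hw hw0 * c r ∈ _
    rw [show x - placeAF hw hw0 * c r = (x - c r) + (c r - placeAF hw hw0 * c r) by ring]
    exact add_mem hr (hdiff r)
  · show x - c s ∈ _
    have hs' : x - placeAF hw hw0 * c s ∈ idealAF F w := hs
    rw [show x - c s = (x - placeAF hw hw0 * c s) - (c s - placeAF hw hw0 * c s) by ring]
    exact sub_mem hs' (hdiff s)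

theorem isLocalAt_hRep (hw : w.IsPrime) (hw0 : w ≠ ⊥) (π : (AF F)ˣ) {ρ : Type} (c : ρ → AF F)
    (i : Option ρ) : IsLocalAt hw hw0
      (hRep (localUnit hw hw0 π) (fun r => placeAF hw hw0 * c r) i) := by
  intro a b
  have hsub := localUnit_sub_one hw hw0 π
  have h := placeAF_mul_self hw hw0
  cases i with
  | none =>
    fin_cases a <;> fin_cases b <;> simp [hRep, hsub, ← mul_assoc, h]
  | some r =>
    rw [Matrix.sub_apply, hRep_some_val]
    fin_cases a <;> fin_cases b <;> simp [hsub, ← mul_assoc, h]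

/-- Hecke representatives inside one factor. -/
theorem exists_local_reps (hw : w.IsPrime) (hw0 : w ≠ ⊥) (hwn : ¬ w ∣ n) :
    ∃ (π : (AF F)ˣ) (c : 𝓞 F ⧸ w → AF F), IsUniformizerAt n w π ∧ IsResidueSection n w c ∧
      ∀ i, IsLocalAt hw hw0 (hRep π c i) := by
  have hcop : w ⊔ n = ⊤ := (hw.isMaximal hw0).out.2 _ (lt_of_le_of_ne le_sup_left fun h =>
    hwn (Ideal.dvd_iff_le.mpr (h ▸ le_sup_right)))
  obtain ⟨π, hπ⟩ := exists_isUniformizerAt_prime hw hw0 hwn
  obtain ⟨c, hc⟩ := exists_isResidueSection hw0 hcop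
  exact ⟨_, _, isUniformizerAt_localUnit hw hw0 hπ, isResidueSection_local hw hw0 hc,
    isLocalAt_hRep hw hw0 π c⟩

/-! ### Hecke words commute -/

open LanglandsTunnell.Killing (OKPrime)

theorem wordKernel_swap (_hn : n ≠ ⊥) {w w' : Ideal (𝓞 F)} (hw : OKPrime n w) (hw' : OKPrime n w')
    (ws : List (Ideal (𝓞 F))) (v u : FinPt F n) :
    wordKernel n (w :: w' :: ws) v u = wordKernel n (w' :: w :: ws) v u := by
  classical
  rcases eq_or_ne w w' with rfl | hne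
  · rfl
  have : Finite (𝓞 F ⧸ w) := Ideal.finiteQuotientOfFreeOfNeBot w hw.2.1
  have : Finite (𝓞 F ⧸ w') := Ideal.finiteQuotientOfFreeOfNeBot w' hw'.2.1
  have : Fintype (𝓞 F ⧸ w) := Fintype.ofFinite _
  have : Fintype (𝓞 F ⧸ w') := Fintype.ofFinite _
  obtain ⟨π, c, hπ, hc, hloc⟩ := exists_local_reps hw.1 hw.2.1 hw.2.2
  obtain ⟨π', c', hπ', hc', hloc'⟩ := exists_local_reps hw'.1 hw'.2.1 hw'.2.2
  obtain ⟨g, rfl⟩ := QuotientGroup.mk_surjective v
  have h1 : (1 : GL (Fin 2) (AF F)) ∈ principalSubgroup ⊤ := one_mem _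
  have e : ∀ (x : GL (Fin 2) (AF F)) (f : FinPt F n → ℂ),
      ∑ᶠ z ∈ nbrs n w (x : FinPt F n), f z =
        ∑ i, f ((x * hRep π c i : GL (Fin 2) (AF F)) : FinPt F n) :=
    fun x f => by simpa using finsum_nbrs hw.1 hw.2.1 hw.2.2 hπ hc x h1 f
  have e' : ∀ (x : GL (Fin 2) (AF F)) (f : FinPt F n → ℂ),
      ∑ᶠ z ∈ nbrs n w' (x : FinPt F n), f z =
        ∑ i, f ((x * hRep π' c' i : GL (Fin 2) (AF F)) : FinPt F n) :=
    fun x f => by simpa using finsum_nbrs hw'.1 hw'.2.1 hw'.2.2 hπ' hc' x h1 f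
  simp only [wordKernel, e, e']
  rw [Finset.sum_comm]
  refine Finset.sum_congr rfl fun j _ => Finset.sum_congr rfl fun i _ => ?_
  rw [mul_assoc, mul_assoc, (hloc i).commute (hloc' j) hne]

/-- Hecke words only depend on the letters up to order. -/
theorem wordKernel_perm (hn : n ≠ ⊥) {ws ws' : List (Ideal (𝓞 F))} (h : ws.Perm ws')
    (hws : ∀ x ∈ ws, OKPrime n x) : wordKernel (n := n) ws = wordKernel (n := n) ws' := by
  induction h with
  | nil => rfl
  | cons x _ ih =>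
    funext v u
    simp only [wordKernel, ih fun y hy => hws y (List.mem_cons_of_mem _ hy)]
  | swap x y l =>
    funext v u
    exact wordKernel_swap hn (hws y (by simp)) (hws x (by simp)) l v u
  | trans h1 _ ih1 ih2 => exact (ih1 hws).trans (ih2 fun y hy => hws y (h1.mem_iff.mpr hy))

end FLTAgent.LanglandsTunnell.Isolation
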