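import Fermat.Agent.LanglandsTunnell.Isolation.DiagLimit
import Fermat.Agent.LanglandsTunnell.Isolation.LocalPlace
import Fermat.Agent.LanglandsTunnell.HeckeSymm

/-!
# The finite dimensional eigenspace of a killing operator

Its elements are continuous, bounded, cuspidal functions; combinations act on it.
-/

set_option autoImplicit false

noncomputable section

namespace FLTAgent.LanglandsTunnell.Isolation

open FLTAgent.LanglandsTunnell MeasureTheory NumberField Filter
open FLTAgent.LanglandsTunnell.Geom (countable_finPt measurable_act)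
open FLTAgent.LanglandsTunnell.Trace (h3conv_comm)
open FLTAgent.LanglandsTunnell.Killing (Fine OKPrime LocI op_kernel continuous_op op_cmul
  kernel_mul_eq op_mul op_invariant kernel_adjoint integrable_kernel_mul)
open scoped InnerProductSpace ComplexConjugate

variable {F : Type} [Field F] [NumberField F] {ι : Type} [Fintype ι] {n : Ideal (𝓞 F)}

/-- Invariant, measurable, bounded. -/
structure BddAuto (Φ : PlaceChoice F ι) (φ : Pt F ι n → ℂ) : Prop where
  inv : ∀ γ x, φ (act Φ γ x) = φ x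
  meas : Measurable φ
  bdd : ∃ C : ℝ, ∀ x, ‖φ x‖ ≤ C

omit [NumberField F] [Fintype ι] in
theorem Fine.good {C : Comb F ι} (h : Fine n C) : C.Good fun w => w ≠ ⊥ :=
  Comb.Good.mono h fun _ hw => hw.2.1

omit [NumberField F] in
theorem locI_of_bounded {φ : Pt F ι n → ℂ} (hm : Measurable φ) (hb : ∃ C : ℝ, ∀ x, ‖φ x‖ ≤ C) :
    LocI φ := by
  intro v
  have : SigmaFinite H3.volH3 := H3.sigmaFinite_volH3
  obtain ⟨C, hC⟩ := hb
  refine locallyIntegrable_iff.mpr fun K hK => ?_
  have : IsFiniteMeasure ((Killing.volPi ι).restrict K) := isFiniteMeasure_restrict.mpr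
    hK.measure_lt_top.ne
  exact Integrable.of_bound (hm.comp (measurable_const.prodMk measurable_id)).aestronglyMeasurable C
    (Eventually.of_forall fun Q => hC (v, Q))

omit [NumberField F] in
theorem BddAuto.locI {Φ : PlaceChoice F ι} {φ : Pt F ι n → ℂ} (h : BddAuto Φ φ) : LocI φ :=
  locI_of_bounded h.meas h.bdd

theorem op_add (hn : n ≠ ⊥) {C : Comb F ι} (hC : Fine n C) {f g : Pt F ι n → ℂ} (hf : LocI f)
    (hg : LocI g) (x : Pt F ι n) :
    Kernel.op (C.kernel n) (f + g) x = Kernel.op (C.kernel n) f x + Kernel.op (C.kernel n) g x := by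
  simp only [Kernel.op, Pi.add_apply, mul_add]
  exact integral_add (integrable_kernel_mul hn hC hf x).1 (integrable_kernel_mul hn hC hg x).1

omit [NumberField F] in
theorem op_smul (C : Comb F ι) (a : ℂ) (f : Pt F ι n → ℂ) (x : Pt F ι n) :
    Kernel.op (C.kernel n) (fun y => a * f y) x = a * Kernel.op (C.kernel n) f x := by
  simp only [Kernel.op]
  rw [← integral_const_mul]
  exact integral_congr_ae (Eventually.of_forall fun y => by ring)

/-- Combinations commute. -/
theorem kernel_mul_comm (hn : n ≠ ⊥) {A B : Comb F ι} (hA : Fine n A) (hB : Fine n B) :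
    (A.mul B).kernel n = (B.mul A).kernel n := by
  funext x y
  simp only [Comb.kernel, Comb.mul, sum_flatMap_map, List.map_map, Function.comp_def]
  rw [sum_map_comm]
  refine congrArg List.sum (List.map_congr_left fun T' hT' => congrArg List.sum
    (List.map_congr_left fun T hT => ?_))
  simp only [Term.kernel, mul_comm T.coeff, h3conv_comm (T.inf _)]
  rw [wordKernel_perm hn List.perm_append_comm fun w hw =>
    (List.mem_append.mp hw).elim ((hA T hT).2 w) ((hB T' hT').2 w)]

variable {Φ : PlaceChoice F ι}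

/-- A side of the comparison: a domain, a killing combination and a nonzero real eigenvalue. -/
structure Side (Φ : PlaceChoice F ι) (n : Ideal (𝓞 F)) : Type where
  S : Set (Pt F ι n)
  hn : n ≠ ⊥
  hS : IsFundDomain Φ S
  K : Comb F ι
  fine : Fine n K
  killing : IsKillingKernel Φ S (K.kernel n)
  l : ℝ
  hl : l ≠ 0

namespace Side

variable (d : Side Φ n)

instance : IsFiniteMeasure (domMeasure d.S) := isFiniteMeasure_dom Φ d.hS

theorem niceK : IsNice Φ (d.K.kernel n) := isNice_of_good Φ d.hn (Fine.good d.fine)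

/-- The bound of the rows. -/
def bound : ℝ := (isRowKernel_of_killing d.niceK d.killing).choose

theorem rowK : IsRowKernel (domMeasure d.S) (Kernel.periodise Φ (d.K.kernel n)) d.bound :=
  (isRowKernel_of_killing d.niceK d.killing).choose_spec

/-- The eigenspace. -/
abbrev V : Submodule ℂ (Lp ℂ 2 (domMeasure d.S)) := eigenSub d.rowK.toOp d.l

instance : FiniteDimensional ℂ d.V := d.rowK.finiteDimensional_eigenSub d.hl

/-- The function of an element of the eigenspace. -/
def efun (e : d.V) (x : Pt F ι n) : ℂ :=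
  (d.l : ℂ)⁻¹ * ⟪d.rowK.rowVec x, (e : Lp ℂ 2 (domMeasure d.S))⟫_ℂ

theorem efun_ae (e : d.V) : d.efun e =ᵐ[domMeasure d.S] (e : Lp ℂ 2 (domMeasure d.S)) := by
  have h := d.rowK.toOp_ae (e : Lp ℂ 2 (domMeasure d.S))
  rw [mem_eigenSub.mp e.2] at h
  filter_upwards [h, Lp.coeFn_smul (d.l : ℂ) (e : Lp ℂ 2 (domMeasure d.S))] with x hx hx'
  rw [Pi.smul_apply, smul_eq_mul] at hx'
  simp only [efun, ← hx, hx']
  rw [← mul_assoc, inv_mul_cancel₀ (Complex.ofReal_ne_zero.mpr d.hl), one_mul]

theorem efun_add (e e' : d.V) : d.efun (e + e') = d.efun e + d.efun e' := by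
  funext x
  simp [efun, inner_add_right, mul_add]

theorem efun_smul (a : ℂ) (e : d.V) : d.efun (a • e) = fun x => a * d.efun e x := by
  funext x
  simp only [efun, Submodule.coe_smul, inner_smul_right]
  ring

theorem efun_injective : Function.Injective d.efun := fun e e' h =>
  Subtype.ext (Lp.ext (((d.efun_ae e).symm.trans (EventuallyEq.of_eq h)).trans (d.efun_ae e')))

theorem rowVec_act (γ : GL (Fin 2) F) (x : Pt F ι n) :
    d.rowK.rowVec (act Φ γ x) = d.rowK.rowVec x := by
  refine MemLp.toLp_congr _ _ (Eventually.of_forall fun y => ?_)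
  simp only [d.niceK.periodise_act_left]

theorem bddAuto_efun (e : d.V) : BddAuto Φ (d.efun e) where
  inv γ x := by simp only [efun, rowVec_act]
  meas := (d.rowK.stronglyMeasurable_inner _).measurable.const_mul _
  bdd := ⟨‖(d.l : ℂ)⁻¹‖ * (Real.sqrt d.bound * ‖(e : Lp ℂ 2 (domMeasure d.S))‖), fun x => by
    rw [efun, norm_mul]
    exact mul_le_mul_of_nonneg_left (d.rowK.norm_inner_rowVec_le x _) (norm_nonneg _)⟩

/-- Integration of a periodised kernel against a bounded automorphic function. -/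
theorem op_eq_setIntegral {κ : Kernel F ι n} (hκ : IsNice Φ κ) {φ : Pt F ι n → ℂ}
    (hφ : BddAuto Φ φ) (x : Pt F ι n) :
    Kernel.op κ φ x = ∫ y in d.S, Kernel.periodise Φ κ x y * φ y ∂volPt := by
  obtain ⟨C, hC⟩ := hφ.bdd
  exact hκ.integral_mul_invariant d.hn d.hS x hφ.meas (fun v K _ => ⟨C, fun P _ => hC _⟩) hφ.inv

theorem op_efun (e : d.V) (x : Pt F ι n) :
    Kernel.op (d.K.kernel n) (d.efun e) x = d.l * d.efun e x := by
  have h : (d.l : ℂ) * d.efun e x = ⟪d.rowK.rowVec x, (e : Lp ℂ 2 (domMeasure d.S))⟫_ℂ := by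
    rw [efun, ← mul_assoc, mul_inv_cancel₀ (Complex.ofReal_ne_zero.mpr d.hl), one_mul]
  rw [h, d.rowK.inner_rowVec, d.op_eq_setIntegral d.niceK (d.bddAuto_efun e)]
  exact integral_congr_ae ((d.efun_ae e).mono fun y hy => by simp only [hy])

theorem efun_eq_op (e : d.V) :
    d.efun e = fun x => (d.l : ℂ)⁻¹ * Kernel.op (d.K.kernel n) (d.efun e) x := by
  funext x
  rw [op_efun, ← mul_assoc, inv_mul_cancel₀ (Complex.ofReal_ne_zero.mpr d.hl), one_mul]

theorem continuous_efun (e : d.V) (v : FinPt F n) :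
    Continuous fun P : ι → H3 => d.efun e (v, P) := by
  rw [d.efun_eq_op e]
  exact continuous_const.mul (continuous_op d.hn d.fine (d.bddAuto_efun e).locI v)

theorem isCuspidal_efun (e : d.V) : IsCuspidal Φ (d.efun e) := by
  have h := d.killing.cuspidal (d.efun e) (d.bddAuto_efun e).inv (d.bddAuto_efun e).meas (by
    obtain ⟨C, hC⟩ := (d.bddAuto_efun e).bdd
    exact Integrable.of_bound ((d.bddAuto_efun e).meas.norm.pow_const 2).aestronglyMeasurable
      (C ^ 2)
      (Eventually.of_forall fun x => by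
        rw [Real.norm_of_nonneg (sq_nonneg _)]
        exact pow_le_pow_left₀ (norm_nonneg _) (hC x) 2))
  intro v P m hm hfix
  have h' := h v P m hm hfix
  simp only [d.op_efun e, integral_const_mul, mul_eq_zero, Complex.ofReal_eq_zero, d.hl,
    false_or] at h'
  exact h'

/-- An automorphic eigenfunction as an element of the eigenspace. -/
theorem exists_of_eigen {φ : Pt F ι n → ℂ} (hφ : BddAuto Φ φ)
    (he : ∀ x, Kernel.op (d.K.kernel n) φ x = d.l * φ x) : ∃ e : d.V, d.efun e = φ := by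
  obtain ⟨C, hC⟩ := hφ.bdd
  have hm : MemLp φ 2 (domMeasure d.S) :=
    MemLp.of_bound hφ.meas.aestronglyMeasurable C (Eventually.of_forall hC)
  have key : ∀ x, ⟪d.rowK.rowVec x, hm.toLp φ⟫_ℂ = d.l * φ x := fun x => by
    rw [d.rowK.inner_rowVec, ← he, d.op_eq_setIntegral d.niceK hφ]
    exact integral_congr_ae (hm.coeFn_toLp.mono fun y hy => by simp only [hy])
  refine ⟨⟨hm.toLp φ, mem_eigenSub.mpr (Lp.ext ?_)⟩, funext fun x => ?_⟩
  · filter_upwards [d.rowK.toOp_ae (hm.toLp φ), Lp.coeFn_smul (d.l : ℂ) (hm.toLp φ),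
      hm.coeFn_toLp] with x h1 h2 h3
    rw [h1, key, h2, Pi.smul_apply, h3, smul_eq_mul]
  · show (d.l : ℂ)⁻¹ * ⟪d.rowK.rowVec x, hm.toLp φ⟫_ℂ = φ x
    rw [key, ← mul_assoc, inv_mul_cancel₀ (Complex.ofReal_ne_zero.mpr d.hl), one_mul]

/-- A combination allowed on the eigenspace. -/
structure Tested (A : Comb F ι) : Prop where
  fine : Fine n A
  bdd : ∃ b : ℝ, ∀ x y, ‖Kernel.periodise Φ (((d.K.mul A).mul d.K).kernel n) x y‖ ≤ b

variable {d} {A : Comb F ι}

theorem Tested.niceKAK (h : d.Tested A) : IsNice Φ (((d.K.mul A).mul d.K).kernel n) :=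
  isNice_of_good Φ d.hn (good_mul (good_mul (Fine.good d.fine) (Fine.good h.fine))
    (Fine.good d.fine))

/-- The bound of the rows of `K A K`. -/
def Tested.bound (h : d.Tested A) : ℝ :=
  (domMeasure d.S).real Set.univ * h.bdd.choose ^ 2

theorem Tested.row (h : d.Tested A) : IsRowKernel (domMeasure d.S)
    (Kernel.periodise Φ (((d.K.mul A).mul d.K).kernel n)) h.bound :=
  isRowKernel_of_bounded d.hS h.niceKAK h.bdd.choose_spec

theorem Tested.op_KAK (h : d.Tested A) (e : d.V) (x : Pt F ι n) :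
    Kernel.op (((d.K.mul A).mul d.K).kernel n) (d.efun e) x =
      (d.l : ℂ) * d.l * Kernel.op (A.kernel n) (d.efun e) x := by
  have hf := (d.bddAuto_efun e).locI
  have hK : Fine n d.K := d.fine
  have hKA : Fine n (d.K.mul A) := good_mul hK h.fine
  have eK : Kernel.op (d.K.kernel n) (d.efun e) = fun y => (d.l : ℂ) * d.efun e y :=
    funext (d.op_efun e)
  rw [op_mul d.hn hKA hK hf, eK, op_smul, kernel_mul_comm d.hn hK h.fine,
    op_mul d.hn h.fine hK hf, eK, op_smul, mul_assoc]

theorem Tested.inner_row (h : d.Tested A) (e : d.V) (x : Pt F ι n) :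
    ⟪h.row.rowVec x, (e : Lp ℂ 2 (domMeasure d.S))⟫_ℂ =
      (d.l : ℂ) * d.l * Kernel.op (A.kernel n) (d.efun e) x := by
  rw [← h.op_KAK e x, h.row.inner_rowVec, d.op_eq_setIntegral h.niceKAK (d.bddAuto_efun e)]
  exact integral_congr_ae ((d.efun_ae e).mono fun y hy => by simp only [hy])

theorem Tested.bddAuto_op (h : d.Tested A) (e : d.V) :
    BddAuto Φ (Kernel.op (A.kernel n) (d.efun e)) := by
  refine ⟨op_invariant Φ d.hn A (d.bddAuto_efun e).inv,
    measurable_of_fst_sections d.hn fun v =>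
      (continuous_op d.hn h.fine (d.bddAuto_efun e).locI v).measurable,
    ⟨‖((d.l : ℂ) * d.l)⁻¹‖ * (Real.sqrt h.bound * ‖(e : Lp ℂ 2 (domMeasure d.S))‖), fun x => ?_⟩⟩
  have hl : (d.l : ℂ) * d.l ≠ 0 :=
    mul_ne_zero (Complex.ofReal_ne_zero.mpr d.hl) (Complex.ofReal_ne_zero.mpr d.hl)
  have e1 : Kernel.op (A.kernel n) (d.efun e) x =
      ((d.l : ℂ) * d.l)⁻¹ * ⟪h.row.rowVec x, (e : Lp ℂ 2 (domMeasure d.S))⟫_ℂ := by
    rw [h.inner_row, ← mul_assoc, inv_mul_cancel₀ hl, one_mul]
  rw [e1, norm_mul]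
  exact mul_le_mul_of_nonneg_left (h.row.norm_inner_rowVec_le x _) (norm_nonneg _)

theorem Tested.exists_op (h : d.Tested A) (e : d.V) :
    ∃ e' : d.V, d.efun e' = Kernel.op (A.kernel n) (d.efun e) := by
  refine d.exists_of_eigen (h.bddAuto_op e) fun x => ?_
  have hf := (d.bddAuto_efun e).locI
  rw [← op_mul d.hn d.fine h.fine hf, kernel_mul_comm d.hn d.fine h.fine,
      op_mul d.hn h.fine d.fine hf,
    funext (d.op_efun e), op_smul]

/-- The action of a combination on the eigenspace. -/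
def Tested.opV (h : d.Tested A) : d.V →ₗ[ℂ] d.V where
  toFun e := (h.exists_op e).choose
  map_add' e e' := d.efun_injective (by
    have hs := fun e => (h.exists_op e).choose_spec
    refine (hs (e + e')).trans ?_
    rw [d.efun_add (h.exists_op e).choose, hs e, hs e', d.efun_add e e']
    exact funext (op_add d.hn h.fine (d.bddAuto_efun e).locI (d.bddAuto_efun e').locI))
  map_smul' a e := d.efun_injective (by
    have hs := fun e => (h.exists_op e).choose_spec
    refine (hs (a • e)).trans ?_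
    rw [RingHom.id_apply, d.efun_smul a (h.exists_op e).choose, hs e, d.efun_smul a e]
    exact funext (op_smul A a (d.efun e)))

theorem Tested.efun_opV (h : d.Tested A) (e : d.V) :
    d.efun (h.opV e) = Kernel.op (A.kernel n) (d.efun e) :=
  (h.exists_op e).choose_spec

theorem Tested.coe_opV (h : d.Tested A) (e : d.V) :
    ((h.opV e : d.V) : Lp ℂ 2 (domMeasure d.S)) =
      ((d.l : ℂ) * d.l)⁻¹ • h.row.toOp (e : Lp ℂ 2 (domMeasure d.S)) := by
  refine Lp.ext ?_
  filter_upwards [d.efun_ae (h.opV e), h.row.toOp_ae (e : Lp ℂ 2 (domMeasure d.S)),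
    Lp.coeFn_smul ((d.l : ℂ) * d.l)⁻¹ (h.row.toOp (e : Lp ℂ 2 (domMeasure d.S)))] with x h1 h2 h3
  have hl : (d.l : ℂ) * d.l ≠ 0 :=
    mul_ne_zero (Complex.ofReal_ne_zero.mpr d.hl) (Complex.ofReal_ne_zero.mpr d.hl)
  rw [← h1, h3, Pi.smul_apply, smul_eq_mul, h2, h.inner_row, ← mul_assoc, inv_mul_cancel₀ hl,
    one_mul, h.efun_opV]

/-- A combination with hermitian kernel acts symmetrically. -/
theorem Tested.isSymmetric_opV (h : d.Tested A)
    (hsymm : ∀ x y, A.kernel n y x = conj (A.kernel n x y)) : h.opV.IsSymmetric := by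
  have hKgood := Fine.good d.fine
  have hAgood := Fine.good h.fine
  have hconj : ∀ x y, ((d.K.mul A).mul d.K).kernel n y x =
      conj (((d.K.mul A).mul d.K).kernel n x y) := by
    intro x y
    have e1 : ∀ u v, (d.K.mul A).kernel n u v = conj ((A.mul d.K).kernel n v u) := fun u v => by
      rw [kernel_mul Φ d.hn hKgood hAgood, kernel_mul Φ d.hn hAgood hKgood, Kernel.comp,
          Kernel.comp,
        ← integral_conj]
      refine integral_congr_ae (Eventually.of_forall fun z => ?_)
      simp only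
      rw [map_mul, ← hsymm, ← d.killing.symm, mul_comm]
    rw [kernel_mul Φ d.hn (good_mul hKgood hAgood) hKgood, mul_assoc_comb hKgood hAgood hKgood,
      kernel_mul Φ d.hn hKgood (good_mul hAgood hKgood), Kernel.comp, Kernel.comp, ← integral_conj]
    refine integral_congr_ae (Eventually.of_forall fun z => ?_)
    simp only
    rw [map_mul, ← d.killing.symm, e1, mul_comm]
  intro e e'
  show ⟪((h.opV e : d.V) : Lp ℂ 2 (domMeasure d.S)), (e' : Lp ℂ 2 (domMeasure d.S))⟫_ℂ =
    ⟪(e : Lp ℂ 2 (domMeasure d.S)), ((h.opV e' : d.V) : Lp ℂ 2 (domMeasure d.S))⟫_ℂ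
  rw [h.coe_opV, h.coe_opV, inner_smul_left, inner_smul_right,
    h.row.symm_toOp fun x y => periodise_conj Φ h.niceKAK hconj x y]
  simp

theorem Tested.commute_opV {B : Comb F ι} (h : d.Tested A) (h' : d.Tested B) :
    Commute h.opV h'.opV := by
  refine LinearMap.ext fun e => d.efun_injective ?_
  show d.efun (h.opV (h'.opV e)) = d.efun (h'.opV (h.opV e))
  have hf := (d.bddAuto_efun e).locI
  rw [h.efun_opV, h'.efun_opV, h'.efun_opV, h.efun_opV, ← op_mul d.hn h.fine h'.fine hf,
    ← op_mul d.hn h'.fine h.fine hf, kernel_mul_comm d.hn h.fine h'.fine]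

end Side

end FLTAgent.LanglandsTunnell.Isolation
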