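import Fermat.Agent.LanglandsTunnell.Isolation.Hecke
import Fermat.Agent.LanglandsTunnell.Seed.Spherical

/-!
# Eigenforms as smooth vectors, averaging, and multiplicity one in pairing form

The spaces of one level and one system (`InSys`, `sysSub`), averages over orbits of compact
subgroups (`orbitAvg`), and strong multiplicity one: two vectors of one system are related by a
translation (`exists_inner_ne_zero`).
-/

set_option autoImplicit false
set_option linter.unusedSectionVars false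

noncomputable section

namespace FLTAgent.LanglandsTunnell.Isolation

open FLTAgent.LanglandsTunnell NumberField Matrix MeasureTheory Function
open scoped InnerProductSpace ComplexConjugate

variable {F : Type} [Field F] [NumberField F] {ι : Type} [Fintype ι] [DecidableEq ι]
  {Φ : PlaceChoice F ι} {M N : ℕ} {a : Ideal (𝓞 F) → ℂ}

/-- Spherical of parameter zero, for a function of all levels. -/
def Spherical (u : Smooth Φ) : Prop :=
  ∀ (i : ι) (k : ℝ → ℝ), Continuous k → HasCompactSupport k → ∀ g P,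
    ∫ Q, (k (H3.coshDist (P i) Q) : ℂ) * u.1 g (update P i Q) ∂H3.volH3 =
      (sphValue k : ℂ) * u.1 g P

/-- Eigenvectors at all primes not dividing `N`. -/
def SysOff (Φ : PlaceChoice F ι) (N : ℕ) (a : Ideal (𝓞 F) → ℂ) (u : Smooth Φ) : Prop :=
  ∀ (w : Ideal (𝓞 F)) (hw : w.IsPrime) (hw0 : w ≠ ⊥), ¬ w ∣ lv F N →
    EigenAt hw hw0 u ((Real.sqrt (Ideal.absNorm w) : ℂ) * a w)

theorem continuous_val (u : Smooth Φ) (g : GL (Fin 2) (AF F)) :
    Continuous fun P : ι → H3 => u.1 g P := by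
  obtain ⟨M, hu⟩ := u.2
  obtain ⟨f, hf, he⟩ := hu.exists_fun
  rw [he]
  exact hf.continuous _

theorem Spherical.add {u v : Smooth Φ} (hu : Spherical u) (hv : Spherical v) :
    Spherical (u + v) := by
  intro i k hk hs g P
  have hint : ∀ x : Smooth Φ, Integrable
      (fun Q => (k (H3.coshDist (P i) Q) : ℂ) * x.1 g (update P i Q)) H3.volH3 := fun x =>
    LanglandsTunnell.Seed.integrable_kernel_mul hk hs (P i)
      ((continuous_val x g).comp (continuous_const.update i continuous_id))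
  calc ∫ Q, (k (H3.coshDist (P i) Q) : ℂ) * (u + v).1 g (update P i Q) ∂H3.volH3
      = ∫ Q, ((k (H3.coshDist (P i) Q) : ℂ) * u.1 g (update P i Q) +
          (k (H3.coshDist (P i) Q) : ℂ) * v.1 g (update P i Q)) ∂H3.volH3 :=
        integral_congr_ae (Filter.Eventually.of_forall fun Q => mul_add _ _ _)
    _ = (sphValue k : ℂ) * u.1 g P + (sphValue k : ℂ) * v.1 g P := by
        rw [integral_add (hint u) (hint v), hu i k hk hs g P, hv i k hk hs g P]
    _ = _ := (mul_add _ _ _).symm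

theorem Spherical.smul {u : Smooth Φ} (c : ℂ) (hu : Spherical u) : Spherical (c • u) := by
  intro i k hk hs g P
  show ∫ Q, (k (H3.coshDist (P i) Q) : ℂ) * (c * u.1 g (update P i Q)) ∂H3.volH3 =
    (sphValue k : ℂ) * (c * u.1 g P)
  simp only [mul_left_comm _ c]
  rw [integral_const_mul, hu i k hk hs g P]

theorem Spherical.zero : Spherical (0 : Smooth Φ) := fun i k _ _ g P => by simp

theorem Spherical.translate {u : Smooth Φ} (g : GL (Fin 2) (AF F)) (hu : Spherical u) :
    Spherical (rho Φ g u) := fun i k hk hs x P => hu i k hk hs (x * g) P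

theorem SysOff.mono {u : Smooth Φ} (h : SysOff Φ N a u) {N' : ℕ} (hd : N ∣ N') :
    SysOff Φ N' a u := fun w hw hw0 hwN => h w hw hw0 fun hdv => hwN
  (hdv.trans (Ideal.dvd_iff_le.mpr (lv_le hd)))

theorem EigenAt.zero {w : Ideal (𝓞 F)} (hw : w.IsPrime) (hw0 : w ≠ ⊥) (s : ℂ) :
    EigenAt hw hw0 (0 : Smooth Φ) s := by
  refine ⟨fun k _ => map_zero _, ?_⟩
  rw [smul_zero, heckeAt]
  refine finsum_mem_of_eqOn_zero fun q _ => ?_
  show rho Φ (part hw hw0 q.out) 0 = 0
  exact LinearIsometryEquiv.map_zero _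

/-- Spherical eigenvectors of one level and one system. -/
structure InSys (Φ : PlaceChoice F ι) (M : ℕ) (a : Ideal (𝓞 F) → ℂ) (u : Smooth Φ) : Prop where
  level : IsLevel Φ M u.1
  spherical : Spherical u
  sys : SysOff Φ M a u

theorem InSys.mono {u : Smooth Φ} (h : InSys Φ M a u) {M' : ℕ} (hM' : M' ≠ 0) (hd : M ∣ M') :
    InSys Φ M' a u :=
  ⟨h.level.mono hM' hd, h.spherical, h.sys.mono hd⟩

theorem InSys.add {u v : Smooth Φ} (h : InSys Φ M a u) (h' : InSys Φ M a v) :
    InSys Φ M a (u + v) :=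
  ⟨h.level.add h'.level, h.spherical.add h'.spherical,
    fun w hw hw0 hwM => (h.sys w hw hw0 hwM).add (h'.sys w hw hw0 hwM)⟩

theorem InSys.smul {u : Smooth Φ} (c : ℂ) (h : InSys Φ M a u) : InSys Φ M a (c • u) :=
  ⟨h.level.smul c, h.spherical.smul c, fun w hw hw0 hwM => (h.sys w hw hw0 hwM).smul c⟩

theorem isLevel_zero (hM : M ≠ 0) : IsLevel Φ M (0 : Smooth Φ).1 :=
  ⟨hM, 0, ⟨fun _ _ => rfl, fun _ => continuous_const, 0, fun _ => by simp⟩, rfl⟩

theorem InSys.zero (hM : M ≠ 0) : InSys Φ M a (0 : Smooth Φ) :=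
  ⟨isLevel_zero hM, Spherical.zero, fun _ hw hw0 _ => EigenAt.zero hw hw0 _⟩

/-- The space of one level and one system. -/
def sysSub (Φ : PlaceChoice F ι) {M : ℕ} (hM : M ≠ 0) (a : Ideal (𝓞 F) → ℂ) :
    Submodule ℂ (Smooth Φ) where
  carrier := {u | InSys Φ M a u}
  zero_mem' := InSys.zero hM
  add_mem' := InSys.add
  smul_mem' := fun c _ h => h.smul c

theorem mem_sysSub {hM : M ≠ 0} {u : Smooth Φ} : u ∈ sysSub Φ hM a ↔ InSys Φ M a u := Iff.rfl

/-- A levelled function as a smooth vector. -/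
def ofFun (hM : M ≠ 0) {f : Pt F ι (lv F M) → ℂ} (hf : IsAutomorphic Φ f) : Smooth Φ :=
  ⟨liftForm f, M, hM, f, hf, rfl⟩

theorem inSys_ofFun (hM : M ≠ 0) {f : Pt F ι (lv F M) → ℂ} (hf : IsEigenform Φ f a) :
    InSys Φ M a (ofFun hM hf.automorphic) := by
  have hl : IsLevel Φ M (ofFun hM hf.automorphic).1 := ⟨hM, f, hf.automorphic, rfl⟩
  refine ⟨hl, fun i k hk hs g P => hf.spherical i k hk hs _ P, fun w hw hw0 hwM => ?_⟩
  refine (eigenAt_iff_heckeEigen hl hwM _).mpr ?_
  rw [show (ofFun hM hf.automorphic).1 = liftForm f from rfl, restrictLevel_liftForm]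
  exact hf.eigen w hw hw0 hwM

theorem eq_zero_of_restrictLevel {u : Smooth Φ} (hu : IsLevel Φ M u.1)
    (h : ∀ x, restrictLevel M u.1 x = 0) : u = 0 := by
  refine Subtype.ext ?_
  rw [← hu.liftForm_restrict]
  funext g P
  exact h _

theorem InSys.isEigenform {u : Smooth Φ} (h : InSys Φ M a u) (hu : u ≠ 0)
    (hc : IsCuspidal Φ (restrictLevel M u.1)) : IsEigenform Φ (restrictLevel M u.1) a where
  automorphic := h.level.automorphic
  cuspidal := hc
  ne_zero := by
    by_contra hne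
    simp only [not_exists, not_not] at hne
    exact hu (eq_zero_of_restrictLevel h.level hne)
  spherical i k hk hs v P := h.spherical i k hk hs v.out P
  eigen w hw hw0 hwM := (eigenAt_iff_heckeEigen h.level hwM _).mp (h.sys w hw hw0 hwM)

/-- Cuspidality passes to higher levels. -/
theorem isCuspidal_mono {u : Smooth Φ} (hu : IsLevel Φ M u.1) {M' : ℕ} (hd : M ∣ M')
    (hc : IsCuspidal Φ (restrictLevel M u.1)) : IsCuspidal Φ (restrictLevel M' u.1) := by
  intro v P m hm hfix
  obtain ⟨f, hf, he⟩ := hu.exists_fun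
  rw [he, restrictLevel_liftForm] at hc
  have hg : ∀ k ∈ levelGroup (lv F M'), (1 : GL (Fin 2) (AF F))⁻¹ * k * 1 ∈ levelGroup (lv F M) :=
    fun k hk => by simpa using levelGroup_mono (lv_le hd) hk
  have e : ∀ x : Pt F ι (lv F M'), restrictLevel M' u.1 x = f (shiftPt 1 hg x) := by
    intro x
    rw [he, ← rtrans_one (liftForm f), ← liftForm_comp_shiftPt 1 hg f, restrictLevel_liftForm]
  simp only [e]
  exact hc (shiftFin 1 hg v) P m hm fun b => by
    rw [← shiftFin_smul, hfix b]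

/-! ### Invariance and averaging -/

/-- A smooth vector fixed by a congruence subgroup has that level. -/
theorem isLevel_of_fixed {u : Smooth Φ} (hM : M ≠ 0)
    (h : ∀ k ∈ principalSubgroup (lv F M), rho Φ k u = u) : IsLevel Φ M u.1 := by
  have hk : ∀ k ∈ levelGroup (lv F M), ∀ g P, u.1 (g * k) P = u.1 g P := by
    intro k hk g P
    obtain ⟨p, hp, z, hz, rfl⟩ := Subgroup.mem_sup_of_normal_right.mp hk
    have e : rho Φ (p * z) u = u := by rw [rho_mul, rho_center hz, h p hp]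
    exact congrFun (congrFun (congrArg Subtype.val e) g) P
  have hmk : ∀ (g : GL (Fin 2) (AF F)) (P : ι → H3),
      u.1 ((g : FinPt F (lv F M))).out P = u.1 g P := fun g P => by
    have hl := QuotientGroup.eq.mp (QuotientGroup.out_eq' (g : FinPt F (lv F M))).symm
    rw [← hk _ hl g P, mul_inv_cancel_left]
  refine ⟨hM, restrictLevel M u.1, ⟨fun γ x => ?_, fun v => continuous_val u v.out, ?_⟩, ?_⟩
  · obtain ⟨M₀, hu⟩ := u.2
    obtain ⟨f, hf, he⟩ := hu.exists_fun
    obtain ⟨v, P⟩ := x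
    obtain ⟨g, rfl⟩ := QuotientGroup.mk_surjective v
    show u.1 ((GeneralLinearGroup.map (toAF F) γ • (g : FinPt F (lv F M)))).out _ =
      u.1 ((g : FinPt F (lv F M))).out P
    rw [MulAction.Quotient.smul_coe, smul_eq_mul, hmk, hmk, he]
    exact hf.invariant γ ((g : FinPt F _), P)
  · obtain ⟨M₀, hu⟩ := u.2
    obtain ⟨f, hf, he⟩ := hu.exists_fun
    obtain ⟨C, hC⟩ := hf.bounded
    exact ⟨C, fun x => by rw [restrictLevel, he]; exact hC _⟩
  · funext g P
    exact (hmk g P).symm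

theorem finite_orbit {H : Subgroup (GL (Fin 2) (AF F))} (hH : H ≤ principalSubgroup ⊤)
    (u : Smooth Φ) : ((fun k => rho Φ k u) '' (H : Set (GL (Fin 2) (AF F)))).Finite := by
  obtain ⟨M, hu⟩ := u.2
  have hfin := LanglandsTunnell.Geom.finite_bounded (n := lv F M) (lv_ne_bot hu.ne_zero)
    (M := 1) one_ne_zero
  refine (hfin.image fun q => rho Φ q.out u).subset ?_
  rintro _ ⟨k, hk, rfl⟩
  refine ⟨(k : FinPt F (lv F M)), ⟨k, ?_, rfl⟩, ?_⟩
  · have hint : ∀ g : GL (Fin 2) (AF F), CongrOne ⊤ g.1 →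
        ∀ i j, g.1 i j ∈ intAF F := fun g hg => hg.mem_intAF
    exact ⟨fun i j => by simpa using hint k (hH hk).1 i j,
      fun i j => by simpa using hint _ (hH hk).2 i j⟩
  · have hl := QuotientGroup.eq.mp (QuotientGroup.out_eq' (k : FinPt F (lv F M))).symm
    show rho Φ (k : FinPt F (lv F M)).out u = rho Φ k u
    rw [← mul_inv_cancel_left k (k : FinPt F (lv F M)).out, rho_mul, rho_of_mem_level hu hl]

/-- The average over an orbit of a compact subgroup. -/
def orbitAvg (H : Subgroup (GL (Fin 2) (AF F))) (hH : H ≤ principalSubgroup ⊤) (u : Smooth Φ) :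
    Smooth Φ :=
  ((finite_orbit hH u).toFinset.card : ℂ)⁻¹ • ∑ x ∈ (finite_orbit hH u).toFinset, x

variable {H : Subgroup (GL (Fin 2) (AF F))} (hH : H ≤ principalSubgroup ⊤)

theorem orbitAvg_fixed (u : Smooth Φ) {k : GL (Fin 2) (AF F)} (hk : k ∈ H) :
    rho Φ k (orbitAvg H hH u) = orbitAvg H hH u := by
  classical
  rw [orbitAvg, map_smul, map_sum]
  congr 1
  refine Finset.sum_bij (fun x _ => rho Φ k x) (fun x hx => ?_)
    (fun x _ y _ h => (rho Φ k).injective h) (fun y hy => ?_) fun x _ => rfl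
  · obtain ⟨j, hj, rfl⟩ := (finite_orbit hH u).mem_toFinset.mp hx
    exact (finite_orbit hH u).mem_toFinset.mpr ⟨k * j, mul_mem hk hj, rho_mul _ _ _⟩
  · obtain ⟨j, hj, rfl⟩ := (finite_orbit hH u).mem_toFinset.mp hy
    refine ⟨rho Φ (k⁻¹ * j) u,
      (finite_orbit hH u).mem_toFinset.mpr ⟨_, mul_mem (inv_mem hk) hj, rfl⟩, ?_⟩
    rw [← rho_mul, mul_inv_cancel_left]

/-- Averaging does not change pairings against vectors fixed by the subgroup. -/
theorem inner_orbitAvg (u : Smooth Φ) {f : Smooth Φ} {h : GL (Fin 2) (AF F)}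
    (hf : ∀ k ∈ H, ⟪f, rho Φ h (rho Φ k u)⟫_ℂ = ⟪f, rho Φ h u⟫_ℂ) :
    ⟪f, rho Φ h (orbitAvg H hH u)⟫_ℂ = ⟪f, rho Φ h u⟫_ℂ := by
  have hne : (finite_orbit hH u).toFinset.card ≠ 0 := by
    rw [Ne, Finset.card_eq_zero, Set.Finite.toFinset_eq_empty]
    exact (Set.Nonempty.image _ ⟨1, one_mem H⟩).ne_empty
  rw [orbitAvg, map_smul, map_sum, inner_smul_right, inner_sum,
    Finset.sum_congr rfl (g := fun _ => ⟪f, rho Φ h u⟫_ℂ) fun x hx => ?_]
  · rw [Finset.sum_const, nsmul_eq_mul, ← mul_assoc, inv_mul_cancel₀ (Nat.cast_ne_zero.mpr hne),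
      one_mul]
  · obtain ⟨j, hj, rfl⟩ := (finite_orbit hH u).mem_toFinset.mp hx
    exact hf j hj

/-- A property kept by translation, sums and multiples passes to averages. -/
theorem orbitAvg_induction {p : Smooth Φ → Prop} (h0 : p 0) (hadd : ∀ x y, p x → p y → p (x + y))
    (hsmul : ∀ (c : ℂ) x, p x → p (c • x)) (u : Smooth Φ) (hu : ∀ k ∈ H, p (rho Φ k u)) :
    p (orbitAvg H hH u) :=
  hsmul _ _ (Finset.sum_induction _ p (fun x y => hadd x y) h0 fun x hx => by
    obtain ⟨j, hj, rfl⟩ := (finite_orbit hH u).mem_toFinset.mp hx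
    exact hu j hj)

/-! ### Multiplicity one -/

theorem supportedAt_inv_mul {g h : GL (Fin 2) (AF F)} (hg : SupportedAt N g)
    (hh : SupportedAt N h) : SupportedAt N (g⁻¹ * h) := fun p hp => by
  rw [map_mul, map_inv, hg p hp, hh p hp, inv_one, one_mul]

/-- The combination of translates as a smooth vector. -/
def comboS (s : List (ℂ × GL (Fin 2) (AF F))) (u : Smooth Φ) : Smooth Φ :=
  (s.map fun x => x.1 • rho Φ x.2 u).sum

theorem comboS_val (s : List (ℂ × GL (Fin 2) (AF F))) (u : Smooth Φ) :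
    (comboS s u).1 = combo s u.1 := by
  induction s with
  | nil => rfl
  | cons x s ih =>
    funext g P
    simp only [comboS, List.map_cons, List.sum_cons, combo] at ih ⊢
    show x.1 * rtrans x.2 u.1 g P + _ = _
    rw [ih]
    rfl

theorem exists_of_inner_comboS {s : List (ℂ × GL (Fin 2) (AF F))} {u v : Smooth Φ}
    (h : ⟪v, comboS s u⟫_ℂ ≠ 0) : ∃ x ∈ s, ⟪v, rho Φ x.2 u⟫_ℂ ≠ 0 := by
  induction s with
  | nil => simp [comboS] at h
  | cons x s ih =>
    simp only [comboS, List.map_cons, List.sum_cons, inner_add_right, inner_smul_right] at h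
    by_cases h1 : ⟪v, rho Φ x.2 u⟫_ℂ = 0
    · rw [h1, mul_zero, zero_add] at h
      obtain ⟨y, hy, hy'⟩ := ih h
      exact ⟨y, List.mem_cons_of_mem _ hy, hy'⟩
    · exact ⟨x, List.mem_cons_self, h1⟩

/-- **Strong multiplicity one**: two vectors of one system are related by a translation. -/
theorem exists_inner_ne_zero (hct : CommonTranslateSpec) {u v : Smooth Φ}
    (hu : InSys Φ M a u) (hv : InSys Φ M a v) (hu0 : u ≠ 0) (hv0 : v ≠ 0)
    (hcu : IsCuspidal Φ (restrictLevel M u.1)) (hcv : IsCuspidal Φ (restrictLevel M v.1)) :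
    ∃ g, SupportedAt M g ∧ ⟪u, rho Φ g v⟫_ℂ ≠ 0 := by
  obtain ⟨s, t, hs, ht, heq, hne⟩ := hct F ι Φ M hu.level.ne_zero _ _ a
    (hu.isEigenform hu0 hcu) (hv.isEigenform hv0 hcv)
  rw [hu.level.liftForm_restrict] at heq hne
  rw [hv.level.liftForm_restrict] at heq
  have he : comboS s u = comboS t v := Subtype.ext (by rw [comboS_val, comboS_val, heq])
  have hW : comboS s u ≠ 0 := fun h => hne (by
    have := congrArg Subtype.val h
    rwa [comboS_val] at this)
  have h1 : ⟪comboS s u, comboS t v⟫_ℂ ≠ 0 := by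
    rw [← he]
    exact inner_self_ne_zero.mpr hW
  obtain ⟨y, hy, hy'⟩ := exists_of_inner_comboS h1
  rw [← inner_conj_symm, map_ne_zero] at hy'
  obtain ⟨x, hx, hx'⟩ := exists_of_inner_comboS hy'
  refine ⟨x.2⁻¹ * y.2, supportedAt_inv_mul (hs x hx) (ht y hy), fun h => hx' ?_⟩
  rw [rho_mul] at h
  rw [← inner_conj_symm, map_eq_zero, ← h]
  conv_rhs => rw [← TreeData.inner_apply (rho Φ) x.2, ← rho_mul, mul_inv_cancel, map_one]
  rfl

end FLTAgent.LanglandsTunnell.Isolation
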