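import Fermat.Agent.LanglandsTunnell.Internal
import Fermat.Agent.LanglandsTunnell.CFT.Crossing
import Fermat.Agent.WeightOneWiring.Places

/-!
# Primes of the sextic field over `E`

Residue degree one or three, and the Frobenius elements in either case.
-/

set_option autoImplicit false

noncomputable section

namespace FLTAgent.LanglandsTunnell.Isolation

open FLTAgent.LanglandsTunnell NumberField Matrix
open FLTAgent.LanglandsTunnell.CFT (PlaceOver)
open FLTAgent.Density FLTAgent.ExtVanishing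
open scoped Pointwise

local notation "G₃" => GL (Fin 2) (ZMod 3)
local notation "M₃" => Matrix (Fin 2) (Fin 2) (ZMod 3)

variable (D : Datum)

/-- An element is in the group of `E` iff its image has determinant one. -/
theorem mem_galE {g : GQ} : g ∈ D.galE ↔ (D.ρ g).1.det = 1 := by
  rw [Datum.galE, MonoidHom.mem_ker, ← Units.val_inj]
  simp

/-- The fixing group of `E` is the kernel of the determinant. -/
theorem fixingSubgroup_E : D.E.fixingSubgroup = D.galE :=
  WeightOneWiring.fixingSubgroup_fixedField_of_ker_le D fun σ hσ => by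
    simp [mem_galE, MonoidHom.mem_ker.mp hσ]

theorem entries_cube : ∀ a b c d : ZMod 3, a * d - b * c = 1 →
    ((!![a, b; c, d] : M₃) * !![a, b; c, d] * !![a, b; c, d]).trace = 0 ∨
      (!![a, b; c, d] : M₃) * !![a, b; c, d] * !![a, b; c, d] = 1 ∨
      (!![a, b; c, d] : M₃) * !![a, b; c, d] * !![a, b; c, d] = -1 := by
  decide +kernel

theorem entries_cosets : ∀ a b c d : ZMod 3, a * d - b * c = 1 →
    ¬ (a + d = 0 ∨ (!![a, b; c, d] : M₃) = 1 ∨ (!![a, b; c, d] : M₃) = -1) →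
    ∀ e f k l : ZMod 3, e * l - f * k = 1 →
      (e + l = 0 ∨ (!![e, f; k, l] : M₃) = 1 ∨ (!![e, f; k, l] : M₃) = -1) ∨
      ((e * a + f * c) + (k * b + l * d) = 0 ∨ (!![e, f; k, l] : M₃) * !![a, b; c, d] = 1 ∨
        (!![e, f; k, l] : M₃) * !![a, b; c, d] = -1) ∨
      (((!![e, f; k, l] : M₃) * !![a, b; c, d] * !![a, b; c, d]).trace = 0 ∨
        (!![e, f; k, l] : M₃) * !![a, b; c, d] * !![a, b; c, d] = 1 ∨
        (!![e, f; k, l] : M₃) * !![a, b; c, d] * !![a, b; c, d] = -1) := by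
  decide +kernel

theorem det_mul_eq_one {g h : G₃} (hg : g.1.det = 1) (hh : h.1.det = 1) : (g * h).1.det = 1 := by
  rw [Units.val_mul, det_mul, hg, hh, one_mul]

theorem cube_mem_galM {g : GQ} (hg : g ∈ D.galE) : g ^ 3 ∈ D.galM := by
  have hd := (mem_galE D).mp hg
  have e : (D.ρ (g ^ 3)) = D.ρ g * D.ρ g * D.ρ g := by rw [map_pow, pow_three']
  refine (mem_galM D).mpr ⟨?_, ?_⟩
  · rw [e]; exact det_mul_eq_one (det_mul_eq_one hd hd) hd
  · rw [e, Units.val_mul, Units.val_mul, eta_fin_two (D.ρ g).1]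
    rw [det_fin_two] at hd
    exact entries_cube _ _ _ _ hd

theorem mem_galM_cosets {g h : GQ} (hg : g ∈ D.galE) (hgM : g ∉ D.galM) (hh : h ∈ D.galE) :
    h ∈ D.galM ∨ h * g ∈ D.galM ∨ h * g * g ∈ D.galM := by
  have hgd := (mem_galE D).mp hg
  have hhd := (mem_galE D).mp hh
  simp only [mem_galM, InQ8, map_mul] at hgM ⊢
  have h1 : (D.ρ h * D.ρ g).1.det = 1 := det_mul_eq_one hhd hgd
  have h2 : (D.ρ h * D.ρ g * D.ρ g).1.det = 1 := det_mul_eq_one h1 hgd
  have hn : ¬ ((D.ρ g).1.trace = 0 ∨ (D.ρ g).1 = 1 ∨ (D.ρ g).1 = -1) := fun h => hgM ⟨hgd, h⟩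
  simp only [hhd, h1, h2, true_and]
  simp only [Units.val_mul]
  rw [det_fin_two] at hgd hhd
  rw [trace_fin_two, eta_fin_two (D.ρ g).1] at hn
  rw [eta_fin_two (D.ρ g).1, eta_fin_two (D.ρ h).1]
  have h3 := entries_cosets _ _ _ _ hgd (by simpa using hn) _ _ _ _ hhd
  simpa [trace_fin_two, Matrix.mul_apply, Fin.sum_univ_two] using h3

theorem trLift_one : trLift (1 : G₃) = 2 := by
  simp [trLift]

/-- `M` as an algebra over `E`. -/
scoped instance algebraEM : Algebra D.E D.M := D.incl.toAlgebra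

scoped instance towerEM : IsScalarTower ℚ D.E D.M :=
  IsScalarTower.of_algebraMap_eq fun _ => rfl

theorem val_incl (x : D.E) : ((algebraMap D.E D.M x : D.M) : QB) = (x : QB) := rfl

theorem under_eq (w : Ideal (𝓞 D.M)) : D.under w = w.under (𝓞 D.E) := rfl

/-- The prime of `E` below a prime of `M` is prime. -/
theorem under_isPrime (w : Ideal (𝓞 D.M)) [w.IsPrime] : (D.under w).IsPrime :=
  Ideal.comap_isPrime _ _

/-- The prime of `E` below a nonzero prime of `M` is nonzero. -/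
theorem under_ne_bot {w : Ideal (𝓞 D.M)} [w.IsPrime] (hw : w ≠ ⊥) : D.under w ≠ ⊥ := by
  rw [under_eq]
  exact fun h => hw (Ideal.eq_bot_of_comap_eq_bot h)

theorem finrank_EM : Module.finrank D.E D.M = 3 := by
  have h := Module.finrank_mul_finrank ℚ D.E D.M
  rw [WeightOneWiring.finrank_E, WeightOneWiring.finrank_M] at h
  omega

theorem absNorm_map (v : Ideal (𝓞 D.E)) :
    Ideal.absNorm (Ideal.map (RingOfIntegers.mapRingHom D.incl) v) = Ideal.absNorm v ^ 3 := by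
  have e : Module.finrank (𝓞 D.E) (𝓞 D.M) = 3 := by
    rw [← IsFractionRing.finrank_eq (𝓞 D.E) D.E (𝓞 D.M) D.M, finrank_EM]
  rw [← e]
  exact Ideal.absNorm_algebraMap (R := 𝓞 D.E) (S := 𝓞 D.M) v

theorem natCast_mem_under {w : Ideal (𝓞 D.M)} (n : ℕ) :
    (n : 𝓞 D.E) ∈ D.under w ↔ (n : 𝓞 D.M) ∈ w := by
  rw [Datum.under, Ideal.mem_comap, map_natCast]

theorem not_dvd_under {w : Ideal (𝓞 D.M)} {n : ℕ} (h : ¬ w ∣ Ideal.span {(n : 𝓞 D.M)}) :
    ¬ D.under w ∣ Ideal.span {(n : 𝓞 D.E)} := by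
  rw [Ideal.dvd_iff_le, Ideal.span_singleton_le_iff_mem] at h ⊢
  rwa [natCast_mem_under]

/-- At level `N'` every prime of `M` is unramified over `E`. -/
theorem unramified_of_testLevel {σ : D.M ≃ₐ[ℚ] D.M} {k B : ℕ} {R : Finset Nat.Primes}
    {N₀ N₁ N N' : ℕ} (h : IsTestLevel D σ k B R N₀ N₁ N N') {w : Ideal (𝓞 D.M)} [w.IsPrime]
    (hw : w ≠ ⊥) (hwN : ¬ w ∣ Ideal.span {(N' : 𝓞 D.M)}) :
    ¬ Ideal.map (RingOfIntegers.mapRingHom D.incl) (D.under w) ≤ w ^ 2 := by
  intro hle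
  obtain ⟨q, A, hq, hqw, -, -⟩ := LanglandsTunnell.CFT.exists_placeOver w hw
  have hR : (⟨q, hq⟩ : Nat.Primes) ∈ R := (h.mem_R _).mpr ⟨w, inferInstance, hqw, hle⟩
  obtain ⟨c, hc⟩ := (h.ram_dvd _ hR).trans h.dvd
  refine hwN (Ideal.dvd_iff_le.mpr ((Ideal.span_singleton_le_iff_mem _).mpr ?_))
  rw [hc, Nat.cast_mul]
  exact Ideal.mul_mem_right _ _ hqw

/-- A Frobenius element over `E` gives a prime of `M`. -/
theorem exists_prime_over_frob {v : Ideal (𝓞 D.E)} (hv : v ≠ ⊥) {g : GQ}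
    (hg : IsFrobOver D.E v g) :
    ∃ (w : Ideal (𝓞 D.M)) (A : ValuationSubring QB), w.IsPrime ∧ w ≠ ⊥ ∧ D.under w = v ∧
      g ∈ D.galE ∧ PlaceOver A w ∧ A.IsFrobeniusAt g (Ideal.absNorm v) := by
  obtain ⟨hgE, A, hA, hAg⟩ := hg
  set w : Ideal (𝓞 D.M) := (primeBelow A).comap (intEmb D.M)
  have : w.IsPrime := Ideal.comap_isPrime _ _
  have hwA : PlaceOver A w := LanglandsTunnell.CFT.placeOver_iff.2 rfl
  have hu : D.under w = v := by
    ext x
    rw [under_eq, (hwA.under (val_incl D)) x, hA x]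
  exact ⟨w, A, inferInstance, fun h => hv (by rw [← hu, h, under_eq, Ideal.under_bot]), hu,
    (fixingSubgroup_E D) ▸ hgE, hwA, hAg⟩

/-- Two primes with a common place are equal. -/
theorem eq_of_placeOver {A : ValuationSubring QB} {w w' : Ideal (𝓞 D.M)} (h : PlaceOver A w)
    (h' : PlaceOver A w') : w = w' :=
  Ideal.ext fun x => (h x).trans (h' x).symm

theorem absNorm_le_of_frob {w : Ideal (𝓞 D.M)} [w.IsPrime] (hw : w ≠ ⊥)
    {A : ValuationSubring QB} (hA : PlaceOver A w) {g : GQ} (hgM : g ∈ D.galM) {N : ℕ}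
    (hN : 1 < N) (hAg : A.IsFrobeniusAt g N) : Ideal.absNorm w ≤ N := by
  refine LanglandsTunnell.CFT.absNorm_le_of_pow_sub_mem hw hN fun y => ?_
  rw [hA]
  have hyA : ((y : D.M) : QB) ∈ A :=
    mem_of_isIntegral A ((y.isIntegral_coe).map (D.M.val.restrictScalars ℤ))
  have h := (isFrobeniusAt_iff.1 hAg).2 ((y : D.M) : QB) hyA
  rw [show g ((y : D.M) : QB) = ((y : D.M) : QB) from
    ((fixingSubgroup_M D).symm ▸ hgM : g ∈ D.M.fixingSubgroup) (y : D.M)] at h
  have h' : ((y : D.M) : QB) ^ N - ((y : D.M) : QB) ∈ A.nonunits := by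
    rw [← neg_sub, ValuationSubring.mem_nonunits_iff, Valuation.map_neg]
    exact A.mem_nonunits_iff.1 h
  simpa using h'

/-- Outside the quaternion group the Frobenius makes the prime inert. -/
theorem eq_of_under_eq {w : Ideal (𝓞 D.M)} [w.IsPrime] (hw : w ≠ ⊥)
    {A : ValuationSubring QB} (hA : PlaceOver A w) {g : GQ} (hgE : g ∈ D.galE)
    (hgM : g ∉ D.galM) {N : ℕ} (hAg : A.IsFrobeniusAt g N)
    {w' : Ideal (𝓞 D.M)} [w'.IsPrime] (hw' : w' ≠ ⊥) (he : D.under w' = D.under w) : w' = w := by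
  obtain ⟨-, A', -, -, -, hA'⟩ := LanglandsTunnell.CFT.exists_placeOver w' hw'
  have := under_isPrime D w
  have hv' : PlaceOver A' (D.under w) := by
    rw [← he, under_eq]
    exact hA'.under (val_incl D)
  obtain ⟨h, hh, hhA⟩ := LanglandsTunnell.CFT.exists_smul_eq_of_placeOver (under_ne_bot D hw)
    (by rw [under_eq]; exact hA.under (val_incl D)) hv'
  rw [fixingSubgroup_E] at hh
  have hgA : g • A = A :=
    MulAction.mem_stabilizer_iff.mp (isFrobeniusAt_iff.1 hAg).1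
  have key : ∀ m ∈ D.galM, m • A = A' → w' = w := fun m hm hmA => by
    have := hA.smul (g := m) (by rw [fixingSubgroup_M]; exact hm)
    rw [hmA] at this
    exact eq_of_placeOver D hA' this
  rcases mem_galM_cosets D hgE hgM hh with h1 | h1 | h1
  · exact key h h1 hhA
  · exact key _ h1 (by rw [mul_smul, hgA, hhA])
  · exact key _ h1 (by rw [mul_smul, mul_smul, hgA, hgA, hhA])

variable {D}

/-- The dichotomy at an unramified prime. -/
theorem degree_of_frob {w : Ideal (𝓞 D.M)} [w.IsPrime] (hw : w ≠ ⊥)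
    (hunr : ¬ Ideal.map (RingOfIntegers.mapRingHom D.incl) (D.under w) ≤ w ^ 2)
    {A : ValuationSubring QB} (hA : PlaceOver A w) {g : GQ} (hgE : g ∈ D.galE)
    (hAg : A.IsFrobeniusAt g (Ideal.absNorm (D.under w))) :
    (g ∈ D.galM → D.DegreeOne w ∧ IsFrobOver D.M w g) ∧
    (g ∉ D.galM → D.DegreeThree w ∧ IsFrobOver D.M w (g ^ 3) ∧
      ∀ w' : Ideal (𝓞 D.M), w'.IsPrime → w' ≠ ⊥ → D.under w' = D.under w → w' = w) := by
  have := under_isPrime D w
  set v := D.under w with hv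
  have hv0 := under_ne_bot D hw
  have hN2 : 1 < Ideal.absNorm v := by
    have h0 : Ideal.absNorm v ≠ 0 := fun e => hv0 (Ideal.absNorm_eq_zero_iff.1 e)
    have h1 : Ideal.absNorm v ≠ 1 := fun e =>
      Ideal.IsPrime.ne_top (inferInstance : v.IsPrime) (Ideal.absNorm_eq_one_iff.1 e)
    omega
  have : w.LiesOver v := ⟨rfl⟩
  obtain ⟨j, hj⟩ := Ideal.exists_relNorm_eq_pow_of_isPrime w v
  have hNw : Ideal.absNorm w = Ideal.absNorm v ^ j := by
    rw [← Ideal.absNorm_relNorm (R := 𝓞 D.E) (I := w), hj, map_pow]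
  have hj0 : j ≠ 0 := by
    rintro rfl
    exact Ideal.IsPrime.ne_top (inferInstance : w.IsPrime)
      (Ideal.absNorm_eq_one_iff.1 (by rw [hNw, pow_zero]))
  refine ⟨fun hgM => ?_, fun hgM => ?_⟩
  · have hle := absNorm_le_of_frob D hw hA hgM hN2 hAg
    have hge : Ideal.absNorm v ≤ Ideal.absNorm w := hNw ▸ Nat.le_self_pow hj0 _
    have e : Ideal.absNorm w = Ideal.absNorm v := le_antisymm hle hge
    exact ⟨⟨inferInstance, hw, e⟩, (fixingSubgroup_M D).symm ▸ hgM, A, hA, e ▸ hAg⟩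
  · have huniq : ∀ w' : Ideal (𝓞 D.M), w'.IsPrime → w' ≠ ⊥ → D.under w' = v → w' = w :=
      fun w' _ hw' he => eq_of_under_eq D hw hA hgE hgM hAg hw' he
    set J := Ideal.map (RingOfIntegers.mapRingHom D.incl) v with hJ
    have hJw : J ≤ w := Ideal.map_comap_le
    obtain ⟨K, hK⟩ := Ideal.dvd_iff_le.mpr hJw
    have hKtop : K = ⊤ := by
      by_contra hne
      obtain ⟨m, hm, hKm⟩ := Ideal.exists_le_maximal K hne
      have hJm : J ≤ m := by rw [hK]; exact Ideal.mul_le_right.trans hKm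
      have hvm : v ≤ D.under m := Ideal.map_le_iff_le_comap.mp hJm
      have hm0 : m ≠ ⊥ := fun h => hv0 (le_bot_iff.mp (hvm.trans (le_of_eq (by
        rw [h, under_eq, Ideal.under_bot]))))
      have : v.IsMaximal := (inferInstance : v.IsPrime).isMaximal hv0
      have hmv : D.under m = v :=
        ((‹v.IsMaximal›).eq_of_le (under_isPrime D m).ne_top hvm).symm
      have hmw : m = w := huniq m hm.isPrime hm0 hmv
      exact hunr (by rw [hK, pow_two]; exact Ideal.mul_mono le_rfl (hmw ▸ hKm))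
    have e : Ideal.absNorm w = Ideal.absNorm v ^ 3 := by
      rw [← absNorm_map D v, ← hJ, hK, hKtop, Ideal.mul_top]
    exact ⟨⟨inferInstance, hw, e⟩, ⟨(fixingSubgroup_M D).symm ▸ cube_mem_galM D hgE, A, hA,
      e ▸ LanglandsTunnell.CFT.isFrobeniusAt_pow hAg 3⟩, huniq⟩

/-- An unramified prime has residue degree one or three. -/
theorem degreeOne_or_three {w : Ideal (𝓞 D.M)} [w.IsPrime] (hw : w ≠ ⊥)
    (hunr : ¬ Ideal.map (RingOfIntegers.mapRingHom D.incl) (D.under w) ≤ w ^ 2) :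
    D.DegreeOne w ∨ D.DegreeThree w := by
  have := under_isPrime D w
  obtain ⟨-, A, -, -, -, hA⟩ := LanglandsTunnell.CFT.exists_placeOver w hw
  obtain ⟨g, hg, hAg⟩ := LanglandsTunnell.CFT.exists_frobenius_over (under_ne_bot D hw)
    (A := A) (hA.under (val_incl D))
  obtain ⟨h1, h3⟩ := degree_of_frob hw hunr hA ((fixingSubgroup_E D) ▸ hg) hAg
  by_cases hgM : g ∈ D.galM
  exacts [Or.inl (h1 hgM).1, Or.inr (h3 hgM).1]

variable (D)

/-- Infinitely many split primes of prime norm with trivial Frobenius. -/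
theorem exists_split {N' : ℕ} (hN' : N' ≠ 0) (S : Finset (Ideal (𝓞 D.E))) :
    ∃ w, D.SplitOK N' w ∧ D.under w ∉ S ∧ ∃ g, IsFrobOver D.M w g ∧ D.ρ g = 1 := by
  classical
  have := WeightOneWiring.isGalois_QB
  obtain ⟨L₀, hL₀, hL₀ker⟩ := D.factors
  have := hL₀
  have : FiniteDimensional ℚ ↥(L₀ ⊔ D.M) := IntermediateField.finiteDimensional_sup _ _
  set L : IntermediateField ℚ QB := IntermediateField.normalClosure ℚ ↥(L₀ ⊔ D.M) QB
  have : FiniteDimensional ℚ L := normalClosure.is_finiteDimensional ..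
  have : Normal ℚ L := normalClosure.normal ..
  have : IsGalois ℚ L := IsGalois.mk
  have hle : L₀ ⊔ D.M ≤ L := IntermediateField.le_normalClosure _
  set B : ℕ := N' * ∏ v ∈ S.filter (· ≠ ⊥), Ideal.absNorm v
  have hB : B ≠ 0 := mul_ne_zero hN' (Finset.prod_ne_zero_iff.mpr fun v hv e =>
    (Finset.mem_filter.mp hv).2 (Ideal.absNorm_eq_zero_iff.1 e))
  obtain ⟨q, P, g, hq, hqB, hP, hP0, hPN, hPg, hgL⟩ :=
    LanglandsTunnell.CFT.exists_degreeOne_frobenius (F := D.M) L (le_sup_right.trans hle) 1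
      (one_mem _) hB
  have := hP
  have := under_isPrime D P
  have : P.LiesOver (D.under P) := ⟨rfl⟩
  obtain ⟨j, hj⟩ := Ideal.exists_relNorm_eq_pow_of_isPrime P (D.under P)
  have hNw : q = Ideal.absNorm (D.under P) ^ j := by
    rw [← hPN, ← Ideal.absNorm_relNorm (R := 𝓞 D.E) (I := P), hj, map_pow]
  have hj1 : j = 1 := Nat.Prime.eq_one_of_pow (hNw ▸ hq)
  rw [hj1, pow_one] at hNw
  refine ⟨P, ⟨⟨hP, hP0, hPN.trans hNw⟩, hPN ▸ hq, fun h => hqB ?_⟩, fun h => hqB ?_, g, hPg, ?_⟩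
  · have h' := Ideal.absNorm_dvd_absNorm_of_le (Ideal.dvd_iff_le.mp h)
    rw [hPN, Ideal.absNorm_span_natCast] at h'
    exact dvd_mul_of_dvd_left (hq.dvd_of_dvd_pow h') _
  · exact dvd_mul_of_dvd_right (hNw ▸ Finset.dvd_prod_of_mem _
      (Finset.mem_filter.mpr ⟨h, under_ne_bot D hP0⟩)) _
  · exact hL₀ker g fun x hx => by
      rw [hgL x (hle (le_sup_left (b := D.M) hx))]
      rfl

end FLTAgent.LanglandsTunnell.Isolation
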