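import Fermat.Agent.LanglandsTunnell.Isolation.Cartan
import Fermat.Agent.LanglandsTunnell.Isolation.Defs

/-!
# An adelic matrix as the product of its parts at the primes

Elements away from a prime commute with the local group there; an element away from all primes is
trivial; induction over the finitely many primes where an element lives.
-/

set_option autoImplicit false

noncomputable section

namespace FLTAgent.LanglandsTunnell.Isolation

open NumberField Matrix FLTAgent.LanglandsTunnell
open FLTAgent.LanglandsTunnell.Local (compOH compAF_intHom exists_oh_comp af_ext gl_ext compGL)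

section Generic

variable {R : Type} [CommRing R] {e e' : R} (he : e * e = e) (he' : e' * e' = e')

theorem compl_idem (he : e * e = e) : (1 - e) * (1 - e) = 1 - e := by linear_combination he

theorem idemPart_eq_one_iff {g : GL (Fin 2) R} :
    idemPart he g = 1 ↔ ∀ i j, e * (g.1 - 1) i j = 0 := by
  constructor
  · intro h i j
    have h1 : (idemPart he g).1 i j = (1 : GL (Fin 2) R).1 i j := by rw [h]
    simp only [idemPart_val, Matrix.add_apply, Matrix.smul_apply, smul_eq_mul, Units.val_one] at h1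
    rw [Matrix.sub_apply]
    linear_combination h1
  · intro h
    refine Units.ext (Matrix.ext fun i j => ?_)
    have h1 := h i j
    rw [Matrix.sub_apply] at h1
    simp only [idemPart_val, Matrix.add_apply, Matrix.smul_apply, smul_eq_mul, Units.val_one]
    linear_combination h1

/-- A matrix is the product of its two parts. -/
theorem idemPart_mul_compl (g : GL (Fin 2) R) :
    idemPart he g * idemPart (compl_idem he) g = g := by
  refine Units.ext ?_
  have h1 : e * (1 - e) = 0 := by linear_combination -he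
  rw [Units.val_mul, idemPart_val, idemPart_val, sub_sub_cancel]
  simp only [add_mul, mul_add, Matrix.smul_mul, Matrix.mul_smul, smul_smul, one_mul,
    mul_one, he, compl_idem he, h1, mul_comm (1 - e) e, zero_smul, zero_add, add_zero]
  rw [← add_smul, sub_add_cancel, one_smul]

theorem idemPart_idemPart_of_mul_eq_zero (h : e * e' = 0) (g : GL (Fin 2) R) :
    idemPart he (idemPart he' g) = 1 := by
  refine (idemPart_eq_one_iff he).mpr fun i j => ?_
  simp only [Matrix.sub_apply, idemPart_val, Matrix.add_apply, Matrix.smul_apply, smul_eq_mul]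
  linear_combination (g.1 i j - (1 : Matrix (Fin 2) (Fin 2) R) i j) * h

theorem idemPart_compl_idemPart (g : GL (Fin 2) R) :
    idemPart (compl_idem he) (idemPart he g) = 1 :=
  idemPart_idemPart_of_mul_eq_zero _ he (by linear_combination -he) g

/-- An element in the factor of `e` commutes with an element away from it. -/
theorem commute_of_idemPart {g h : GL (Fin 2) R} (hg : idemPart he g = g)
    (hh : idemPart he h = 1) : Commute g h := by
  have hg' : idemPart (compl_idem he) g = 1 := hg ▸ idemPart_compl_idemPart he g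
  have key : ∀ x y : GL (Fin 2) R, idemPart he x = idemPart he y →
      idemPart (compl_idem he) x = idemPart (compl_idem he) y → x = y := fun x y h1 h2 => by
    rw [← idemPart_mul_compl he x, ← idemPart_mul_compl he y, h1, h2]
  exact key _ _ (by simp [map_mul, hh]) (by simp [map_mul, hg'])

end Generic

variable {F : Type} [Field F] [NumberField F] {n w w' : Ideal (𝓞 F)} (hw : w.IsPrime) (hw0 : w ≠ ⊥)

/-- Trivial at `w`. -/
def awayGroup : Subgroup (GL (Fin 2) (AF F)) := (part hw hw0).ker

theorem mem_awayGroup {g : GL (Fin 2) (AF F)} :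
    g ∈ awayGroup hw hw0 ↔ part hw hw0 g = 1 := MonoidHom.mem_ker

/-- The rest after removing the part at `w`. -/
abbrev copart : GL (Fin 2) (AF F) →* GL (Fin 2) (AF F) :=
  idemPart (compl_idem (placeAF_mul_self hw hw0))

theorem part_mul_copart (g : GL (Fin 2) (AF F)) : part hw hw0 g * copart hw hw0 g = g :=
  idemPart_mul_compl _ g

theorem copart_mem_awayGroup (g : GL (Fin 2) (AF F)) : copart hw hw0 g ∈ awayGroup hw hw0 :=
  (mem_awayGroup hw hw0).mpr (idemPart_idemPart_of_mul_eq_zero _ _
    (by linear_combination -(placeAF_mul_self hw hw0)) g)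

theorem part_mem_localGroup (g : GL (Fin 2) (AF F)) : part hw hw0 g ∈ localGroup hw hw0 :=
  (mem_localGroup hw hw0).mpr (isLocalAt_part hw hw0 g)

variable {hw hw0}

theorem part_eq_self {g : GL (Fin 2) (AF F)} (hg : g ∈ localGroup hw hw0) :
    part hw hw0 g = g := hg

theorem commute_away {g h : GL (Fin 2) (AF F)} (hg : g ∈ localGroup hw hw0)
    (hh : h ∈ awayGroup hw hw0) : Commute g h :=
  commute_of_idemPart _ (part_eq_self hg) ((mem_awayGroup hw hw0).mp hh)

theorem away_of_local {hw' : w'.IsPrime} {hw0' : w' ≠ ⊥} (hne : w ≠ w') {g : GL (Fin 2) (AF F)}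
    (hg : g ∈ localGroup hw' hw0') : g ∈ awayGroup hw hw0 := by
  rw [mem_awayGroup, ← part_eq_self hg]
  exact idemPart_idemPart_of_mul_eq_zero _ _ (placeAF_mul_eq_zero hw hw0 hw' hw0' hne) g

/-! ### Congruence subgroups -/

theorem idemPart_mem_principalSubgroup {e : OH F} {E : AF F} (hE : intHom F e = E)
    (hE2 : E * E = E) {g : GL (Fin 2) (AF F)} (hg : g ∈ principalSubgroup n) :
    idemPart hE2 g ∈ principalSubgroup n := by
  have key : ∀ g : GL (Fin 2) (AF F), CongrOne n g.1 → CongrOne n (idemPart hE2 g).1 := by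
    intro g h i j
    have e1 : ((idemPart hE2 g).1 - 1) i j = E * (g.1 - 1) i j := by
      simp only [Matrix.sub_apply, idemPart_val, Matrix.add_apply, Matrix.smul_apply, smul_eq_mul]
      ring
    rw [e1]
    exact mul_mem_idealAF_left ⟨e, hE⟩ (h i j)
  exact ⟨key g hg.1, by rw [← map_inv]; exact key _ hg.2⟩

variable (hw hw0)

theorem part_mem_principalSubgroup {g : GL (Fin 2) (AF F)} (hg : g ∈ principalSubgroup n) :
    part hw hw0 g ∈ principalSubgroup n :=
  idemPart_mem_principalSubgroup rfl _ hg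

theorem copart_mem_principalSubgroup {g : GL (Fin 2) (AF F)} (hg : g ∈ principalSubgroup n) :
    copart hw hw0 g ∈ principalSubgroup n := by
  refine idemPart_mem_principalSubgroup (e := 1 - placeIdem hw hw0) ?_ _ hg
  rw [map_sub, map_one]
  rfl

theorem part_mem_localK {g : GL (Fin 2) (AF F)} (hg : g ∈ principalSubgroup ⊤) :
    part hw hw0 g ∈ localK hw hw0 :=
  ⟨part_mem_localGroup hw hw0 g, part_mem_principalSubgroup hw hw0 hg⟩

theorem placeAF_mem_idealAF (hwn : ¬ w ∣ n) : placeAF hw hw0 ∈ idealAF F n := by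
  obtain ⟨y, hy, hyw⟩ : ∃ y ∈ n, y ∉ w := by
    by_contra h
    simp only [not_exists, not_and, not_not] at h
    exact hwn (Ideal.dvd_iff_le.mpr fun y hy => h y hy)
  obtain ⟨z, hz⟩ := exists_inv_of_not_mem hw hw0
    (y := (y : 𝓞 F) ⊗ₜ[ℤ] (1 : Zhat)) fun h => hyw ((tmul_one_mem_idealOH_iff hw0).mp h)
  refine mem_idealAF.mpr ⟨_, ?_, rfl⟩
  rw [← hz]
  exact Ideal.mul_mem_left _ _ (Ideal.mul_mem_right _ _ (tmul_one_mem_idealOH hy))

theorem localK_le_principalSubgroup (hwn : ¬ w ∣ n) : localK hw hw0 ≤ principalSubgroup n := by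
  have key : ∀ g ∈ localK hw hw0, CongrOne n g.1 := fun g hg i j => by
    rw [← (mem_localGroup hw hw0).mp hg.1 i j, mul_comm]
    exact mul_mem_idealAF_left (idealAF_le_intAF (hg.2.1 i j)) (placeAF_mem_idealAF hw hw0 hwn)
  exact fun g hg => ⟨key g hg, key _ (inv_mem hg)⟩

theorem compAF_placeAF {q : Nat.Primes} (hq : ((q : ℕ) : 𝓞 F) ∉ w) :
    compAF q (placeAF hw hw0) = 0 := by
  rw [placeAF, compAF_intHom, (isPlaceIdem hw hw0).supp q fun e =>
    hq (e ▸ (isPlaceIdem hw hw0).mem), map_zero]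

/-! ### All primes together -/

/-- An adele that vanishes in every factor vanishes. -/
theorem eq_zero_of_forall_place {x : AF F}
    (h : ∀ (u : Ideal (𝓞 F)) (hu : u.IsPrime) (hu0 : u ≠ ⊥), placeAF hu hu0 * x = 0) : x = 0 := by
  classical
  refine af_ext fun p => ?_
  rw [map_zero]
  set P : Ideal (𝓞 F) := Ideal.span {((p : ℕ) : 𝓞 F)} with hP
  have hP0 : P ≠ ⊥ := by
    rw [hP, Ne, Ideal.span_singleton_eq_bot]
    exact Nat.cast_ne_zero.mpr p.2.ne_zero
  set S : Finset (Ideal (𝓞 F)) := (Ideal.finite_factors hP0).toFinset.image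
    (fun v => v.asIdeal) with hS
  have hmem : ∀ u ∈ S, u.IsPrime ∧ u ≠ ⊥ := fun u hu => by
    obtain ⟨v, -, rfl⟩ := Finset.mem_image.mp hu
    exact ⟨v.isPrime, v.ne_bot⟩
  have hfull : ∀ u : Ideal (𝓞 F), u.IsPrime → ((p : ℕ) : 𝓞 F) ∈ u → u ∈ S := fun u hu hpu => by
    have hle : P ≤ u := (Ideal.span_singleton_le_iff_mem _).mpr hpu
    exact Finset.mem_image.mpr ⟨⟨u, hu, fun h => hP0 (le_bot_iff.mp (h ▸ hle))⟩,
      (Ideal.finite_factors hP0).mem_toFinset.mpr (Ideal.dvd_iff_le.mpr hle), rfl⟩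
  obtain ⟨δ, hδ⟩ := exists_oh_comp (F := F) (Function.update (fun _ => 0) p 1)
  have hδ2 : δ * δ = δ := FLTAgent.LanglandsTunnell.Local.oh_ext fun q => by
    rw [map_mul, hδ]
    rcases eq_or_ne q p with rfl | hq
    · rw [Function.update_self, one_mul]
    · rw [Function.update_of_ne hq, zero_mul]
  set Q : OH F := ∏ u ∈ S.attach, (1 - placeIdem (hmem u.1 u.2).1 (hmem u.1 u.2).2) with hQ
  have hQ2 : Q * Q = Q := by
    rw [hQ, ← Finset.prod_mul_distrib]
    exact Finset.prod_congr rfl fun u _ => compl_idem (isPlaceIdem _ _).mul_self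
  have hzero : δ * Q = 0 := by
    refine prod_one_sub_eq_zero (p := p) S hmem hfull ?_ (fun q hq => ?_) fun u hu => ?_
    · linear_combination Q * Q * hδ2 + δ * hQ2
    · rw [map_mul, hδ, Function.update_of_ne hq, zero_mul]
    · rw [hQ, ← Finset.mul_prod_erase _ _ (Finset.mem_attach S ⟨u, hu⟩)]
      have hε := (isPlaceIdem (hmem u hu).1 (hmem u hu).2).mul_self
      linear_combination (-(δ * ∏ v ∈ S.attach.erase ⟨u, hu⟩,
        (1 - placeIdem (hmem v.1 v.2).1 (hmem v.1 v.2).2))) * hε
  have hQp : compAF p (intHom F Q) = 0 := by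
    have h1 := congrArg (compOH p) hzero
    rw [map_mul, hδ, Function.update_self, one_mul, map_zero] at h1
    rw [compAF_intHom, h1, map_zero]
  have hQx : intHom F Q * x = x := by
    rw [hQ, map_prod]
    refine Finset.prod_induction (fun u : {u // u ∈ S} =>
      intHom F (1 - placeIdem (hmem u.1 u.2).1 (hmem u.1 u.2).2)) (fun y => y * x = x)
      (fun y z hy hz => by rw [mul_assoc, hz, hy]) (one_mul x) fun u _ => ?_
    rw [map_sub, map_one, sub_mul, one_mul]
    exact sub_eq_self.mpr (h u.1 (hmem u.1 u.2).1 (hmem u.1 u.2).2)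
  rw [← hQx, map_mul, hQp, zero_mul]

theorem eq_one_of_forall_part {g : GL (Fin 2) (AF F)}
    (h : ∀ (u : Ideal (𝓞 F)) (hu : u.IsPrime) (hu0 : u ≠ ⊥), part hu hu0 g = 1) : g = 1 :=
  Units.ext (Matrix.ext fun i j => sub_eq_zero.mp (by
    rw [← Matrix.sub_apply]
    exact eq_zero_of_forall_place fun u hu hu0 => (idemPart_eq_one_iff _).mp (h u hu hu0) i j))

/-- Trivial at the primes outside `S`. -/
def InPlaces (S : Set (Ideal (𝓞 F))) (g : GL (Fin 2) (AF F)) : Prop :=
  ∀ (u : Ideal (𝓞 F)) (hu : u.IsPrime) (hu0 : u ≠ ⊥), u ∉ S → g ∈ awayGroup hu hu0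

/-- Induction over the parts. -/
theorem inPlaces_induction {S : Set (Ideal (𝓞 F))} (hS : S.Finite)
    {p : GL (Fin 2) (AF F) → Prop} (one : p 1)
    (step : ∀ (u : Ideal (𝓞 F)) (hu : u.IsPrime) (hu0 : u ≠ ⊥), u ∈ S →
      ∀ h ∈ localGroup hu hu0, ∀ g ∈ awayGroup hu hu0, InPlaces S g → p g → p (h * g))
    {g : GL (Fin 2) (AF F)} (hg : InPlaces S g) : p g := by
  classical
  suffices H : ∀ (T : Finset (Ideal (𝓞 F))), ↑T ⊆ S → ∀ g, InPlaces (↑T) g → p g from
    H hS.toFinset (by simp) g (by simpa using hg)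
  intro T
  induction T using Finset.induction with
  | empty =>
    intro _ g hg
    rw [eq_one_of_forall_part fun u hu hu0 => (mem_awayGroup hu hu0).mp (hg u hu hu0 (by simp))]
    exact one
  | insert u T huT ih =>
    intro hsub g hg
    rw [Finset.coe_insert, Set.insert_subset_iff] at hsub
    by_cases hu : u.IsPrime ∧ u ≠ ⊥
    · have hg' : InPlaces (↑T) (copart hu.1 hu.2 g) := by
        intro v hv hv0 hvT
        rcases eq_or_ne v u with rfl | hne
        · exact copart_mem_awayGroup hv hv0 g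
        · have h1 : g ∈ awayGroup hv hv0 := hg v hv hv0 (by
            simp only [Finset.coe_insert, Set.mem_insert_iff, not_or]
            exact ⟨hne, hvT⟩)
          have h2 : part hu.1 hu.2 g ∈ awayGroup hv hv0 :=
            away_of_local hne (part_mem_localGroup hu.1 hu.2 g)
          have h3 := mul_mem (inv_mem h2) h1
          rwa [show (part hu.1 hu.2 g)⁻¹ * g = copart hu.1 hu.2 g from
            inv_mul_eq_of_eq_mul (part_mul_copart hu.1 hu.2 g).symm] at h3
      have := step u hu.1 hu.2 hsub.1 _ (part_mem_localGroup hu.1 hu.2 g) _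
        (copart_mem_awayGroup hu.1 hu.2 g)
        (fun v hv hv0 hvS => hg' v hv hv0 fun h => hvS (hsub.2 h))
        (ih hsub.2 _ hg')
      rwa [part_mul_copart] at this
    · refine ih hsub.2 g fun v hv hv0 hvT => hg v hv hv0 ?_
      simp only [Finset.coe_insert, Set.mem_insert_iff, not_or]
      exact ⟨fun h => hu (h ▸ ⟨hv, hv0⟩), hvT⟩

/-- The primes over the primes dividing `M`. -/
def placesOf (F : Type) [Field F] (M : ℕ) : Set (Ideal (𝓞 F)) :=
  {u | u.IsPrime ∧ (M : 𝓞 F) ∈ u}

theorem finite_placesOf {M : ℕ} (hM : M ≠ 0) : (placesOf F M).Finite := by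
  have h0 : Ideal.span {(M : 𝓞 F)} ≠ ⊥ := by
    rw [Ne, Ideal.span_singleton_eq_bot]
    exact Nat.cast_ne_zero.mpr hM
  refine ((Ideal.finite_factors h0).image fun v => v.asIdeal).subset fun u hu => ?_
  have hle : Ideal.span {(M : 𝓞 F)} ≤ u := (Ideal.span_singleton_le_iff_mem _).mpr hu.2
  exact ⟨⟨u, hu.1, fun h => h0 (le_bot_iff.mp (h ▸ hle))⟩, Ideal.dvd_iff_le.mpr hle, rfl⟩

theorem natCast_notMem {M : ℕ} (h : ¬ w ∣ Ideal.span {(M : 𝓞 F)}) : (M : 𝓞 F) ∉ w := fun hm =>
  h (Ideal.dvd_iff_le.mpr ((Ideal.span_singleton_le_iff_mem _).mpr hm))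

theorem supportedAt_inPlaces {M : ℕ} {g : GL (Fin 2) (AF F)} (hg : SupportedAt M g) :
    InPlaces (placesOf F M) g := by
  intro u hu hu0 hnot
  obtain ⟨p, hp⟩ := exists_prime_natCast_mem hu hu0
  refine (mem_awayGroup hu hu0).mpr ((idemPart_eq_one_iff _).mpr fun i j => af_ext fun q => ?_)
  rw [map_mul, map_zero]
  by_cases hq : ((q : ℕ) : 𝓞 F) ∈ u
  · have hqM : ¬ (q : ℕ) ∣ M := fun h => hnot ⟨hu, by
      obtain ⟨c, rfl⟩ := h
      rw [Nat.cast_mul]
      exact Ideal.mul_mem_right _ _ hq⟩
    have h1 := congrArg (fun x : GL (Fin 2) _ => x.1 i j) (hg q hqM)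
    simp only [Units.val_one] at h1
    rw [Matrix.sub_apply, map_sub]
    have h2 : compAF q ((1 : Matrix (Fin 2) (Fin 2) (AF F)) i j) =
        (1 : Matrix (Fin 2) (Fin 2) _) i j := by
      rw [Matrix.one_apply, Matrix.one_apply]
      split_ifs <;> simp
    rw [h2, ← h1]
    exact mul_eq_zero_of_right _ (sub_self _)
  · rw [compAF_placeAF hu hu0 hq, zero_mul]

end FLTAgent.LanglandsTunnell.Isolation
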