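import Fermat.Agent.LanglandsTunnell.Isolation.Smooth
import Fermat.Agent.LanglandsTunnell.Isolation.Places

/-!
# The Hecke operator at a prime on smooth functions

It only depends on the neighbours of the base vertex, and agrees with the Hecke sum at every level
prime to the place.
-/

set_option autoImplicit false

noncomputable section

namespace FLTAgent.LanglandsTunnell.Isolation

open FLTAgent.LanglandsTunnell NumberField Matrix MeasureTheory

variable {F : Type} [Field F] [NumberField F] {ι : Type} [Fintype ι] {Φ : PlaceChoice F ι}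
  {w : Ideal (𝓞 F)} {hw : w.IsPrime} {hw0 : w ≠ ⊥} {n : Ideal (𝓞 F)}

theorem rho_mul (g h : GL (Fin 2) (AF F)) (u : Smooth Φ) :
    rho Φ (g * h) u = rho Φ g (rho Φ h u) := TreeData.apply_mul _ _ _ _

theorem central (P : LocalParams hw hw0) : P.tree.Central (rho Φ) := fun x => by
  rw [P.central_elt]
  exact rho_center (Subgroup.mem_center_iff.mpr fun y =>
    (FLTAgent.LanglandsTunnell.Killing.scalar_comm y P.π).symm) x

variable (hw hw0) in
/-- Fixed by the local maximal compact. -/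
def LocalFixed (u : Smooth Φ) : Prop := ∀ k ∈ localK hw hw0, rho Φ k u = u

theorem rho_part_levelGroup {u : Smooth Φ} (hu : LocalFixed hw hw0 u) {l : GL (Fin 2) (AF F)}
    (hl : l ∈ levelGroup (⊤ : Ideal (𝓞 F))) : rho Φ (part hw hw0 l) u = u := by
  obtain ⟨k, hk, z, hz, rfl⟩ := Subgroup.mem_sup_of_normal_right.mp hl
  have hz' : part hw hw0 z ∈ Subgroup.center (GL (Fin 2) (AF F)) :=
    idemPart_mem_center (placeAF_mul_self hw hw0) hz
  have hk' : part hw hw0 k ∈ localK hw hw0 := part_mem_localK hw hw0 hk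
  have e : part hw hw0 (k * z) = part hw hw0 k * part hw hw0 z := MonoidHom.map_mul _ k z
  rw [e, rho_mul, rho_center hz', hu (part hw hw0 k) hk']

variable (hw hw0) in
/-- A translate of a fixed vector, as a function of the vertex. -/
def vertexTrans (u : Smooth Φ) (q : FinPt F ⊤) : Smooth Φ := rho Φ (part hw hw0 q.out) u

theorem vertexTrans_mk {u : Smooth Φ} (hu : LocalFixed hw hw0 u) {x : GL (Fin 2) (AF F)}
    (hx : x ∈ localGroup hw hw0) : vertexTrans hw hw0 u (x : FinPt F ⊤) = rho Φ x u := by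
  have h : x⁻¹ * (x : FinPt F ⊤).out ∈ levelGroup (⊤ : Ideal (𝓞 F)) :=
    QuotientGroup.eq.mp (QuotientGroup.out_eq' (x : FinPt F ⊤)).symm
  have e : (x : FinPt F ⊤).out = x * (x⁻¹ * (x : FinPt F ⊤).out) := (mul_inv_cancel_left _ _).symm
  rw [vertexTrans, e, map_mul, rho_mul, rho_part_levelGroup hu h, part_eq_self hx]

variable (hw hw0) in
/-- The Hecke operator at `w`. -/
def heckeAt (u : Smooth Φ) : Smooth Φ :=
  ∑ᶠ q ∈ nbrs ⊤ w ((1 : GL (Fin 2) (AF F)) : FinPt F ⊤), vertexTrans hw hw0 u q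

theorem not_dvd_top (hw : w.IsPrime) : ¬ w ∣ (⊤ : Ideal (𝓞 F)) := fun h =>
  hw.ne_top (top_le_iff.mp (Ideal.dvd_iff_le.mp h))

/-- Any system of local representatives computes the operator. -/
theorem heckeAt_eq_sum {ρ : Type} [Fintype ρ] {π : (AF F)ˣ} (hπ : IsUniformizerAt ⊤ w π)
    {c : ρ → AF F} (hc : IsResidueSection ⊤ w c)
    (hloc : ∀ i, hRep π c i ∈ localGroup hw hw0) {u : Smooth Φ} (hu : LocalFixed hw hw0 u)
    {κ : GL (Fin 2) (AF F)} (hκ : κ ∈ localK hw hw0) :
    heckeAt hw hw0 u = ∑ i, rho Φ (κ * hRep π c i) u := by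
  have hmk : ((κ * 1 : GL (Fin 2) (AF F)) : FinPt F ⊤) = ((1 : GL (Fin 2) (AF F)) : FinPt F ⊤) := by
    rw [QuotientGroup.eq]
    exact Subgroup.mem_sup_left (mul_mem (inv_mem (mul_mem hκ.2 (one_mem _))) (one_mem _))
  rw [heckeAt, ← hmk, finsum_nbrs hw hw0 (not_dvd_top hw) hπ hc κ (one_mem _)]
  refine Finset.sum_congr rfl fun i _ => ?_
  rw [mul_one, vertexTrans_mk hu (mul_mem hκ.1 (hloc i))]

theorem LocalParams.hRep_local (P : LocalParams hw hw0) (i : Option (𝓞 F ⧸ w)) :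
    hRep P.π P.c i ∈ localGroup hw hw0 := by
  rw [mem_localGroup]
  cases i with
  | none => intro a b; fin_cases a <;> fin_cases b <;> simp [hRep, P.π_local]
  | some r =>
    intro a b
    rw [Matrix.sub_apply, hRep_some_val]
    fin_cases a <;> fin_cases b <;> simp [P.π_local, P.c_local]

theorem finite_residue (hw0 : w ≠ ⊥) : Finite (𝓞 F ⧸ w) :=
  Ideal.finiteQuotientOfFreeOfNeBot w hw0

theorem heckeAt_eq_tree [Fintype (𝓞 F ⧸ w)] (P : LocalParams hw hw0) {u : Smooth Φ}
    (hu : LocalFixed hw hw0 u) :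
    heckeAt hw hw0 u = rho Φ (P.tree.w0 * P.tree.D * P.tree.w0) u +
      ∑ r, rho Φ (P.tree.n r * P.tree.D) u := by
  rw [heckeAt_eq_sum P.uniformizer P.c_res P.hRep_local hu (one_mem _), Fintype.sum_option]
  simp only [one_mul, P.swap_conj, P.n_mul]

/-- The eigen equation in terms of the operator. -/
theorem isEigen_iff [Fintype (𝓞 F ⧸ w)] (P : LocalParams hw hw0) {u : Smooth Φ} {s : ℂ} :
    P.tree.IsEigen (rho Φ) u s ↔ LocalFixed hw hw0 u ∧ heckeAt hw hw0 u = s • u :=
  ⟨fun h => ⟨h.fixed, (heckeAt_eq_tree P h.fixed).trans h.eigen⟩,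
    fun h => ⟨h.1, (heckeAt_eq_tree P h.1).symm.trans h.2⟩⟩

variable (hw hw0) in
/-- An eigenvector at `w`. -/
structure EigenAt (u : Smooth Φ) (s : ℂ) : Prop where
  fixed : LocalFixed hw hw0 u
  eigen : heckeAt hw hw0 u = s • u

theorem EigenAt.isEigen [Fintype (𝓞 F ⧸ w)] {u : Smooth Φ} {s : ℂ} (h : EigenAt hw hw0 u s)
    (P : LocalParams hw hw0) :
    P.tree.IsEigen (rho Φ) u s := (isEigen_iff P).mpr ⟨h.fixed, h.eigen⟩

theorem EigenAt.add {u v : Smooth Φ} {s : ℂ} (h : EigenAt hw hw0 u s) (h' : EigenAt hw hw0 v s) :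
    EigenAt hw hw0 (u + v) s := by
  have hf : LocalFixed hw hw0 (u + v) := fun k hk => by
    rw [map_add, h.fixed k hk, h'.fixed k hk]
  refine ⟨hf, ?_⟩
  obtain ⟨P⟩ := nonempty_localParams hw hw0
  have := finite_residue hw0
  let := Fintype.ofFinite (𝓞 F ⧸ w)
  have e1 := (heckeAt_eq_tree P h.fixed).symm.trans h.eigen
  have e2 := (heckeAt_eq_tree P h'.fixed).symm.trans h'.eigen
  rw [heckeAt_eq_tree P hf]
  simp only [map_add, Finset.sum_add_distrib, smul_add]
  rw [← e1, ← e2]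
  abel

theorem EigenAt.smul {u : Smooth Φ} {s : ℂ} (c : ℂ) (h : EigenAt hw hw0 u s) :
    EigenAt hw hw0 (c • u) s := by
  have hf : LocalFixed hw hw0 (c • u) := fun k hk => by rw [map_smul, h.fixed k hk]
  refine ⟨hf, ?_⟩
  obtain ⟨P⟩ := nonempty_localParams hw hw0
  have := finite_residue hw0
  let := Fintype.ofFinite (𝓞 F ⧸ w)
  have e1 := (heckeAt_eq_tree P h.fixed).symm.trans h.eigen
  rw [heckeAt_eq_tree P hf]
  simp only [map_smul, ← Finset.smul_sum, ← smul_add, e1, smul_comm c s]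

/-- Translations away from `w` preserve eigenvectors at `w`. -/
theorem EigenAt.rho_away {u : Smooth Φ} {s : ℂ} (h : EigenAt hw hw0 u s)
    {g : GL (Fin 2) (AF F)} (hg : g ∈ awayGroup hw hw0) : EigenAt hw hw0 (rho Φ g u) s := by
  have hcomm : ∀ x ∈ localGroup hw hw0, rho Φ x (rho Φ g u) = rho Φ g (rho Φ x u) := fun x hx => by
    rw [← rho_mul, ← rho_mul, (commute_away hx hg).eq]
  have hf : LocalFixed hw hw0 (rho Φ g u) := fun k hk => by rw [hcomm k hk.1, h.fixed k hk]
  refine ⟨hf, ?_⟩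
  obtain ⟨P⟩ := nonempty_localParams hw hw0
  have := finite_residue hw0
  let := Fintype.ofFinite (𝓞 F ⧸ w)
  rw [heckeAt_eq_sum P.uniformizer P.c_res P.hRep_local hf (one_mem _),
    ← map_smul, ← h.eigen, heckeAt_eq_sum P.uniformizer P.c_res P.hRep_local h.fixed (one_mem _),
    map_sum]
  exact Finset.sum_congr rfl fun i _ => hcomm _ (mul_mem (one_mem _) (P.hRep_local i))

/-! ### Levels prime to `w` -/

theorem localFixed_of_level {M : ℕ} {u : Smooth Φ} (hu : IsLevel Φ M u.1) (hwM : ¬ w ∣ lv F M) :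
    LocalFixed hw hw0 u := fun _ hk =>
  rho_of_mem_level hu (Subgroup.mem_sup_left (localK_le_principalSubgroup hw hw0 hwM hk))

theorem LocalParams.uniformizer_at (P : LocalParams hw hw0) (hwn : ¬ w ∣ n) :
    IsUniformizerAt n w P.π := by
  refine ⟨?_, P.uniformizer.2⟩
  rw [← P.π_local, mul_comm]
  exact mul_mem_idealAF_left (sub_mem P.pi_mem (one_mem (intAF F)))
    (placeAF_mem_idealAF hw hw0 hwn)

theorem LocalParams.residue_at (P : LocalParams hw hw0) (hwn : ¬ w ∣ n) :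
    IsResidueSection n w P.c := by
  refine ⟨fun r => ?_, P.c_res.exists_unique⟩
  rw [← P.c_local r, mul_comm]
  exact mul_mem_idealAF_left (P.c_int r) (placeAF_mem_idealAF hw hw0 hwn)

/-- At a level prime to `w` the operator is the Hecke sum. -/
theorem heckeAt_apply {M : ℕ} {u : Smooth Φ} (hu : IsLevel Φ M u.1) (hwM : ¬ w ∣ lv F M)
    (g : GL (Fin 2) (AF F)) (Q : ι → H3) :
    (heckeAt hw hw0 u).1 g Q =
      ∑ᶠ v ∈ nbrs (lv F M) w ((g : GL (Fin 2) (AF F)) : FinPt F (lv F M)),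
        restrictLevel M u.1 (v, Q) := by
  obtain ⟨P⟩ := nonempty_localParams hw hw0
  have := finite_residue hw0
  let := Fintype.ofFinite (𝓞 F ⧸ w)
  have h := finsum_nbrs hw hw0 hwM (P.uniformizer_at hwM) (P.residue_at hwM) g
    (κ := 1) (one_mem _) fun v => restrictLevel M u.1 (v, Q)
  rw [mul_one] at h
  rw [h, heckeAt_eq_sum P.uniformizer P.c_res P.hRep_local (localFixed_of_level hu hwM) (one_mem _)]
  obtain ⟨f, hf, he⟩ := hu.exists_fun
  simp only [Submodule.coe_sum, Finset.sum_apply, one_mul, rho_val, rtrans, mul_one, he,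
    restrictLevel_liftForm]
  rfl

/-- Hecke eigenfunctions of a level prime to `w`. -/
theorem eigenAt_iff_heckeEigen {M : ℕ} {u : Smooth Φ} (hu : IsLevel Φ M u.1)
    (hwM : ¬ w ∣ lv F M) (a : ℂ) :
    EigenAt hw hw0 u ((Real.sqrt (Ideal.absNorm w) : ℂ) * a) ↔
      HeckeEigen (restrictLevel M u.1) w a := by
  obtain ⟨f, hf, he⟩ := hu.exists_fun
  constructor
  · intro h v Q
    obtain ⟨g, rfl⟩ := QuotientGroup.mk_surjective v
    rw [← heckeAt_apply (hw := hw) (hw0 := hw0) hu hwM g Q, h.eigen, he, restrictLevel_liftForm]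
    show _ * u.1 g Q = _
    rw [he]
    rfl
  · intro h
    refine ⟨localFixed_of_level hu hwM, Subtype.ext (funext fun g => funext fun Q => ?_)⟩
    rw [heckeAt_apply hu hwM g Q, h _ Q, he, restrictLevel_liftForm]
    show _ = _ * u.1 g Q
    rw [he]
    rfl

end FLTAgent.LanglandsTunnell.Isolation
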