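import Fermat.Agent.LanglandsTunnell.Isolation.LocalPlace

/-!
# The factor of one prime inside the integral adeles

Congruences to all orders vanish in the factor, elements outside the prime become units there,
and the idempotents of the primes over `p` exhaust the component at `p`.
-/

set_option autoImplicit false

noncomputable section

namespace FLTAgent.LanglandsTunnell.Isolation

open scoped TensorProduct
open NumberField FLTAgent.LanglandsTunnell
open FLTAgent.LanglandsTunnell.Local (Op compOH compAF_intHom oh_ext exists_oh_comp isPComplete_op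
  φp)

variable {F : Type} [Field F] [NumberField F] {w w' : Ideal (𝓞 F)}

/-- An element supported at `p` and divisible by all powers of `p` vanishes. -/
theorem eq_zero_of_forall_pow_dvd {p : Nat.Primes} {x : OH F}
    (hsupp : ∀ q : Nat.Primes, q ≠ p → compOH q x = 0)
    (h : ∀ k : ℕ, ((p : ℕ) : Op F p) ^ k ∣ compOH p x) : x = 0 := by
  refine oh_ext fun q => ?_
  rw [map_zero]
  rcases eq_or_ne q p with rfl | hq
  · exact (isPComplete_op (F := F) (p := (q : ℕ))).haus _ h
  · exact hsupp q hq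

section One

variable (hw : w.IsPrime) (hw0 : w ≠ ⊥)

/-- The rational prime under `w`. -/
def placePrime : Nat.Primes := (exists_isPlaceIdem hw hw0).choose

/-- A high power of `w` is divisible by `p` in the factor of `w`. -/
theorem exists_eq_pow_mul : ∃ a : ℕ, a ≠ 0 ∧ ∀ (k : ℕ), ∀ y ∈ idealOH (w ^ (a * k)),
    ((placePrime hw hw0 : ℕ) : Op F (placePrime hw hw0)) ^ k ∣
      compOH (placePrime hw hw0) (placeIdem hw hw0 * y) := by
  set p := placePrime hw hw0 with hp
  have hI : IsPlaceIdem p w (placeIdem hw hw0) := isPlaceIdem hw hw0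
  set P : Ideal (𝓞 F) := Ideal.span {((p : ℕ) : 𝓞 F)} with hP
  have hP0 : P ≠ 0 := by
    rw [hP, Ne, Submodule.zero_eq_bot, Ideal.span_singleton_eq_bot]
    exact Nat.cast_ne_zero.mpr p.2.ne_zero
  obtain ⟨a, B, hB, hPB⟩ := WfDvdMonoid.max_power_factor' hP0
    (fun hu => hw.ne_top (Ideal.isUnit_iff.mp hu))
  have ha : a ≠ 0 := by
    rintro rfl
    rw [pow_zero, one_mul] at hPB
    exact hB (Ideal.dvd_iff_le.mpr (hPB ▸ (Ideal.span_singleton_le_iff_mem _).mpr hI.mem))
  have hcop : B ⊔ w = ⊤ := by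
    rw [sup_comm]
    exact (hw.isMaximal hw0).out.2 _ (lt_of_le_of_ne le_sup_left fun h =>
      hB (Ideal.dvd_iff_le.mpr (h ▸ le_sup_right)))
  refine ⟨a, ha, fun k y hy => ?_⟩
  obtain ⟨x, ⟨d, hd⟩, hxJ⟩ := hI.approx k
  have hxB := hxJ B hcop (show P ≤ B from hPB ▸ Ideal.mul_le_right)
  have hprod : y * x ⊗ₜ[ℤ] (1 : Zhat) ∈ idealOH (P ^ k) := by
    rw [hPB, mul_pow, ← pow_mul, idealOH, Ideal.map_mul]
    exact Ideal.mul_mem_mul hy (tmul_one_mem_idealOH hxB)
  rw [hP, Ideal.span_singleton_pow, idealOH, Ideal.map_span, Set.image_singleton,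
    Ideal.mem_span_singleton] at hprod
  obtain ⟨e, he⟩ := map_dvd (compOH p) hprod
  rw [map_mul, map_pow, map_natCast, map_pow, map_natCast, compOH_tmul_one] at he
  refine ⟨d * compOH p y + e, ?_⟩
  rw [map_mul]
  linear_combination (compOH p y) * hd + he

theorem supp_mul {q : Nat.Primes} (hq : q ≠ placePrime hw hw0) (y : OH F) :
    compOH q (placeIdem hw hw0 * y) = 0 := by
  rw [map_mul, (isPlaceIdem hw hw0).supp q hq, zero_mul]

/-- An idempotent inside `w` dies in the factor of `w`. -/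
theorem mul_placeIdem_eq_zero {e : OH F} (he : e * e = e) (hmem : e ∈ idealOH w) :
    e * placeIdem hw hw0 = 0 := by
  obtain ⟨a, ha, h⟩ := exists_eq_pow_mul hw hw0
  rw [mul_comm]
  refine eq_zero_of_forall_pow_dvd (fun q hq => supp_mul hw hw0 hq e) fun k => ?_
  rcases Nat.eq_zero_or_pos k with rfl | hk
  · simp
  refine h k e ?_
  have hpow : e ^ (a * k) = e :=
    IsIdempotentElem.pow_eq he (mul_ne_zero ha hk.ne')
  rw [idealOH, Ideal.map_pow, ← hpow]
  exact Ideal.pow_mem_pow hmem _

theorem placeIdem_not_mem : placeIdem hw hw0 ∉ idealOH w := fun h => by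
  have h1 : (1 : OH F) ∈ idealOH w := by
    have := add_mem (isPlaceIdem hw hw0).one_sub_mem h
    rwa [sub_add_cancel] at this
  rw [Algebra.TensorProduct.one_def, tmul_one_mem_idealOH_iff hw0] at h1
  exact hw.ne_top ((Ideal.eq_top_iff_one _).mpr h1)

/-- Outside the prime one is invertible in the factor. -/
theorem exists_inv_of_not_mem {y : OH F} (hy : y ∉ idealOH w) :
    ∃ z, placeIdem hw hw0 * (y * z) = placeIdem hw hw0 := by
  classical
  set p := placePrime hw hw0 with hp
  obtain ⟨c, hc⟩ := exists_sub_mem_idealOH hw0 y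
  have hcw : c ∉ w := fun h => hy (by
    have := add_mem hc (tmul_one_mem_idealOH h)
    rwa [sub_add_cancel] at this)
  obtain ⟨c', t, ht, hct⟩ := (hw.isMaximal hw0).exists_inv hcw
  set e : OH F := 1 - y * c' ⊗ₜ 1 with he
  have hew : e ∈ idealOH w := by
    have h1 : e = t ⊗ₜ[ℤ] (1 : Zhat) - (y - c ⊗ₜ 1) * c' ⊗ₜ 1 := by
      rw [he, sub_mul, Algebra.TensorProduct.tmul_mul_tmul, mul_one, Algebra.TensorProduct.one_def,
        ← hct, TensorProduct.add_tmul, mul_comm c c']
      ring
    rw [h1]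
    exact sub_mem (tmul_one_mem_idealOH ht) (Ideal.mul_mem_right _ _ hc)
  obtain ⟨a, ha, h⟩ := exists_eq_pow_mul hw hw0
  obtain ⟨d, hd⟩ := h 1 (e ^ a) (by
    rw [mul_one, idealOH, Ideal.map_pow]
    exact Ideal.pow_mem_pow hew _)
  -- `1 - e ^ a` is a multiple of `y`, and a unit in the factor
  obtain ⟨m, hm⟩ : y ∣ 1 - e ^ a := by
    refine dvd_trans ⟨c' ⊗ₜ 1, ?_⟩ (sub_dvd_one_sub_pow e a)
    rw [he]
    ring
  obtain ⟨u, hu⟩ := (isPComplete_op (F := F) (p := (p : ℕ))).isUnit_one_add (-d)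
  obtain ⟨z, hz⟩ := exists_oh_comp (F := F) (Function.update (fun _ => 0) p ↑u⁻¹)
  refine ⟨m * z, oh_ext fun q => ?_⟩
  rcases eq_or_ne q p with rfl | hq
  · have hεε : compOH p (placeIdem hw hw0) * compOH p (placeIdem hw hw0) =
        compOH p (placeIdem hw hw0) := by rw [← map_mul, (isPlaceIdem hw hw0).mul_self]
    have hm' : 1 - compOH p (e ^ a) = compOH p y * compOH p m := by
      rw [← map_mul, ← hm, map_sub, map_one]
    rw [map_mul] at hd
    rw [map_mul, map_mul, map_mul, hz, Function.update_self]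
    have hu' : (u : Op F p) * ↑u⁻¹ = 1 := Units.mul_inv u
    linear_combination (-(compOH p (placeIdem hw hw0)) * (↑u⁻¹ : Op F p)) * hm' +
      compOH p (placeIdem hw hw0) * hu' +
      (-(compOH p (placeIdem hw hw0)) * (↑u⁻¹ : Op F p)) * hu +
      (-(compOH p (placeIdem hw hw0)) * (↑u⁻¹ : Op F p)) * hd +
      ((↑u⁻¹ : Op F p) * compOH p (e ^ a)) * hεε
  · rw [supp_mul hw hw0 hq, (isPlaceIdem hw hw0).supp q hq]

where
  sub_dvd_one_sub_pow (e : OH F) (a : ℕ) : 1 - e ∣ 1 - e ^ a := by
    simpa using sub_dvd_pow_sub_pow (1 : OH F) e a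

end One

/-- The idempotents of the primes over `p` exhaust the component at `p`. -/
theorem prod_one_sub_eq_zero {p : Nat.Primes} (S : Finset (Ideal (𝓞 F)))
    (hS : ∀ u ∈ S, u.IsPrime ∧ u ≠ ⊥)
    (hfull : ∀ u : Ideal (𝓞 F), u.IsPrime → ((p : ℕ) : 𝓞 F) ∈ u → u ∈ S) {e : OH F}
    (he : e * e = e) (hsupp : ∀ q : Nat.Primes, q ≠ p → compOH q e = 0)
    (hkill : ∀ u (hu : u ∈ S), e * placeIdem (hS u hu).1 (hS u hu).2 = 0) : e = 0 := by
  set P : Ideal (𝓞 F) := Ideal.span {((p : ℕ) : 𝓞 F)} with hP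
  have hP0 : P ≠ 0 := by
    rw [hP, Ne, Submodule.zero_eq_bot, Ideal.span_singleton_eq_bot]
    exact Nat.cast_ne_zero.mpr p.2.ne_zero
  have hmem : ∀ f ∈ UniqueFactorizationMonoid.normalizedFactors P, e ∈ idealOH f := by
    intro f hf
    have hfp : f.IsPrime := Ideal.isPrime_of_prime
      (UniqueFactorizationMonoid.prime_of_normalized_factor f hf)
    have hfP : f ∣ P := UniqueFactorizationMonoid.dvd_of_mem_normalizedFactors hf
    have hfS := hfull f hfp (Ideal.dvd_iff_le.mp hfP (Ideal.mem_span_singleton_self _))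
    have h := hkill f hfS
    have : e = e * (1 - placeIdem (hS f hfS).1 (hS f hfS).2) := by
      rw [mul_sub, h, mul_one, sub_zero]
    rw [this]
    exact Ideal.mul_mem_left _ _ (isPlaceIdem (hS f hfS).1 (hS f hfS).2).one_sub_mem
  have hePow : ∀ n : ℕ, n ≠ 0 → e ^ n = e := fun n hn => IsIdempotentElem.pow_eq he hn
  have hcard : ∀ M : Multiset (Ideal (𝓞 F)), (∀ f ∈ M, e ∈ idealOH f) →
      e ^ Multiset.card M ∈ idealOH M.prod := by
    intro M hM
    induction M using Multiset.induction with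
    | empty => simp [idealOH, Ideal.map_top, Ideal.one_eq_top]
    | cons f M ih =>
      rw [Multiset.card_cons, pow_succ', Multiset.prod_cons, idealOH, Ideal.map_mul]
      exact Ideal.mul_mem_mul (hM f (Multiset.mem_cons_self f M))
        (ih fun g hg => hM g (Multiset.mem_cons_of_mem hg))
  have h1 := hcard _ hmem
  rw [associated_iff_eq.mp (UniqueFactorizationMonoid.prod_normalizedFactors hP0)] at h1
  have hne : Multiset.card (UniqueFactorizationMonoid.normalizedFactors P) ≠ 0 := by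
    intro h0
    rw [Multiset.card_eq_zero] at h0
    have := UniqueFactorizationMonoid.prod_normalizedFactors hP0
    rw [h0, Multiset.prod_zero, associated_iff_eq] at this
    have hu : IsUnit P := this ▸ isUnit_one
    rw [Ideal.isUnit_iff, hP, Ideal.span_singleton_eq_top] at hu
    have h2 := Int.natAbs_of_nonneg (Int.natCast_nonneg (p : ℕ))
    have h3 : IsUnit ((Algebra.norm ℤ) (((p : ℕ) : 𝓞 F))) := hu.map _
    rw [← map_natCast (algebraMap ℤ (𝓞 F)), Algebra.norm_algebraMap] at h3
    rw [isUnit_pow_iff Module.finrank_pos.ne', Int.isUnit_iff_natAbs_eq, Int.natAbs_natCast] at h3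
    exact p.2.ne_one h3
  rw [hePow _ hne] at h1
  rw [hP, idealOH, Ideal.map_span, Set.image_singleton, Ideal.mem_span_singleton] at h1
  refine eq_zero_of_forall_pow_dvd hsupp fun k => ?_
  rcases Nat.eq_zero_or_pos k with rfl | hk
  · simp
  have := pow_dvd_pow_of_dvd (map_dvd (compOH p) h1) k
  rwa [map_natCast, map_natCast, ← map_pow, hePow k hk.ne'] at this

end FLTAgent.LanglandsTunnell.Isolation
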