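import Fermat.Agent.LanglandsTunnell.Kernels
import Fermat.Agent.LanglandsTunnell.Geom.Domain
import Fermat.Agent.LanglandsTunnell.Trace.H3Compact

/-!
# Calculus of invariant kernels

A nice kernel is invariant, measurable, bounded and has locally uniformly bounded rows. Its
periodisation is a locally finite sum, and composition commutes with periodisation.
-/

set_option autoImplicit false

noncomputable section

namespace FLTAgent.LanglandsTunnell.Isolation

open FLTAgent.LanglandsTunnell MeasureTheory NumberField Matrix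
open FLTAgent.LanglandsTunnell.Geom
open FLTAgent.LanglandsTunnell.Trace (isCompact_ball continuous_coshDist exists_radius)

variable {F : Type} [Field F] [NumberField F] {ι : Type} [Fintype ι] {n : Ideal (𝓞 F)}

attribute [local irreducible] H3.coshDist

/-- A nice kernel. -/
structure IsNice (Φ : PlaceChoice F ι) (κ : Kernel F ι n) : Prop where
  invariant : ∀ γ x y, κ (act Φ γ x) (act Φ γ y) = κ x y
  measurable : Measurable (Function.uncurry κ)
  bounded : ∃ B : ℝ, ∀ x y, ‖κ x y‖ ≤ B
  rows : ∀ (v : FinPt F n) (K : Set (ι → H3)), IsCompact K →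
    ∃ (V : Set (FinPt F n)) (K' : Set (ι → H3)), V.Finite ∧ IsCompact K' ∧
      ∀ P ∈ K, ∀ y, κ (v, P) y ≠ 0 → y.1 ∈ V ∧ y.2 ∈ K'

/-- The ball around a compact set is compact. -/
theorem isCompact_nbhd {K : Set H3} (hK : IsCompact K) (B : ℝ) :
    IsCompact {Q : H3 | ∃ P ∈ K, H3.coshDist P Q ≤ B} := by
  let T : H3 × H3 → H3 := fun x =>
    ⟨x.1.z + (x.1.t : ℂ) * x.2.z, x.1.t * x.2.t, mul_pos x.1.t_pos x.2.t_pos⟩
  have hT : Continuous T := H3.continuous_mk_iff.mpr
    ⟨(H3.continuous_z.comp continuous_fst).add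
      ((Complex.continuous_ofReal.comp (H3.continuous_t.comp continuous_fst)).mul
        (H3.continuous_z.comp continuous_snd)),
      (H3.continuous_t.comp continuous_fst).mul (H3.continuous_t.comp continuous_snd)⟩
  have hdist : ∀ P R : H3, H3.coshDist P (T (P, R)) = H3.coshDist H3.base R := by
    intro P R
    have hP := P.t_pos
    have hR := R.t_pos
    simp only [T, H3.coshDist, H3.base, sub_add_cancel_left, zero_sub, norm_neg, norm_mul,
      Complex.norm_real, Real.norm_of_nonneg hP.le]
    field_simp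
  refine (hK.prod (isCompact_ball H3.base B)).image hT |>.of_isClosed_subset ?_ ?_
  · refine isClosed_of_closure_subset fun Q hQ => ?_
    obtain ⟨C, hC, hKC⟩ := exists_compact_mem_nhds Q
    obtain ⟨u, hu, hlim⟩ := mem_closure_iff_seq_limit.mp hQ
    choose P hPK hPQ using hu
    obtain ⟨P0, hP0, φ, hφ, hPlim⟩ := hK.tendsto_subseq hPK
    have hc : Continuous fun p : H3 × H3 => H3.coshDist p.1 p.2 :=
      continuous_coshDist continuous_fst continuous_snd
    have hpair : Filter.Tendsto (fun k => (P (φ k), u (φ k))) Filter.atTop (nhds (P0, Q)) :=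
      hPlim.prodMk_nhds (hlim.comp hφ.tendsto_atTop)
    have hd : Filter.Tendsto (fun k => H3.coshDist (P (φ k)) (u (φ k))) Filter.atTop
        (nhds (H3.coshDist P0 Q)) := (hc.tendsto (P0, Q)).comp hpair
    exact ⟨P0, hP0, le_of_tendsto hd (Filter.Eventually.of_forall fun k => hPQ (φ k))⟩
  · rintro Q ⟨P, hP, hPQ⟩
    have hPt : (P.t : ℂ) ≠ 0 := Complex.ofReal_ne_zero.mpr P.t_pos.ne'
    let R : H3 := ⟨(Q.z - P.z) / (P.t : ℂ), Q.t / P.t, div_pos Q.t_pos P.t_pos⟩
    have he : T (P, R) = Q := H3.ext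
      (show P.z + (P.t : ℂ) * ((Q.z - P.z) / (P.t : ℂ)) = Q.z by field_simp; ring)
      (show P.t * (Q.t / P.t) = Q.t by have := P.t_pos; field_simp)
    refine ⟨(P, R), ⟨hP, ?_⟩, he⟩
    show H3.coshDist H3.base R ≤ B
    rwa [← hdist P R, he]

namespace IsNice

variable {Φ : PlaceChoice F ι} {κ μ : Kernel F ι n}

omit [NumberField F] [Fintype ι] in
theorem measurable_row (h : IsNice Φ κ) (x : Pt F ι n) : Measurable (κ x) :=
  h.measurable.comp (measurable_const.prodMk measurable_id)

omit [NumberField F] [Fintype ι] in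
theorem measurable_col (h : IsNice Φ κ) (y : Pt F ι n) : Measurable fun x => κ x y :=
  h.measurable.comp (measurable_id.prodMk measurable_const)

/-- Only finitely many translates meet a row, uniformly on compact sets of both variables. -/
theorem finite_translates (h : IsNice Φ κ) (v v' : FinPt F n) {K K' : Set (ι → H3)}
    (hK : IsCompact K) (hK' : IsCompact K') :
    {q : PGLF F | ∃ P ∈ K, ∃ Q ∈ K', κ (v, P) (act Φ q.out (v', Q)) ≠ 0}.Finite := by
  obtain ⟨V, C, hV, hC, hrow⟩ := h.rows v K hK
  refine (hV.biUnion fun u _ => finite_act_inter Φ hK' hC v' u).subset ?_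
  rintro q ⟨P, hP, Q, hQ, hne⟩
  obtain ⟨h1, h2⟩ := hrow P hP _ hne
  exact Set.mem_biUnion h1 ⟨Q, hQ, rfl, h2⟩

theorem finite_support (h : IsNice Φ κ) (x y : Pt F ι n) :
    (Function.support fun q : PGLF F => κ x (act Φ q.out y)).Finite := by
  refine (h.finite_translates x.1 y.1 (isCompact_singleton (x := x.2))
    (isCompact_singleton (x := y.2))).subset fun q hq => ?_
  exact ⟨x.2, rfl, y.2, rfl, hq⟩

theorem periodise_act_right (γ : GL (Fin 2) F) (x y : Pt F ι n) :
    Kernel.periodise Φ κ x (act Φ γ y) = Kernel.periodise Φ κ x y := by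
  refine (Equiv.tsum_eq (Equiv.mulRight (γ : PGLF F)) fun q : PGLF F =>
      κ x (act Φ q.out y)).symm.trans
    ?_ |>.symm
  refine tsum_congr fun q => ?_
  simp only [Equiv.coe_mulRight]
  rw [← act_out Φ γ y]
  refine congrArg (κ x) ?_
  let := pglAction (n := n) Φ
  exact mul_smul q (γ : PGLF F) y

theorem periodise_act_left (h : IsNice Φ κ) (γ : GL (Fin 2) F) (x y : Pt F ι n) :
    Kernel.periodise Φ κ (act Φ γ x) y = Kernel.periodise Φ κ x y := by
  refine ((Equiv.tsum_eq (Equiv.mulLeft (γ : PGLF F))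
    fun q : PGLF F => κ (act Φ γ x) (act Φ q.out y)).symm.trans ?_)
  refine tsum_congr fun q => ?_
  simp only [Equiv.coe_mulLeft]
  let := pglAction (n := n) Φ
  have e : act Φ ((γ : PGLF F) * q).out y = act Φ γ (act Φ q.out y) :=
    (mul_smul (γ : PGLF F) q y).trans (act_out Φ γ _)
  rw [e, h.invariant]

theorem measurable_periodise (h : IsNice Φ κ) :
    Measurable (Function.uncurry (Kernel.periodise Φ κ)) := by
  classical
  have := countable_PGLF (F := F)
  obtain ⟨e, he⟩ := Countable.exists_injective_nat (PGLF F)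
  have hm : ∀ q : PGLF F,
      Measurable fun p : Pt F ι n × Pt F ι n => κ p.1 (act Φ q.out p.2) := fun q =>
    h.measurable.comp (measurable_fst.prodMk ((measurable_act Φ q.out).comp measurable_snd))
  let part : ℕ → Pt F ι n × Pt F ι n → ℂ := fun N p =>
    ∑ q ∈ (Set.Finite.preimage he.injOn (Finset.range N).finite_toSet).toFinset,
      κ p.1 (act Φ q.out p.2)
  refine measurable_of_tendsto_metrizable
    (fun N => Finset.measurable_sum _ fun q _ => hm q : ∀ N, Measurable (part N))
    (tendsto_pi_nhds.mpr fun p => ?_)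
  refine tendsto_const_nhds.congr' ?_
  filter_upwards [Filter.eventually_ge_atTop
    (((h.finite_support p.1 p.2).toFinset.image e).sup id + 1)] with N hN
  refine tsum_eq_sum fun q hq => ?_
  by_contra hne
  refine hq ?_
  simp only [Set.Finite.mem_toFinset, Set.mem_preimage, Finset.coe_range, Set.mem_Iio]
  have : e q ≤ ((h.finite_support p.1 p.2).toFinset.image e).sup id :=
    Finset.le_sup (f := id) (Finset.mem_image_of_mem e (by simpa using hne))
  omega

/-- The periodised kernel is bounded in its second variable on compact sets. -/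
theorem exists_bound_periodise (h : IsNice Φ κ) (v v' : FinPt F n) {K K' : Set (ι → H3)}
    (hK : IsCompact K) (hK' : IsCompact K') :
    ∃ B : ℝ, ∀ P ∈ K, ∀ Q ∈ K', ‖Kernel.periodise Φ κ (v, P) (v', Q)‖ ≤ B := by
  obtain ⟨B, hB⟩ := h.bounded
  set s := (h.finite_translates v v' hK hK').toFinset
  refine ⟨s.card * B, fun P hP Q hQ => ?_⟩
  rw [Kernel.periodise, tsum_eq_sum (s := s) fun q hq => by
    by_contra hne
    exact hq ((Set.Finite.mem_toFinset _).mpr ⟨P, hP, Q, hQ, hne⟩)]
  refine (norm_sum_le _ _).trans ?_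
  simpa using Finset.sum_le_sum fun q (_ : q ∈ s) => hB (v, P) (act Φ q.out (v', Q))

omit [NumberField F] in
/-- A row times a locally bounded function is integrable. -/
theorem integrable_mul (h : IsNice Φ κ) (x : Pt F ι n) {g : Pt F ι n → ℂ} (hg : Measurable g)
    (hb : ∀ (v : FinPt F n) (K : Set (ι → H3)), IsCompact K →
      ∃ C : ℝ, ∀ P ∈ K, ‖g (v, P)‖ ≤ C) :
    Integrable (fun y => κ x y * g y) volPt := by
  classical
  obtain ⟨V, K, hV, hK, hrow⟩ := h.rows x.1 {x.2} isCompact_singleton
  obtain ⟨B, hB⟩ := h.bounded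
  choose C hC using fun v => hb v K hK
  have : SigmaFinite H3.volH3 := H3.sigmaFinite_volH3
  have hS : MeasurableSet (V ×ˢ K) := hV.measurableSet.prod hK.isClosed.measurableSet
  have hlt : volPt (V ×ˢ K) < ⊤ := by
    rw [volPt, Measure.prod_prod]
    exact ENNReal.mul_lt_top (Measure.count_apply_lt_top.mpr hV) hK.measure_lt_top
  refine Integrable.mono' ((integrable_indicator_iff hS).mpr (integrableOn_const hlt.ne))
    (f := fun y => κ x y * g y)
    (g := (V ×ˢ K).indicator fun _ => |B| * ∑ v ∈ hV.toFinset, |C v|)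
    ((h.measurable_row x).mul hg).aestronglyMeasurable (Filter.Eventually.of_forall fun y => ?_)
  by_cases hy : y ∈ V ×ˢ K
  · rw [Set.indicator_of_mem hy, norm_mul]
    refine mul_le_mul ((hB x y).trans (le_abs_self B)) ?_ (norm_nonneg _) (abs_nonneg B)
    exact ((hC y.1 y.2 hy.2).trans (le_abs_self _)).trans
      (Finset.single_le_sum (fun v _ => abs_nonneg (C v)) (hV.mem_toFinset.mpr hy.1))
  · rw [Set.indicator_of_notMem hy]
    have : κ x y = 0 := not_not.mp fun hne => hy (hrow x.2 rfl y hne)
    simp [this]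

/-- Integration of a row against an invariant function. -/
theorem integral_mul_invariant (h : IsNice Φ κ) (hn : n ≠ ⊥) {S : Set (Pt F ι n)}
    (hS : IsFundDomain Φ S) (x : Pt F ι n) {g : Pt F ι n → ℂ} (hg : Measurable g)
    (hb : ∀ (v : FinPt F n) (K : Set (ι → H3)), IsCompact K →
      ∃ C : ℝ, ∀ P ∈ K, ‖g (v, P)‖ ≤ C)
    (hginv : ∀ γ y, g (act Φ γ y) = g y) :
    ∫ y, κ x y * g y ∂volPt = ∫ y in S, Kernel.periodise Φ κ x y * g y ∂volPt := by
  rw [integral_unfold_fundDomain Φ hn hS (h.integrable_mul x hg hb)]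
  refine integral_congr_ae (Filter.Eventually.of_forall fun y => ?_)
  simp only [hginv, tsum_mul_right, Kernel.periodise]

theorem bound_periodise_col (h : IsNice Φ μ) (z : Pt F ι n) (v : FinPt F n) (K : Set (ι → H3))
    (hK : IsCompact K) : ∃ C : ℝ, ∀ P ∈ K, ‖Kernel.periodise Φ μ (v, P) z‖ ≤ C := by
  obtain ⟨C, hC⟩ := h.exists_bound_periodise v z.1 hK (isCompact_singleton (x := z.2))
  exact ⟨C, fun P hP => hC P hP z.2 rfl⟩

/-- Periodisation commutes with composition. -/
theorem periodise_comp (h : IsNice Φ κ) (h' : IsNice Φ μ) (hn : n ≠ ⊥) {S : Set (Pt F ι n)}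
    (hS : IsFundDomain Φ S) (x z : Pt F ι n) :
    Kernel.periodise Φ (Kernel.comp κ μ) x z =
      ∫ y in S, Kernel.periodise Φ κ x y * Kernel.periodise Φ μ y z ∂volPt := by
  classical
  rw [← h.integral_mul_invariant hn hS x (g := fun y => Kernel.periodise Φ μ y z)
    (h'.measurable_periodise.comp (measurable_id.prodMk measurable_const))
    (h'.bound_periodise_col z) fun γ y => h'.periodise_act_left γ y z]
  obtain ⟨V, K, hV, hK, hrow⟩ := h.rows x.1 {x.2} isCompact_singleton
  have hfin : (⋃ v ∈ V, {q : PGLF F | ∃ P ∈ K, ∃ Q ∈ ({z.2} : Set (ι → H3)),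
      μ (v, P) (act Φ q.out (z.1, Q)) ≠ 0}).Finite :=
    hV.biUnion fun v _ => h'.finite_translates v z.1 hK isCompact_singleton
  set Q0 := hfin.toFinset
  have hout : ∀ y, ∀ q ∉ Q0, κ x y * μ y (act Φ q.out z) = 0 := by
    intro y q hq
    by_contra hne
    obtain ⟨h1, h2⟩ := hrow x.2 rfl y (left_ne_zero_of_mul hne)
    exact hq ((Set.Finite.mem_toFinset _).mpr
      (Set.mem_biUnion h1 ⟨y.2, h2, z.2, rfl, right_ne_zero_of_mul hne⟩))
  have hsum : ∀ y, κ x y * Kernel.periodise Φ μ y z =
      ∑ q ∈ Q0, κ x y * μ y (act Φ q.out z) := fun y => by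
    rw [Kernel.periodise, ← tsum_mul_left]
    exact tsum_eq_sum (hout y)
  simp only [hsum]
  rw [integral_finsetSum _ fun q _ => h.integrable_mul x (h'.measurable_col _) fun v K _ => by
    obtain ⟨B, hB⟩ := h'.bounded
    exact ⟨B, fun P _ => hB _ _⟩]
  refine tsum_eq_sum fun q hq => ?_
  simp [Kernel.comp, hout _ q hq]

end IsNice

/-! ### Words -/

theorem wordKernel_ne_zero_finite (hn : n ≠ ⊥) {ws : List (Ideal (𝓞 F))}
    (hws : ∀ w ∈ ws, w ≠ ⊥) (v : FinPt F n) :
    {v' | wordKernel n ws v v' ≠ 0}.Finite := by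
  induction ws generalizing v with
  | nil =>
    refine (Set.finite_singleton v).subset fun v' hv' => ?_
    classical
    by_contra hne
    exact hv' (if_neg fun e => hne e.symm)
  | cons w ws ih =>
    refine ((finite_nbrs hn (hws w List.mem_cons_self) v).biUnion fun u _ =>
      ih (fun w hw => hws w (List.mem_cons_of_mem _ hw)) u).subset fun v' hv' => ?_
    obtain ⟨u, hu, hne⟩ := exists_ne_zero_of_finsum_mem_ne_zero hv'
    exact Set.mem_biUnion hu hne

theorem finsum_wordKernel_mul (hn : n ≠ ⊥) {ws : List (Ideal (𝓞 F))} (hws : ∀ w ∈ ws, w ≠ ⊥)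
    (ws' : List (Ideal (𝓞 F))) (v z : FinPt F n) :
    ∑ᶠ u, wordKernel n ws v u * wordKernel n ws' u z = wordKernel n (ws ++ ws') v z := by
  classical
  induction ws generalizing v with
  | nil =>
    rw [finsum_eq_single _ v fun u hu => by simp [wordKernel, Ne.symm hu]]
    simp [wordKernel]
  | cons w ws ih =>
    have hfin := finite_nbrs hn (hws w List.mem_cons_self) v
    have hws' : ∀ x ∈ ws, x ≠ ⊥ := fun x hx => hws x (List.mem_cons_of_mem _ hx)
    simp only [wordKernel, List.cons_append, finsum_mem_eq_finite_toFinset_sum _ hfin,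
      Finset.sum_mul]
    rw [finsum_sum_comm _ _ fun u _ =>
      (wordKernel_ne_zero_finite hn hws' u).subset fun x hx => left_ne_zero_of_mul hx]
    exact Finset.sum_congr rfl fun u _ => ih hws' u

/-! ### Combinations -/

omit [NumberField F] [Fintype ι] in
theorem Comb.Good.mono {ok ok' : Ideal (𝓞 F) → Prop} {C : Comb F ι} (h : C.Good ok)
    (hok : ∀ w, ok w → ok' w) : C.Good ok' := fun T hT =>
  ⟨(h T hT).1, fun w hw => hok w ((h T hT).2 w hw)⟩

theorem list_sum_ne_zero {α : Type} {l : List α} {f : α → ℂ} (h : (l.map f).sum ≠ 0) :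
    ∃ a ∈ l, f a ≠ 0 := by
  by_contra hc
  push Not at hc
  exact h (List.sum_eq_zero fun x hx => by
    obtain ⟨a, ha, rfl⟩ := List.mem_map.mp hx
    exact hc a ha)

omit [NumberField F] [Fintype ι] in
theorem measurable_wordPart [Countable (FinPt F n)] (ws : List (Ideal (𝓞 F))) :
    Measurable fun p : Pt F ι n × Pt F ι n => wordKernel n ws p.1.1 p.2.1 := by
  have h1 : Measurable fun u : FinPt F n × FinPt F n => wordKernel n ws u.1 u.2 :=
    measurable_of_countable _
  have h2 : Measurable fun p : Pt F ι n × Pt F ι n => ((p.1.1, p.2.1) : FinPt F n × FinPt F n) :=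
    (measurable_fst.comp measurable_fst).prodMk (measurable_fst.comp measurable_snd)
  exact Measurable.comp h1 h2

omit [NumberField F] [Fintype ι] in
theorem measurable_infPart {k : ℝ → ℂ} (hk : Continuous k) (i : ι) :
    Measurable fun p : Pt F ι n × Pt F ι n => k (H3.coshDist (p.1.2 i) (p.2.2 i)) := by
  have h1 : Measurable fun q : H3 × H3 => k (H3.coshDist q.1 q.2) :=
    (hk.comp (continuous_coshDist continuous_fst continuous_snd)).measurable
  have h2 : Measurable fun p : Pt F ι n × Pt F ι n => ((p.1.2 i, p.2.2 i) : H3 × H3) :=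
    ((measurable_pi_apply i).comp (measurable_snd.comp measurable_fst)).prodMk
      ((measurable_pi_apply i).comp (measurable_snd.comp measurable_snd))
  exact Measurable.comp (g := fun q : H3 × H3 => k (H3.coshDist q.1 q.2)) h1 h2

theorem norm_list_sum_le {α : Type} (l : List α) (f : α → ℂ) :
    ‖(l.map f).sum‖ ≤ (l.map fun a => ‖f a‖).sum := by
  induction l with
  | nil => simp
  | cons a l ih =>
    simp only [List.map_cons, List.sum_cons]
    exact (norm_add_le _ _).trans (by linarith)

theorem isNice_of_good (Φ : PlaceChoice F ι) (hn : n ≠ ⊥) {C : Comb F ι}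
    (hC : C.Good fun w => w ≠ ⊥) : IsNice Φ (C.kernel n) := by
  classical
  have hcount := countable_finPt (F := F) hn
  refine ⟨fun γ x y => ?_, ?_, ?_, fun v K hK => ?_⟩
  · refine congrArg List.sum (List.map_congr_left fun T _ => ?_)
    simp only [Term.kernel, act, wordKernel_smul, H3.moebius_eq_smul, H3.coshDist_smul]
  · have := hcount
    have hterm : ∀ T ∈ C,
        Measurable fun p : Pt F ι n × Pt F ι n => T.kernel n p.1 p.2 := fun T hT => by
      exact (measurable_const.mul (measurable_wordPart T.word)).mul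
        (Finset.measurable_prod _ fun i _ => measurable_infPart ((hC T hT).1 i).1 i)
    show Measurable fun p : Pt F ι n × Pt F ι n => (C.map fun T => T.kernel n p.1 p.2).sum
    clear hC
    induction C with
    | nil => simp
    | cons T C ih =>
      simp only [List.map_cons, List.sum_cons]
      exact (hterm T List.mem_cons_self).add
          (ih fun T' hT' => hterm T' (List.mem_cons_of_mem _ hT'))
  · choose! Bf hBf using fun T (hT : T ∈ C) (i : ι) =>
      ((hC T hT).1 i).2.exists_bound_of_continuous ((hC T hT).1 i).1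
    have hW : ∀ T ∈ C, ∃ B : ℝ, ∀ u u' : FinPt F n, ‖wordKernel n T.word u u'‖ ≤ B := by
      intro T hT
      set v₀ : FinPt F n := ((1 : GL (Fin 2) (AF F)) : FinPt F n)
      set s := (wordKernel_ne_zero_finite hn (hC T hT).2 v₀).toFinset
      refine ⟨∑ u ∈ s, ‖wordKernel n T.word v₀ u‖, fun u u' => ?_⟩
      obtain ⟨g, rfl⟩ := QuotientGroup.mk_surjective u
      rw [show (g : FinPt F n) = g • v₀ by simp [v₀],
        show u' = g • (g⁻¹ • u') by rw [smul_inv_smul], wordKernel_smul]
      by_cases h0 : wordKernel n T.word v₀ (g⁻¹ • u') = 0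
      · rw [h0, norm_zero]; exact Finset.sum_nonneg fun _ _ => norm_nonneg _
      · exact Finset.single_le_sum (f := fun u => ‖wordKernel n T.word v₀ u‖)
          (fun _ _ => norm_nonneg _) ((Set.Finite.mem_toFinset _).mpr h0)
    choose! Bw hBw using hW
    refine ⟨(C.map fun T => ‖T.coeff‖ * Bw T * ∏ i, Bf T i).sum, fun x y => ?_⟩
    show ‖(C.map fun T => T.kernel n x y).sum‖ ≤ _
    refine (norm_list_sum_le _ _).trans ?_
    refine List.sum_le_sum fun T hT => ?_
    simp only [Term.kernel, norm_mul, norm_prod]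
    refine mul_le_mul (mul_le_mul_of_nonneg_left (hBw T hT _ _) (norm_nonneg _))
      (Finset.prod_le_prod (fun i _ => norm_nonneg _) fun i _ => hBf T hT i _)
      (Finset.prod_nonneg fun i _ => norm_nonneg _)
      (mul_nonneg (norm_nonneg _) ((norm_nonneg _).trans (hBw T hT x.1 x.1)))
  · choose! B hB using fun T (hT : T ∈ C) (i : ι) => exists_radius ((hC T hT).1 i).2
    refine ⟨⋃ T ∈ {T | T ∈ C}, {v' | wordKernel n T.word v v' ≠ 0},
      ⋃ T ∈ {T | T ∈ C}, Set.univ.pi fun i =>
        {Q | ∃ P ∈ (fun P : ι → H3 => P i) '' K, H3.coshDist P Q ≤ B T i},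
      C.finite_toSet.biUnion fun T hT => wordKernel_ne_zero_finite hn (hC T hT).2 v,
      C.finite_toSet.isCompact_biUnion fun T _ =>
        isCompact_univ_pi fun i => isCompact_nbhd (hK.image (continuous_apply i)) _,
      fun P hP y hne => ?_⟩
    obtain ⟨T, hT, hTne⟩ := list_sum_ne_zero hne
    refine ⟨Set.mem_biUnion hT (right_ne_zero_of_mul (left_ne_zero_of_mul hTne)),
      Set.mem_biUnion hT fun i _ => ⟨P i, ⟨P, hP, rfl⟩, hB T hT i _ _ ?_⟩⟩
    exact Finset.prod_ne_zero_iff.mp (right_ne_zero_of_mul hTne) i (Finset.mem_univ i)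

theorem term_comp (hn : n ≠ ⊥) {T T' : Term F ι}
    (hT : (∀ i, Continuous (T.inf i) ∧ HasCompactSupport (T.inf i)) ∧ ∀ w ∈ T.word, w ≠ ⊥)
    (x z : Pt F ι n) :
    ∫ y, T.kernel n x y * T'.kernel n y z ∂volPt =
      (⟨T.coeff * T'.coeff, T.word ++ T'.word, fun i => h3conv (T.inf i) (T'.inf i)⟩ :
        Term F ι).kernel n x z := by
  classical
  have := countable_finPt (F := F) hn
  have : SigmaFinite H3.volH3 := H3.sigmaFinite_volH3
  have e : ∀ y : Pt F ι n, T.kernel n x y * T'.kernel n y z =
      (T.coeff * T'.coeff * (wordKernel n T.word x.1 y.1 * wordKernel n T'.word y.1 z.1)) *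
      ∏ i, (T.inf i (H3.coshDist (x.2 i) (y.2 i)) * T'.inf i (H3.coshDist (y.2 i) (z.2 i))) :=
    fun y => by
      rw [Finset.prod_mul_distrib]
      simp only [Term.kernel]
      ring
  simp only [e, volPt]
  rw [integral_prod_mul (fun u : FinPt F n =>
      T.coeff * T'.coeff * (wordKernel n T.word x.1 u * wordKernel n T'.word u z.1))
    (fun Q : ι → H3 => ∏ i, (T.inf i (H3.coshDist (x.2 i) (Q i)) *
      T'.inf i (H3.coshDist (Q i) (z.2 i)))),
    integral_fintype_prod_eq_prod (f := fun i (Q : H3) =>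
      T.inf i (H3.coshDist (x.2 i) Q) * T'.inf i (H3.coshDist Q (z.2 i)))]
  have hfin : (Function.support fun u : FinPt F n =>
      T.coeff * T'.coeff * (wordKernel n T.word x.1 u * wordKernel n T'.word u z.1)).Finite :=
    (wordKernel_ne_zero_finite hn hT.2 x.1).subset fun u hu =>
      left_ne_zero_of_mul (right_ne_zero_of_mul hu)
  have hcount : ∫ u : FinPt F n,
      T.coeff * T'.coeff * (wordKernel n T.word x.1 u * wordKernel n T'.word u z.1)
        ∂Measure.count =
      ∑ᶠ u, T.coeff * T'.coeff * (wordKernel n T.word x.1 u * wordKernel n T'.word u z.1) := by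
    rw [integral_countable (integrable_count_iff.mpr
      (summable_of_hasFiniteSupport (hfin.subset fun u hu => fun h => hu (by simp [h])))),
      finsum_eq_sum _ hfin, tsum_eq_sum (s := hfin.toFinset) fun u hu => by
        simp only [Set.Finite.mem_toFinset, Function.mem_support, not_not] at hu
        simp [hu]]
    simp [measureReal_def]
  rw [hcount, ← mul_finsum, finsum_wordKernel_mul hn hT.2]
  simp only [Term.kernel, LanglandsTunnell.Trace.integral_coshDist]

theorem nice_term (Φ : PlaceChoice F ι) (hn : n ≠ ⊥) {C : Comb F ι}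
    (hC : C.Good fun w => w ≠ ⊥) {T : Term F ι} (hT : T ∈ C) :
    IsNice Φ (T.kernel n) := by
  have h := isNice_of_good Φ hn (C := [T]) fun T' hT' => by
    rw [List.mem_singleton.mp hT']
    exact hC T hT
  have e : Comb.kernel n [T] = T.kernel n := by funext x y; simp [Comb.kernel]
  rwa [e] at h

/-- The kernel of a product is the composition. -/
theorem kernel_mul (Φ : PlaceChoice F ι) (hn : n ≠ ⊥) {C C' : Comb F ι}
    (hC : C.Good fun w => w ≠ ⊥) (hC' : C'.Good fun w => w ≠ ⊥) (x z : Pt F ι n) :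
    (C.mul C').kernel n x z = Kernel.comp (C.kernel n) (C'.kernel n) x z := by
  have hbd : ∀ T' ∈ C', ∀ (v : FinPt F n) (K : Set (ι → H3)), IsCompact K →
      ∃ B : ℝ, ∀ P ∈ K, ‖T'.kernel n (v, P) z‖ ≤ B := fun T' hT' v K _ => by
    obtain ⟨B, hB⟩ := (nice_term Φ hn hC' hT').bounded
    exact ⟨B, fun P _ => hB _ _⟩
  have hsum : ∀ y, C.kernel n x y * C'.kernel n y z =
      ((C.flatMap fun T => C'.map fun T' => (T, T')).map
        fun p => p.1.kernel n x y * p.2.kernel n y z).sum := by
    intro y
    simp only [Comb.kernel]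
    induction C with
    | nil => simp
    | cons T C ih =>
      simp only [List.map_cons, List.sum_cons, List.flatMap_cons, List.map_append, List.sum_append,
        add_mul, ih (fun T hT => hC T (List.mem_cons_of_mem _ hT)), List.map_map]
      rw [← List.sum_map_mul_left]
      rfl
  have hint : ∀ p ∈ C.flatMap (fun T => C'.map fun T' => (T, T')),
      Integrable (fun y => p.1.kernel n x y * p.2.kernel n y z) volPt := by
    rintro ⟨T, T'⟩ hp
    simp only [List.mem_flatMap, List.mem_map, Prod.mk.injEq] at hp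
    obtain ⟨T₁, hT₁, T₂, hT₂, rfl, rfl⟩ := hp
    exact (nice_term Φ hn hC hT₁).integrable_mul x
      ((nice_term Φ hn hC' hT₂).measurable_col z) (hbd T₂ hT₂)
  have hlist : ∀ L : List (Term F ι × Term F ι),
      (∀ p ∈ L, Integrable (fun y => p.1.kernel n x y * p.2.kernel n y z) volPt) →
      Integrable (fun y => (L.map fun p => p.1.kernel n x y * p.2.kernel n y z).sum) volPt ∧
      ∫ y, (L.map fun p => p.1.kernel n x y * p.2.kernel n y z).sum ∂volPt =
        (L.map fun p => ∫ y, p.1.kernel n x y * p.2.kernel n y z ∂volPt).sum := by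
    intro L hL
    induction L with
    | nil => simp
    | cons p L ih =>
      obtain ⟨h1, h2⟩ := ih fun q hq => hL q (List.mem_cons_of_mem _ hq)
      have hp := hL p List.mem_cons_self
      simp only [List.map_cons, List.sum_cons]
      exact ⟨hp.add h1, by rw [integral_add hp h1, h2]⟩
  simp only [Kernel.comp, hsum]
  rw [(hlist _ hint).2]
  simp only [Comb.kernel, Comb.mul, List.map_flatMap, List.map_map]
  congr 1
  refine List.flatMap_congr fun T hT => List.map_congr_left fun T' _ => ?_
  exact (term_comp hn (hC T hT) x z).symm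

end FLTAgent.LanglandsTunnell.Isolation
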