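import Fermat.Agent.LanglandsTunnell.Isolation.Hecke

/-!
# Congruence conditions at one prime and the sphere of a given radius

The stabilisers of the vertices `D ^ i`, their comparison with a level, and the distance between
two vertices of one sphere.
-/

set_option autoImplicit false

noncomputable section

namespace FLTAgent.LanglandsTunnell.Isolation

open FLTAgent.LanglandsTunnell NumberField Matrix
open FLTAgent.LanglandsTunnell.Killing (lowUnit)

variable {F : Type} [Field F] [NumberField F] {w : Ideal (𝓞 F)} {hw : w.IsPrime} {hw0 : w ≠ ⊥}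

theorem mem_principal_top {g : GL (Fin 2) (AF F)} (h : ∀ i j, g.1 i j ∈ intAF F)
    (hd : ((Matrix.GeneralLinearGroup.det g)⁻¹ : (AF F)ˣ).1 ∈ intAF F) :
    g ∈ principalSubgroup ⊤ := by
  refine mem_principalSubgroup_of_det g (fun i j => ?_) hd
  rw [idealAF_top, Matrix.sub_apply]
  refine sub_mem (h i j) ?_
  rw [Matrix.one_apply]
  split_ifs
  · exact one_mem (intAF F)
  · exact zero_mem _

theorem entries_mem_of_top {g : GL (Fin 2) (AF F)} (hg : g ∈ principalSubgroup ⊤) :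
    (∀ i j, g.1 i j ∈ intAF F) ∧ ((Matrix.GeneralLinearGroup.det g)⁻¹ : (AF F)ˣ).1 ∈ intAF F := by
  refine ⟨hg.1.mem_intAF, ?_⟩
  rw [← map_inv, ← det_eq_GLdet]
  have h := hg.2.mem_intAF
  exact sub_mem (mul_mem (h 0 0) (h 1 1)) (mul_mem (h 0 1) (h 1 0))

theorem diagUnit_pow {R : Type} [CommRing R] (u : Rˣ) (i : ℕ) :
    diagUnit u ^ i = diagUnit (u ^ i) := by
  induction i with
  | zero => ext a b; fin_cases a <;> fin_cases b <;> simp [diagUnit]
  | succ i ih => rw [pow_succ, pow_succ, diagUnit_mul, ih]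

/-- The matrix identity behind the distance of two vertices of a sphere. -/
theorem sphere_identity {R : Type} [CommRing R] (e π π' y u u' a b c d Δ : R) (i j : ℕ)
    (hy : e * y = e * u) (hu : u * u' = 1) (hπ : π' ^ (i + j) * π ^ (i + j) = 1)
    (hb : b = π ^ i * y) (hΔ : a * d - b * c = Δ) :
    e • (!![a, π' ^ (i + j) * b; π ^ (i + j) * c, d] * !![π ^ j, 0; 0, π ^ j]) =
      e • (!![1, 0; π ^ j * d * u', 1] * (!![u, 0; 0, 1] * !![1, 0; 0, -Δ * u']) *
        !![0, 1; 1, 0] * !![π ^ (2 * j), 0; 0, 1] * !![1, 0; π ^ j * a * u', 1]) := by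
  subst hb
  simp only [Matrix.mul_fin_two, Matrix.smul_of, Matrix.smul_cons, Matrix.smul_empty, smul_eq_mul]
  simp only [zero_mul, mul_zero, add_zero, zero_add, one_mul, mul_one]
  rw [pow_add] at hπ ⊢
  rw [two_mul, pow_add]
  ext p q
  fin_cases p <;> fin_cases q <;> simp
  · linear_combination (-e * π ^ j * a) * hu
  · linear_combination e * y * hπ + hy
  · linear_combination (e * π ^ j * π ^ j * u') * hΔ.symm +
      (-(π ^ j * π ^ j * π ^ i * c * u')) * hy +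
      (-e * (π ^ j * π ^ j * π ^ i * c + π ^ j * π ^ j * a * d * u')) * hu
  · linear_combination (-e * π ^ j * d) * hu

namespace LocalParams

variable (P : LocalParams hw hw0)

/-- The stabiliser of the vertex `D ^ i`. -/
def gamma (i : ℕ) : Subgroup (GL (Fin 2) (AF F)) :=
  P.tree.K ⊓ P.tree.K.comap (MulAut.conj (P.tree.D ^ i)⁻¹).toMonoidHom

theorem mem_gamma {i : ℕ} {k : GL (Fin 2) (AF F)} :
    k ∈ P.gamma i ↔ k ∈ P.tree.K ∧ (P.tree.D ^ i)⁻¹ * k * P.tree.D ^ i ∈ P.tree.K := by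
  rw [gamma, Subgroup.mem_inf, Subgroup.mem_comap]
  show _ ∧ (P.tree.D ^ i)⁻¹ * k * ((P.tree.D ^ i)⁻¹)⁻¹ ∈ _ ↔ _
  rw [inv_inv]

theorem conj_val (i : ℕ) (k : GL (Fin 2) (AF F)) :
    ((P.tree.D ^ i)⁻¹ * k * P.tree.D ^ i).1 =
      !![k.1 0 0, ((P.π⁻¹ : (AF F)ˣ) : AF F) ^ i * k.1 0 1;
        (P.π : AF F) ^ i * k.1 1 0, k.1 1 1] := by
  show ((diagUnit P.π ^ i)⁻¹ * k * diagUnit P.π ^ i).1 = _
  rw [diagUnit_pow, Units.val_mul, Units.val_mul]
  show (diagUnit (P.π ^ i)).inv * k.1 * (diagUnit (P.π ^ i)).1 = _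
  have h1 : ((P.π ^ i)⁻¹ : (AF F)ˣ).1 * (P.π : AF F) ^ i = 1 := by
    rw [← Units.val_pow_eq_pow_val, Units.inv_mul]
  have h2 : ((P.π ^ i)⁻¹ : (AF F)ˣ).1 = ((P.π⁻¹ : (AF F)ˣ) : AF F) ^ i := by
    rw [← inv_pow, Units.val_pow_eq_pow_val]
  rw [h2] at h1
  ext a b
  fin_cases a <;> fin_cases b <;>
    simp [diagUnit, Matrix.mul_apply, Matrix.vecMul, dotProduct, Fin.sum_univ_two, h2]
  · linear_combination (k.1 0 0) * h1
  · ring

theorem localAt_pow (i : ℕ) : P.tree.D ^ i ∈ localGroup hw hw0 :=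
  pow_mem ((mem_localGroup hw hw0).mpr P.isLocalAt_diag) i

theorem gamma_iff {i : ℕ} {k : GL (Fin 2) (AF F)} (hk : k ∈ localK hw hw0) :
    k ∈ P.gamma i ↔ ∃ y ∈ intAF F, k.1 0 1 = (P.π : AF F) ^ i * y := by
  have hπ : ((P.π⁻¹ : (AF F)ˣ) : AF F) ^ i * (P.π : AF F) ^ i = 1 := by
    rw [← mul_pow, Units.inv_mul, one_pow]
  constructor
  · intro h
    have h1 := (entries_mem_of_top ((P.mem_gamma.mp h).2).2).1 0 1
    rw [P.conj_val] at h1
    exact ⟨_, h1, by simp; linear_combination -(k.1 0 1) * hπ⟩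
  · rintro ⟨y, hy, hb⟩
    obtain ⟨he, hd⟩ := entries_mem_of_top hk.2
    refine P.mem_gamma.mpr ⟨hk, (localGroup hw hw0).mul_mem ((localGroup hw hw0).mul_mem
      ((localGroup hw hw0).inv_mem (P.localAt_pow i)) hk.1) (P.localAt_pow i),
      mem_principal_top (fun a b => ?_) ?_⟩
    · rw [P.conj_val]
      fin_cases a <;> fin_cases b <;> simp
      · exact he 0 0
      · rw [hb, ← mul_assoc, hπ, one_mul]
        exact hy
      · exact mul_mem (pow_mem P.pi_mem i) (he 1 0)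
      · exact he 1 1
    · rwa [map_mul, map_mul, map_inv, commGroup_conj]

theorem gamma_zero : P.gamma 0 = localK hw hw0 := by
  ext k
  rw [P.mem_gamma]
  simp only [pow_zero, inv_one, one_mul, mul_one, and_self]
  rfl

theorem gamma_succ_le (i : ℕ) : P.gamma (i + 1) ≤ P.gamma i := by
  intro k hk
  have hK := (P.mem_gamma.mp hk).1
  obtain ⟨y, hy, hb⟩ := (P.gamma_iff hK).mp hk
  exact (P.gamma_iff hK).mpr ⟨(P.π : AF F) * y, mul_mem P.pi_mem hy, by rw [hb]; ring⟩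

theorem eq_localGenerator :
    ∃ π₀ : OH F, intHom F π₀ = (P.π : AF F) ∧ idealOH w = Ideal.span {π₀} := by
  obtain ⟨π₀, h, -, h'⟩ := isUniformizerAt_iff.mp P.uniformizer
  exact ⟨π₀, h, h'⟩

/-- The exponent of the prime in a natural number. -/
theorem exists_exponent {N : ℕ} (hN : N ≠ 0) (hNw : (N : 𝓞 F) ∈ w) :
    ∃ (m : ℕ) (u : (OH F)ˣ), placeAF hw hw0 * (N : AF F) =
      placeAF hw hw0 * ((P.π : AF F) ^ (m + 1) * intHom F (u : OH F)) := by
  obtain ⟨π₀, hπ, hspan⟩ := P.eq_localGenerator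
  have hunit : IsUnit (intHom F π₀) := hπ ▸ P.π.isUnit
  obtain ⟨j, z, hj⟩ := exists_natCast_mul_eq_pow hw hw0 hspan N hN
  obtain ⟨i, u, hu⟩ := exists_pow_mul_unit (hw := hw) (hw0 := hw0) hspan j (N : OH F) z hj
    (by rw [map_one, mul_one]; exact hunit.ne_zero) hunit
  obtain ⟨m, rfl⟩ : ∃ m, i = m + 1 := by
    refine Nat.exists_eq_succ_of_ne_zero fun hi => placeIdem_not_mem hw hw0 ?_
    rw [hi, pow_zero, one_mul] at hu
    rw [show placeIdem hw hw0 = (N : OH F) * (placeIdem hw hw0 * ↑u⁻¹) by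
      linear_combination (-(↑u⁻¹ : OH F)) * hu - placeIdem hw hw0 * u.mul_inv]
    exact Ideal.mul_mem_right _ _ (natCast_mem_idealOH hNw)
  refine ⟨m, u, ?_⟩
  rw [placeAF, ← hπ, ← map_natCast (intHom F), ← map_pow, ← map_mul, ← map_mul, ← map_mul, hu]

variable {N m : ℕ} {u : (OH F)ˣ}
  (hexp : placeAF hw hw0 * (N : AF F) =
    placeAF hw hw0 * ((P.π : AF F) ^ (m + 1) * intHom F (u : OH F)))

include hexp in
/-- The stabiliser contains the local congruence subgroup. -/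
theorem mem_gamma_of_level {k : GL (Fin 2) (AF F)} (hk : k ∈ localK hw hw0)
    (hN : k ∈ principalSubgroup (lv F N)) : k ∈ P.gamma (m + 1) := by
  refine (P.gamma_iff hk).mpr ?_
  obtain ⟨y, hy, e⟩ := mem_idealAF.mp (hN.1 0 1)
  rw [idealOH, Ideal.map_span, Set.image_singleton, map_natCast, Ideal.mem_span_singleton] at hy
  obtain ⟨z, rfl⟩ := hy
  refine ⟨placeAF hw hw0 * intHom F (u : OH F) * intHom F z,
    mul_mem (mul_mem ⟨placeIdem hw hw0, rfl⟩ ⟨_, rfl⟩) ⟨_, rfl⟩, ?_⟩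
  have hl := (mem_localGroup hw hw0).mp hk.1 0 1
  rw [map_mul, map_natCast] at e
  rw [Matrix.sub_apply] at hl e
  simp only [Matrix.one_apply, Fin.isValue, zero_ne_one, if_false, sub_zero] at hl e
  linear_combination intHom F z * hexp - hl - placeAF hw hw0 * e

include hexp in
/-- A local element congruent to `1` to the order of the level lies in the level. -/
theorem mem_level_of_congr {k : GL (Fin 2) (AF F)} (hk : k ∈ localK hw hw0)
    (h : ∀ i j, ∃ y ∈ intAF F, (k.1 - 1) i j = (P.π : AF F) ^ (m + 1) * y) :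
    k ∈ principalSubgroup (lv F N) := by
  refine mem_principalSubgroup_of_det k (fun i j => ?_) (entries_mem_of_top hk.2).2
  obtain ⟨y, hy, e⟩ := h i j
  have hl := (mem_localGroup hw hw0).mp hk.1 i j
  have e2 : intHom F (u : OH F) * intHom F (↑u⁻¹ : OH F) = 1 := by
    rw [← map_mul, Units.mul_inv, map_one]
  rw [show (k.1 - 1) i j = (placeAF hw hw0 * intHom F (↑u⁻¹ : OH F) * y) * (N : AF F) by
    linear_combination (-(intHom F (↑u⁻¹ : OH F) * y)) * hexp +
      (-(placeAF hw hw0 * (P.π : AF F) ^ (m + 1) * y)) * e2 + placeAF hw hw0 * e - hl]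
  exact mul_mem_idealAF_left (mul_mem (mul_mem ⟨placeIdem hw hw0, rfl⟩ ⟨_, rfl⟩) hy)
    (natCast_mem_idealAF (Ideal.mem_span_singleton_self _))

include hexp in
/-- The far representatives act trivially on a level. -/
theorem up_mem_level {k : GL (Fin 2) (AF F)} (hk : k ∈ localK hw hw0) {j : ℕ} (hj : m + 1 ≤ j)
    (r : 𝓞 F ⧸ w) : k * P.tree.up j r * k⁻¹ ∈ principalSubgroup (lv F N) := by
  have h1 : P.tree.up j r ∈ principalSubgroup (lv F N) := by
    refine P.mem_level_of_congr hexp (P.tree.n_conj_mem j r) fun a b => ?_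
    show ∃ y ∈ intAF F,
        ((diagUnit P.π ^ j * upperUnip (P.c r) * (diagUnit P.π ^ j)⁻¹).1 - 1) a b = _
    rw [diag_pow_conj]
    obtain ⟨l, rfl⟩ := Nat.exists_eq_add_of_le hj
    fin_cases a <;> fin_cases b <;> simp [upperUnip]
    · exact ⟨0, zero_mem _, by simp⟩
    · exact ⟨(P.π : AF F) ^ l * P.c r, mul_mem (pow_mem P.pi_mem l) (P.c_int r), by ring⟩
    · exact ⟨0, zero_mem _, by simp⟩
    · exact ⟨0, zero_mem _, by simp⟩
  have h2 := conj_mem_principalSubgroup (κ := k⁻¹) (inv_mem hk.2) h1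
  rwa [inv_inv] at h2

/-- Two vertices of a sphere with agreement to order `i` exactly are at distance `2 j`. -/
theorem conj_mem_sphere {i j : ℕ} {k : GL (Fin 2) (AF F)} (hk : k ∈ P.gamma i)
    (hk' : k ∉ P.gamma (i + 1)) :
    ∃ k₁ k₂ z : GL (Fin 2) (AF F), k₁ ∈ P.tree.K ∧ k₂ ∈ P.tree.K ∧
      z ∈ Subgroup.center (GL (Fin 2) (AF F)) ∧
      (P.tree.D ^ (i + j))⁻¹ * k * P.tree.D ^ (i + j) = k₁ * P.tree.D ^ (2 * j) * k₂ * z := by
  have hK : k ∈ localK hw hw0 := (P.mem_gamma.mp hk).1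
  obtain ⟨y, hy, hb⟩ := (P.gamma_iff hK).mp hk
  obtain ⟨Y, rfl⟩ := mem_intAF.mp hy
  obtain ⟨π₀, hπ, hspan⟩ := P.eq_localGenerator
  have hYw : Y ∉ idealOH w := fun h => hk' ((P.gamma_iff hK).mpr (by
    obtain ⟨Z, rfl⟩ := Ideal.mem_span_singleton.mp (hspan ▸ h)
    exact ⟨intHom F Z, ⟨Z, rfl⟩, by rw [hb, map_mul, hπ]; ring⟩))
  obtain ⟨U, hU⟩ := exists_unit_eq (hw := hw) (hw0 := hw0) hYw
  set u' : (AF F)ˣ := Units.map (intHom F).toRingHom.toMonoidHom U with hu'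
  obtain ⟨he, hd⟩ := entries_mem_of_top hK.2
  have huI : (u' : AF F) ∈ intAF F := ⟨(U : OH F), rfl⟩
  have huI' : ((u'⁻¹ : (AF F)ˣ) : AF F) ∈ intAF F := ⟨(↑U⁻¹ : OH F), rfl⟩
  have hΔ : ((Matrix.GeneralLinearGroup.det k : (AF F)ˣ) : AF F) ∈ intAF F := by
    rw [← det_eq_GLdet]
    exact sub_mem (mul_mem (he 0 0) (he 1 1)) (mul_mem (he 0 1) (he 1 0))
  have hΔ' : k.1.det ∈ intAF F := by
    rwa [Matrix.GeneralLinearGroup.val_det_apply] at hΔ
  have hr1m : (P.π : AF F) ^ j * k.1 1 1 * (u'⁻¹ : (AF F)ˣ) ∈ intAF F :=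
    mul_mem (mul_mem (pow_mem P.pi_mem j) (he 1 1)) huI'
  have hr2m : (P.π : AF F) ^ j * k.1 0 0 * (u'⁻¹ : (AF F)ˣ) ∈ intAF F :=
    mul_mem (mul_mem (pow_mem P.pi_mem j) (he 0 0)) huI'
  set r1 : AF F := (P.π : AF F) ^ j * k.1 1 1 * (u'⁻¹ : (AF F)ˣ) with hr1
  set r2 : AF F := (P.π : AF F) ^ j * k.1 0 0 * (u'⁻¹ : (AF F)ˣ) with hr2
  let A : GL (Fin 2) (AF F) := Matrix.SpecialLinearGroup.toGL (sLower r1)
  let B : GL (Fin 2) (AF F) := Matrix.SpecialLinearGroup.toGL (sLower r2)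
  let E : GL (Fin 2) (AF F) :=
    diagUnit u' * lowUnit (-(Matrix.GeneralLinearGroup.det k) * u'⁻¹)
  let S : GL (Fin 2) (AF F) := GeneralLinearGroup.scalar (Fin 2) (P.π ^ j)
  have hA : part hw hw0 A ∈ localK hw hw0 := part_mem_localK hw hw0 (mem_principal_top
    (fun a b => by
      fin_cases a <;> fin_cases b <;>
        simp [A, sLower_val, zero_mem, one_mem, hr1m])
    (by simp [A, one_mem]))
  have hB : part hw hw0 B ∈ localK hw hw0 := part_mem_localK hw hw0 (mem_principal_top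
    (fun a b => by
      fin_cases a <;> fin_cases b <;>
        simp [B, sLower_val, zero_mem, one_mem, hr2m])
    (by simp [B, one_mem]))
  have hE : part hw hw0 E ∈ localK hw hw0 := part_mem_localK hw hw0 (mem_principal_top
    (fun a b => by
      fin_cases a <;> fin_cases b <;>
        simp [E, diagUnit, lowUnit, Matrix.mul_apply, zero_mem, huI, mul_mem hΔ' huI'])
    (by
      have e : Matrix.GeneralLinearGroup.det E = -(Matrix.GeneralLinearGroup.det k) := by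
        refine Units.ext ?_
        rw [← det_eq_GLdet]
        simp [E, diagUnit, lowUnit, Matrix.mul_apply]
        rw [← Matrix.GeneralLinearGroup.val_det_apply]
        linear_combination ((Matrix.GeneralLinearGroup.det k : (AF F)ˣ) : AF F) * u'.mul_inv
      have e2 : ∀ v : (AF F)ˣ, ((-v)⁻¹ : (AF F)ˣ).1 = -((v⁻¹ : (AF F)ˣ) : AF F) := fun v => rfl
      rw [e, e2]
      exact neg_mem hd))
  have hS : S ∈ Subgroup.center (GL (Fin 2) (AF F)) := Subgroup.mem_center_iff.mpr fun x =>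
    (FLTAgent.LanglandsTunnell.Killing.scalar_comm x _).symm
  set C := (P.tree.D ^ (i + j))⁻¹ * k * P.tree.D ^ (i + j) with hC
  have hCl : C ∈ localGroup hw hw0 :=
    mul_mem (mul_mem (inv_mem (P.localAt_pow _)) hK.1) (P.localAt_pow _)
  have key : part hw hw0 (C * S) =
      part hw hw0 (A * E * swapGL * P.tree.D ^ (2 * j) * B) := by
    refine idemPart_congr _ ?_
    have hD : (P.tree.D ^ (2 * j)).1 = !![(P.π : AF F) ^ (2 * j), 0; 0, 1] := by
      show (diagUnit P.π ^ (2 * j)).1 = _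
      rw [diagUnit_pow]
      simp [diagUnit]
    have hεY : placeAF hw hw0 * intHom F Y = placeAF hw hw0 * (u' : AF F) := by
      rw [placeAF, ← map_mul, hU, map_mul]
      rfl
    have hinv : ((P.π⁻¹ : (AF F)ˣ) : AF F) ^ (i + j) * (P.π : AF F) ^ (i + j) = 1 := by
      rw [← mul_pow, Units.inv_mul, one_pow]
    have hCv : C.1 = !![k.1 0 0, ((P.π⁻¹ : (AF F)ˣ) : AF F) ^ (i + j) * k.1 0 1;
        (P.π : AF F) ^ (i + j) * k.1 1 0, k.1 1 1] := P.conj_val _ k
    have hSv : S.1 = !![(P.π : AF F) ^ j, 0; 0, (P.π : AF F) ^ j] := by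
      ext a b
      fin_cases a <;> fin_cases b <;> simp [S, GeneralLinearGroup.scalar, Matrix.diagonal_pow]
    have hAv : A.1 = !![1, 0; r1, 1] := sLower_val r1
    have hBv : B.1 = !![1, 0; r2, 1] := sLower_val r2
    have hEv : E.1 = !![(u' : AF F), 0; 0, 1] *
        !![1, 0; 0, -((Matrix.GeneralLinearGroup.det k : (AF F)ˣ) : AF F) *
          ((u'⁻¹ : (AF F)ˣ) : AF F)] := rfl
    have hwv : (swapGL : GL (Fin 2) (AF F)).1 = !![0, 1; 1, 0] := rfl
    show placeAF hw hw0 • (C.1 * S.1) =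
      placeAF hw hw0 • (A.1 * E.1 * (swapGL : GL (Fin 2) (AF F)).1 * (P.tree.D ^ (2 * j)).1 * B.1)
    rw [hCv, hSv, hAv, hBv, hEv, hwv, hD]
    exact sphere_identity _ _ _ _ _ _ _ _ _ _ _ i j hεY u'.mul_inv hinv hb (det_eq_GLdet k)
  simp only [map_mul, part_eq_self hCl, part_eq_self (P.localAt_pow (2 * j))] at key
  refine ⟨part hw hw0 A * part hw hw0 E * part hw hw0 swapGL, part hw hw0 B, (part hw hw0 S)⁻¹,
    mul_mem (mul_mem hA hE) P.tree.w0_mem, hB, inv_mem (idemPart_mem_center _ hS), ?_⟩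
  rw [← key, mul_inv_cancel_right]

end LocalParams

end FLTAgent.LanglandsTunnell.Isolation
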