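import Fermat.Agent.LanglandsTunnell.Isolation.Seed
import Fermat.Agent.LanglandsTunnell.Isolation.Tame.Defs

/-!
# What the descent needs from the seed at the test level

`SeedProps` records invariance under the twist, the system and its shell vectors, and the
eigenvalues of the seed, at the test places and at the ramified primes which are not bad.
-/

set_option autoImplicit false

noncomputable section

namespace FLTAgent.LanglandsTunnell.Isolation

open FLTAgent.LanglandsTunnell NumberField

variable {D : Datum} {P : ExtPlaces D}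

/-- The twist of the frame. -/
def Frame.twistData (S : Frame D P) : TwistData P.placesM := ⟨S.σ, S.e, S.e_emb⟩

/-- Invariance, the system at the level of the seed with its shell vectors, eigenvalues, and the
eigenvalues at the ramified primes which are not bad. -/
structure SeedProps {S : Frame D P} (s : SeedAt S) : Prop where
  twist : S.twistData.twist s.φ = s.φ
  seedSys : InSys P.placesM (3 ^ S.k * D.badPart ^ S.B) s.a s.φ
  shell : Tame.HasShell S.twistData (3 ^ S.k * D.badPart ^ S.B) s.a
  three : ∀ p ∈ S.R, (p : ℕ) = 3 → S.k = 0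
  frob : ∀ w, D.TestOK S.N' w → ∀ g, IsFrobOver D.M w g → s.a w = trLift (D.ρ g)
  eigenR : ∀ (w : Ideal (𝓞 D.M)) (hw : w.IsPrime) (hw0 : w ≠ ⊥),
    (∃ p ∈ S.R, ¬ D.IsBad p ∧ ((p : ℕ) : 𝓞 D.M) ∈ w) → ∃ ε : ℝ, (ε = 1 ∨ ε = -1) ∧
      EigenAt hw hw0 s.φ ((2 * ε * Real.sqrt (Ideal.absNorm w) : ℝ) : ℂ)

end FLTAgent.LanglandsTunnell.Isolation
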