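import Fermat.Agent.LanglandsTunnell.Isolation.CloseM
import Fermat.Agent.LanglandsTunnell.Isolation.SeedProps
import Fermat.Agent.LanglandsTunnell.Isolation.Base
import Fermat.Agent.LanglandsTunnell.Isolation.GaloisPlaces
import Fermat.Agent.LanglandsTunnell.Isolation.Tame.Main
import Fermat.Agent.LanglandsTunnell.Local.RamLevels

/-!
# The weight of the system of the seed is not zero

It is the complex conjugate of a sum of traces of integral translations after the twist, each a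
natural multiple of the trace of the twist on the vectors spherical at the ramified places which
are not bad: the vectors of the level at the places over `3` and the bad primes.
-/

set_option autoImplicit false

noncomputable section

namespace FLTAgent.LanglandsTunnell.Isolation

open FLTAgent.LanglandsTunnell MeasureTheory NumberField Matrix
open scoped InnerProductSpace ComplexConjugate

theorem natCast_dvd_of_mem {F : Type} [Field F] {v : Ideal (𝓞 F)} (hv : v.IsPrime) {N p : ℕ}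
    (hp : p.Prime) (hN : (N : 𝓞 F) ∈ v) (hpv : (p : 𝓞 F) ∈ v) : p ∣ N := by
  by_contra h
  obtain ⟨a, b, hab⟩ := Int.isCoprime_iff_nat_coprime.mpr
    (show Nat.Coprime (Int.natAbs (p : ℕ)) (Int.natAbs (N : ℕ)) by
      simpa using hp.coprime_iff_not_dvd.mpr h)
  refine hv.ne_top ((Ideal.eq_top_iff_one _).mpr ?_)
  have h1 : ((a * (p : ℕ) + b * (N : ℕ) : ℤ) : 𝓞 F) ∈ v := by
    push_cast
    exact add_mem (Ideal.mul_mem_left _ _ hpv) (Ideal.mul_mem_left _ _ hN)
  rwa [hab, Int.cast_one] at h1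

variable {D : Datum} {P : ExtPlaces D} {S : Frame D P}

variable (S) in
open scoped Classical in
/-- The ramified primes which are not bad. -/
def Frame.goodRam : Finset Nat.Primes := S.R.filter fun p => ¬ D.IsBad p

theorem Frame.mem_goodRam {p : Nat.Primes} : p ∈ S.goodRam ↔ p ∈ S.R ∧ ¬ D.IsBad p := by
  classical
  simp [Frame.goodRam]

variable (S) in
/-- The places over the ramified primes which are not bad. -/
def Frame.ramPlaces : Finset (Ideal (𝓞 D.M)) :=
  (S.goodRam.finite_toSet.biUnion fun p _ => finite_placesOf (F := D.M) p.2.ne_zero :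
    (⋃ p ∈ (S.goodRam : Set Nat.Primes), placesOf D.M (p : ℕ)).Finite).toFinset

theorem Frame.mem_ramPlaces {w : Ideal (𝓞 D.M)} :
    w ∈ S.ramPlaces ↔ w.IsPrime ∧ ∃ p ∈ S.R, ¬ D.IsBad p ∧ ((p : ℕ) : 𝓞 D.M) ∈ w := by
  simp only [Frame.ramPlaces, Set.Finite.mem_toFinset, Set.mem_iUnion, placesOf, Set.mem_ofPred_eq,
    exists_prop, Finset.mem_coe, Frame.mem_goodRam]
  exact ⟨fun ⟨p, ⟨hp, hb⟩, h1, h2⟩ => ⟨h1, p, hp, hb, h2⟩,
    fun ⟨h1, p, hp, hb, h2⟩ => ⟨p, ⟨hp, hb⟩, h1, h2⟩⟩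

theorem Frame.ramPlace_ne_bot {w : Ideal (𝓞 D.M)} (hw : w ∈ S.ramPlaces) : w ≠ ⊥ := by
  obtain ⟨-, p, -, -, hp⟩ := Frame.mem_ramPlaces.mp hw
  rintro rfl
  rw [Ideal.mem_bot] at hp
  exact p.2.ne_zero (by exact_mod_cast hp)

/-- At a ramified prime the automorphism acts trivially on the residues. -/
theorem intAut_sub_mem_of_ram {w : Ideal (𝓞 D.M)} [w.IsPrime] {σ : D.M ≃ₐ[ℚ] D.M}
    (hne : σ ≠ AlgEquiv.refl) (hfix : ∀ x, σ (D.incl x) = D.incl x) (hw : w ≠ ⊥)
    (hr : LanglandsTunnell.Local.IsRamPrime D w) (x : 𝓞 D.M) :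
    RingOfIntegers.mapRingHom σ.toAlgHom.toRingHom x - x ∈ w := by
  have := LanglandsTunnell.Local.isGalois_EM hne hfix
  have : FiniteDimensional D.E D.M := Module.Finite.of_restrictScalars_finite ℚ D.E D.M
  have : Fact (Nat.Prime 3) := ⟨Nat.prime_three⟩
  have hcard : Nat.card (D.M ≃ₐ[D.E] D.M) = 3 := by
    rw [IsGalois.card_aut_eq_finrank, finrank_EM]
  have h1 : w.inertia (D.M ≃ₐ[D.E] D.M) = ⊤ :=
    ((Subgroup.eq_bot_or_eq_top_of_prime_card (hp := hcard.symm ▸ inferInstance) _)).resolve_left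
      fun h => (LanglandsTunnell.Local.inertia_eq_bot_iff hne hfix hw).mp h hr
  have h2 : LanglandsTunnell.Local.overE hfix • x - x ∈ w :=
    (h1.ge (Subgroup.mem_top _) : LanglandsTunnell.Local.overE hfix ∈ _) x
  exact h2

namespace SeedAt

variable (s : SeedAt S) (hs : SeedProps s)

open scoped Classical in
/-- The data of the multiplicity argument. -/
def ctx : Ctx P.placesM where
  T := S.twistData
  N := S.N'
  hN := S.test.ne_zero
  a := s.a
  φ := s.φ
  φ_mem := s.sys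
  φ_ne := s.ne
  twist_φ := hs.twist
  mult := s.mult
  finite := s.finite_sys
  R := S.ramPlaces
  prime _ hw := (Frame.mem_ramPlaces.mp hw).1
  ne_bot _ hw := Frame.ramPlace_ne_bot hw
  mem_N w hw := by
    obtain ⟨-, p, hp, -, hpw⟩ := Frame.mem_ramPlaces.mp hw
    obtain ⟨c, hc⟩ := (S.test.ram_dvd p hp).trans S.test.dvd
    rw [hc, Nat.cast_mul]
    exact Ideal.mul_mem_right _ _ hpw
  fixed w hw := by
    obtain ⟨h1, p, hp, -, hpw⟩ := Frame.mem_ramPlaces.mp hw
    have := h1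
    exact sigmaIdeal_eq_of_mem_R S.test S.σ_ne S.σ_fix (Frame.ramPlace_ne_bot hw) hp hpw
  sign w := if h : w ∈ S.ramPlaces then
      (hs.eigenR w (Frame.mem_ramPlaces.mp h).1 (Frame.ramPlace_ne_bot h)
        (Frame.mem_ramPlaces.mp h).2).choose
    else 1
  sign_eq w hw := by
    rw [dif_pos hw]
    exact (hs.eigenR w (Frame.mem_ramPlaces.mp hw).1 (Frame.ramPlace_ne_bot hw)
      (Frame.mem_ramPlaces.mp hw).2).choose_spec.1
  φ_eigen w hw := by
    rw [dif_pos hw]
    exact (hs.eigenR w (Frame.mem_ramPlaces.mp hw).1 (Frame.ramPlace_ne_bot hw)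
      (Frame.mem_ramPlaces.mp hw).2).choose_spec.2

/-- The prime under a place outside the places over the good ramified primes. -/
theorem prime_of_free {v : Ideal (𝓞 D.M)} (hv : (s.ctx hs).FreePlace v) :
    ∃ q : ℕ, q.Prime ∧ (q = 3 ∨ D.IsBad q) ∧ q ∣ S.N' ∧ (q : 𝓞 D.M) ∈ v ∧
      ∀ p ∈ S.R, (p : ℕ) = q → D.IsBad p := by
  obtain ⟨p, hp⟩ := exists_prime_natCast_mem hv.prime hv.ne_bot
  have hpN : (p : ℕ) ∣ S.N' := natCast_dvd_of_mem hv.prime p.2 hv.mem_N hp
  have hR : ∀ q ∈ S.R, (q : ℕ) = (p : ℕ) → D.IsBad q := fun q hq hqp => by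
    by_contra hb
    exact hv.notMem (Frame.mem_ramPlaces.mpr ⟨hv.prime, q, hq, hb, by rw [hqp]; exact hp⟩)
  refine ⟨p, p.2, ?_, hpN, hp, hR⟩
  rcases S.test.support p p.2 ((S.test.same_primes p p.2).mp hpN) with h | h | ⟨q, hq, hqp⟩
  exacts [Or.inl h, Or.inr h, Or.inr (hqp ▸ hR q hq hqp)]

/-- Without bad primes in `R` the twist has nonzero trace on the vectors spherical at the ramified
places. -/
theorem trace_base_of_not_bad (hbad : ∀ p ∈ S.R, ¬ D.IsBad p) :
    LinearMap.trace ℂ _ ((s.ctx hs).stageOp ∅ 1 (one_mem _)) ≠ 0 := by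
  obtain ⟨pos, hpos⟩ := exists_position S.test S.σ_ne S.σ_fix
  refine (s.ctx hs).trace_base_of_pos pos (fun v hv => ?_)
    fun x => (LanglandsTunnell.Local.cubicData S.σ_ne S.σ_fix).cube x
  obtain ⟨q, hq, hq3, hqN, hqv, hR⟩ := s.prime_of_free hs hv
  exact hpos v q hv.prime hq hq3 hqN (fun p hp e => hbad p hp (hR p hp e)) hqv

/-! ### The level at the places over `3` and the bad primes -/

variable (S) in
open scoped Classical in
/-- The product of `3`, unless it is ramified, and the bad primes. -/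
def _root_.FLTAgent.LanglandsTunnell.Isolation.Frame.kept : ℕ :=
  (if ∀ p ∈ S.R, (p : ℕ) ≠ 3 then 3 else 1) * D.badPart

theorem kept_dvd_of_bad {q : ℕ} (h : D.IsBad q) : q ∣ S.kept :=
  dvd_mul_of_dvd_right (D.dvd_badPart h) _

theorem isBad_of_dvd_kept {p : Nat.Primes} (hp : p ∈ S.R) (h : (p : ℕ) ∣ S.kept) :
    D.IsBad p := by
  classical
  rcases p.2.dvd_mul.mp h with h1 | h1
  · split_ifs at h1 with h3
    · exact absurd ((Nat.prime_dvd_prime_iff_eq p.2 Nat.prime_three).mp h1) (h3 p hp)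
    · exact absurd (Nat.dvd_one.mp h1) p.2.ne_one
  · exact (D.prime_dvd_badPart p.2).mp h1

theorem exists_goodRam_of_not_dvd_kept {q : ℕ} (hq : q.Prime) (hqN : q ∣ S.N')
    (h : ¬ q ∣ S.kept) : ∃ p ∈ S.goodRam, (p : ℕ) = q := by
  classical
  rcases S.test.support q hq ((S.test.same_primes q hq).mp hqN) with h3 | hb | ⟨p, hp, hpq⟩
  · by_contra hne
    refine h (dvd_mul_of_dvd_left ?_ _)
    rw [if_pos fun p hp hp3 => hne ⟨p, Frame.mem_goodRam.mpr
      ⟨hp, fun hb => hb.ne_three hp3⟩, hp3.trans h3.symm⟩, h3]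
  · exact absurd (kept_dvd_of_bad hb) h
  · exact ⟨p, Frame.mem_goodRam.mpr ⟨hp, fun hb => h (hpq ▸ kept_dvd_of_bad hb)⟩, hpq⟩

variable (S) in
/-- The part of the level over `3` and the bad primes. -/
def _root_.FLTAgent.LanglandsTunnell.Isolation.Frame.N₂ : ℕ := Nat.gcd S.N' (S.kept ^ S.N')

theorem N₂_dvd : S.N₂ ∣ S.N' := Nat.gcd_dvd_left _ _

theorem N₂_ne_zero : S.N₂ ≠ 0 := fun h => S.test.ne_zero (Nat.eq_zero_of_gcd_eq_zero_left h)

theorem dvd_kept_of_dvd_N₂ {q : ℕ} (hq : q.Prime) (h : q ∣ S.N₂) : q ∣ S.kept :=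
  hq.dvd_of_dvd_pow (h.trans (Nat.gcd_dvd_right _ _))

theorem pow_dvd_N₂ {q e : ℕ} (hq : q.Prime) (hk : q ∣ S.kept) (h : q ^ e ∣ S.N') :
    q ^ e ∣ S.N₂ :=
  Nat.dvd_gcd h ((pow_dvd_pow_of_dvd hk e).trans (pow_dvd_pow _
    ((Nat.lt_pow_self hq.one_lt).le.trans (Nat.le_of_dvd (Nat.pos_of_ne_zero S.test.ne_zero) h))))

include hs in
theorem seedLevel_dvd_N₂ : 3 ^ S.k * D.badPart ^ S.B ∣ S.N₂ := by
  refine (Nat.dvd_iff_prime_pow_dvd_dvd _ _).mpr fun q e hq h => ?_
  rcases eq_or_ne e 0 with rfl | he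
  · simp
  refine pow_dvd_N₂ hq ?_ (h.trans S.test.seed)
  classical
  rcases hq.dvd_mul.mp ((dvd_pow_self q he).trans h) with h1 | h1
  · have h3 : q = 3 := (Nat.prime_dvd_prime_iff_eq hq Nat.prime_three).mp (hq.dvd_of_dvd_pow h1)
    have hk : S.k ≠ 0 := by
      intro hk
      rw [hk, pow_zero] at h1
      exact hq.ne_one (Nat.dvd_one.mp h1)
    refine dvd_mul_of_dvd_left ?_ _
    rw [if_pos fun p hp hp3 => hk (hs.three p hp hp3), h3]
  · exact kept_dvd_of_bad ((D.prime_dvd_badPart hq).mp (hq.dvd_of_dvd_pow h1))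

theorem not_dvd_N₂ {w : Ideal (𝓞 D.M)} (hw : w ∈ S.ramPlaces) : ¬ w ∣ lv D.M S.N₂ := by
  obtain ⟨hw, p, hp, hb, hpw⟩ := Frame.mem_ramPlaces.mp hw
  intro h
  exact hb (isBad_of_dvd_kept hp (dvd_kept_of_dvd_N₂ p.2 (natCast_dvd_of_mem hw p.2
    (Ideal.dvd_iff_le.mp h (Ideal.mem_span_singleton_self _)) hpw)))

include hs in
theorem inSys_φ_N₂ : InSys P.placesM S.N₂ s.a s.φ :=
  hs.seedSys.mono N₂_ne_zero (s.seedLevel_dvd_N₂ hs)

include hs in
/-- The eigenvalue at a good ramified place is the one of the system. -/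
theorem s_eq {w : Ideal (𝓞 D.M)} (hw : w ∈ (s.ctx hs).R) :
    (s.ctx hs).s w = (Real.sqrt (Ideal.absNorm w) : ℂ) * s.a w :=
  ((s.ctx hs).φ_eigen w hw).eq_of_ne_zero
    ((s.inSys_φ_N₂ hs).sys w ((s.ctx hs).prime w hw) ((s.ctx hs).ne_bot w hw) (not_dvd_N₂ hw)) s.ne

theorem natCast_dvd_Op {q : Nat.Primes} (hq : q ∉ S.goodRam) :
    ((S.N' : ℕ) : LanglandsTunnell.Local.Op D.M q) ∣
      ((S.N₂ : ℕ) : LanglandsTunnell.Local.Op D.M q) := by
  have : Fact (q : ℕ).Prime := ⟨q.2⟩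
  by_cases hd : (q : ℕ) ∣ S.N'
  · have hk : (q : ℕ) ∣ S.kept := by
      by_contra hk
      obtain ⟨p, hp, hpq⟩ := exists_goodRam_of_not_dvd_kept q.2 hd hk
      exact hq ((Nat.Primes.coe_nat_injective hpq : p = q) ▸ hp)
    obtain ⟨e, c, hc, hN⟩ := Nat.exists_eq_pow_mul_and_not_dvd S.test.ne_zero (q : ℕ) q.2.ne_one
    have h1 := Nat.cast_dvd_cast (α := LanglandsTunnell.Local.Op D.M q)
      (pow_dvd_N₂ q.2 hk (Dvd.intro c hN.symm))
    rw [hN, Nat.cast_mul]
    exact (LanglandsTunnell.Local.isUnit_natCast_Op hc).mul_right_dvd.mpr h1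
  · exact (LanglandsTunnell.Local.isUnit_natCast_Op hd).dvd

/-- The first stage is the system at the part of the level over `3` and the bad primes. -/
theorem stage_empty :
    (s.ctx hs).stage ∅ = sysSub P.placesM (N₂_ne_zero (S := S)) s.a := by
  ext u
  constructor
  · intro hu
    refine mem_sysSub.mpr ⟨isLevel_of_fixed N₂_ne_zero fun k hk => ?_, hu.sys.spherical,
      fun v hv hv0 hvN => ?_⟩
    · refine rho_of_compGL (R := S.goodRam) (N' := S.N') hu.sys.level
        (fun w hw hw0 p hp hpw => ?_) (principalSubgroup_mono le_top hk) fun q hq => ?_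
      · obtain ⟨hp, hb⟩ := Frame.mem_goodRam.mp hp
        exact (hu.eigen w (Frame.mem_ramPlaces.mpr ⟨hw, p, hp, hb, hpw⟩)
          (Set.notMem_empty w)).fixed
      · exact LanglandsTunnell.Local.congrGroup_le_of_dvd (natCast_dvd_Op hq)
          (LanglandsTunnell.Local.mem_principalSubgroup_iff_comp.mp hk q)
    · by_cases hvN' : v ∣ lv D.M S.N'
      · obtain ⟨q, hq⟩ := exists_prime_natCast_mem hv hv0
        have hqN : (q : ℕ) ∣ S.N' := natCast_dvd_of_mem hv q.2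
          (Ideal.dvd_iff_le.mp hvN' (Ideal.mem_span_singleton_self _)) hq
        have hk : ¬ (q : ℕ) ∣ S.kept := fun hk => by
          have h1 : (q : ℕ) ∣ S.N₂ := by
            simpa using pow_dvd_N₂ (e := 1) q.2 hk (by simpa using hqN)
          obtain ⟨c, hc⟩ := h1
          refine hvN (Ideal.dvd_iff_le.mpr ((Ideal.span_singleton_le_iff_mem _).mpr ?_))
          rw [hc, Nat.cast_mul]
          exact Ideal.mul_mem_right _ _ hq
        obtain ⟨p, hp, hpq⟩ := exists_goodRam_of_not_dvd_kept q.2 hqN hk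
        obtain ⟨hp, hb⟩ := Frame.mem_goodRam.mp hp
        have hvR : v ∈ (s.ctx hs).R :=
          Frame.mem_ramPlaces.mpr ⟨hv, p, hp, hb, by rw [hpq]; exact hq⟩
        rw [← s.s_eq hs hvR]
        exact hu.eigen v hvR (Set.notMem_empty v)
      · exact hu.sys.sys v hv hv0 hvN'
  · intro hu
    refine ⟨(mem_sysSub.mp hu).mono S.test.ne_zero N₂_dvd, fun w hw _ => ?_⟩
    rw [s.s_eq hs hw]
    exact (mem_sysSub.mp hu).sys w _ _ (not_dvd_N₂ hw)

include hs in
/-- The twist has nonzero trace on the vectors spherical at the good ramified places. -/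
theorem trace_base_ne_zero :
    LinearMap.trace ℂ _ ((s.ctx hs).stageOp ∅ 1 (one_mem _)) ≠ 0 := by
  by_cases hbad : ∃ p ∈ S.R, D.IsBad p
  swap
  · exact s.trace_base_of_not_bad hs fun p hp hb => hbad ⟨p, hp, hb⟩
  obtain ⟨p, hp, hb⟩ := hbad
  have hpram : p ∈ LanglandsTunnell.Local.ramPrimes D :=
    LanglandsTunnell.Local.mem_ramPrimes.mpr ((S.test.mem_R p).mp hp)
  obtain ⟨w, hw, hpw, hr⟩ := (S.test.mem_R p).mp hp
  have hw0 := LanglandsTunnell.Local.ne_bot_of_natCast_mem p.2 hpw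
  have := hw
  obtain ⟨Pw⟩ := nonempty_localParams (hw := hw) (hw0 := hw0)
  obtain ⟨d, hd⟩ := Tame.exists_isDiffExp Pw
  have h3 : (3 : 𝓞 D.M) ∉ w := fun h => hb.ne_three
    ((Nat.prime_dvd_prime_iff_eq p.2 Nat.prime_three).mp
      (natCast_dvd_of_mem hw p.2 (by exact_mod_cast h) hpw))
  have hcube : ∀ x, S.σ (S.σ (S.σ x)) = x :=
    fun x => (LanglandsTunnell.Local.cubicData S.σ_ne S.σ_fix).cube x
  have hfixw : S.twistData.ideal w = w := sigmaIdeal_eq_of_mem_R S.test S.σ_ne S.σ_fix hw0 hp hpw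
  have hres := intAut_sub_mem_of_ram S.σ_ne S.σ_fix hw0 hr
  let Tw : Tame.Setup P.placesM :=
    ⟨S.twistData, hcube, by
      by_contra hcon
      push Not at hcon
      exact S.σ_ne (AlgEquiv.ext hcon), w, hw, hw0, hfixw, hres, h3, Pw, d, hd⟩
  have hpN : (p : ℕ) ∣ S.N₂ := (dvd_pow_self (p : ℕ) (by have := S.hB; omega)).trans
    ((dvd_mul_of_dvd_right (pow_dvd_pow_of_dvd (D.dvd_badPart hb) S.B) _).trans
      (s.seedLevel_dvd_N₂ hs))
  have hmem : ((S.N₂ : ℕ) : 𝓞 D.M) ∈ w := by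
    obtain ⟨c, hc⟩ := hpN
    rw [hc, Nat.cast_mul]
    exact Ideal.mul_mem_right _ _ hpw
  obtain ⟨δ, hδ, hexp⟩ := Tame.exists_hasExp (P := Pw) N₂_ne_zero hmem
  have hφ := s.inSys_φ_N₂ hs
  let L : Tame.Level Tw := ⟨S.N₂, N₂_ne_zero, δ, hδ, hexp, s.a,
    fun v hv hv0 => hφ.a_ideal S.twistData s.ne hs.twist hv hv0⟩
  obtain ⟨u, hu, hsh⟩ := hs.shell w hw hw0 hfixw hres h3 (by
    rw [Nat.cast_mul]
    refine Ideal.mul_mem_left _ _ ?_
    obtain ⟨c, hc⟩ : (p : ℕ) ∣ D.badPart ^ S.B :=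
      (D.dvd_badPart hb).trans (dvd_pow_self _ (by have := S.hB; omega))
    rw [hc, Nat.cast_mul]
    exact Ideal.mul_mem_right _ _ hpw) Pw
  obtain ⟨pos, hpos⟩ := exists_position S.test S.σ_ne S.σ_fix
  have : FiniteDimensional ℂ (sysSub P.placesM (N₂_ne_zero (S := S)) s.a) :=
    s.stage_empty hs ▸ (s.ctx hs).finite_stage ∅
  have hfree : ∀ v, L.Free v → pos (Tw.T.ideal v) = pos v + 1 := by
    intro v hv
    obtain ⟨q, hq⟩ := exists_prime_natCast_mem hv.prime hv.ne_bot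
    have hqN : (q : ℕ) ∣ S.N₂ := natCast_dvd_of_mem hv.prime q.2 hv.mem_N hq
    have hk := dvd_kept_of_dvd_N₂ q.2 hqN
    have hq3 : (q : ℕ) = 3 ∨ D.IsBad q := by
      classical
      rcases q.2.dvd_mul.mp hk with h | h
      · split_ifs at h
        · exact Or.inl ((Nat.prime_dvd_prime_iff_eq q.2 Nat.prime_three).mp h)
        · exact absurd (Nat.dvd_one.mp h) q.2.ne_one
      · exact Or.inr ((D.prime_dvd_badPart q.2).mp h)
    refine hpos v q hv.prime q.2 hq3 (hqN.trans N₂_dvd) (fun p' hp' e => hv.ne_w ?_) hq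
    obtain rfl : p' = q := Nat.Primes.coe_nat_injective e
    have hb' := isBad_of_dvd_kept hp' hk
    have hp2 : p' = p := Nat.Primes.coe_nat_injective
      ((LanglandsTunnell.Local.eq_two_of_isBad_ram hb'
        (LanglandsTunnell.Local.mem_ramPrimes.mpr ((S.test.mem_R p').mp hp'))).trans
        (LanglandsTunnell.Local.eq_two_of_isBad_ram hb hpram).symm)
    subst hp2
    exact (LanglandsTunnell.Local.unique_place_of_isBad_ram hb hpram hpw).2 v hv.prime hq
  have hne := L.trace_sys_ne_zero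
    (fun x hx => ⟨S.N', hx.level.mono S.test.ne_zero N₂_dvd,
      s.cuspidal_of_sys (hx.mono S.test.ne_zero N₂_dvd)⟩)
    pos hfree (hu.mono N₂_ne_zero (s.seedLevel_dvd_N₂ hs)) hsh
  convert hne using 1
  rw [← Tame.trace_restrict_congr S.twistData.twist (s.stage_empty hs)
    (fun x hx => (s.ctx hs).twist_mem_stage hx), Ctx.stageOp_one]
  rfl

/-- The test elements fix the first stage. -/
theorem rho_ramElement_stage {u : Smooth P.placesM} (hu : u ∈ (s.ctx hs).stage ∅)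
    {ω : GL (Fin 2) (AF D.M)} (hω : ramElement D S.σ S.R S.N₀ S.N₁ S.N' ω) :
    rho P.placesM ω u = u := by
  refine rho_of_compGL (R := S.goodRam) (N' := S.N') hu.sys.level (fun w hw hw0 p hp hpw => ?_)
    (ramElement_mem_top hω) fun q hq => ?_
  · obtain ⟨hp, hb⟩ := Frame.mem_goodRam.mp hp
    exact (hu.eigen w (Frame.mem_ramPlaces.mpr ⟨hw, p, hp, hb, hpw⟩) (Set.notMem_empty w)).fixed
  have h := LanglandsTunnell.Local.cubicData S.σ_ne S.σ_fix
  by_cases hqR : q ∈ S.R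
  swap
  · obtain ⟨k, hk, e⟩ := hω.2 q hqR
    rw [show LanglandsTunnell.Local.compGL q ω =
      Matrix.GeneralLinearGroup.map (compAF q).toRingHom ω from rfl, e]
    exact LanglandsTunnell.Local.mem_principalSubgroup_iff_comp.mp hk q
  have hb : D.IsBad q := by
    by_contra hb
    exact hq (Frame.mem_goodRam.mpr ⟨hqR, hb⟩)
  obtain ⟨h0, h1, h2⟩ := S.test.deep q hqR hb
  have hdvd : ((S.N' : ℕ) : LanglandsTunnell.Local.Op D.M q) ∣
      ((((q : ℕ) ^ S.B : ℕ) : LanglandsTunnell.Local.Op D.M q)) := by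
    have : Fact (q : ℕ).Prime := ⟨q.2⟩
    obtain ⟨c, hc⟩ : (q : ℕ) ^ S.B ∣ S.N' :=
      (dvd_mul_of_dvd_right (pow_dvd_pow_of_dvd (D.dvd_badPart hb) S.B) _).trans S.test.seed
    have hcq : ¬ (q : ℕ) ∣ c := fun hd => h2 (by rw [hc, pow_succ]; exact mul_dvd_mul_left _ hd)
    rw [hc, Nat.cast_mul]
    exact (LanglandsTunnell.Local.isUnit_natCast_Op hcq).mul_right_dvd.mpr dvd_rfl
  refine LanglandsTunnell.Local.congrGroup_le_of_dvd hdvd ?_
  obtain ⟨k, hk, y, hy, e⟩ := hω.1 q hqR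
  rw [show LanglandsTunnell.Local.compGL q ω =
      Matrix.GeneralLinearGroup.map (compAF q).toRingHom ω from rfl, e]
  show LanglandsTunnell.Local.compGL q _ ∈ _
  rw [LanglandsTunnell.Local.compGL_product h q k y]
  have hk' := LanglandsTunnell.Local.congrGroup_le_of_dvd
    (Nat.cast_dvd_cast (α := LanglandsTunnell.Local.Op D.M q) h0)
    (LanglandsTunnell.Local.mem_principalSubgroup_iff_comp.mp hk q)
  refine mul_mem (mul_mem hk' ?_) (inv_mem ((h.localCubic (q : ℕ)).θ_mem_congrGroup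
    (map_natCast _ _) hk'))
  have := (h.localCubic (q : ℕ)).ι_mem_congrGroup (LanglandsTunnell.Local.congrGroup_le_of_dvd
    (Nat.cast_dvd_cast (α := LanglandsTunnell.Local.Op D.E q) h1)
    (LanglandsTunnell.Local.mem_principalSubgroup_iff_comp.mp hy q))
  rwa [map_natCast] at this

/-! ### The basis -/

variable (sM : Systems S.dM (D.TestOK S.N'))

open scoped Classical in
/-- The members of the basis in the system. -/
def closeSet : Finset (Fin sM.m) :=
  Finset.univ.filter fun j => InSys P.placesM S.N' s.a (Frame.vecM sM j)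

theorem inner_vecM (i j : Fin sM.m) :
    ⟪Frame.vecM sM i, Frame.vecM sM j⟫_ℂ = (volPt.real S.dM.S : ℂ)⁻¹ * if i = j then 1 else 0 := by
  classical
  rw [inner_eq (Frame.level_vecM sM i) (Frame.level_vecM sM j), pairAt, Frame.restrict_vecM,
    Frame.restrict_vecM, avg_eq (lv_ne_bot S.test.ne_zero) S.dM.hS
      (BddAuto.conj_mul (f := sM.f i) (f' := sM.f j) (S.dM.bddAuto_efun _) (S.dM.bddAuto_efun _)),
    ← orthonormal_iff_ite.mp sM.e.orthonormal i j, Submodule.coe_inner, L2.inner_def]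
  congr 1
  refine integral_congr_ae ?_
  filter_upwards [S.dM.efun_ae (sM.e i), S.dM.efun_ae (sM.e j)] with x hi hj
  simp only [Systems.f, hi, hj, RCLike.inner_apply]
  exact mul_comm _ _

theorem vol_pos : 0 < volPt.real S.dM.S :=
  measureReal_nonneg.lt_of_ne (fundDomain_real_ne_zero (lv_ne_bot S.test.ne_zero) S.dM.hS).symm

theorem mem_closeSet {j : Fin sM.m} :
    j ∈ s.closeSet sM ↔ InSys P.placesM S.N' s.a (Frame.vecM sM j) := by
  classical
  simp [closeSet]

/-- The members rescaled, in the full stage. -/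
def basisVec (j : s.closeSet sM) : (s.ctx hs).stage ↑(s.ctx hs).R :=
  ⟨(Real.sqrt (volPt.real S.dM.S) : ℂ) • Frame.vecM sM j, by
    rw [Ctx.stage_full]
    exact Submodule.smul_mem _ _ ((s.mem_closeSet sM).mp j.2)⟩

theorem orthonormal_basisVec : Orthonormal ℂ (s.basisVec hs sM) := by
  classical
  rw [orthonormal_iff_ite]
  intro i j
  rw [Submodule.coe_inner]
  show ⟪(Real.sqrt (volPt.real S.dM.S) : ℂ) • _, (Real.sqrt (volPt.real S.dM.S) : ℂ) • _⟫_ℂ = _
  rw [inner_smul_left, inner_smul_right, inner_vecM, Complex.conj_ofReal, ← mul_assoc, ← mul_assoc,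
    ← Complex.ofReal_mul, Real.mul_self_sqrt measureReal_nonneg,
    mul_inv_cancel₀ (Complex.ofReal_ne_zero.mpr (vol_pos (S := S)).ne'), one_mul]
  rcases eq_or_ne i j with rfl | h
  · simp
  · rw [if_neg h, if_neg (Subtype.coe_injective.ne h)]

theorem span_basisVec : ⊤ ≤ Submodule.span ℂ (Set.range (s.basisVec hs sM)) := by
  classical
  rintro ⟨u, hu⟩ -
  have hsys : InSys P.placesM S.N' s.a u := hu.sys
  set e := s.toV ⟨u, hsys⟩
  have hu' : u = ∑ j : s.closeSet sM, ⟪(sM.e j : S.dM.V), e⟫_ℂ • Frame.vecM sM j := by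
    refine Subtype.ext ?_
    rw [← hsys.level.liftForm_restrict, ← s.efun_toV ⟨u, hsys⟩, Submodule.coe_sum]
    funext g Q
    have h1 : S.dM.efun e = ∑ j, fun x => ⟪(sM.e j : S.dM.V), e⟫_ℂ * sM.f j x := by
      conv_lhs => rw [← sM.e.sum_repr' e]
      let L : S.dM.V →ₗ[ℂ] (Pt D.M (Fin 3) (lv D.M S.N') → ℂ) :=
        { toFun := S.dM.efun
          map_add' := S.dM.efun_add
          map_smul' := fun c v => S.dM.efun_smul c v }
      show L _ = _
      rw [map_sum]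
      exact Finset.sum_congr rfl fun j _ => S.dM.efun_smul _ _
    show S.dM.efun e ((g : FinPt D.M (lv D.M S.N')), Q) = _
    rw [h1, Finset.sum_apply, Finset.sum_apply, Finset.sum_apply]
    refine Eq.trans ?_ (Finset.sum_coe_sort (s.closeSet sM) fun j =>
      ⟪(sM.e j : S.dM.V), e⟫_ℂ * sM.f j ((g : FinPt D.M (lv D.M S.N')), Q)).symm
    refine (Finset.sum_subset (Finset.subset_univ _) fun j _ hj => ?_).symm
    rw [s.inner_toV_eq_zero sM (fun h => hj ((s.mem_closeSet sM).mpr h))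
      ⟨u, hsys⟩, zero_mul]
  have hsq : (Real.sqrt (volPt.real S.dM.S) : ℂ) ≠ 0 :=
    Complex.ofReal_ne_zero.mpr (Real.sqrt_pos.mpr (vol_pos (S := S))).ne'
  have e2 : (⟨u, hu⟩ : (s.ctx hs).stage ↑(s.ctx hs).R) =
      ∑ j : s.closeSet sM, (⟪(sM.e j : S.dM.V), e⟫_ℂ * (Real.sqrt (volPt.real S.dM.S) : ℂ)⁻¹) •
        s.basisVec hs sM j := by
    refine Subtype.ext ?_
    show u = _
    rw [hu', Submodule.coe_sum]
    refine Finset.sum_congr rfl fun j _ => ?_
    show _ = (_ * _) • ((Real.sqrt (volPt.real S.dM.S) : ℂ) • Frame.vecM sM j)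
    rw [smul_smul, mul_assoc, inv_mul_cancel₀ hsq, mul_one]
  rw [e2]
  exact Submodule.sum_mem _ fun j _ => Submodule.smul_mem _ _ (Submodule.subset_span ⟨j, rfl⟩)

/-- The weight of a member as matrix coefficients. -/
theorem tauM_eq (j : Fin sM.m) (hj : InSys P.placesM S.N' s.a (Frame.vecM sM j)) :
    S.tauM (sM.f j) = (volPt.real S.dM.S : ℂ) *
      ∑ q ∈ (finite_ramClasses (σ := S.σ) (R := S.R) (N₀ := S.N₀) (N₁ := S.N₁)
          S.test.ne_zero).toFinset,
        conj ⟪Frame.vecM sM j, rho P.placesM (ramRep D S.σ S.R S.N₀ S.N₁ S.N' q)⁻¹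
          (S.twistData.twist (Frame.vecM sM j))⟫_ℂ := by
  set Q := (finite_ramClasses (σ := S.σ) (R := S.R) (N₀ := S.N₀) (N₁ := S.N₁)
    S.test.ne_zero).toFinset
  set rep := ramRep D S.σ S.R S.N₀ S.N₁ S.N'
  set F := Frame.vecM sM j
  set W := ∑ q ∈ Q, rho P.placesM (rep q) F
  have hW : IsLevel P.placesM S.N' W.1 :=
    (mem_sysSub.mp (Submodule.sum_mem (sysSub P.placesM S.test.ne_zero s.a) fun q hq =>
      mem_sysSub.mpr (hj.rho_top (ramElement_mem_top
        (ramRep_spec ((Set.Finite.mem_toFinset _).mp hq)).1)))).level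
  have hT := S.twistData.isLevel_twist (Frame.level_vecM sM j)
  have key : (volPt.real S.dM.S : ℂ) * ⟪S.twistData.twist F, W⟫_ℂ = S.tauM (sM.f j) := by
    rw [inner_eq hT hW, pairAt, avg_eq (lv_ne_bot S.test.ne_zero) S.dM.hS
      ((bddAuto_of_isAutomorphic S.test.ne_zero hT.automorphic).conj_mul
        (bddAuto_of_isAutomorphic S.test.ne_zero hW.automorphic)), ← mul_assoc,
      mul_inv_cancel₀ (Complex.ofReal_ne_zero.mpr (vol_pos (S := S)).ne'), one_mul, Frame.tauM]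
    refine integral_congr_ae (Filter.Eventually.of_forall fun x => ?_)
    show _ = S.ramSum (sM.f j) x * conj (sM.f j (S.τ x))
    rw [mul_comm]
    simp only [restrictLevel, W, Submodule.coe_sum, Finset.sum_apply]
    rfl
  rw [← key, inner_sum]
  refine congrArg _ (Finset.sum_congr rfl fun q _ => ?_)
  rw [← inner_conj_symm]
  refine congrArg conj ?_
  rw [← TreeData.inner_apply (rho P.placesM) (rep q)⁻¹, ← rho_mul, inv_mul_cancel, map_one]
  rfl

include hs in
/-- **The weight of the system of the seed.** -/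
theorem sum_tauM_ne_zero : ∑ j ∈ s.closeSet sM, S.tauM (sM.f j) ≠ 0 := by
  classical
  set C := s.ctx hs with hC
  have := C.finite_stage ↑C.R
  set Q := (finite_ramClasses (σ := S.σ) (R := S.R) (N₀ := S.N₀) (N₁ := S.N₁)
    S.test.ne_zero).toFinset
  set rep := ramRep D S.σ S.R S.N₀ S.N₁ S.N'
  let G := OrthonormalBasis.mk (s.orthonormal_basisVec hs sM) (s.span_basisVec hs sM)
  have hrep : ∀ q ∈ Q, ramElement D S.σ S.R S.N₀ S.N₁ S.N' (rep q) ∧
      (rep q : FinPt D.M (lv D.M S.N')) = q := fun q hq =>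
    ramRep_spec ((Set.Finite.mem_toFinset _).mp hq)
  have htop : ∀ q : Q, (rep q)⁻¹ ∈ principalSubgroup (⊤ : Ideal (𝓞 D.M)) := fun q =>
    inv_mem (ramElement_mem_top (hrep q q.2).1)
  have hfix : ∀ q : Q, ∀ v ∈ C.stage ∅, rho P.placesM (rep q)⁻¹ v = v := fun q v hv =>
    TreeData.apply_inv_of_fixed (π := rho P.placesM)
      (s.rho_ramElement_stage hs hv (hrep q q.2).1)
  choose c hc hpos using fun q : Q =>
    C.trace_stage ↑C.R (Set.Subset.refl _) (rep q)⁻¹ (htop q) (hfix q)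
  set τ₀ := LinearMap.trace ℂ _ (C.stageOp ∅ 1 (one_mem _))
  have hsum : ∑ j ∈ s.closeSet sM, S.tauM (sM.f j) = conj (((∑ q : Q, c q : ℕ) : ℂ) * τ₀) := by
    have htr : ∀ q : Q, LinearMap.trace ℂ _ (C.stageOp ↑C.R (rep q)⁻¹ (htop q)) =
        ∑ j, ⟪G j, C.stageOp ↑C.R (rep q)⁻¹ (htop q) (G j)⟫_ℂ := fun q =>
      LinearMap.trace_eq_sum_inner _ G
    rw [Nat.cast_sum, Finset.sum_mul, map_sum]
    simp only [← hc, htr, map_sum]
    rw [Finset.sum_comm, ← Finset.sum_coe_sort (s.closeSet sM)]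
    refine Finset.sum_congr rfl fun j _ => ?_
    rw [s.tauM_eq sM j ((s.mem_closeSet sM).mp j.2), Finset.mul_sum, ← Finset.sum_coe_sort Q]
    refine Finset.sum_congr rfl fun q _ => ?_
    rw [show G j = s.basisVec hs sM j from congrFun (OrthonormalBasis.coe_mk _ _) j,
      Submodule.coe_inner, Ctx.stageOp_val]
    show _ = conj ⟪(Real.sqrt (volPt.real S.dM.S) : ℂ) • Frame.vecM sM j,
      rho P.placesM (rep q)⁻¹ (S.twistData.twist
        ((Real.sqrt (volPt.real S.dM.S) : ℂ) • Frame.vecM sM j))⟫_ℂ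
    rw [map_smul, map_smul, inner_smul_left, inner_smul_right, Complex.conj_ofReal, ← mul_assoc,
      ← Complex.ofReal_mul, Real.mul_self_sqrt measureReal_nonneg, map_mul, Complex.conj_ofReal]
  rw [hsum]
  refine (map_ne_zero _).mpr (mul_ne_zero (Nat.cast_ne_zero.mpr ?_) (s.trace_base_ne_zero hs))
  have hq₁ : ((1 : GL (Fin 2) (AF D.M)) : FinPt D.M (lv D.M S.N')) ∈ Q :=
    (Set.Finite.mem_toFinset _).mpr ⟨1, ramElement_one, rfl⟩
  refine fun h0 => ?_
  have hz : c ⟨_, hq₁⟩ = 0 := Finset.sum_eq_zero_iff.mp h0 _ (Finset.mem_univ _)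
  obtain ⟨c₁, hc₁, hc₁pos⟩ := C.trace_stage ↑C.R (Set.Subset.refl _) 1 (one_mem _)
    fun v _ => by rw [map_one]; rfl
  have hop : C.stageOp ↑C.R (rep _)⁻¹ (htop ⟨_, hq₁⟩) = C.stageOp ↑C.R 1 (one_mem _) := by
    refine LinearMap.ext fun u => Subtype.ext ?_
    rw [Ctx.stageOp_val, Ctx.stageOp_val, rho_of_mem_level
      (C.twist_mem_stage u.2).sys.level (Subgroup.inv_mem _ ?_), map_one]
    · rfl
    · have h1 := QuotientGroup.eq.mp (hrep _ hq₁).2.symm
      rwa [inv_one, one_mul] at h1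
  have h2 := hc ⟨_, hq₁⟩
  rw [hop, hc₁, hz, Nat.cast_zero, zero_mul, mul_eq_zero] at h2
  exact (hc₁pos rfl).ne' (Nat.cast_eq_zero.mp (h2.resolve_right (s.trace_base_ne_zero hs)))

end SeedAt

end FLTAgent.LanglandsTunnell.Isolation
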