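import Fermat.Agent.LanglandsTunnell.Isolation.Radial

/-!
# The degenerate spherical function, ultrametric Gram forms and the trace of a monomial map

Values of the spherical function at the boundary parameter (`phi_boundary`), definiteness of
ultrametric Gram forms with increasing levels (`eq_zero_of_gram`), and the trace of a map permuting
coordinates (`trace_monomialMap`). Used when a place of the stage is released.
-/

set_option autoImplicit false

noncomputable section

namespace FLTAgent.LanglandsTunnell.Isolation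

open scoped InnerProductSpace ComplexConjugate

section Values

variable {q : ℕ} (hq : 2 ≤ q) {ε : ℝ} (hε : ε = 1 ∨ ε = -1)

include hq hε

/-- The spherical function at the boundary parameter `2 ε √q`. -/
theorem phi_boundary : ∀ j : ℕ, TreeData.phi q ((2 * ε * Real.sqrt q : ℝ) : ℂ) j =
    (((ε / Real.sqrt q) ^ j * (1 + j * ((q : ℝ) - 1) / (q + 1)) : ℝ) : ℂ) := by
  have hr : Real.sqrt q ^ 2 = q := Real.sq_sqrt (Nat.cast_nonneg q)
  have hr0 : Real.sqrt q ≠ 0 := (Real.sqrt_pos.mpr (by positivity)).ne'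
  have hq1 : (q : ℝ) + 1 ≠ 0 := by positivity
  have hε2 : ε ^ 2 = 1 := by rcases hε with rfl | rfl <;> norm_num
  intro j
  induction j using Nat.twoStepInduction with
  | zero => simp [TreeData.phi]
  | one =>
    rw [TreeData.phi]
    push_cast
    have h1 : ((Real.sqrt q : ℝ) : ℂ) ^ 2 = q := by exact_mod_cast hr
    have h2 : ((Real.sqrt q : ℝ) : ℂ) ≠ 0 := Complex.ofReal_ne_zero.mpr hr0
    have h3 : (q : ℂ) + 1 ≠ 0 := Nat.cast_add_one_ne_zero q
    field_simp
    linear_combination 2 * (ε : ℂ) * h1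
  | more j ih0 ih1 =>
    rw [TreeData.phi, ih0, ih1]
    push_cast
    have h1 : ((Real.sqrt q : ℝ) : ℂ) ^ 2 = q := by exact_mod_cast hr
    have h2 : ((Real.sqrt q : ℝ) : ℂ) ≠ 0 := Complex.ofReal_ne_zero.mpr hr0
    have h3 : (q : ℂ) + 1 ≠ 0 := Nat.cast_add_one_ne_zero q
    have h4 : (q : ℂ) ≠ 0 := by
      have : q ≠ 0 := by omega
      exact_mod_cast this
    have h5 : (ε : ℂ) ^ 2 = 1 := by exact_mod_cast hε2
    set X : ℂ := (ε : ℂ) / (Real.sqrt q : ℂ) with hX
    have hX2 : X ^ 2 * q = 1 := by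
      rw [hX, div_pow, h5, h1, one_div, inv_mul_cancel₀ h4]
    have hrX : (ε : ℂ) * (Real.sqrt q : ℂ) = X * q := by
      rw [hX, div_mul_eq_mul_div, eq_div_iff h2, mul_assoc, ← sq, h1]
    rw [pow_add X j 2, pow_succ X j, div_eq_iff h4, eq_comm]
    linear_combination (X ^ j * (1 + ((j : ℂ) + 2) * ((q : ℂ) - 1) / (q + 1)) -
      2 * X ^ j * (1 + ((j : ℂ) + 1) * ((q : ℂ) - 1) / (q + 1))) * hX2 -
      2 * X ^ j * X * (1 + ((j : ℂ) + 1) * ((q : ℂ) - 1) / (q + 1)) * hrX

/-- At even distance the spherical function decreases strictly. -/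
theorem phi_even_lt (i : ℕ) :
    0 < (ε / Real.sqrt q) ^ (2 * i) * (1 + (2 * i : ℕ) * ((q : ℝ) - 1) / (q + 1)) ∧
      (ε / Real.sqrt q) ^ (2 * (i + 1)) * (1 + (2 * (i + 1) : ℕ) * ((q : ℝ) - 1) / (q + 1)) <
        (ε / Real.sqrt q) ^ (2 * i) * (1 + (2 * i : ℕ) * ((q : ℝ) - 1) / (q + 1)) := by
  have hq2 : (2 : ℝ) ≤ q := by exact_mod_cast hq
  have hε2 : ε ^ 2 = 1 := by rcases hε with rfl | rfl <;> norm_num
  have he : (ε / Real.sqrt q) ^ 2 = (q : ℝ)⁻¹ := by
    rw [div_pow, hε2, Real.sq_sqrt (Nat.cast_nonneg q), one_div]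
  simp only [pow_mul, he]
  push_cast
  have hc : 0 ≤ ((q : ℝ) - 1) / (q + 1) := div_nonneg (by linarith) (by linarith)
  have hc1 : ((q : ℝ) - 1) / (q + 1) < 1 := (div_lt_one (by linarith)).mpr (by linarith)
  have hc2 : 2 * (((q : ℝ) - 1) / (q + 1)) < (q : ℝ) - 1 := by
    rw [mul_div, div_lt_iff₀ (by linarith)]
    nlinarith
  have hp : 0 < ((q : ℝ)⁻¹) ^ i := pow_pos (by positivity) i
  have hi : (0 : ℝ) ≤ i := Nat.cast_nonneg i
  set c := ((q : ℝ) - 1) / (q + 1) with hcdef
  rw [mul_div_assoc, mul_div_assoc, ← hcdef]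
  refine ⟨by positivity, ?_⟩
  rw [pow_succ, mul_assoc]
  refine mul_lt_mul_of_pos_left ?_ hp
  rw [inv_mul_eq_div, div_lt_iff₀ (by linarith)]
  nlinarith [mul_nonneg (mul_nonneg hi hc) (by linarith : (0 : ℝ) ≤ (q : ℝ) - 2)]

theorem kappa_boundary (i : ℕ) : TreeData.kappa q ((2 * ε * Real.sqrt q : ℝ) : ℂ) i =
    ((ε / Real.sqrt q * (i / (i + 1)) : ℝ) : ℂ) := by
  have hr : Real.sqrt q ^ 2 = q := Real.sq_sqrt (Nat.cast_nonneg q)
  have hr0 : Real.sqrt q ≠ 0 := (Real.sqrt_pos.mpr (by positivity)).ne'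
  have hε2 : ε * ε = 1 := by rcases hε with rfl | rfl <;> norm_num
  induction i with
  | zero => simp [TreeData.kappa]
  | succ i ih =>
    rw [TreeData.kappa, ih]
    norm_cast
    push_cast
    have hi : (i : ℝ) + 1 ≠ 0 := by positivity
    have hi2 : (i : ℝ) + 1 + 1 ≠ 0 := by positivity
    refine inv_eq_of_mul_eq_one_right ?_
    generalize Real.sqrt q = r at hr hr0 ⊢
    rw [← hr]
    field_simp
    linear_combination ((i : ℝ) + 2) * hε2

theorem kappa_conditions (m : ℕ) :
    (∀ i < m, ((2 * ε * Real.sqrt q : ℝ) : ℂ) -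
        q * TreeData.kappa q ((2 * ε * Real.sqrt q : ℝ) : ℂ) i ≠ 0) ∧
      ((2 * ε * Real.sqrt q : ℝ) : ℂ) -
        (q + 1) * TreeData.kappa q ((2 * ε * Real.sqrt q : ℝ) : ℂ) m ≠ 0 := by
  have hq2 : (2 : ℝ) ≤ q := by exact_mod_cast hq
  have hr : Real.sqrt q ^ 2 = q := Real.sq_sqrt (Nat.cast_nonneg q)
  have hr0 : 0 < Real.sqrt q := Real.sqrt_pos.mpr (by linarith)
  have hε0 : ε ≠ 0 := by rcases hε with rfl | rfl <;> norm_num
  have key : ∀ (a : ℝ) (i : ℕ), a * (i / (i + 1)) < 2 * q →
      2 * ε * Real.sqrt q - a * (ε / Real.sqrt q * (i / (i + 1))) ≠ 0 := fun a i hlt h => by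
    have h1 : ε * (2 * q - a * (i / (i + 1))) = 0 := by
      have := congrArg (· * Real.sqrt q) h
      field_simp at this h ⊢
      linear_combination this - 2 * ε * ((i : ℝ) + 1) * hr
    rcases mul_eq_zero.mp h1 with h2 | h2
    · exact hε0 h2
    · linarith
  refine ⟨fun i _ => ?_, ?_⟩
  · rw [kappa_boundary hq hε]
    have hb : (i : ℝ) / (i + 1) < 1 := (div_lt_one (by positivity)).mpr (by linarith)
    exact_mod_cast key q i (by nlinarith)
  · rw [kappa_boundary hq hε]
    have hb : (m : ℝ) / (m + 1) < 1 := (div_lt_one (by positivity)).mpr (by linarith)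
    have hb0 : (0 : ℝ) ≤ (m : ℝ) / (m + 1) := by positivity
    exact_mod_cast key (q + 1) m (by nlinarith)

end Values

section Gram

variable {X C : Type} [Fintype X] {E : Type*} [NormedAddCommGroup E] [InnerProductSpace ℂ E]

/-- An ultrametric Gram form with strictly increasing levels is definite. -/
theorem eq_zero_of_gram (n : ℕ) (c : ℕ → X → C) (hc0 : ∀ x y, c 0 x = c 0 y)
    (hnest : ∀ i x y, i < n → c (i + 1) x = c (i + 1) y → c i x = c i y)
    (hinj : Function.Injective (c n)) (h : ℕ → ℝ) (h0 : 0 < h 0) (hinc : ∀ i < n, h i < h (i + 1))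
    (a w : X → E)
    (hG : ∀ x y, ∀ i ≤ n, c i x = c i y → (i < n → c (i + 1) x ≠ c (i + 1) y) →
      ⟪a x, a y⟫_ℂ = h i * ⟪w x, w y⟫_ℂ)
    (hsum : ∑ x, a x = 0) : w = 0 := by
  classical
  let Δ : ℕ → ℝ := fun i => if i = 0 then h 0 else h i - h (i - 1)
  have hΔ : ∀ i ≤ n, 0 < Δ i := fun i hi => by
    simp only [Δ]
    split_ifs with hi0
    · exact h0
    · obtain ⟨j, rfl⟩ := Nat.exists_eq_succ_of_ne_zero hi0
      simpa using hinc j (by omega)
  have htel : ∀ i, ∑ j ∈ Finset.range (i + 1), Δ j = h i := by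
    intro i
    induction i with
    | zero => simp [Δ]
    | succ i ih => rw [Finset.sum_range_succ, ih]; simp [Δ]
  have hdown : ∀ x y i, i ≤ n → c i x = c i y → ∀ j ≤ i, c j x = c j y := by
    intro x y i
    induction i with
    | zero => exact fun _ he j hj => by rw [Nat.le_zero.mp hj]; exact he
    | succ i ih =>
      intro hi he j hj
      rcases Nat.eq_or_lt_of_le hj with rfl | hj'
      · exact he
      · exact ih (by omega) (hnest i x y (by omega) he) j (by omega)
  have key : ∀ x y, ⟪a x, a y⟫_ℂ =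
      ∑ i ∈ Finset.range (n + 1), if c i x = c i y then (Δ i : ℂ) * ⟪w x, w y⟫_ℂ else 0 := by
    intro x y
    have hP0 : c 0 x = c 0 y := hc0 x y
    set i₀ := Nat.findGreatest (fun i => c i x = c i y) n with hi₀def
    have hi₀ : c i₀ x = c i₀ y :=
      Nat.findGreatest_spec (P := fun i => c i x = c i y) (Nat.zero_le n) hP0
    have hi₀n : i₀ ≤ n := Nat.findGreatest_le n
    have hmax : ∀ i, i₀ < i → i ≤ n → c i x ≠ c i y := fun i h1 h2 =>
      Nat.findGreatest_is_greatest (P := fun i => c i x = c i y) h1 h2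
    have hset : (Finset.range (n + 1)).filter (fun i => c i x = c i y) =
        Finset.range (i₀ + 1) := by
      ext i
      simp only [Finset.mem_filter, Finset.mem_range]
      constructor
      · rintro ⟨h1, h2⟩
        by_contra hlt
        exact hmax i (by omega) (by omega) h2
      · intro h1
        exact ⟨by omega, hdown x y i₀ hi₀n hi₀ i (by omega)⟩
    rw [hG x y i₀ hi₀n hi₀ fun hlt => hmax _ (by omega) (by omega), ← Finset.sum_filter, hset,
      ← Finset.sum_mul, ← Complex.ofReal_sum, htel]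
  have htot : (∑ i ∈ Finset.range (n + 1), (Δ i : ℂ) * ∑ t ∈ Finset.univ.image (c i),
      ⟪∑ x ∈ Finset.univ.filter (fun x => c i x = t), w x,
        ∑ x ∈ Finset.univ.filter (fun x => c i x = t), w x⟫_ℂ) = 0 := by
    have e : ⟪∑ x, a x, ∑ y, a y⟫_ℂ = 0 := by rw [hsum, inner_zero_left]
    rw [sum_inner, Finset.sum_congr rfl fun x _ => inner_sum (𝕜 := ℂ) Finset.univ a (a x)] at e
    simp only [key] at e
    rw [Finset.sum_congr rfl fun x _ => Finset.sum_comm, Finset.sum_comm] at e
    rw [← e]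
    refine Finset.sum_congr rfl fun i _ => ?_
    simp only [sum_inner]
    simp only [inner_sum, Finset.mul_sum]
    rw [← Finset.sum_fiberwise_of_maps_to (t := Finset.univ.image (c i))
      (fun x _ => Finset.mem_image_of_mem (c i) (Finset.mem_univ x))]
    refine Finset.sum_congr rfl fun t _ => Finset.sum_congr rfl fun x hx => ?_
    rw [← Finset.sum_filter]
    refine Finset.sum_congr ?_ fun y _ => ?_
    swap
    · rfl
    ext y
    simp only [Finset.mem_filter, Finset.mem_univ, true_and] at hx ⊢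
    rw [hx, eq_comm]
  have hre := congrArg Complex.re htot
  simp only [Complex.re_sum, Complex.re_ofReal_mul, Complex.zero_re] at hre
  have hn' := (Finset.sum_eq_zero_iff_of_nonneg fun i hi => mul_nonneg
    (hΔ i (by simpa [Nat.lt_succ_iff] using hi)).le (Finset.sum_nonneg fun t _ => by
      rw [← RCLike.re_to_complex]
      exact inner_self_nonneg)).mp hre n (by simp)
  rcases mul_eq_zero.mp hn' with h1 | h1
  · exact absurd h1 (hΔ n le_rfl).ne'
  funext x
  have h2 := (Finset.sum_eq_zero_iff_of_nonneg fun t _ => by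
    rw [← RCLike.re_to_complex]
    exact inner_self_nonneg).mp h1 (c n x) (Finset.mem_image_of_mem _ (Finset.mem_univ x))
  have h3 : Finset.univ.filter (fun y => c n y = c n x) = {x} := by
    ext y
    simp [hinj.eq_iff]
  rw [h3, Finset.sum_singleton, ← RCLike.re_to_complex, inner_self_eq_norm_sq] at h2
  simpa using h2

end Gram

section MonomialTrace

variable {X V : Type} [Fintype X] [DecidableEq X] [AddCommGroup V] [Module ℂ V]
  [FiniteDimensional ℂ V]

/-- Permute the coordinates and apply a map in each. -/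
def monomialMap (p : X → X) (T : V →ₗ[ℂ] V) : (X → V) →ₗ[ℂ] (X → V) :=
  LinearMap.pi fun x => T.comp (LinearMap.proj (p x))

omit [Fintype X] [DecidableEq X] [FiniteDimensional ℂ V] in
@[simp] theorem monomialMap_apply (p : X → X) (T : V →ₗ[ℂ] V) (w : X → V) (x : X) :
    monomialMap p T w x = T (w (p x)) := rfl

theorem trace_monomialMap (p : X → X) (T : V →ₗ[ℂ] V) :
    LinearMap.trace ℂ (X → V) (monomialMap p T) =
      ((Finset.univ.filter fun x => p x = x).card : ℂ) * LinearMap.trace ℂ V T := by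
  classical
  let b := Module.finBasis ℂ V
  let B := Pi.basis fun _ : X => b
  rw [LinearMap.trace_eq_matrix_trace ℂ B, LinearMap.trace_eq_matrix_trace ℂ b, Matrix.trace,
    Matrix.trace, Fintype.sum_sigma]
  have e : ∀ x i, Matrix.diag (LinearMap.toMatrix B B (monomialMap p T)) ⟨x, i⟩ =
      if p x = x then Matrix.diag (LinearMap.toMatrix b b T) i else 0 := by
    intro x i
    simp only [Matrix.diag, LinearMap.toMatrix_apply, B, Pi.basis_apply, Pi.basis_repr,
      monomialMap_apply]
    by_cases hx : p x = x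
    · simp [hx]
    · simp [hx]
  simp only [e]
  rw [Finset.sum_congr rfl fun x _ => Finset.sum_ite_irrel _ _ _ _]
  simp [Finset.sum_ite, Finset.mul_sum]

end MonomialTrace

end FLTAgent.LanglandsTunnell.Isolation
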