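import Fermat.Agent.LanglandsTunnell.Isolation.Stage
import Fermat.Agent.LanglandsTunnell.Isolation.LocalLevel
import Fermat.Agent.LanglandsTunnell.Isolation.Sphere
import Fermat.Agent.LanglandsTunnell.Geom.Lattices

/-!
# Releasing one place

The stage with `w` released consists of the functions on one sphere of the tree at `w` with values
in the stage before; an integral translation after the twist permutes the vertices.
-/

set_option autoImplicit false

noncomputable section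

namespace FLTAgent.LanglandsTunnell.Isolation

open FLTAgent.LanglandsTunnell NumberField Matrix MeasureTheory Function
open scoped InnerProductSpace ComplexConjugate

variable {F : Type} [Field F] [NumberField F] {ι : Type} [Fintype ι] [DecidableEq ι]
  {Φ : PlaceChoice F ι} {w : Ideal (𝓞 F)} {hw : w.IsPrime} {hw0 : w ≠ ⊥}

namespace LocalParams

variable (P : LocalParams hw hw0)

/-- The vertices of the sphere of radius `n`. -/
abbrev Sph (n : ℕ) : Type := ↥(localK hw hw0) ⧸ (P.gamma n).subgroupOf (localK hw hw0)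

variable {n : ℕ}

theorem out_mem (x : P.Sph n) : (x.out : GL (Fin 2) (AF F)) ∈ localK hw hw0 := x.out.2

theorem sph_eq_iff {x : P.Sph n} {k : ↥(localK hw hw0)} :
    x = QuotientGroup.mk k ↔ (x.out : GL (Fin 2) (AF F))⁻¹ * k ∈ P.gamma n := by
  conv_lhs => rw [← QuotientGroup.out_eq' x]
  rw [QuotientGroup.eq, Subgroup.mem_subgroupOf]
  simp

omit [DecidableEq ι] in
/-- Translates to one vertex agree on fixed vectors. -/
theorem rho_vertex {u : Smooth Φ} (hu : LocalFixed hw hw0 u) {k k' : GL (Fin 2) (AF F)}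
    (h : k⁻¹ * k' ∈ P.gamma n) :
    rho Φ (k' * P.tree.D ^ n) u = rho Φ (k * P.tree.D ^ n) u := by
  rw [show k' * P.tree.D ^ n =
    k * P.tree.D ^ n * ((P.tree.D ^ n)⁻¹ * (k⁻¹ * k') * P.tree.D ^ n) by group, rho_mul,
    hu _ (P.mem_gamma.mp h).2]

theorem finite_sph {N m : ℕ} {u : (OH F)ˣ} (hN : N ≠ 0)
    (hexp : placeAF hw hw0 * (N : AF F) =
      placeAF hw hw0 * ((P.π : AF F) ^ (m + 1) * intHom F (u : OH F))) :
    Finite (P.Sph (m + 1)) := by
  have hfin := Geom.finite_bounded (n := lv F N) (lv_ne_bot hN) (M := 1) one_ne_zero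
  have := hfin.to_subtype
  have hb : ∀ x : P.Sph (m + 1), (x.out : GL (Fin 2) (AF F)) ∈
      {g : GL (Fin 2) (AF F) | LanglandsTunnell.Geom.Bounded 1 g} := fun x =>
    ⟨fun i j => by simpa using (P.out_mem x).2.1.mem_intAF i j,
      fun i j => by simpa using (P.out_mem x).2.2.mem_intAF i j⟩
  refine Finite.of_injective (fun x : P.Sph (m + 1) =>
    (⟨_, ⟨_, hb x, rfl⟩⟩ :
      ((fun g : GL (Fin 2) (AF F) => (g : FinPt F (lv F N))) ''
        {g | LanglandsTunnell.Geom.Bounded 1 g} : Set _))) fun x y hxy => ?_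
  have h1 := QuotientGroup.eq.mp (congrArg Subtype.val hxy)
  rw [← QuotientGroup.out_eq' y, P.sph_eq_iff]
  obtain ⟨p, hp, z, hz, e⟩ := Subgroup.mem_sup_of_normal_right.mp h1
  have hK : (x.out : GL (Fin 2) (AF F))⁻¹ * y.out ∈ localK hw hw0 :=
    mul_mem (inv_mem (P.out_mem x)) (P.out_mem y)
  have hpk : part hw hw0 p ∈ P.gamma (m + 1) := P.mem_gamma_of_level hexp
    (part_mem_localK hw hw0 (principalSubgroup_mono le_top hp))
    (part_mem_principalSubgroup hw hw0 hp)
  set g := (x.out : GL (Fin 2) (AF F))⁻¹ * y.out with hg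
  have eg : g = part hw hw0 p * part hw hw0 z := by
    rw [← part_eq_self hK.1, ← e]
    exact MonoidHom.map_mul _ p z
  refine P.mem_gamma.mpr ⟨hK, ?_⟩
  have hzK : part hw hw0 z ∈ localK hw hw0 := by
    rw [show part hw hw0 z = (part hw hw0 p)⁻¹ * g by rw [eg, inv_mul_cancel_left]]
    exact mul_mem (inv_mem (P.mem_gamma.mp hpk).1) hK
  have hzc : part hw hw0 z ∈ Subgroup.center (GL (Fin 2) (AF F)) := idemPart_mem_center _ hz
  rw [eg, show (P.tree.D ^ (m + 1))⁻¹ * (part hw hw0 p * part hw hw0 z) * P.tree.D ^ (m + 1) =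
    (P.tree.D ^ (m + 1))⁻¹ * part hw hw0 p * P.tree.D ^ (m + 1) *
      ((P.tree.D ^ (m + 1))⁻¹ * part hw hw0 z * P.tree.D ^ (m + 1)) by group]
  refine mul_mem (P.mem_gamma.mp hpk).2 ?_
  rw [mul_assoc, ← Subgroup.mem_center_iff.mp hzc (P.tree.D ^ (m + 1)), inv_mul_cancel_left]
  exact hzK

/-- The chains of stabilisers as labels. -/
def label (x : P.Sph n) (i : ℕ) : Set (GL (Fin 2) (AF F)) :=
  {g | (x.out : GL (Fin 2) (AF F))⁻¹ * g ∈ P.gamma i}

theorem label_eq_iff {x y : P.Sph n} {i : ℕ} :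
    P.label x i = P.label y i ↔
      (x.out : GL (Fin 2) (AF F))⁻¹ * y.out ∈ P.gamma i := by
  constructor
  · intro h
    have h1 : (y.out : GL (Fin 2) (AF F)) ∈ P.label y i := by
      show _ ∈ P.gamma i
      rw [inv_mul_cancel]
      exact one_mem _
    rw [← h] at h1
    exact h1
  · intro h
    ext g
    show _ ∈ P.gamma i ↔ _ ∈ P.gamma i
    rw [show (x.out : GL (Fin 2) (AF F))⁻¹ * g = ((x.out : GL (Fin 2) (AF F))⁻¹ * y.out) *
      ((y.out : GL (Fin 2) (AF F))⁻¹ * g) by group]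
    exact (P.gamma i).mul_mem_cancel_left h

omit [DecidableEq ι] in
/-- Pairings between vertices of one sphere. -/
theorem inner_sphere [Fintype (𝓞 F ⧸ w)] [Nonempty (𝓞 F ⧸ w)] {v v' : Smooth Φ} {s : ℂ}
    (hv : LocalFixed hw hw0 v) (hv' : P.tree.IsEigen (rho Φ) v' s) (x y : P.Sph n) {i : ℕ}
    (hi : i ≤ n) (h1 : P.label x i = P.label y i)
    (h2 : i < n → P.label x (i + 1) ≠ P.label y (i + 1)) :
    ⟪rho Φ ((x.out : GL (Fin 2) (AF F)) * P.tree.D ^ n) v,
      rho Φ ((y.out : GL (Fin 2) (AF F)) * P.tree.D ^ n) v'⟫_ℂ =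
      TreeData.phi (Fintype.card (𝓞 F ⧸ w)) s (2 * (n - i)) * ⟪v, v'⟫_ℂ := by
  set k := (x.out : GL (Fin 2) (AF F))⁻¹ * y.out with hk
  rw [← TreeData.inner_apply (rho Φ) ((x.out : GL (Fin 2) (AF F)) * P.tree.D ^ n)⁻¹,
    ← rho_mul, ← rho_mul, inv_mul_cancel, map_one,
    show ((x.out : GL (Fin 2) (AF F)) * P.tree.D ^ n)⁻¹ *
      ((y.out : GL (Fin 2) (AF F)) * P.tree.D ^ n) = (P.tree.D ^ n)⁻¹ * k * P.tree.D ^ n by
      rw [hk]; group]
  show ⟪v, _⟫_ℂ = _
  rw [P.label_eq_iff] at h1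
  rcases Nat.eq_or_lt_of_le hi with rfl | hlt
  · rw [hv'.fixed _ (P.mem_gamma.mp h1).2, Nat.sub_self, mul_zero]
    simp [TreeData.phi]
  · have h2' := h2 hlt
    rw [Ne, P.label_eq_iff] at h2'
    obtain ⟨j, rfl⟩ := Nat.exists_eq_add_of_le hi
    obtain ⟨k₁, k₂, z, hk₁, hk₂, hz, e⟩ := P.conj_mem_sphere (j := j) h1 h2'
    rw [e, rho_mul _ z, rho_center hz, Nat.add_sub_cancel_left]
    exact hv'.inner_coset (central P) hv hk₁ hk₂ _

end LocalParams

namespace Ctx

variable (C : Ctx Φ) (hwR : w ∈ C.R) {Q : Set (Ideal (𝓞 F))} (hwQ : w ∉ Q)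
  (P : LocalParams (C.prime w hwR) (C.ne_bot w hwR)) {m : ℕ} {ue : (OH F)ˣ}
  (hexp : placeAF (C.prime w hwR) (C.ne_bot w hwR) * (C.N : AF F) =
    placeAF (C.prime w hwR) (C.ne_bot w hwR) * ((P.π : AF F) ^ (m + 1) * intHom F (ue : OH F)))

include hwQ in
theorem eigen_of_stage (u : C.stage Q) :
    EigenAt (C.prime w hwR) (C.ne_bot w hwR) (u : Smooth Φ) (C.s w) := u.2.eigen w hwR hwQ

include hwQ hexp in
theorem vertex_mem (k : GL (Fin 2) (AF F)) (hk : k ∈ localK (C.prime w hwR) (C.ne_bot w hwR))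
    (u : C.stage Q) :
    rho Φ (k * P.tree.D ^ (m + 1)) (u : Smooth Φ) ∈ C.stage (insert w Q) := by
  set h := k * P.tree.D ^ (m + 1) with hh
  have hl : h ∈ localGroup (C.prime w hwR) (C.ne_bot w hwR) :=
    mul_mem hk.1 (P.localAt_pow _)
  refine ⟨⟨isLevel_of_fixed C.hN fun q hq => ?_, u.2.sys.spherical.translate h,
    fun v hv hv0 hvN => (u.2.sys.sys v hv hv0 hvN).rho_away (away_of_local ?_ hl)⟩,
    fun v hv hvQ => (u.2.eigen v hv fun hmem => hvQ (Set.mem_insert_of_mem w hmem)).rho_away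
      (away_of_local (fun e => hvQ (by rw [e]; exact Set.mem_insert w Q)) hl)⟩
  · set q₁ := part (C.prime w hwR) (C.ne_bot w hwR) q
    set q₂ := copart (C.prime w hwR) (C.ne_bot w hwR) q
    have hc : q₂ * h = h * q₂ := (commute_away hl (copart_mem_awayGroup _ _ q)).eq.symm
    have hq₁ : q₁ ∈ principalSubgroup (lv F C.N) := part_mem_principalSubgroup _ _ hq
    have hn := conj_mem_principalSubgroup hk.2 hq₁
    have hg : k⁻¹ * q₁ * k ∈ P.gamma (m + 1) := P.mem_gamma_of_level hexp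
      (mul_mem (mul_mem (inv_mem hk)
        (part_mem_localK _ _ (principalSubgroup_mono le_top hq))) hk) hn
    rw [show q = q₁ * q₂ from (part_mul_copart _ _ q).symm, ← rho_mul, mul_assoc, hc,
      ← mul_assoc, rho_mul _ q₂, rho_of_mem_level u.2.sys.level
        (Subgroup.mem_sup_left (copart_mem_principalSubgroup _ _ hq)), hh]
    rw [show q₁ * (k * P.tree.D ^ (m + 1)) = q₁ * k * P.tree.D ^ (m + 1) by group]
    refine P.rho_vertex (C.eigen_of_stage hwR hwQ u).fixed ?_
    rwa [← mul_assoc]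
  · exact fun e => hvN (Ideal.dvd_iff_le.mpr ((Ideal.span_singleton_le_iff_mem _).mpr
      (e ▸ C.mem_N w hwR)))

variable [Fintype (P.Sph (m + 1))]

/-- Functions on the sphere with values in the stage, as vectors of the next stage. -/
def sphereMap : (P.Sph (m + 1) → C.stage Q) →ₗ[ℂ] C.stage (insert w Q) where
  toFun a := ∑ x, ⟨_, C.vertex_mem hwR hwQ P hexp _ (P.out_mem x) (a x)⟩
  map_add' a b := by
    rw [← Finset.sum_add_distrib]
    exact Finset.sum_congr rfl fun x _ => Subtype.ext (by simp)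
  map_smul' c a := by
    rw [Finset.smul_sum]
    exact Finset.sum_congr rfl fun x _ => Subtype.ext (by simp)

theorem sphereMap_val (a : P.Sph (m + 1) → C.stage Q) :
    (C.sphereMap hwR hwQ P hexp a : Smooth Φ) =
      ∑ x, rho Φ ((x.out : GL (Fin 2) (AF F)) * P.tree.D ^ (m + 1)) (a x : Smooth Φ) := by
  show ((∑ x, (⟨_, _⟩ : C.stage (insert w Q))) : C.stage (insert w Q)).1 = _
  rw [Submodule.coe_sum]

include hwR in
theorem two_le_card [Fintype (𝓞 F ⧸ w)] :
    2 ≤ Fintype.card (𝓞 F ⧸ w) ∧ (Fintype.card (𝓞 F ⧸ w) : ℕ) = Ideal.absNorm w := by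
  have e : Fintype.card (𝓞 F ⧸ w) = Ideal.absNorm w := by
    rw [Ideal.absNorm_apply, Submodule.cardQuot_apply, Nat.card_eq_fintype_card]
  refine ⟨?_, e⟩
  rw [e]
  have h0 : Ideal.absNorm w ≠ 0 := fun h => C.ne_bot w hwR (Ideal.absNorm_eq_zero_iff.mp h)
  have h1 : Ideal.absNorm w ≠ 1 := fun h =>
    (C.prime w hwR).ne_top (Ideal.absNorm_eq_one_iff.mp h)
  omega

theorem sphereMap_injective : Injective (C.sphereMap hwR hwQ P hexp) := by
  have := finite_residue (F := F) (C.ne_bot w hwR)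
  let := Fintype.ofFinite (𝓞 F ⧸ w)
  have : Nonempty (𝓞 F ⧸ w) := ⟨0⟩
  obtain ⟨hq, hcard⟩ := C.two_le_card hwR
  have hε := C.sign_eq w hwR
  refine (injective_iff_map_eq_zero _).mpr fun a ha => ?_
  have ha' := congrArg Subtype.val ha
  rw [C.sphereMap_val] at ha'
  set q := Fintype.card (𝓞 F ⧸ w)
  let ψ : ℕ → ℝ := fun j =>
    (C.sign w / Real.sqrt q) ^ j * (1 + j * ((q : ℝ) - 1) / (q + 1))
  have hψ : ∀ j, TreeData.phi q (C.s w) j = ((ψ j : ℝ) : ℂ) := fun j => by
    rw [Ctx.s, ← hcard]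
    exact phi_boundary hq hε j
  have hz := eq_zero_of_gram (E := Smooth Φ) (m + 1) (fun i x => P.label x i) (fun x y => ?_)
    (fun i x y _ h => ?_) (fun x y h => ?_) (fun i => ψ (2 * (m + 1 - i))) ?_ (fun i hi => ?_)
    (fun x => rho Φ ((x.out : GL (Fin 2) (AF F)) * P.tree.D ^ (m + 1)) (a x : Smooth Φ))
    (fun x => (a x : Smooth Φ)) (fun x y i hi h1 h2 => ?_) ha'
  · exact funext fun x => Subtype.ext (congrFun hz x)
  · rw [P.label_eq_iff, P.gamma_zero]
    exact mul_mem (inv_mem (P.out_mem x)) (P.out_mem y)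
  · rw [P.label_eq_iff] at h ⊢
    exact P.gamma_succ_le i h
  · rw [P.label_eq_iff] at h
    rw [← QuotientGroup.out_eq' y, P.sph_eq_iff]
    exact h
  · exact (phi_even_lt hq hε (m + 1)).1.trans_eq (by simp [ψ])
  · obtain ⟨l, hl⟩ : ∃ l, m + 1 - i = l + 1 := ⟨m - i, by omega⟩
    rw [hl, show m + 1 - (i + 1) = l by omega]
    exact (phi_even_lt hq hε l).2
  · rw [P.inner_sphere (C.eigen_of_stage hwR hwQ (a x)).fixed
      ((C.eigen_of_stage hwR hwQ (a y)).isEigen P) x y hi h1 h2, hψ]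

include hexp in
theorem sphereMap_surjective : Surjective (C.sphereMap hwR hwQ P hexp) := by
  classical
  have := finite_residue (F := F) (C.ne_bot w hwR)
  let := Fintype.ofFinite (𝓞 F ⧸ w)
  have : Nonempty (𝓞 F ⧸ w) := ⟨0⟩
  obtain ⟨hq, hcard⟩ := C.two_le_card hwR
  rw [← LinearMap.range_eq_top, ← Submodule.orthogonal_eq_bot_iff, Submodule.eq_bot_iff]
  intro f hf
  by_contra hne
  have hf0 : (f : Smooth Φ) ≠ 0 := fun h => hne (Subtype.ext h)
  -- a translate of the seed supported outside the free places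
  obtain ⟨g₀, hg₀, hne₀⟩ := C.mult f C.φ f.2.sys C.φ_mem hf0 C.φ_ne
  set S := placesOf F C.N
  have hpeel : ∀ A : Finset (Ideal (𝓞 F)),
      (∀ v ∈ A, v ∈ C.R ∧ v ∉ insert w Q) → ∃ g, InPlaces S g ∧
        (∀ v (hv : v.IsPrime) (hv0 : v ≠ ⊥), v ∈ A → g ∈ awayGroup hv hv0) ∧
        ⟪(f : Smooth Φ), rho Φ g C.φ⟫_ℂ ≠ 0 := by
    intro A
    induction A using Finset.induction with
    | empty => exact fun _ => ⟨g₀, supportedAt_inPlaces hg₀, by simp, hne₀⟩
    | insert v A hvA ih =>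
      intro hA
      obtain ⟨g, hgS, hgA, hg⟩ := ih fun x hx => hA x (Finset.mem_insert_of_mem hx)
      obtain ⟨hvR, hvQ⟩ := hA v (Finset.mem_insert_self v A)
      set hv := C.prime v hvR
      set hv0 := C.ne_bot v hvR
      refine ⟨copart hv hv0 g, fun x hx hx0 hxS => ?_, fun x hx hx0 hxA => ?_, fun hzero => hg ?_⟩
      · rcases eq_or_ne x v with rfl | hxv
        · exact copart_mem_awayGroup _ _ g
        · have := mul_mem (inv_mem (away_of_local (hw := hx) (hw0 := hx0) hxv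
            (part_mem_localGroup hv hv0 g))) (hgS x hx hx0 hxS)
          rwa [inv_mul_eq_of_eq_mul (part_mul_copart hv hv0 g).symm] at this
      · rcases Finset.mem_insert.mp hxA with rfl | hxA'
        · exact copart_mem_awayGroup _ _ g
        · have hxv : x ≠ v := fun e => hvA (e ▸ hxA')
          have := mul_mem (inv_mem (away_of_local (hw := hx) (hw0 := hx0) hxv
            (part_mem_localGroup hv hv0 g))) (hgA x hx hx0 hxA')
          rwa [inv_mul_eq_of_eq_mul (part_mul_copart hv hv0 g).symm] at this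
      · have := finite_residue (F := F) hv0
        let := Fintype.ofFinite (𝓞 F ⧸ v)
        have : Nonempty (𝓞 F ⧸ v) := ⟨0⟩
        obtain ⟨P'⟩ := nonempty_localParams hv hv0
        obtain ⟨j, k, k', z, hk, hk', hz, e⟩ :=
          P'.cartan ((mem_localGroup hv hv0).mp (part_mem_localGroup hv hv0 g))
        conv_lhs => rw [← part_mul_copart hv hv0 g, rho_mul, e, rho_mul _ z, rho_center hz]
        rw [(((C.φ_eigen v hvR).rho_away (copart_mem_awayGroup hv hv0 g)).isEigen P').inner_coset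
          (central P') (f.2.eigen v hvR hvQ).fixed hk hk' j, hzero, mul_zero]
  obtain ⟨g, hgS, hgA, hg⟩ := hpeel (C.R.filter fun v => v ∉ insert w Q)
    fun v hv => Finset.mem_filter.mp hv
  set h := part (C.prime w hwR) (C.ne_bot w hwR) g
  set y := rho Φ (copart (C.prime w hwR) (C.ne_bot w hwR) g) C.φ with hy
  have hH : principalSubgroup (lv F C.N) ≤ principalSubgroup ⊤ := principalSubgroup_mono le_top
  set v := orbitAvg (principalSubgroup (lv F C.N)) hH y with hv
  have hyR : ∀ x (hx : x ∈ C.R), x ∉ Q →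
      EigenAt (C.prime x hx) (C.ne_bot x hx) y (C.s x) := by
    intro x hx hxQ
    refine (C.φ_eigen x hx).rho_away ?_
    rcases eq_or_ne x w with rfl | hxw
    · exact copart_mem_awayGroup _ _ g
    · have hxg := hgA x (C.prime x hx) (C.ne_bot x hx) (Finset.mem_filter.mpr
        ⟨hx, fun h => (Set.mem_insert_iff.mp h).elim hxw hxQ⟩)
      have := mul_mem (inv_mem (away_of_local (hw := C.prime x hx) (hw0 := C.ne_bot x hx) hxw
        (part_mem_localGroup (C.prime w hwR) (C.ne_bot w hwR) g))) hxg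
      rwa [inv_mul_eq_of_eq_mul (part_mul_copart (C.prime w hwR) (C.ne_bot w hwR) g).symm] at this
  have hyS : ∀ x (hx : x.IsPrime) (hx0 : x ≠ ⊥), ¬ x ∣ lv F C.N →
      EigenAt hx hx0 y ((Real.sqrt (Ideal.absNorm x) : ℂ) * C.a x) := by
    intro x hx hx0 hxN
    refine (C.φ_mem.sys x hx hx0 hxN).rho_away ?_
    have hxS : x ∉ S := fun h => natCast_notMem hxN h.2
    have hxw : x ≠ w := fun e => natCast_notMem hxN (e ▸ C.mem_N w hwR)
    have := mul_mem (inv_mem (away_of_local (hw := hx) (hw0 := hx0) hxw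
      (part_mem_localGroup (C.prime w hwR) (C.ne_bot w hwR) g))) (hgS x hx hx0 hxS)
    rwa [inv_mul_eq_of_eq_mul (part_mul_copart (C.prime w hwR) (C.ne_bot w hwR) g).symm] at this
  have hvmem : v ∈ C.stage Q := by
    refine ⟨⟨isLevel_of_fixed C.hN fun q hq => orbitAvg_fixed hH y hq, ?_, fun x hx hx0 hxN => ?_⟩,
      fun x hx hxQ => ?_⟩
    · exact orbitAvg_induction hH Spherical.zero (fun _ _ => Spherical.add)
        (fun c _ => Spherical.smul c) y fun q _ => ((C.φ_mem.spherical).translate _).translate q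
    · exact orbitAvg_induction hH
        (p := fun u => EigenAt hx hx0 u ((Real.sqrt (Ideal.absNorm x) : ℂ) * C.a x))
        (EigenAt.zero hx hx0 _) (fun _ _ => EigenAt.add)
        (fun c _ => EigenAt.smul c) y fun q hq => (hyS x hx hx0 hxN).rho_top (hH hq)
    · exact orbitAvg_induction hH
        (p := fun u => EigenAt (C.prime x hx) (C.ne_bot x hx) u (C.s x))
        (EigenAt.zero _ _ _) (fun _ _ => EigenAt.add)
        (fun c _ => EigenAt.smul c) y fun q hq => (hyR x hx hxQ).rho_top (hH hq)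
  have horth : ∀ k ∈ localK (C.prime w hwR) (C.ne_bot w hwR),
      ⟪(f : Smooth Φ), rho Φ (k * P.tree.D ^ (m + 1)) v⟫_ℂ = 0 := by
    intro k hk
    set x : P.Sph (m + 1) := QuotientGroup.mk ⟨k, hk⟩
    have h1 : ⟪C.sphereMap hwR hwQ P hexp (Pi.single x ⟨v, hvmem⟩), f⟫_ℂ = 0 :=
      hf _ (LinearMap.mem_range_self _ _)
    rw [Submodule.coe_inner, C.sphereMap_val, Finset.sum_eq_single x
      (fun z _ hz => by rw [Pi.single_eq_of_ne hz]; simp) (fun h => absurd (Finset.mem_univ x) h),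
      Pi.single_eq_same] at h1
    rw [P.rho_vertex (k := (x.out : GL (Fin 2) (AF F)))
      (C.eigen_of_stage hwR hwQ ⟨v, hvmem⟩).fixed (P.sph_eq_iff.mp (rfl : x = _)),
      ← inner_conj_symm, h1, map_zero]
  obtain ⟨hne', hroot⟩ := kappa_conditions hq (C.sign_eq w hwR) m
  have hsphere := ((C.eigen_of_stage hwR hwQ ⟨v, hvmem⟩).isEigen P).inner_eq_zero_of_sphere
    (central P) (f := (f : Smooth Φ)) (m := m)
    (fun i hi => by rw [Ctx.s, ← hcard]; exact hne' i hi)
    (by rw [Ctx.s, ← hcard]; exact hroot) horth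
    (fun k hk j hj r => rho_of_mem_level f.2.sys.level
      (Subgroup.mem_sup_left (P.up_mem_level hexp hk hj r)))
  obtain ⟨j, k, k', z, hk, hk', hz, e⟩ :=
    P.cartan ((mem_localGroup (C.prime w hwR) (C.ne_bot w hwR)).mp
        (part_mem_localGroup (C.prime w hwR) (C.ne_bot w hwR) g))
  refine hg ?_
  have hvy : ⟪(f : Smooth Φ), rho Φ h v⟫_ℂ = ⟪(f : Smooth Φ), rho Φ h y⟫_ℂ := by
    refine inner_orbitAvg hH y fun q hq => ?_
    rw [rho_eq_rho_copart (hyR w hwR hwQ).fixed (hH hq), ← rho_mul,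
      (commute_away (part_mem_localGroup (C.prime w hwR) (C.ne_bot w hwR) g)
          (copart_mem_awayGroup (C.prime w hwR) (C.ne_bot w hwR) q)).eq, rho_mul,
      TreeData.inner_of_fixed (rho Φ) (rho_of_mem_level f.2.sys.level
        (Subgroup.mem_sup_left (copart_mem_principalSubgroup (C.prime w hwR) (C.ne_bot w hwR) hq)))]
  rw [← part_mul_copart (C.prime w hwR) (C.ne_bot w hwR) g, rho_mul, ← hy, ← hvy,
      show h = k * P.tree.D ^ j * k' * z from e,
    rho_mul _ z, rho_center hz, rho_mul _ k',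
    (C.eigen_of_stage hwR hwQ ⟨v, hvmem⟩).fixed k' hk']
  exact hsphere k hk j

/-- The stage with `w` released. -/
def sphereEquiv : (P.Sph (m + 1) → C.stage Q) ≃ₗ[ℂ] C.stage (insert w Q) :=
  LinearEquiv.ofBijective (C.sphereMap hwR hwQ P hexp)
    ⟨C.sphereMap_injective hwR hwQ P hexp, C.sphereMap_surjective hwR hwQ P hexp⟩

end Ctx

end FLTAgent.LanglandsTunnell.Isolation
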