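import Fermat.Agent.LanglandsTunnell.Isolation.Stage
import Fermat.Agent.LanglandsTunnell.Isolation.DiagLimit
import Fermat.Agent.LanglandsTunnell.Internal
import Fermat.Agent.LanglandsTunnell.Geom.Lattices

/-!
# The test element on functions

Its kernel is a sum over finitely many classes of integral elements; these fix the vectors that are
spherical at the ramified places.
-/

set_option autoImplicit false

noncomputable section

namespace FLTAgent.LanglandsTunnell.Isolation

open FLTAgent.LanglandsTunnell NumberField Matrix MeasureTheory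
open FLTAgent.LanglandsTunnell.Local
    (compGL mem_principalSubgroup_iff_comp exists_af_comp compGL_val)

section Components

variable {F : Type} [Field F] [NumberField F] {n : Ideal (𝓞 F)}

/-- A component vanishes if it does so at each place over the prime. -/
theorem compAF_eq_zero_of_places {p : Nat.Primes} {x : AF F}
    (h : ∀ (u : Ideal (𝓞 F)) (hu : u.IsPrime) (hu0 : u ≠ ⊥), ((p : ℕ) : 𝓞 F) ∈ u →
      placeAF hu hu0 * x = 0) : compAF p x = 0 := by
  classical
  obtain ⟨y, hy⟩ := exists_af_comp (fun q => if q = p then compAF q x else 0) {p} fun q hq =>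
    ⟨0, by rw [if_neg (by simpa using hq), map_zero]⟩
  have hy0 : y = 0 := eq_zero_of_forall_place fun u hu hu0 => by
    refine LanglandsTunnell.Local.af_ext fun q => ?_
    rw [map_mul, map_zero, hy]
    by_cases hq : q = p
    · subst hq
      rw [if_pos rfl, ← map_mul]
      by_cases hu' : ((q : ℕ) : 𝓞 F) ∈ u
      · rw [h u hu hu0 hu', map_zero]
      · rw [map_mul, compAF_placeAF hu hu0 hu', zero_mul]
    · rw [if_neg hq, mul_zero]
  have h1 := hy p
  rw [if_pos rfl, hy0, map_zero] at h1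
  exact h1.symm

theorem compGL_eq_one_of_away {p : Nat.Primes} {g : GL (Fin 2) (AF F)}
    (h : ∀ (u : Ideal (𝓞 F)) (hu : u.IsPrime) (hu0 : u ≠ ⊥), ((p : ℕ) : 𝓞 F) ∈ u →
      g ∈ awayGroup hu hu0) : compGL p g = 1 := by
  refine Units.ext (Matrix.ext fun i j => sub_eq_zero.mp ?_)
  have h1 : compAF p ((g.1 - 1) i j) = 0 := compAF_eq_zero_of_places fun u hu hu0 hp =>
    (idemPart_eq_one_iff _).mp ((mem_awayGroup hu hu0).mp (h u hu hu0 hp)) i j
  rw [Matrix.sub_apply, map_sub] at h1
  rw [compGL_val, Units.val_one, ← h1]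
  congr 1
  rw [Matrix.one_apply, Matrix.one_apply]
  split_ifs <;> simp

theorem compGL_copart {p : Nat.Primes} {w : Ideal (𝓞 F)} (hw : w.IsPrime) (hw0 : w ≠ ⊥)
    (hp : ((p : ℕ) : 𝓞 F) ∉ w) (g : GL (Fin 2) (AF F)) :
    compGL p (copart hw hw0 g) = compGL p g := by
  refine Units.ext (Matrix.ext fun i j => ?_)
  rw [compGL_val, compGL_val, idemPart_val, Matrix.add_apply, Matrix.smul_apply, Matrix.smul_apply,
    smul_eq_mul, smul_eq_mul, sub_sub_cancel, map_add, map_mul, map_mul, map_sub, map_one,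
    compAF_placeAF hw hw0 hp]
  ring

end Components

variable {D : Datum} {σ : D.M ≃ₐ[ℚ] D.M} {R : Finset Nat.Primes} {N₀ N₁ N' : ℕ}

theorem ramElement_mem_top {ω : GL (Fin 2) (AF D.M)} (h : ramElement D σ R N₀ N₁ N' ω) :
    ω ∈ principalSubgroup (⊤ : Ideal (𝓞 D.M)) := by
  have hle : ∀ {L : Type} [Field L] (m : Ideal (𝓞 L)), principalSubgroup m ≤ principalSubgroup ⊤ :=
    fun m k hk => ⟨fun i j => by
      obtain ⟨y, hy, e⟩ := hk.1 i j
      exact ⟨y, Ideal.map_mono le_top hy, e⟩, fun i j => by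
      obtain ⟨y, hy, e⟩ := hk.2 i j
      exact ⟨y, Ideal.map_mono le_top hy, e⟩⟩
  have htop : (⊤ : Ideal (𝓞 D.M)) = Ideal.span {((1 : ℕ) : 𝓞 D.M)} := by simp
  have key : ∀ g ∈ principalSubgroup (⊤ : Ideal (𝓞 D.M)), ∀ p : Nat.Primes,
      compGL p g ∈ LanglandsTunnell.Local.congrGroup (LanglandsTunnell.Local.φp D.M p)
        ((1 : ℕ) : LanglandsTunnell.Local.Op D.M p) := fun g hg p => by
    rw [htop] at hg
    exact mem_principalSubgroup_iff_comp.mp hg p
  rw [htop]
  refine mem_principalSubgroup_iff_comp.mpr fun p => ?_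
  by_cases hp : p ∈ R
  · obtain ⟨k, hk, y, hy, e⟩ := h.1 p hp
    rw [show compGL p ω = Matrix.GeneralLinearGroup.map (compAF p).toRingHom ω from rfl, e]
    refine key _ (mul_mem (mul_mem (hle _ hk) ?_) (inv_mem ?_)) p
    · have hmap : ∀ g : GL (Fin 2) (AF D.E), CongrOne ⊤ g.1 →
          CongrOne ⊤ (Matrix.GeneralLinearGroup.map (mapAF D.incl).toRingHom g).1 :=
        fun g hg i j => by
        have h1 := mapAF_mem_idealAF D.incl (hg i j)
        rw [Ideal.map_top, Matrix.sub_apply, map_sub] at h1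
        rw [Matrix.sub_apply]
        convert h1 using 2
        · rfl
        · simp only [Matrix.one_apply]
          split_ifs <;> simp
      exact ⟨hmap _ (hle _ hy).1, by rw [← map_inv]; exact hmap _ (hle _ hy).2⟩
    · have hmap : ∀ g : GL (Fin 2) (AF D.M), CongrOne ⊤ g.1 →
          CongrOne ⊤ (Matrix.GeneralLinearGroup.map (mapAF σ.toAlgHom.toRingHom).toRingHom g).1 :=
        fun g hg i j => by
        have h1 := mapAF_mem_idealAF σ.toAlgHom.toRingHom (hg i j)
        rw [Ideal.map_top, Matrix.sub_apply, map_sub] at h1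
        rw [Matrix.sub_apply]
        convert h1 using 2
        · rfl
        · simp only [Matrix.one_apply]
          split_ifs <;> simp
      exact ⟨hmap _ (hle _ hk).1, by rw [← map_inv]; exact hmap _ (hle _ hk).2⟩
  · obtain ⟨k, hk, e⟩ := h.2 p hp
    rw [show compGL p ω = Matrix.GeneralLinearGroup.map (compAF p).toRingHom ω from rfl, e]
    exact key k (hle _ hk) p

theorem ramElement_one : ramElement D σ R N₀ N₁ N' 1 :=
  ⟨fun _ _ => ⟨1, one_mem _, 1, one_mem _, by simp⟩, fun _ _ => ⟨1, one_mem _, rfl⟩⟩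

/-- Integral elements of level `N'` at the primes outside `R` fix vectors of level `N'` that are
spherical at the primes over `R`. -/
theorem rho_of_compGL {ι : Type} [Fintype ι] {Φ : PlaceChoice D.M ι}
    {u : Smooth Φ} (hu : IsLevel Φ N' u.1)
    (hfix : ∀ (w : Ideal (𝓞 D.M)) (hw : w.IsPrime) (hw0 : w ≠ ⊥) (p : Nat.Primes), p ∈ R →
      ((p : ℕ) : 𝓞 D.M) ∈ w → LocalFixed hw hw0 u)
    {ω : GL (Fin 2) (AF D.M)} (htop : ω ∈ principalSubgroup (⊤ : Ideal (𝓞 D.M)))
    (hout : ∀ q : Nat.Primes, q ∉ R → compGL q ω ∈ LanglandsTunnell.Local.congrGroup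
      (LanglandsTunnell.Local.φp D.M q) ((N' : ℕ) : LanglandsTunnell.Local.Op D.M q)) :
    rho Φ ω u = u := by
  classical
  set S : Set (Ideal (𝓞 D.M)) :=
    ⋃ p ∈ R, placesOf D.M ((p : ℕ)) with hSdef
  have hS : S.Finite := R.finite_toSet.biUnion fun p _ => finite_placesOf p.2.ne_zero
  suffices H : ∀ A : Finset (Ideal (𝓞 D.M)), ↑A ⊆ S → ∃ g ∈ principalSubgroup (⊤ : Ideal (𝓞 D.M)),
      rho Φ ω u = rho Φ g u ∧
      (∀ w (hw : w.IsPrime) (hw0 : w ≠ ⊥), w ∈ A → g ∈ awayGroup hw hw0) ∧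
      ∀ q : Nat.Primes, q ∉ R → (∀ w ∈ A, w.IsPrime → ((q : ℕ) : 𝓞 D.M) ∉ w) →
        compGL q g = compGL q ω by
    obtain ⟨g, hgtop, hg, haway, hcomp⟩ := H hS.toFinset (by simp)
    rw [hg]
    refine rho_of_mem_level hu
        (Subgroup.mem_sup_left (mem_principalSubgroup_iff_comp.mpr fun q => ?_))
    by_cases hq : q ∈ R
    · rw [compGL_eq_one_of_away fun v hv hv0 hqv => haway v hv hv0
        (hS.mem_toFinset.mpr (Set.mem_biUnion hq ⟨hv, hqv⟩))]
      exact one_mem _
    · rw [hcomp q hq fun w hw hwp hqw => ?_]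
      · exact hout q hq
      · obtain ⟨p, hp, -, hpw⟩ := Set.mem_iUnion₂.mp (hS.mem_toFinset.mp hw)
        have hne : (p : ℕ) ≠ (q : ℕ) := fun e => hq (Nat.Primes.coe_nat_injective e ▸ hp)
        obtain ⟨a, b, hab⟩ := Int.isCoprime_iff_nat_coprime.mpr
          (show Nat.Coprime (Int.natAbs (p : ℕ)) (Int.natAbs (q : ℕ)) by
            simpa using (Nat.coprime_primes p.2 q.2).mpr hne)
        refine hwp.ne_top ((Ideal.eq_top_iff_one _).mpr ?_)
        have h1 : ((a * (p : ℕ) + b * (q : ℕ) : ℤ) : 𝓞 D.M) ∈ w := by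
          push_cast
          exact add_mem (Ideal.mul_mem_left _ _ hpw) (Ideal.mul_mem_left _ _ hqw)
        rwa [hab, Int.cast_one] at h1
  intro A
  induction A using Finset.induction with
  | empty => exact fun _ => ⟨ω, htop, rfl, by simp, fun _ _ _ => rfl⟩
  | insert w A hwA ih =>
    intro hsub
    rw [Finset.coe_insert, Set.insert_subset_iff] at hsub
    obtain ⟨g, hgtop, hg, haway, hcomp⟩ := ih hsub.2
    obtain ⟨p, hp, hwp, hpw⟩ := Set.mem_iUnion₂.mp hsub.1
    have hw0 : w ≠ ⊥ := fun h => p.2.ne_zero (by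
      rw [h, Ideal.mem_bot] at hpw
      exact_mod_cast hpw)
    refine ⟨copart hwp hw0 g, copart_mem_principalSubgroup hwp hw0 hgtop,
      hg.trans (rho_eq_rho_copart (hfix w hwp hw0 p hp hpw) hgtop), fun v hv hv0 hvA => ?_,
      fun q hq hqA => ?_⟩
    · rcases Finset.mem_insert.mp hvA with rfl | hvA'
      · exact copart_mem_awayGroup _ _ g
      · have hne : v ≠ w := fun e => hwA (e ▸ hvA')
        have h1 := mul_mem (inv_mem (away_of_local (hw := hv) (hw0 := hv0) hne
          (part_mem_localGroup hwp hw0 g))) (haway v hv hv0 hvA')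
        rwa [inv_mul_eq_of_eq_mul (part_mul_copart hwp hw0 g).symm] at h1
    · rw [compGL_copart hwp hw0 (hqA w (Finset.mem_insert_self w A) hwp) g,
        hcomp q hq fun x hx => hqA x (Finset.mem_insert_of_mem hx)]

/-! ### The kernel -/

variable (D σ R N₀ N₁ N')

/-- The classes of the test elements. -/
def ramClasses : Set (FinPt D.M (lv D.M N')) :=
  (fun ω : GL (Fin 2) (AF D.M) => (ω : FinPt D.M (lv D.M N'))) ''
    {ω | ramElement D σ R N₀ N₁ N' ω}

variable {D σ R N₀ N₁ N'}

theorem finite_ramClasses (hN' : N' ≠ 0) : (ramClasses D σ R N₀ N₁ N').Finite :=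
  (LanglandsTunnell.Geom.finite_bounded (lv_ne_bot hN') (M := 1) one_ne_zero).subset
    (Set.image_mono fun ω hω =>
      ⟨fun i j => by simpa using (ramElement_mem_top hω).1.mem_intAF i j,
        fun i j => by simpa using (ramElement_mem_top hω).2.mem_intAF i j⟩)

variable (D σ R N₀ N₁ N')

open scoped Classical in
/-- A test element in a class. -/
def ramRep (q : FinPt D.M (lv D.M N')) : GL (Fin 2) (AF D.M) :=
  if h : q ∈ ramClasses D σ R N₀ N₁ N' then h.choose else 1

variable {D σ R N₀ N₁ N'}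

theorem ramRep_spec {q : FinPt D.M (lv D.M N')} (h : q ∈ ramClasses D σ R N₀ N₁ N') :
    ramElement D σ R N₀ N₁ N' (ramRep D σ R N₀ N₁ N' q) ∧
      (ramRep D σ R N₀ N₁ N' q : FinPt D.M (lv D.M N')) = q := by
  rw [ramRep, dif_pos h]
  exact h.choose_spec

theorem exists_class_of_ramKernel
    (hinv : ∀ ω k, ramElement D σ R N₀ N₁ N' ω → k ∈ principalSubgroup (lv D.M N') →
      ramElement D σ R N₀ N₁ N' (ω * k) ∧ ramElement D σ R N₀ N₁ N' (k * ω))
    (v : FinPt D.M (lv D.M N')) (u : FinPt D.M (lv D.M N')) :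
    ramKernel D σ R N₀ N₁ N' v u ≠ 0 →
      ∃ q ∈ ramClasses D σ R N₀ N₁ N', u = v.out • q := by
  intro hne
  unfold ramKernel at hne
  split_ifs at hne with hc
  · obtain ⟨g, ω, hω, hv, hu⟩ := hc
    obtain ⟨k, hk, z, hz, e⟩ := Subgroup.mem_sup_of_normal_right.mp
      (QuotientGroup.eq.mp ((QuotientGroup.out_eq' v).trans hv.symm))
    refine ⟨((k * ω : GL (Fin 2) (AF D.M)) : FinPt D.M (lv D.M N')),
      ⟨_, (hinv ω k hω hk).2, rfl⟩, ?_⟩
    rw [← hu, MulAction.Quotient.smul_coe, smul_eq_mul,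
      show g = v.out * (k * z) by rw [e, mul_inv_cancel_left],
      show v.out * (k * z) * ω = v.out * (k * ω) * z by
        rw [mul_assoc, mul_assoc k z ω, ← Subgroup.mem_center_iff.mp hz ω]; group]
    exact QuotientGroup.mk_mul_of_mem _ (Subgroup.mem_sup_right hz)
  · exact absurd rfl hne

theorem ramKernel_smul_out {q : FinPt D.M (lv D.M N')} (hq : q ∈ ramClasses D σ R N₀ N₁ N')
    (v : FinPt D.M (lv D.M N')) : ramKernel D σ R N₀ N₁ N' v (v.out • q) = 1 := by
  unfold ramKernel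
  rw [if_pos]
  obtain ⟨ω, hω, rfl⟩ := hq
  exact ⟨v.out, ω, hω, QuotientGroup.out_eq' v, by rw [MulAction.Quotient.smul_coe, smul_eq_mul]⟩

/-- The kernel as a sum over classes. -/
theorem finsum_ramKernel (hN' : N' ≠ 0)
    (hinv : ∀ ω k, ramElement D σ R N₀ N₁ N' ω → k ∈ principalSubgroup (lv D.M N') →
      ramElement D σ R N₀ N₁ N' (ω * k) ∧ ramElement D σ R N₀ N₁ N' (k * ω))
    (v : FinPt D.M (lv D.M N')) (f : FinPt D.M (lv D.M N') → ℂ) :
    ∑ᶠ u, ramKernel D σ R N₀ N₁ N' v u * f u =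
      ∑ q ∈ (finite_ramClasses (σ := σ) (R := R) (N₀ := N₀) (N₁ := N₁) hN').toFinset,
          f ((v.out * ramRep D σ R N₀ N₁ N' q :
        GL (Fin 2) (AF D.M)) : FinPt D.M (lv D.M N')) := by
  classical
  rw [finsum_eq_sum_of_support_subset _ (s := (finite_ramClasses hN').toFinset.image
      fun q : FinPt D.M (lv D.M N') => v.out • q) fun u hu => ?_,
    Finset.sum_image fun a _ b _ h => smul_left_cancel _ h]
  · refine Finset.sum_congr rfl fun q hq => ?_
    rw [Set.Finite.mem_toFinset] at hq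
    rw [ramKernel_smul_out hq, one_mul, ← smul_eq_mul, ← MulAction.Quotient.smul_coe,
      (ramRep_spec hq).2]
  · obtain ⟨q, hq, rfl⟩ := exists_class_of_ramKernel hinv v u
      (left_ne_zero_of_mul hu)
    exact Finset.mem_coe.mpr
        (Finset.mem_image_of_mem _ ((finite_ramClasses hN').mem_toFinset.mpr hq))

theorem isFiniteReal_ramKernel (hN' : N' ≠ 0)
    (hinv : ∀ ω k, ramElement D σ R N₀ N₁ N' ω → k ∈ principalSubgroup (lv D.M N') →
      ramElement D σ R N₀ N₁ N' (ω * k) ∧ ramElement D σ R N₀ N₁ N' (k * ω)) :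
    IsFiniteReal (n := lv D.M N') (ramKernel D σ R N₀ N₁ N') where
  real v u := by unfold ramKernel; split_ifs <;> simp
  le_one v u := by unfold ramKernel; split_ifs <;> simp
  supp := by
    classical
    refine ⟨(finite_ramClasses (σ := σ) (R := R) (N₀ := N₀) (N₁ := N₁) hN').toFinset.card,
      fun v => ⟨(finite_ramClasses hN').toFinset.image fun q => v.out • q, Finset.card_image_le,
        fun u hu => ?_⟩⟩
    obtain ⟨q, hq, rfl⟩ := exists_class_of_ramKernel hinv v u hu
    exact Finset.mem_image_of_mem _ ((finite_ramClasses hN').mem_toFinset.mpr hq)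

end FLTAgent.LanglandsTunnell.Isolation
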