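import Fermat.Agent.LanglandsTunnell.Isolation.Forms
import Fermat.Agent.LanglandsTunnell.Geom.Twist

/-!
# The twist by an automorphism of the field on smooth functions

It intertwines translations, moves each place to its image, and respects the Hecke operators.
-/

set_option autoImplicit false
set_option linter.unusedSectionVars false

noncomputable section

namespace FLTAgent.LanglandsTunnell.Isolation

open scoped TensorProduct
open FLTAgent.LanglandsTunnell NumberField Matrix MeasureTheory Function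
open FLTAgent.LanglandsTunnell.Geom (map_mem_levelGroup map_span_natCast_le sigmaPt_mk sigmaPt_act)

variable {F : Type} [Field F] [NumberField F] {ι : Type} [Fintype ι] [DecidableEq ι]

/-- An automorphism of the field with the permutation of the places. -/
structure TwistData (Φ : PlaceChoice F ι) : Type where
  σ : F ≃ₐ[ℚ] F
  e : ι ≃ ι
  emb : ∀ i, Φ.emb (e i) = (Φ.emb i).comp σ.toAlgHom.toRingHom

variable {Φ : PlaceChoice F ι} (T : TwistData Φ)

namespace TwistData

/-- On matrices. -/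
abbrev gl : GL (Fin 2) (AF F) →* GL (Fin 2) (AF F) :=
  GeneralLinearGroup.map (mapAF T.σ.toAlgHom.toRingHom).toRingHom

/-- On ideals. -/
abbrev ideal (w : Ideal (𝓞 F)) : Ideal (𝓞 F) :=
  Ideal.map (RingOfIntegers.mapRingHom T.σ.toAlgHom.toRingHom) w

theorem bijective_intMap :
    Bijective (RingOfIntegers.mapRingHom T.σ.toAlgHom.toRingHom : 𝓞 F →+* 𝓞 F) := by
  refine ⟨fun x y h => Subtype.ext (T.σ.injective (congrArg Subtype.val h)), fun y => ?_⟩
  refine ⟨RingOfIntegers.mapRingHom T.σ.symm.toAlgHom.toRingHom y, Subtype.ext ?_⟩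
  exact T.σ.apply_symm_apply _

theorem ideal_isPrime {w : Ideal (𝓞 F)} (hw : w.IsPrime) : (T.ideal w).IsPrime :=
  Ideal.map_isPrime_of_surjective T.bijective_intMap.2
    (by rw [(RingHom.injective_iff_ker_eq_bot _).mp T.bijective_intMap.1]; exact bot_le)

theorem ideal_ne_bot {w : Ideal (𝓞 F)} (hw0 : w ≠ ⊥) : T.ideal w ≠ ⊥ := fun h =>
  hw0 ((Ideal.map_eq_bot_iff_of_injective T.bijective_intMap.1).mp h)

theorem mem_ideal {w : Ideal (𝓞 F)} {x : 𝓞 F} :
    RingOfIntegers.mapRingHom T.σ.toAlgHom.toRingHom x ∈ T.ideal w ↔ x ∈ w := by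
  refine ⟨fun h => ?_, Ideal.mem_map_of_mem _⟩
  obtain ⟨y, hy, e⟩ := (Ideal.mem_map_iff_of_surjective _ T.bijective_intMap.2).mp h
  exact T.bijective_intMap.1 e ▸ hy

theorem natCast_mem_ideal {w : Ideal (𝓞 F)} (N : ℕ) : (N : 𝓞 F) ∈ T.ideal w ↔ (N : 𝓞 F) ∈ w := by
  rw [← T.mem_ideal (w := w) (x := (N : 𝓞 F)), map_natCast]

theorem not_dvd_ideal {w : Ideal (𝓞 F)} {N : ℕ} (h : ¬ w ∣ lv F N) : ¬ T.ideal w ∣ lv F N := by
  rw [Ideal.dvd_iff_le, Ideal.span_singleton_le_iff_mem] at h ⊢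
  rwa [T.natCast_mem_ideal]

theorem absNorm_ideal (w : Ideal (𝓞 F)) : Ideal.absNorm (T.ideal w) = Ideal.absNorm w := by
  have e : 𝓞 F ⧸ w ≃+* 𝓞 F ⧸ T.ideal w :=
    Ideal.quotientEquiv w (T.ideal w) (RingEquiv.ofBijective _ T.bijective_intMap) rfl
  simp only [Ideal.absNorm_apply, Submodule.cardQuot_apply]
  exact (Nat.card_congr e.toEquiv).symm

theorem gl_mem_levelGroup {M : ℕ} {k : GL (Fin 2) (AF F)} (hk : k ∈ levelGroup (lv F M)) :
    T.gl k ∈ levelGroup (lv F M) :=
  map_mem_levelGroup _ (map_span_natCast_le _ M) hk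

theorem gl_mem_principalSubgroup {n : Ideal (𝓞 F)} {k : GL (Fin 2) (AF F)}
    (hk : k ∈ principalSubgroup n) : T.gl k ∈ principalSubgroup (T.ideal n) := by
  have key : ∀ g : GL (Fin 2) (AF F), CongrOne n g.1 → CongrOne (T.ideal n) (T.gl g).1 := by
    intro g h i j
    have e : ((T.gl g).1 - 1) i j = mapAF T.σ.toAlgHom.toRingHom ((g.1 - 1) i j) := by
      rw [Matrix.sub_apply, Matrix.sub_apply, map_sub, Matrix.one_apply,
        apply_ite (mapAF T.σ.toAlgHom.toRingHom), map_one, map_zero]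
      rfl
    rw [e]
    exact mapAF_mem_idealAF _ (h i j)
  exact ⟨key k hk.1, by rw [← map_inv]; exact key _ hk.2⟩

theorem ideal_lv (M : ℕ) : T.ideal (lv F M) = lv F M := by
  rw [ideal, Ideal.map_span, Set.image_singleton, map_natCast]

theorem ideal_top : T.ideal ⊤ = ⊤ := Ideal.map_top _

theorem twist_mem (u : Smooth Φ) :
    (fun g P => u.1 (T.gl g) fun i => P (T.e i)) ∈ smoothSub Φ := by
  obtain ⟨M, hu⟩ := u.2
  obtain ⟨f, hf, he⟩ := hu.exists_fun
  have hle := map_span_natCast_le (F := F) T.σ.toAlgHom.toRingHom M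
  refine ⟨M, hu.ne_zero, fun x => f (sigmaPt T.σ.toAlgHom.toRingHom T.e x), ⟨fun γ x => ?_,
    fun v => ?_, ?_⟩, ?_⟩
  · rw [sigmaPt_act Φ _ hle T.e T.emb, hf.invariant]
  · exact (hf.continuous
      (sigmaPt (n := lv F M) T.σ.toAlgHom.toRingHom T.e (v, fun _ => H3.base)).1).comp
      (continuous_pi fun i => continuous_apply (A := fun _ : ι => H3) (T.e i))
  · exact hf.bounded.imp fun C hC x => hC _
  · funext g P
    show u.1 (T.gl g) _ = f (sigmaPt _ _ ((g : FinPt F _), P))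
    rw [he, sigmaPt_mk _ hle]
    rfl

/-- The twist of smooth functions. -/
def twist : Smooth Φ →ₗ[ℂ] Smooth Φ where
  toFun u := ⟨_, T.twist_mem u⟩
  map_add' _ _ := rfl
  map_smul' _ _ := rfl

theorem twist_val (u : Smooth Φ) (g : GL (Fin 2) (AF F)) (P : ι → H3) :
    (T.twist u).1 g P = u.1 (T.gl g) fun i => P (T.e i) := rfl

theorem rho_twist (g : GL (Fin 2) (AF F)) (u : Smooth Φ) :
    rho Φ g (T.twist u) = T.twist (rho Φ (T.gl g) u) := by
  refine Subtype.ext (funext fun x => funext fun P => ?_)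
  show u.1 (T.gl (x * g)) _ = u.1 (T.gl x * T.gl g) _
  rw [map_mul]

theorem isLevel_twist {M : ℕ} {u : Smooth Φ} (hu : IsLevel Φ M u.1) :
    IsLevel Φ M (T.twist u).1 := by
  refine isLevel_of_fixed hu.ne_zero fun k hk => ?_
  rw [T.rho_twist, rho_of_mem_level hu (T.gl_mem_levelGroup (Subgroup.mem_sup_left hk))]

theorem spherical_twist {u : Smooth Φ} (hu : Spherical u) : Spherical (T.twist u) := by
  intro i k hk hs g P
  obtain ⟨j, rfl⟩ := T.e.surjective i
  have h := hu j k hk hs (T.gl g) fun l => P (T.e l)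
  rw [T.twist_val]
  refine Eq.trans (integral_congr_ae (Filter.Eventually.of_forall fun Q => ?_)) h
  show _ * u.1 (T.gl g) (fun l => update P (T.e j) Q (T.e l)) = _
  congr 1
  refine congrArg (u.1 (T.gl g)) (funext fun l => ?_)
  rcases eq_or_ne l j with rfl | hl
  · rw [update_self, update_self]
  · rw [update_of_ne hl, update_of_ne (fun h => hl (T.e.injective h))]

/-- The idempotent moves with the place. -/
theorem mapAF_placeAF {w w' : Ideal (𝓞 F)} (hw : w.IsPrime) (hw0 : w ≠ ⊥) (hw' : w'.IsPrime)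
    (hw0' : w' ≠ ⊥) (hσ : T.ideal w = w') :
    mapAF T.σ.toAlgHom.toRingHom (placeAF hw hw0) = placeAF hw' hw0' := by
  have hE : mapAF T.σ.toAlgHom.toRingHom (placeAF hw hw0) *
      mapAF T.σ.toAlgHom.toRingHom (placeAF hw hw0) =
        mapAF T.σ.toAlgHom.toRingHom (placeAF hw hw0) := by
    rw [← map_mul, placeAF_mul_self]
  set E := mapAF T.σ.toAlgHom.toRingHom (placeAF hw hw0) with hEdef
  set ε := placeAF hw' hw0' with hεdef
  obtain ⟨e, he⟩ : ∃ e : OH F, intHom F e = E :=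
    mem_intAF.mp (mapAF_mem_intAF _ ⟨placeIdem hw hw0, rfl⟩)
  have he2 : e * e = e := intHom_injective (by rw [map_mul, he, hE])
  have h1 : (1 - e) ∈ idealOH w' := by
    rw [← intHom_mem_idealAF_iff, map_sub, map_one, he, hEdef, ← map_one (mapAF
      T.σ.toAlgHom.toRingHom), ← map_sub, ← hσ]
    exact mapAF_mem_idealAF _ (one_sub_placeAF_mem hw hw0)
  have hA : (1 - E) * ε = 0 := by
    rw [← he, hεdef, placeAF, ← map_one (intHom F), ← map_sub, ← map_mul,
      mul_placeIdem_eq_zero hw' hw0' (by linear_combination he2) h1, map_zero]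
  have hB : ∀ u (hu : u.IsPrime) (hu0 : u ≠ ⊥), u ≠ w' → placeAF hu hu0 * E = 0 := by
    intro u hu hu0 hne
    set v : Ideal (𝓞 F) := u.comap (RingOfIntegers.mapRingHom T.σ.toAlgHom.toRingHom) with hv
    have huv : T.ideal v = u := Ideal.map_comap_of_surjective _ T.bijective_intMap.2 u
    have := hu
    have hvp : v.IsPrime := Ideal.comap_isPrime _ _
    have hv0 : v ≠ ⊥ := fun h => hu0 (by rw [← huv, h, ideal, Ideal.map_bot])
    have hvw : v ≠ w := fun h => hne (by rw [← huv, h, hσ])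
    have hmem : e ∈ idealOH u := by
      rw [← intHom_mem_idealAF_iff, he, hEdef, ← huv]
      refine mapAF_mem_idealAF _ ?_
      rw [show placeAF hw hw0 = placeAF hw hw0 * (1 - placeAF hvp hv0) by
        rw [mul_sub, mul_one, placeAF_mul_eq_zero hw hw0 hvp hv0 hvw.symm, sub_zero]]
      exact mul_mem_idealAF_left ⟨placeIdem hw hw0, rfl⟩ (one_sub_placeAF_mem hvp hv0)
    rw [mul_comm, ← he, placeAF, ← map_mul, mul_placeIdem_eq_zero hu hu0 he2 hmem, map_zero]
  refine sub_eq_zero.mp (eq_zero_of_forall_place fun u hu hu0 => ?_)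
  rw [mul_sub]
  rcases eq_or_ne u w' with rfl | hne
  · show ε * E - ε * ε = 0
    linear_combination -hA - placeAF_mul_self hu hu0
  · rw [hB u hu hu0 hne, hεdef, placeAF_mul_eq_zero hu hu0 hw' hw0' hne, sub_zero]

/-- The inverse map on adeles. -/
abbrev invAF : AF F →ₐ[ℤ] AF F := mapAF T.σ.symm.toAlgHom.toRingHom

theorem mapAF_id_apply (y : AF F) : mapAF (RingHom.id F) y = y := by
  induction y using TensorProduct.induction_on with
  | zero => rw [map_zero]
  | tmul a z => rfl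
  | add a b ha hb => rw [map_add, ha, hb]

theorem invAF_mapAF (y : AF F) : T.invAF (mapAF T.σ.toAlgHom.toRingHom y) = y := by
  have e : T.σ.symm.toAlgHom.toRingHom.comp T.σ.toAlgHom.toRingHom = RingHom.id F :=
    RingHom.ext fun z => T.σ.symm_apply_apply z
  have e1 := AlgHom.congr_fun (mapAF_comp T.σ.toAlgHom.toRingHom T.σ.symm.toAlgHom.toRingHom) y
  rw [AlgHom.comp_apply, e, mapAF_id_apply] at e1
  exact e1

theorem mapAF_invAF (y : AF F) : mapAF T.σ.toAlgHom.toRingHom (T.invAF y) = y := by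
  have e : T.σ.toAlgHom.toRingHom.comp T.σ.symm.toAlgHom.toRingHom = RingHom.id F :=
    RingHom.ext fun z => T.σ.apply_symm_apply z
  have e1 := AlgHom.congr_fun (mapAF_comp T.σ.symm.toAlgHom.toRingHom T.σ.toAlgHom.toRingHom) y
  rw [AlgHom.comp_apply, e, mapAF_id_apply] at e1
  exact e1

theorem invAF_mem {m : Ideal (𝓞 F)} {x : AF F} (hx : x ∈ idealAF F (T.ideal m)) :
    T.invAF x ∈ idealAF F m := by
  have h2 := mapAF_mem_idealAF T.σ.symm.toAlgHom.toRingHom hx
  rwa [Ideal.map_map, show (RingOfIntegers.mapRingHom T.σ.symm.toAlgHom.toRingHom).comp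
    (RingOfIntegers.mapRingHom T.σ.toAlgHom.toRingHom) = RingHom.id _ from RingHom.ext fun z =>
      Subtype.ext (T.σ.symm_apply_apply _), Ideal.map_id] at h2

variable {w w' : Ideal (𝓞 F)} {hw : w.IsPrime} {hw0 : w ≠ ⊥} {hw' : w'.IsPrime} {hw0' : w' ≠ ⊥}

theorem gl_part (hσ : T.ideal w = w') (g : GL (Fin 2) (AF F)) :
    T.gl (part hw hw0 g) = part hw' hw0' (T.gl g) :=
  map_idemPart _ _ _ (T.mapAF_placeAF hw hw0 hw' hw0' hσ) g

theorem gl_mem_localGroup (hσ : T.ideal w = w') {g : GL (Fin 2) (AF F)}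
    (hg : g ∈ localGroup hw hw0) : T.gl g ∈ localGroup hw' hw0' := by
  show part hw' hw0' (T.gl g) = T.gl g
  rw [← T.gl_part (hw := hw) (hw0 := hw0) hσ, part_eq_self hg]

theorem gl_mem_localK (hσ : T.ideal w = w') {g : GL (Fin 2) (AF F)}
    (hg : g ∈ localK hw hw0) : T.gl g ∈ localK hw' hw0' :=
  ⟨T.gl_mem_localGroup hσ hg.1, T.ideal_top (F := F) ▸ T.gl_mem_principalSubgroup hg.2⟩

theorem gl_awayGroup (hσ : T.ideal w = w') {g : GL (Fin 2) (AF F)}
    (hg : g ∈ awayGroup hw hw0) : T.gl g ∈ awayGroup hw' hw0' := by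
  rw [mem_awayGroup, ← T.gl_part (hw := hw) (hw0 := hw0) hσ, (mem_awayGroup hw hw0).mp hg, map_one]

/-- The twist carries an eigenvector at the image to an eigenvector at the place. -/
theorem eigenAt_twist (hσ : T.ideal w = w') {u : Smooth Φ} {s : ℂ}
    (h : EigenAt hw' hw0' u s) : EigenAt hw hw0 (T.twist u) s := by
  have hf : LocalFixed hw hw0 (T.twist u) := fun k hk => by
    rw [T.rho_twist, h.fixed _ (T.gl_mem_localK hσ hk)]
  refine ⟨hf, ?_⟩
  obtain ⟨P⟩ := nonempty_localParams hw hw0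
  have := finite_residue (F := F) hw0
  let := Fintype.ofFinite (𝓞 F ⧸ w)
  set f := T.σ.toAlgHom.toRingHom with hfdef
  set π' : (AF F)ˣ := Units.map (mapAF f).toRingHom.toMonoidHom P.π with hπ'
  set c' : 𝓞 F ⧸ w → AF F := fun r => mapAF f (P.c r) with hc'
  have hrep : ∀ i, T.gl (hRep P.π P.c i) = hRep π' c' i := fun i => by
    refine Units.ext (Matrix.ext fun a b => ?_)
    show mapAF f ((hRep P.π P.c i).1 a b) = _
    cases i with
    | none =>
      fin_cases a <;> fin_cases b <;> simp [hRep, hπ', hfdef]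
    | some r =>
      rw [hRep_some_val, hRep_some_val]
      fin_cases a <;> fin_cases b <;> simp [hπ', hc', hfdef]
  have hmap : ∀ {m : Ideal (𝓞 F)} {x : AF F}, x ∈ idealAF F m → mapAF f x ∈ idealAF F (T.ideal m) :=
    fun hx => mapAF_mem_idealAF f hx
  have hπu : IsUniformizerAt ⊤ w' π' := by
    refine ⟨?_, le_antisymm ?_ ?_⟩
    · have h1 := hmap P.uniformizer.1
      rw [T.ideal_top, map_sub, map_one] at h1
      exact h1
    · intro x hx
      obtain ⟨z, hz, e⟩ := P.uniformizer.exists_eq_mul (T.invAF_mem (x := x) (by rwa [hσ]))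
      exact ⟨mapAF f z, mapAF_mem_intAF f hz, by rw [← T.mapAF_invAF x, e, map_mul]; rfl⟩
    · rintro _ ⟨y, hy, rfl⟩
      have h1 : (P.π : AF F) * T.invAF y ∈ idealAF F w :=
        P.uniformizer.2 ▸ ⟨T.invAF y, mapAF_mem_intAF _ hy, rfl⟩
      rw [← hσ]
      show (π' : AF F) * y ∈ _
      rw [← T.mapAF_invAF y, show (π' : AF F) = mapAF f (P.π : AF F) from rfl, ← map_mul]
      exact hmap h1
  have hcs : IsResidueSection ⊤ w' c' := by
    refine ⟨fun r => ?_, fun x hx => ?_⟩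
    · rw [← T.ideal_top]
      exact hmap (P.c_res.mem r)
    · obtain ⟨r, hr, hu⟩ := P.c_res.exists_unique (T.invAF x) (mapAF_mem_intAF _ hx)
      refine ⟨r, ?_, fun r' hr' => hu r' ?_⟩
      · show x - mapAF f (P.c r) ∈ _
        rw [← T.mapAF_invAF x, ← map_sub, ← hσ]
        exact hmap hr
      · show T.invAF x - P.c r' ∈ _
        have hr'' : x - mapAF f (P.c r') ∈ idealAF F w' := hr'
        rw [← T.invAF_mapAF (P.c r'), ← map_sub]
        exact T.invAF_mem (by rwa [hσ])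
  have hloc : ∀ i, hRep π' c' i ∈ localGroup hw' hw0' := fun i =>
    hrep i ▸ T.gl_mem_localGroup hσ (P.hRep_local i)
  rw [heckeAt_eq_sum P.uniformizer P.c_res P.hRep_local hf (one_mem _), ← map_smul, ← h.eigen,
    heckeAt_eq_sum hπu hcs hloc h.fixed (one_mem _), map_sum]
  exact Finset.sum_congr rfl fun i _ => by rw [one_mul, one_mul, T.rho_twist, hrep]

theorem sysOff_twist {N : ℕ} {a : Ideal (𝓞 F) → ℂ} {u : Smooth Φ} (hu : SysOff Φ N a u) :
    SysOff Φ N (fun w => a (T.ideal w)) (T.twist u) := fun w hw hw0 hwN => by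
  have h := T.eigenAt_twist (hw := hw) (hw0 := hw0) rfl
    (hu (T.ideal w) (T.ideal_isPrime hw) (T.ideal_ne_bot hw0) (T.not_dvd_ideal hwN))
  rwa [T.absNorm_ideal] at h

end TwistData

end FLTAgent.LanglandsTunnell.Isolation
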