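import Fermat.Agent.LanglandsTunnell.Isolation.Systems
import Fermat.Agent.LanglandsTunnell.Isolation.Infinity
import Fermat.Agent.LanglandsTunnell.Isolation.Twist
import Fermat.Agent.LanglandsTunnell.Expansion.CommonTranslate

/-!
# The system of the seed inside the eigenspace over `M`

All vectors of the system and level lie in the eigenspace; so there are finitely many independent
ones, all cuspidal, and any two are related by translations.
-/

set_option autoImplicit false

noncomputable section

namespace FLTAgent.LanglandsTunnell.Isolation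

open FLTAgent.LanglandsTunnell MeasureTheory NumberField Matrix
open scoped InnerProductSpace ComplexConjugate

variable {D : Datum} {P : ExtPlaces D}

/-- The seed on the side over `M`. -/
structure SeedAt (S : Frame D P) : Type where
  a : Ideal (𝓞 D.M) → ℂ
  φ : Smooth P.placesM
  sys : InSys P.placesM S.N' a φ
  ne : φ ≠ 0
  op_φ : ∀ x, Kernel.op (S.dM.K.kernel (lv D.M S.N')) (restrictLevel S.N' φ.1) x =
    S.dM.l * restrictLevel S.N' φ.1 x

namespace SeedAt

variable {S : Frame D P} (s : SeedAt S)

theorem heckeEigen_of_sys {M : ℕ} {a : Ideal (𝓞 D.M) → ℂ} {u : Smooth P.placesM}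
    (hu : InSys P.placesM M a u) :
    ∀ w : Ideal (𝓞 D.M), w.IsPrime → w ≠ ⊥ → ¬ w ∣ lv D.M M →
      HeckeEigen (restrictLevel M u.1) w (a w) := fun w hw hw0 hwM =>
  (eigenAt_iff_heckeEigen hu.level hwM _).mp (hu.sys w hw hw0 hwM)

theorem sphericalZero_of_sys {M : ℕ} {a : Ideal (𝓞 D.M) → ℂ} {u : Smooth P.placesM}
    (hu : InSys P.placesM M a u) : SphericalZero (restrictLevel M u.1) :=
  fun i k hk hs v Q => hu.spherical i k hk hs v.out Q

/-- Every vector of the system is an eigenfunction of the killing combination. -/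
theorem op_restrict {u : Smooth P.placesM} (hu : InSys P.placesM S.N' s.a u)
    (x : Pt D.M (Fin 3) (lv D.M S.N')) :
    Kernel.op (S.dM.K.kernel (lv D.M S.N')) (restrictLevel S.N' u.1) x =
      S.dM.l * restrictLevel S.N' u.1 x := by
  have key : ∀ {v : Smooth P.placesM}, InSys P.placesM S.N' s.a v → ∀ y,
      Kernel.op (S.dM.K.kernel (lv D.M S.N')) (restrictLevel S.N' v.1) y =
        ((S.dM.K.map fun T => T.coeff * Killing.wordEigen s.a T.word *
          ∏ i, csph (T.inf i)).sum) * restrictLevel S.N' v.1 y := fun {v} hv y =>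
    op_eigen_complex hv.level.automorphic.continuous (sphericalZero_of_sys hv)
      (heckeEigen_of_sys hv) S.dM.hn S.dM.fine y
  obtain ⟨y, hy⟩ : ∃ y, restrictLevel S.N' s.φ.1 y ≠ 0 := by
    by_contra h
    simp only [not_exists, not_not] at h
    exact s.ne (eq_zero_of_restrictLevel s.sys.level h)
  rw [key hu x, mul_right_cancel₀ hy ((key s.sys y).symm.trans (s.op_φ y))]

theorem exists_toV {u : Smooth P.placesM} (hu : InSys P.placesM S.N' s.a u) :
    ∃ e : S.dM.V, S.dM.efun e = restrictLevel S.N' u.1 :=
  S.dM.exists_of_eigen (bddAuto_of_isAutomorphic hu.level.ne_zero hu.level.automorphic)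
    (s.op_restrict hu)

/-- The system as a part of the eigenspace. -/
def toV : sysSub P.placesM S.test.ne_zero s.a →ₗ[ℂ] S.dM.V where
  toFun u := (s.exists_toV (mem_sysSub.mp u.2)).choose
  map_add' u v := S.dM.efun_injective (by
    rw [S.dM.efun_add, (s.exists_toV (mem_sysSub.mp (u + v).2)).choose_spec,
      (s.exists_toV (mem_sysSub.mp u.2)).choose_spec,
      (s.exists_toV (mem_sysSub.mp v.2)).choose_spec]
    rfl)
  map_smul' c u := S.dM.efun_injective (by
    rw [RingHom.id_apply, S.dM.efun_smul, (s.exists_toV (mem_sysSub.mp (c • u).2)).choose_spec,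
      (s.exists_toV (mem_sysSub.mp u.2)).choose_spec]
    rfl)

theorem efun_toV (u : sysSub P.placesM S.test.ne_zero s.a) :
    S.dM.efun (s.toV u) = restrictLevel S.N' u.1.1 :=
  (s.exists_toV (mem_sysSub.mp u.2)).choose_spec

theorem toV_injective : Function.Injective s.toV := fun u v h => by
  have h1 := congrArg S.dM.efun h
  rw [s.efun_toV, s.efun_toV] at h1
  refine Subtype.ext (Subtype.ext ?_)
  rw [← (mem_sysSub.mp u.2).level.liftForm_restrict, h1,
      (mem_sysSub.mp v.2).level.liftForm_restrict]

theorem finite_sys : FiniteDimensional ℂ (sysSub P.placesM S.test.ne_zero s.a) :=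
  FiniteDimensional.of_injective s.toV s.toV_injective

theorem cuspidal_of_sys {u : Smooth P.placesM} (hu : InSys P.placesM S.N' s.a u) :
    IsCuspidal P.placesM (restrictLevel S.N' u.1) := by
  obtain ⟨e, he⟩ := s.exists_toV hu
  exact he ▸ S.dM.isCuspidal_efun e

theorem mult (u v : Smooth P.placesM) (hu : InSys P.placesM S.N' s.a u)
    (hv : InSys P.placesM S.N' s.a v) (hu0 : u ≠ 0) (hv0 : v ≠ 0) :
    ∃ g, SupportedAt S.N' g ∧ ⟪u, rho P.placesM g v⟫_ℂ ≠ 0 :=
  exists_inner_ne_zero LanglandsTunnell.Expansion.commonTranslateSpec hu hv hu0 hv0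
    (s.cuspidal_of_sys hu) (s.cuspidal_of_sys hv)

end SeedAt

end FLTAgent.LanglandsTunnell.Isolation
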