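import Fermat.Agent.LanglandsTunnell.Isolation.Average
import Fermat.Agent.LanglandsTunnell.Isolation.Defs

/-!
# Smooth automorphic functions and their invariant inner product

Bounded automorphic functions of some level form an inner product space on which right
translations act unitarily.
-/

set_option autoImplicit false
set_option linter.unusedSectionVars false

noncomputable section

namespace FLTAgent.LanglandsTunnell.Isolation

open FLTAgent.LanglandsTunnell MeasureTheory NumberField Matrix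
open scoped ComplexConjugate InnerProductSpace

variable {F : Type} [Field F] [NumberField F] {ι : Type} [Fintype ι]

theorem lv_le {M M' : ℕ} (h : M ∣ M') : lv F M' ≤ lv F M := by
  rw [Ideal.span_singleton_le_span_singleton]
  exact Nat.cast_dvd_cast h

theorem idealAF_mono {m n : Ideal (𝓞 F)} (h : m ≤ n) {x : AF F} (hx : x ∈ idealAF F m) :
    x ∈ idealAF F n := by
  obtain ⟨y, hy, rfl⟩ := hx
  exact ⟨y, Ideal.map_mono h hy, rfl⟩

theorem principalSubgroup_mono {m n : Ideal (𝓞 F)} (h : m ≤ n) :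
    principalSubgroup m ≤ principalSubgroup n := fun _ hk =>
  ⟨fun i j => idealAF_mono h (hk.1 i j), fun i j => idealAF_mono h (hk.2 i j)⟩

/-- Conjugation into a level group is decided on the congruence subgroup. -/
theorem conj_mem_levelGroup_of {m n : Ideal (𝓞 F)} {g : GL (Fin 2) (AF F)}
    (h : ∀ k ∈ principalSubgroup m, g⁻¹ * k * g ∈ principalSubgroup n) :
    ∀ k ∈ levelGroup m, g⁻¹ * k * g ∈ levelGroup n := by
  intro k hk
  obtain ⟨p, hp, z, hz, rfl⟩ := Subgroup.mem_sup_of_normal_right.mp hk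
  rw [show g⁻¹ * (p * z) * g = g⁻¹ * p * (z * g) by group,
    ← Subgroup.mem_center_iff.mp hz g, show g⁻¹ * p * (g * z) = g⁻¹ * p * g * z by group]
  exact Subgroup.mul_mem_sup (h p hp) hz

theorem levelGroup_mono {m n : Ideal (𝓞 F)} (h : m ≤ n) : levelGroup m ≤ levelGroup n :=
  sup_le_sup_right (principalSubgroup_mono h) _

variable {Φ : PlaceChoice F ι}

theorem bddAuto_of_isAutomorphic {M : ℕ} (hM : M ≠ 0) {f : Pt F ι (lv F M) → ℂ}
    (h : IsAutomorphic Φ f) : BddAuto Φ f :=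
  ⟨h.invariant, measurable_of_fst_sections (lv_ne_bot hM) fun v => (h.continuous v).measurable,
    h.bounded⟩

/-- A bounded automorphic function of level `M`, as a function of all levels. -/
structure IsLevel (Φ : PlaceChoice F ι) (M : ℕ) (Ψ : AForm F ι) : Prop where
  ne_zero : M ≠ 0
  exists_fun : ∃ f : Pt F ι (lv F M) → ℂ, IsAutomorphic Φ f ∧ Ψ = liftForm f

/-- The function of level `M` of a function of all levels. -/
def restrictLevel (M : ℕ) (Ψ : AForm F ι) (x : Pt F ι (lv F M)) : ℂ := Ψ x.1.out x.2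

theorem restrictLevel_liftForm {M : ℕ} (f : Pt F ι (lv F M) → ℂ) :
    restrictLevel M (liftForm f) = f := by
  funext x
  show f (((x.1.out : GL (Fin 2) (AF F)) : FinPt F _), x.2) = f x
  rw [QuotientGroup.out_eq']

theorem IsLevel.automorphic {M : ℕ} {Ψ : AForm F ι} (h : IsLevel Φ M Ψ) :
    IsAutomorphic Φ (restrictLevel M Ψ) := by
  obtain ⟨f, hf, rfl⟩ := h.exists_fun
  rwa [restrictLevel_liftForm]

theorem IsLevel.liftForm_restrict {M : ℕ} {Ψ : AForm F ι} (h : IsLevel Φ M Ψ) :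
    liftForm (restrictLevel M Ψ) = Ψ := by
  obtain ⟨f, hf, rfl⟩ := h.exists_fun
  rw [restrictLevel_liftForm]

/-- Translations of levelled functions. -/
theorem isAutomorphic_comp_shiftPt {n n' : Ideal (𝓞 F)} (g : GL (Fin 2) (AF F))
    (hg : ∀ k ∈ levelGroup n', g⁻¹ * k * g ∈ levelGroup n) {f : Pt F ι n → ℂ}
    (hf : IsAutomorphic Φ f) : IsAutomorphic Φ fun x => f (shiftPt g hg x) where
  invariant γ x := by rw [shiftPt_act]; exact hf.invariant γ _
  continuous v := hf.continuous (shiftFin g hg v)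
  bounded := hf.bounded.imp fun C hC x => hC _

theorem liftForm_comp_shiftPt {n n' : Ideal (𝓞 F)} (g : GL (Fin 2) (AF F))
    (hg : ∀ k ∈ levelGroup n', g⁻¹ * k * g ∈ levelGroup n) (f : Pt F ι n → ℂ) :
    liftForm (fun x => f (shiftPt g hg x)) = rtrans g (liftForm f) := rfl

theorem IsLevel.rtrans_of {M M' : ℕ} {Ψ : AForm F ι} (h : IsLevel Φ M Ψ) (hM' : M' ≠ 0)
    {g : GL (Fin 2) (AF F)} (hg : ∀ k ∈ levelGroup (lv F M'), g⁻¹ * k * g ∈ levelGroup (lv F M)) :
    IsLevel Φ M' (rtrans g Ψ) := by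
  obtain ⟨f, hf, rfl⟩ := h.exists_fun
  exact ⟨hM', _, isAutomorphic_comp_shiftPt g hg hf, (liftForm_comp_shiftPt g hg f).symm⟩

theorem IsLevel.mono {M M' : ℕ} {Ψ : AForm F ι} (h : IsLevel Φ M Ψ) (hM' : M' ≠ 0)
    (hd : M ∣ M') : IsLevel Φ M' Ψ := by
  have h1 := h.rtrans_of hM' (g := 1) fun k hk => by
    simpa using levelGroup_mono (lv_le hd) hk
  rwa [rtrans_one] at h1

theorem IsLevel.add {M : ℕ} {Ψ Ψ' : AForm F ι} (h : IsLevel Φ M Ψ) (h' : IsLevel Φ M Ψ') :
    IsLevel Φ M (Ψ + Ψ') := by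
  obtain ⟨f, hf, rfl⟩ := h.exists_fun
  obtain ⟨f', hf', rfl⟩ := h'.exists_fun
  refine ⟨h.ne_zero, f + f', ⟨fun γ x => by simp [hf.invariant, hf'.invariant],
    fun v => (hf.continuous v).add (hf'.continuous v), ?_⟩, rfl⟩
  obtain ⟨C, hC⟩ := hf.bounded
  obtain ⟨C', hC'⟩ := hf'.bounded
  exact ⟨C + C', fun x => (norm_add_le _ _).trans (add_le_add (hC x) (hC' x))⟩

theorem IsLevel.smul {M : ℕ} {Ψ : AForm F ι} (a : ℂ) (h : IsLevel Φ M Ψ) :
    IsLevel Φ M (a • Ψ) := by
  obtain ⟨f, hf, rfl⟩ := h.exists_fun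
  refine ⟨h.ne_zero, a • f, ⟨fun γ x => by simp [hf.invariant],
    fun v => (hf.continuous v).const_smul a, ?_⟩, rfl⟩
  obtain ⟨C, hC⟩ := hf.bounded
  exact ⟨‖a‖ * C, fun x => by
    rw [Pi.smul_apply, smul_eq_mul, norm_mul]
    exact mul_le_mul_of_nonneg_left (hC x) (norm_nonneg _)⟩

/-- The bounded automorphic functions of all levels. -/
def smoothSub (Φ : PlaceChoice F ι) : Submodule ℂ (AForm F ι) where
  carrier := {Ψ | ∃ M, IsLevel Φ M Ψ}
  zero_mem' := ⟨1, one_ne_zero, 0, ⟨fun _ _ => rfl, fun _ => continuous_const, 0, fun _ => by simp⟩,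
    rfl⟩
  add_mem' := by
    rintro Ψ Ψ' ⟨M, h⟩ ⟨M', h'⟩
    have h0 := mul_ne_zero h.ne_zero h'.ne_zero
    exact ⟨M * M', (h.mono h0 (dvd_mul_right _ _)).add (h'.mono h0 (dvd_mul_left _ _))⟩
  smul_mem' := by
    rintro a Ψ ⟨M, h⟩
    exact ⟨M, h.smul a⟩

/-- The space of bounded automorphic functions of all levels. -/
abbrev Smooth (Φ : PlaceChoice F ι) : Type := smoothSub Φ

theorem exists_common_level (u v : Smooth Φ) :
    ∃ M, IsLevel Φ M u.1 ∧ IsLevel Φ M v.1 := by
  obtain ⟨M, h⟩ := u.2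
  obtain ⟨M', h'⟩ := v.2
  have h0 := mul_ne_zero h.ne_zero h'.ne_zero
  exact ⟨M * M', h.mono h0 (dvd_mul_right _ _), h'.mono h0 (dvd_mul_left _ _)⟩

/-- The pairing at one level. -/
def pairAt (Φ : PlaceChoice F ι) (M : ℕ) (u v : AForm F ι) : ℂ :=
  avg Φ fun x : Pt F ι (lv F M) => conj (restrictLevel M u x) * restrictLevel M v x

theorem BddAuto.conj_mul {n : Ideal (𝓞 F)} {f f' : Pt F ι n → ℂ} (hf : BddAuto Φ f)
    (hf' : BddAuto Φ f') : BddAuto Φ fun x => conj (f x) * f' x where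
  inv γ x := by simp only [hf.inv, hf'.inv]
  meas := (Complex.continuous_conj.measurable.comp hf.meas).mul hf'.meas
  bdd := by
    obtain ⟨C, hC⟩ := hf.bdd
    obtain ⟨C', hC'⟩ := hf'.bdd
    exact ⟨C * C', fun x => by
      rw [norm_mul, Complex.norm_conj]
      exact mul_le_mul (hC x) (hC' x) (norm_nonneg _) ((norm_nonneg _).trans (hC x))⟩

theorem pairAt_rtrans {M M' : ℕ} {u v : AForm F ι} (hu : IsLevel Φ M u) (hv : IsLevel Φ M v)
    (hM' : M' ≠ 0) {g : GL (Fin 2) (AF F)}
    (hg : ∀ k ∈ levelGroup (lv F M'), g⁻¹ * k * g ∈ levelGroup (lv F M)) :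
    pairAt Φ M' (rtrans g u) (rtrans g v) = pairAt Φ M u v := by
  obtain ⟨f, hf, rfl⟩ := hu.exists_fun
  obtain ⟨f', hf', rfl⟩ := hv.exists_fun
  rw [← liftForm_comp_shiftPt g hg f, ← liftForm_comp_shiftPt g hg f', pairAt, pairAt]
  simp only [restrictLevel_liftForm]
  exact avg_comp_shiftPt g hg Φ (lv_ne_bot hu.ne_zero) (lv_ne_bot hM')
    ((bddAuto_of_isAutomorphic hu.ne_zero hf).conj_mul (bddAuto_of_isAutomorphic hu.ne_zero hf'))

theorem pairAt_mono {M M' : ℕ} {u v : AForm F ι} (hu : IsLevel Φ M u) (hv : IsLevel Φ M v)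
    (hM' : M' ≠ 0) (hd : M ∣ M') : pairAt Φ M' u v = pairAt Φ M u v := by
  have h1 := pairAt_rtrans hu hv hM' (g := 1) fun k hk => by
    simpa using levelGroup_mono (lv_le hd) hk
  rwa [rtrans_one, rtrans_one] at h1

/-- The inner product of smooth functions. -/
def pairing (u v : Smooth Φ) : ℂ := pairAt Φ (exists_common_level u v).choose u.1 v.1

theorem pairing_eq {M : ℕ} {u v : Smooth Φ} (hu : IsLevel Φ M u.1) (hv : IsLevel Φ M v.1) :
    pairing u v = pairAt Φ M u.1 v.1 := by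
  obtain ⟨h1, h2⟩ := (exists_common_level u v).choose_spec
  have h0 := mul_ne_zero hu.ne_zero h1.ne_zero
  rw [pairing, ← pairAt_mono h1 h2 h0 (dvd_mul_left _ _),
      ← pairAt_mono hu hv h0 (dvd_mul_right _ _)]

theorem avg_conj {n : Ideal (𝓞 F)} (f : Pt F ι n → ℂ) :
    avg Φ (fun x => conj (f x)) = conj (avg Φ f) := by
  simp [avg, integral_conj]

theorem avg_add {n : Ideal (𝓞 F)} (hn : n ≠ ⊥) {f f' : Pt F ι n → ℂ} (hf : BddAuto Φ f)
    (hf' : BddAuto Φ f') : avg Φ (fun x => f x + f' x) = avg Φ f + avg Φ f' := by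
  obtain ⟨C, hC⟩ := hf.bdd
  obtain ⟨C', hC'⟩ := hf'.bdd
  have hfin := (isFundDomain_dom Φ hn).finite_volume
  rw [avg, avg, avg, integral_add
    (IntegrableOn.of_bound hfin hf.meas.aestronglyMeasurable C (Filter.Eventually.of_forall hC))
    (IntegrableOn.of_bound hfin hf'.meas.aestronglyMeasurable C' (Filter.Eventually.of_forall hC')),
    mul_add]

theorem avg_const_mul {n : Ideal (𝓞 F)} (a : ℂ) (f : Pt F ι n → ℂ) :
    avg Φ (fun x => a * f x) = a * avg Φ f := by
  rw [avg, avg, integral_const_mul]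
  ring

theorem pairing_add_left (u v w : Smooth Φ) : pairing (u + v) w = pairing u w + pairing v w := by
  obtain ⟨M, hu, hv⟩ := exists_common_level u v
  obtain ⟨M', hw⟩ := w.2
  have h0 := mul_ne_zero hu.ne_zero hw.ne_zero
  replace hu := hu.mono h0 (dvd_mul_right _ _)
  replace hv := hv.mono h0 (dvd_mul_right _ _)
  replace hw := hw.mono h0 (dvd_mul_left _ _)
  have b := fun {z : AForm F ι} (hz : IsLevel Φ (M * M') z) =>
    bddAuto_of_isAutomorphic h0 hz.automorphic
  rw [pairing_eq (u := u + v) (hu.add hv) hw, pairing_eq hu hw, pairing_eq hv hw, pairAt, pairAt,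
    pairAt, ← avg_add (lv_ne_bot h0) ((b hu).conj_mul (b hw)) ((b hv).conj_mul (b hw))]
  refine congrArg (avg Φ) (funext fun x => ?_)
  show conj (restrictLevel _ u.1 x + restrictLevel _ v.1 x) * _ = _
  rw [map_add, add_mul]

theorem pairing_smul_left (u v : Smooth Φ) (a : ℂ) :
    pairing (a • u) v = conj a * pairing u v := by
  obtain ⟨M, hu, hv⟩ := exists_common_level u v
  rw [pairing_eq (u := a • u) (hu.smul a) hv, pairing_eq hu hv, pairAt, pairAt, ← avg_const_mul]
  refine congrArg (avg Φ) (funext fun x => ?_)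
  show conj (a * restrictLevel M u.1 x) * _ = _
  rw [map_mul, mul_assoc]

theorem pairing_conj (u v : Smooth Φ) : conj (pairing v u) = pairing u v := by
  obtain ⟨M, hu, hv⟩ := exists_common_level u v
  rw [pairing_eq hu hv, pairing_eq hv hu, pairAt, pairAt, ← avg_conj]
  refine congrArg (avg Φ) (funext fun x => ?_)
  rw [map_mul, Complex.conj_conj, mul_comm]

theorem pairing_self {M : ℕ} {u : Smooth Φ} (hu : IsLevel Φ M u.1) :
    pairing u u = (((volPt.real (dom Φ (lv F M)))⁻¹ *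
      ∫ x in dom Φ (lv F M), ‖restrictLevel M u.1 x‖ ^ 2 ∂volPt : ℝ) : ℂ) := by
  rw [pairing_eq hu hu, pairAt, avg, Complex.ofReal_mul, Complex.ofReal_inv]
  refine congrArg _ ((integral_congr_ae (Filter.Eventually.of_forall fun x => ?_)).trans
    integral_ofReal)
  simp [Complex.conj_mul']

theorem eq_zero_of_pairing_self {u : Smooth Φ} (h : pairing u u = 0) : u = 0 := by
  obtain ⟨M, hu⟩ := u.2
  have hn := lv_ne_bot (F := F) hu.ne_zero
  have hS := isFundDomain_dom Φ hn
  rw [pairing_self hu, Complex.ofReal_eq_zero, mul_eq_zero,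
    or_iff_right (inv_ne_zero (fundDomain_real_ne_zero hn hS))] at h
  have hb := bddAuto_of_isAutomorphic hu.ne_zero hu.automorphic
  obtain ⟨C, hC⟩ := hb.bdd
  have hint : IntegrableOn (fun x => ‖restrictLevel M u.1 x‖ ^ 2) (dom Φ (lv F M)) volPt :=
    IntegrableOn.of_bound hS.finite_volume (hb.meas.norm.pow_const 2).aestronglyMeasurable (C ^ 2)
      (Filter.Eventually.of_forall fun x => by
        rw [Real.norm_of_nonneg (sq_nonneg _)]
        exact pow_le_pow_left₀ (norm_nonneg _) (hC x) 2)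
  have h0 := (integral_eq_zero_iff_of_nonneg (fun x => sq_nonneg _) hint).mp h
  have hz := eq_zero_of_ae_domain Φ hn hS hb.inv hu.automorphic.continuous hb.meas
    (((ae_restrict_iff' hS.measurable).mp h0).mono fun x hx hxS => by simpa using hx hxS)
  refine Subtype.ext ?_
  rw [← hu.liftForm_restrict, hz]
  rfl

instance instCoreSmooth (Φ : PlaceChoice F ι) : InnerProductSpace.Core ℂ (Smooth Φ) where
  inner := pairing
  conj_inner_symm := pairing_conj
  re_inner_nonneg u := by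
    obtain ⟨M, hu⟩ := u.2
    show 0 ≤ (pairing u u).re
    rw [pairing_self hu, Complex.ofReal_re]
    exact mul_nonneg (inv_nonneg.mpr measureReal_nonneg) (integral_nonneg fun x => sq_nonneg _)
  add_left := pairing_add_left
  smul_left u v a := pairing_smul_left u v a
  definite _ := eq_zero_of_pairing_self

instance instNormedSmooth (Φ : PlaceChoice F ι) : NormedAddCommGroup (Smooth Φ) :=
  (instCoreSmooth Φ).toNormedAddCommGroup

instance instInnerSmooth (Φ : PlaceChoice F ι) : InnerProductSpace ℂ (Smooth Φ) :=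
  InnerProductSpace.ofCore _

/- The topology of the norm, ahead of the one of pointwise convergence. -/
instance (priority := high) instUniformSmooth (Φ : PlaceChoice F ι) : UniformSpace (Smooth Φ) :=
  (instNormedSmooth Φ).toPseudoMetricSpace.toUniformSpace

instance (priority := high) instTopologicalSmooth (Φ : PlaceChoice F ι) :
    TopologicalSpace (Smooth Φ) :=
  (instUniformSmooth Φ).toTopologicalSpace

theorem inner_eq {M : ℕ} {u v : Smooth Φ} (hu : IsLevel Φ M u.1) (hv : IsLevel Φ M v.1) :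
    ⟪u, v⟫_ℂ = pairAt Φ M u.1 v.1 := pairing_eq hu hv

/-! ### Translations -/

theorem exists_level_conj {M : ℕ} (hM : M ≠ 0) (g : GL (Fin 2) (AF F)) :
    ∃ M' : ℕ, M' ≠ 0 ∧ ∀ k ∈ levelGroup (lv F M'), g⁻¹ * k * g ∈ levelGroup (lv F M) := by
  obtain ⟨m, hm, h⟩ := exists_conj_mem g (lv_ne_bot (F := F) hM)
  have h0 : Ideal.absNorm m ≠ 0 := fun e => hm (Ideal.absNorm_eq_zero_iff.mp e)
  refine ⟨Ideal.absNorm m, h0, conj_mem_levelGroup_of fun k hk => h k
    (principalSubgroup_mono ?_ hk)⟩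
  rw [Ideal.span_singleton_le_iff_mem]
  exact Ideal.absNorm_mem m

theorem rtrans_mem (g : GL (Fin 2) (AF F)) (u : Smooth Φ) : rtrans g u.1 ∈ smoothSub Φ := by
  obtain ⟨M, hu⟩ := u.2
  obtain ⟨M', hM', h⟩ := exists_level_conj hu.ne_zero g
  exact ⟨M', hu.rtrans_of hM' h⟩

/-- Right translation of smooth functions. -/
def translate (Φ : PlaceChoice F ι) (g : GL (Fin 2) (AF F)) : Smooth Φ →ₗ[ℂ] Smooth Φ where
  toFun u := ⟨rtrans g u.1, rtrans_mem g u⟩
  map_add' _ _ := rfl
  map_smul' _ _ := rfl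

@[simp] theorem translate_val (g : GL (Fin 2) (AF F)) (u : Smooth Φ) :
    (translate Φ g u).1 = rtrans g u.1 := rfl

@[simp] theorem translate_one (u : Smooth Φ) : translate Φ 1 u = u :=
  Subtype.ext (rtrans_one _)

theorem translate_mul (g g' : GL (Fin 2) (AF F)) (u : Smooth Φ) :
    translate Φ (g * g') u = translate Φ g (translate Φ g' u) :=
  Subtype.ext (rtrans_mul g g' _)

theorem inner_translate (g : GL (Fin 2) (AF F)) (u v : Smooth Φ) :
    ⟪translate Φ g u, translate Φ g v⟫_ℂ = ⟪u, v⟫_ℂ := by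
  obtain ⟨M, hu, hv⟩ := exists_common_level u v
  obtain ⟨M', hM', h⟩ := exists_level_conj hu.ne_zero g
  rw [inner_eq (hu.rtrans_of hM' h) (hv.rtrans_of hM' h), inner_eq hu hv]
  exact pairAt_rtrans hu hv hM' h

variable (Φ) in
/-- Right translation as an isometry. -/
def translateEquiv (g : GL (Fin 2) (AF F)) : Smooth Φ ≃ₗᵢ[ℂ] Smooth Φ where
  toFun := translate Φ g
  invFun := translate Φ g⁻¹
  map_add' := (translate Φ g).map_add
  map_smul' := (translate Φ g).map_smul
  left_inv u := by rw [← translate_mul, inv_mul_cancel, translate_one]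
  right_inv u := by rw [← translate_mul, mul_inv_cancel, translate_one]
  norm_map' u := by
    show ‖translate Φ g u‖ = ‖u‖
    rw [@norm_eq_sqrt_re_inner ℂ, @norm_eq_sqrt_re_inner ℂ, inner_translate]

variable (Φ) in
/-- Right translations as a unitary representation. -/
def rho : GL (Fin 2) (AF F) →* (Smooth Φ ≃ₗᵢ[ℂ] Smooth Φ) where
  toFun := translateEquiv Φ
  map_one' := LinearIsometryEquiv.ext translate_one
  map_mul' g g' := LinearIsometryEquiv.ext (translate_mul g g')

@[simp] theorem rho_val (g : GL (Fin 2) (AF F)) (u : Smooth Φ) :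
    (rho Φ g u).1 = rtrans g u.1 := rfl

theorem rho_center {z : GL (Fin 2) (AF F)} (hz : z ∈ Subgroup.center (GL (Fin 2) (AF F)))
    (u : Smooth Φ) : rho Φ z u = u := by
  obtain ⟨M, hu⟩ := u.2
  obtain ⟨f, hf, he⟩ := hu.exists_fun
  refine Subtype.ext ?_
  rw [rho_val, he]
  funext g P
  show f (((g * z : GL (Fin 2) (AF F)) : FinPt F _), P) = f ((g : FinPt F _), P)
  exact congrArg (fun v => f (v, P))
    (QuotientGroup.mk_mul_of_mem g (Subgroup.mem_sup_right hz : z ∈ levelGroup (lv F M)))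

theorem rho_of_mem_level {M : ℕ} {u : Smooth Φ} (hu : IsLevel Φ M u.1) {k : GL (Fin 2) (AF F)}
    (hk : k ∈ levelGroup (lv F M)) : rho Φ k u = u := by
  obtain ⟨f, hf, he⟩ := hu.exists_fun
  refine Subtype.ext ?_
  rw [rho_val, he]
  funext g P
  show f (((g * k : GL (Fin 2) (AF F)) : FinPt F _), P) = f ((g : FinPt F _), P)
  exact congrArg (fun v => f (v, P)) (QuotientGroup.mk_mul_of_mem g hk)

end FLTAgent.LanglandsTunnell.Isolation
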