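import Mathlib

/-!
# Isolating an eigenspace by powers of a polynomial

For a symmetric operator `R` and a real number `l`, the powers of `1 - c (R - l)²` converge
strongly to the orthogonal projection on the eigenspace of `l`.
-/

set_option autoImplicit false

noncomputable section

open Filter MeasureTheory
open scoped InnerProductSpace Topology ComplexConjugate

namespace FLTAgent.LanglandsTunnell.Isolation

variable {H : Type*} [NormedAddCommGroup H] [InnerProductSpace ℂ H]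

/-- `1 - A²`. -/
def oneSubSq (A : H →L[ℂ] H) : H →L[ℂ] H := 1 - A * A

section Contraction

variable {A : H →L[ℂ] H} (hs : ∀ x y, ⟪A x, y⟫_ℂ = ⟪x, A y⟫_ℂ) (hn : ‖A‖ ≤ 1)

theorem oneSubSq_apply (A : H →L[ℂ] H) (x : H) : oneSubSq A x = x - A (A x) := rfl

include hs in
theorem symm_oneSubSq (x y : H) : ⟪oneSubSq A x, y⟫_ℂ = ⟪x, oneSubSq A y⟫_ℂ := by
  simp only [oneSubSq_apply, inner_sub_left, inner_sub_right, hs]

include hs in
theorem symm_pow_oneSubSq (n : ℕ) (x y : H) :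
    ⟪(oneSubSq A ^ n) x, y⟫_ℂ = ⟪x, (oneSubSq A ^ n) y⟫_ℂ := by
  induction n generalizing x y with
  | zero => rfl
  | succ n ih =>
    calc ⟪(oneSubSq A ^ (n + 1)) x, y⟫_ℂ = ⟪(oneSubSq A ^ n) (oneSubSq A x), y⟫_ℂ := by
          rw [pow_succ]; rfl
      _ = ⟪x, oneSubSq A ((oneSubSq A ^ n) y)⟫_ℂ := by rw [ih, symm_oneSubSq hs]
      _ = ⟪x, (oneSubSq A ^ (n + 1)) y⟫_ℂ := by rw [pow_succ']; rfl

include hn in
theorem norm_apply_le_self (x : H) : ‖A x‖ ≤ ‖x‖ :=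
  (A.le_of_opNorm_le hn x).trans (one_mul _).le

include hs in
theorem re_inner_oneSubSq (x : H) :
    RCLike.re ⟪oneSubSq A x, x⟫_ℂ = ‖x‖ ^ 2 - ‖A x‖ ^ 2 := by
  rw [oneSubSq_apply, inner_sub_left, hs, map_sub, inner_self_eq_norm_sq, inner_self_eq_norm_sq]

include hs in
theorem re_inner_oneSubSq_le (x : H) : RCLike.re ⟪oneSubSq A x, x⟫_ℂ ≤ ‖x‖ ^ 2 := by
  rw [re_inner_oneSubSq hs]
  nlinarith [sq_nonneg ‖A x‖]

include hs hn in
theorem norm_oneSubSq_sq_le (x : H) :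
    ‖oneSubSq A x‖ ^ 2 ≤ RCLike.re ⟪oneSubSq A x, x⟫_ℂ := by
  have h := pow_le_pow_left₀ (norm_nonneg (A (A x))) (norm_apply_le_self hn (A x)) 2
  rw [re_inner_oneSubSq hs, oneSubSq_apply, norm_sub_sq (𝕜 := ℂ),
    ← hs, inner_self_eq_norm_sq]
  linarith

include hs hn in
theorem norm_oneSubSq_le (x : H) : ‖oneSubSq A x‖ ≤ ‖x‖ :=
  le_of_pow_le_pow_left₀ two_ne_zero (norm_nonneg _)
    ((norm_oneSubSq_sq_le hs hn x).trans (re_inner_oneSubSq_le hs x))

include hs hn in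
theorem norm_pow_oneSubSq_le (n : ℕ) (x : H) : ‖(oneSubSq A ^ n) x‖ ≤ ‖x‖ := by
  induction n with
  | zero => exact le_of_eq rfl
  | succ n ih =>
    rw [pow_succ']
    exact (norm_oneSubSq_le hs hn _).trans ih

include hs hn in
theorem antitone_moment (x : H) :
    Antitone fun n : ℕ => RCLike.re ⟪(oneSubSq A ^ n) x, x⟫_ℂ := by
  set T := oneSubSq A
  have hsplit : ∀ a b : ℕ, ⟪(T ^ (a + b)) x, x⟫_ℂ = ⟪(T ^ b) x, (T ^ a) x⟫_ℂ := fun a b => by
    rw [pow_add]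
    exact symm_pow_oneSubSq hs a _ _
  refine antitone_nat_of_succ_le fun n => ?_
  obtain ⟨j, hj⟩ := n.even_or_odd'
  rcases hj with rfl | rfl
  · have h1 : ⟪(T ^ (2 * j + 1)) x, x⟫_ℂ = ⟪T ((T ^ j) x), (T ^ j) x⟫_ℂ := by
      rw [show 2 * j + 1 = j + (j + 1) by ring, hsplit, pow_succ']
      rfl
    rw [h1, show 2 * j = j + j by ring, hsplit, inner_self_eq_norm_sq]
    exact re_inner_oneSubSq_le hs _
  · have h1 : ⟪(T ^ (2 * j + 1)) x, x⟫_ℂ = ⟪T ((T ^ j) x), (T ^ j) x⟫_ℂ := by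
      rw [show 2 * j + 1 = j + (j + 1) by ring, hsplit, pow_succ']
      rfl
    have h2 : (T ^ (j + 1)) x = T ((T ^ j) x) := by rw [pow_succ']; rfl
    rw [h1, show 2 * j + 1 + 1 = (j + 1) + (j + 1) by ring, hsplit, inner_self_eq_norm_sq, h2]
    exact norm_oneSubSq_sq_le hs hn _

include hs hn in
theorem cauchySeq_pow_apply [CompleteSpace H] (x : H) :
    CauchySeq fun n : ℕ => (oneSubSq A ^ n) x := by
  set T := oneSubSq A
  set a : ℕ → ℝ := fun n => RCLike.re ⟪(T ^ n) x, x⟫_ℂ with ha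
  have ha0 : ∀ n, 0 ≤ a (2 * n) := fun n => by
    show 0 ≤ RCLike.re ⟪(T ^ (2 * n)) x, x⟫_ℂ
    rw [two_mul, pow_add]
    refine le_of_le_of_eq (sq_nonneg ‖(T ^ n) x‖) ?_
    rw [← inner_self_eq_norm_sq (𝕜 := ℂ)]
    exact congrArg _ (symm_pow_oneSubSq hs n _ _).symm
  have hanti := antitone_moment hs hn x
  have hconv : Tendsto (fun n => a (2 * n)) atTop (𝓝 (⨅ n, a (2 * n))) :=
    tendsto_atTop_ciInf (fun m n h => hanti (Nat.mul_le_mul_left 2 h))
      ⟨0, by rintro _ ⟨n, rfl⟩; exact ha0 n⟩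
  refine Metric.cauchySeq_iff'.mpr fun ε hε => ?_
  obtain ⟨N, hN⟩ := Metric.cauchySeq_iff'.mp hconv.cauchySeq (ε ^ 2) (by positivity)
  refine ⟨N, fun n hn' => ?_⟩
  have h := hN n hn'
  rw [Real.dist_eq, abs_lt] at h
  rw [dist_eq_norm]
  refine lt_of_pow_lt_pow_left₀ 2 hε.le (lt_of_le_of_lt ?_ (show a (2 * N) - a (2 * n) < ε ^ 2 by
    linarith [h.1]))
  have hinner : ∀ i j : ℕ, RCLike.re ⟪(T ^ i) x, (T ^ j) x⟫_ℂ = a (j + i) := fun i j => by
    show _ = RCLike.re ⟪(T ^ (j + i)) x, x⟫_ℂ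
    rw [pow_add]
    exact congrArg _ (symm_pow_oneSubSq hs j _ _).symm
  rw [norm_sub_sq (𝕜 := ℂ), ← inner_self_eq_norm_sq (𝕜 := ℂ), ← inner_self_eq_norm_sq (𝕜 := ℂ),
    hinner, hinner, hinner, ← two_mul, ← two_mul]
  have : a (2 * n) ≤ a (N + n) := hanti (by omega)
  linarith

end Contraction

/-- The eigenspace. -/
def eigenSub (R : H →L[ℂ] H) (l : ℝ) : Submodule ℂ H where
  carrier := {x | R x = (l : ℂ) • x}
  add_mem' {x y} hx hy := by
    simp only [Set.mem_ofPred_eq] at hx hy ⊢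
    rw [map_add, hx, hy, smul_add]
  zero_mem' := by simp
  smul_mem' c x hx := by
    simp only [Set.mem_ofPred_eq] at hx ⊢
    rw [map_smul, hx, smul_comm]

theorem mem_eigenSub {R : H →L[ℂ] H} {l : ℝ} {x : H} : x ∈ eigenSub R l ↔ R x = (l : ℂ) • x :=
  Iff.rfl

/-- `√c (R - l)`. -/
def shiftScale (R : H →L[ℂ] H) (l c : ℝ) : H →L[ℂ] H :=
  (Real.sqrt c : ℂ) • (R - (l : ℂ) • 1)

theorem symm_shiftScale {R : H →L[ℂ] H} (hs : ∀ x y, ⟪R x, y⟫_ℂ = ⟪x, R y⟫_ℂ) (l c : ℝ)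
    (x y : H) : ⟪shiftScale R l c x, y⟫_ℂ = ⟪x, shiftScale R l c y⟫_ℂ := by
  simp [shiftScale, hs]

theorem norm_shiftScale_le {R : H →L[ℂ] H} (l : ℝ) {c : ℝ} (hc0 : 0 ≤ c)
    (hc : c * (‖R‖ + |l|) ^ 2 ≤ 1) : ‖shiftScale R l c‖ ≤ 1 := by
  refine ContinuousLinearMap.opNorm_le_bound _ zero_le_one fun x => ?_
  have h1 : ‖shiftScale R l c x‖ ≤ Real.sqrt c * ((‖R‖ + |l|) * ‖x‖) := by
    show ‖(Real.sqrt c : ℂ) • (R x - (l : ℂ) • x)‖ ≤ _
    rw [norm_smul, Complex.norm_real, Real.norm_of_nonneg (Real.sqrt_nonneg c)]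
    refine mul_le_mul_of_nonneg_left ((norm_sub_le _ _).trans ?_) (Real.sqrt_nonneg c)
    rw [norm_smul, Complex.norm_real, Real.norm_eq_abs, add_mul]
    exact add_le_add (R.le_opNorm x) le_rfl
  refine h1.trans ?_
  rw [← mul_assoc]
  refine mul_le_mul_of_nonneg_right ?_ (norm_nonneg x)
  have h0 : 0 ≤ ‖R‖ + |l| := by positivity
  rw [← Real.sqrt_sq h0, ← Real.sqrt_mul hc0]
  exact Real.sqrt_le_one.mpr hc

/-- `1 - c (R - l)²`. -/
def isolator (R : H →L[ℂ] H) (l c : ℝ) : H →L[ℂ] H :=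
  1 - (c : ℂ) • ((R - (l : ℂ) • 1) * (R - (l : ℂ) • 1))

theorem isolator_eq (R : H →L[ℂ] H) (l : ℝ) {c : ℝ} (hc0 : 0 ≤ c) :
    isolator R l c = oneSubSq (shiftScale R l c) := by
  rw [isolator, oneSubSq, shiftScale, smul_mul_smul_comm, ← Complex.ofReal_mul,
    Real.mul_self_sqrt hc0]

/-- Strong convergence to the projection on a finite-dimensional eigenspace. -/
theorem tendsto_isolator [CompleteSpace H] {R : H →L[ℂ] H}
    (hs : ∀ x y, ⟪R x, y⟫_ℂ = ⟪x, R y⟫_ℂ) (l : ℝ) {c : ℝ} (hc0 : 0 < c)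
    (hc : c * (‖R‖ + |l|) ^ 2 ≤ 1) {n : ℕ} (e : OrthonormalBasis (Fin n) ℂ (eigenSub R l))
    (x : H) :
    Tendsto (fun m : ℕ => (isolator R l c ^ m) x) atTop
      (𝓝 (∑ k, ⟪(e k : H), x⟫_ℂ • (e k : H))) := by
  rw [isolator_eq R l hc0.le]
  set A := shiftScale R l c
  have hsA : ∀ u v, ⟪A u, v⟫_ℂ = ⟪u, A v⟫_ℂ := symm_shiftScale hs l c
  have hnA : ‖A‖ ≤ 1 := norm_shiftScale_le l hc0.le hc
  obtain ⟨y, hy⟩ := cauchySeq_tendsto_of_complete (cauchySeq_pow_apply hsA hnA x)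
  have hfix : oneSubSq A y = y := by
    refine tendsto_nhds_unique ?_ (hy.comp (tendsto_add_atTop_nat 1))
    refine ((oneSubSq A).continuous.tendsto y |>.comp hy).congr fun m => ?_
    simp only [Function.comp_apply, pow_succ']
    rfl
  have hAy : A y = 0 := by
    have h1 : A (A y) = 0 := by rwa [oneSubSq_apply, sub_eq_self] at hfix
    have h2 : ⟪A y, A y⟫_ℂ = 0 := by rw [hsA, h1, inner_zero_right]
    exact inner_self_eq_zero.mp h2
  have hymem : y ∈ eigenSub R l := by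
    have h1 : (Real.sqrt c : ℂ) • (R y - (l : ℂ) • y) = 0 := hAy
    rw [smul_eq_zero, sub_eq_zero] at h1
    exact h1.resolve_left (by simpa using (Real.sqrt_pos.mpr hc0).ne')
  have hcoef : ∀ v ∈ eigenSub R l, ⟪v, y⟫_ℂ = ⟪v, x⟫_ℂ := by
    intro v hv
    have hAv : A v = 0 := by
      show (Real.sqrt c : ℂ) • (R v - (l : ℂ) • v) = 0
      rw [mem_eigenSub.mp hv, sub_self, smul_zero]
    have hTv : oneSubSq A v = v := by rw [oneSubSq_apply, hAv, map_zero, sub_zero]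
    have hTm : ∀ m : ℕ, (oneSubSq A ^ m) v = v := fun m => by
      induction m with
      | zero => rfl
      | succ m ih =>
        rw [pow_succ]
        show (oneSubSq A ^ m) (oneSubSq A v) = v
        rw [hTv, ih]
    refine tendsto_nhds_unique ((Filter.Tendsto.inner tendsto_const_nhds hy :
      Tendsto (fun m => ⟪v, (oneSubSq A ^ m) x⟫_ℂ) atTop _)) ?_
    refine tendsto_const_nhds.congr fun m => ?_
    rw [← symm_pow_oneSubSq hsA, hTm]
  have hexp : y = ∑ k, ⟪(e k : H), x⟫_ℂ • (e k : H) := by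
    have h := congrArg Subtype.val (e.sum_repr' (⟨y, hymem⟩ : eigenSub R l))
    simp only [AddSubmonoidClass.coe_finsetSum, Submodule.coe_smul, Submodule.coe_inner] at h
    rw [← h]
    exact Finset.sum_congr rfl fun k _ => by rw [hcoef _ (e k).2]
  rwa [← hexp]

/-- A uniform bound on orthonormal families bounds the dimension. -/
theorem finiteDimensional_of_orthonormal_bound (V : Submodule ℂ H) (N : ℕ)
    (h : ∀ n (v : Fin n → H), Orthonormal ℂ v → (∀ i, v i ∈ V) → n ≤ N) :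
    FiniteDimensional ℂ V := by
  refine Module.rank_lt_aleph0_iff.mp (lt_of_le_of_lt (rank_le (n := N) fun s hs => ?_)
    (Cardinal.natCast_lt_aleph0))
  have hli : LinearIndependent ℂ fun i : s => (i : V) := hs
  set W := Submodule.span ℂ (Set.range fun i : s => ((i : V) : H)) with hW
  have : FiniteDimensional ℂ W := FiniteDimensional.span_of_finite ℂ (Set.finite_range _)
  have hWV : W ≤ V := by
    rw [hW, Submodule.span_le]
    rintro _ ⟨i, rfl⟩
    exact (i : V).2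
  have hfr : Module.finrank ℂ W = s.card := by
    rw [hW, finrank_span_eq_card ?_, Fintype.card_coe]
    exact hli.map' V.subtype V.ker_subtype
  rw [← hfr]
  refine h _ (fun i => (stdOrthonormalBasis ℂ W i : H)) ?_ fun i => hWV (Subtype.property _)
  exact (stdOrthonormalBasis ℂ W).orthonormal.comp_linearIsometry W.subtypeₗᵢ

/-- Dominated convergence for matrix coefficients of the isolator. -/
theorem tendsto_integral_isolator [CompleteSpace H] {X : Type*} [MeasurableSpace X]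
    (μ : Measure X) [IsFiniteMeasure μ] {R : H →L[ℂ] H}
    (hs : ∀ x y, ⟪R x, y⟫_ℂ = ⟪x, R y⟫_ℂ) (l : ℝ) {c : ℝ} (hc0 : 0 < c)
    (hc : c * (‖R‖ + |l|) ^ 2 ≤ 1) {n : ℕ} (e : OrthonormalBasis (Fin n) ℂ (eigenSub R l))
    (α k : X → H) {a b : ℝ} (hα : ∀ x, ‖α x‖ ≤ a) (hk : ∀ x, ‖k x‖ ≤ b)
    (hm : ∀ m : ℕ, AEStronglyMeasurable (fun x => ⟪α x, (isolator R l c ^ m) (k x)⟫_ℂ) μ) :
    Tendsto (fun m : ℕ => ∫ x, ⟪α x, (isolator R l c ^ m) (k x)⟫_ℂ ∂μ) atTop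
      (𝓝 (∫ x, ∑ j, ⟪(e j : H), k x⟫_ℂ * ⟪α x, (e j : H)⟫_ℂ ∂μ)) := by
  refine tendsto_integral_of_dominated_convergence (fun _ => a * b) hm (integrable_const _)
    (fun m => Eventually.of_forall fun x => ?_) (Eventually.of_forall fun x => ?_)
  · refine (norm_inner_le_norm _ _).trans (mul_le_mul (hα x) ?_ (norm_nonneg _)
      ((norm_nonneg _).trans (hα x)))
    rw [isolator_eq R l hc0.le]
    exact (norm_pow_oneSubSq_le (symm_shiftScale hs l c) (norm_shiftScale_le l hc0.le hc) m _).trans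
      (hk x)
  · have h := Filter.Tendsto.inner (𝕜 := ℂ) (tendsto_const_nhds (x := α x))
      (tendsto_isolator hs l hc0 hc e (k x))
    simpa [inner_sum, inner_smul_right] using h

end FLTAgent.LanglandsTunnell.Isolation
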