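import Fermat.Agent.LanglandsTunnell.Isolation.PlaceStep

/-!
# Traces of the twist on the stages

Releasing a place multiplies the trace by the number of fixed vertices of a permutation.
-/

set_option autoImplicit false

noncomputable section

namespace FLTAgent.LanglandsTunnell.Isolation

open FLTAgent.LanglandsTunnell NumberField Matrix MeasureTheory Function
open scoped InnerProductSpace ComplexConjugate

variable {F : Type} [Field F] [NumberField F] {ι : Type} [Fintype ι] [DecidableEq ι]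
  {Φ : PlaceChoice F ι}

namespace TwistData

variable (T : TwistData Φ)

/-- The inverse twist. -/
def symm : TwistData Φ where
  σ := T.σ.symm
  e := T.e.symm
  emb i := by
    have h := T.emb (T.e.symm i)
    rw [Equiv.apply_symm_apply] at h
    rw [h, RingHom.comp_assoc]
    conv_lhs => rw [← RingHom.comp_id (Φ.emb (T.e.symm i))]
    congr 1
    exact RingHom.ext fun z => (T.σ.apply_symm_apply z).symm

theorem gl_gl_symm (g : GL (Fin 2) (AF F)) : T.gl (T.symm.gl g) = g :=
  Units.ext (Matrix.ext fun i j => T.mapAF_invAF (g.1 i j))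

omit [Fintype ι] [DecidableEq ι] in
theorem symm_ideal {w : Ideal (𝓞 F)} (h : T.ideal w = w) : T.symm.ideal w = w := by
  conv_lhs => rw [← h]
  show Ideal.map _ (Ideal.map _ w) = w
  rw [Ideal.map_map]
  convert Ideal.map_id w
  exact RingHom.ext fun z => Subtype.ext (T.σ.symm_apply_apply _)

theorem twist_rho (g : GL (Fin 2) (AF F)) (u : Smooth Φ) :
    T.twist (rho Φ g u) = rho Φ (T.symm.gl g) (T.twist u) := by
  rw [T.rho_twist, T.gl_gl_symm]

variable {w : Ideal (𝓞 F)} {hw : w.IsPrime} {hw0 : w ≠ ⊥} (P : LocalParams hw hw0)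

/-- At a fixed place the twist moves `D ^ n` by an element of the compact group. -/
theorem pow_inv_mul_gl_mem (hfix : T.ideal w = w) (n : ℕ) :
    (P.tree.D ^ n)⁻¹ * T.gl (P.tree.D ^ n) ∈ localK hw hw0 := by
  set f := T.σ.toAlgHom.toRingHom
  set π' : (AF F)ˣ := Units.map (mapAF f).toRingHom.toMonoidHom P.π
  have hgl : T.gl P.tree.D = diagUnit π' := by
    refine Units.ext (Matrix.ext fun a b => ?_)
    show mapAF f ((diagUnit P.π).1 a b) = _
    fin_cases a <;> fin_cases b <;> simp [diagUnit, π']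
  have hπ' : IsUniformizerAt ⊤ w π' := by
    refine ⟨?_, le_antisymm ?_ ?_⟩
    · have h1 := mapAF_mem_idealAF f P.uniformizer.1
      rw [Ideal.map_top, map_sub, map_one] at h1
      exact h1
    · intro x hx
      obtain ⟨z, hz, e⟩ := P.uniformizer.exists_eq_mul (T.invAF_mem (x := x) (by rwa [hfix]))
      exact ⟨mapAF f z, mapAF_mem_intAF f hz, by rw [← T.mapAF_invAF x, e, map_mul]; rfl⟩
    · rintro _ ⟨y, hy, rfl⟩
      have h1 : (P.π : AF F) * T.invAF y ∈ idealAF F w :=
        P.uniformizer.2 ▸ ⟨T.invAF y, mapAF_mem_intAF _ hy, rfl⟩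
      rw [← hfix]
      show (π' : AF F) * y ∈ _
      rw [← T.mapAF_invAF y, show (π' : AF F) = mapAF f (P.π : AF F) from rfl, ← map_mul]
      exact mapAF_mem_idealAF f h1
  obtain ⟨u, hu, hu1, hu2, -, -⟩ := P.uniformizer.exists_mul_eq hπ'
  have hd : T.gl P.tree.D = P.tree.D * diagUnit u := by rw [hgl, hu, diagUnit_mul]; rfl
  have hcomm : Commute P.tree.D (diagUnit u) := by
    show diagUnit P.π * diagUnit u = diagUnit u * diagUnit P.π
    rw [← diagUnit_mul, ← diagUnit_mul]
    exact congrArg diagUnit (CommMonoid.mul_comm P.π u)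
  rw [map_pow, hd, hcomm.mul_pow, inv_mul_cancel_left]
  refine (localK hw hw0).pow_mem ⟨?_, diagUnit_mem_principalSubgroup ?_ ?_⟩ n
  · have e : diagUnit u = P.tree.D⁻¹ * T.gl P.tree.D := by rw [hd, inv_mul_cancel_left]
    rw [e]
    exact (localGroup hw hw0).mul_mem
      ((localGroup hw hw0).inv_mem ((mem_localGroup hw hw0).mpr P.isLocalAt_diag))
      (T.gl_mem_localGroup hfix ((mem_localGroup hw hw0).mpr P.isLocalAt_diag))
  · rw [idealAF_top]; exact sub_mem hu1 (one_mem (intAF F))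
  · rw [idealAF_top]; exact sub_mem hu2 (one_mem (intAF F))

theorem gl_gamma (hfix : T.ideal w = w) {n : ℕ} {g : GL (Fin 2) (AF F)} (hg : g ∈ P.gamma n) :
    T.gl g ∈ P.gamma n := by
  obtain ⟨hK, hc⟩ := P.mem_gamma.mp hg
  refine P.mem_gamma.mpr ⟨T.gl_mem_localK hfix hK, ?_⟩
  have hd := T.pow_inv_mul_gl_mem P hfix n
  have e : (P.tree.D ^ n)⁻¹ * T.gl g * P.tree.D ^ n = (P.tree.D ^ n)⁻¹ * T.gl (P.tree.D ^ n) *
      T.gl ((P.tree.D ^ n)⁻¹ * g * P.tree.D ^ n) * ((P.tree.D ^ n)⁻¹ * T.gl (P.tree.D ^ n))⁻¹ := by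
    rw [map_mul, map_mul, map_inv]
    group
  rw [e]
  exact mul_mem (mul_mem hd (T.gl_mem_localK hfix hc)) (inv_mem hd)

end TwistData

namespace Ctx

variable (C : Ctx Φ)

/-- **Traces on the stages.** -/
theorem trace_stage (Q : Set (Ideal (𝓞 F))) (hQ : Q ⊆ ↑C.R) :
    ∀ (g : GL (Fin 2) (AF F)) (hg : g ∈ principalSubgroup ⊤),
      (∀ v ∈ C.stage ∅, rho Φ g v = v) →
      ∃ c : ℕ, LinearMap.trace ℂ _ (C.stageOp Q g hg) =
          (c : ℂ) * LinearMap.trace ℂ _ (C.stageOp ∅ 1 (one_mem _)) ∧ (g = 1 → 0 < c) := by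
  classical
  refine Set.Finite.induction_on_subset Q (C.R.finite_toSet.subset hQ) ?_ ?_
  · intro g hg hfix
    refine ⟨1, ?_, fun _ => one_pos⟩
    rw [Nat.cast_one, one_mul]
    congr 1
    refine LinearMap.ext fun u => Subtype.ext ?_
    rw [C.stageOp_val, C.stageOp_val, map_one, hfix _ (C.twist_mem_stage u.2)]
    rfl
  · intro w T hwQ hTQ hwT ih g hg hfix
    have hwR : w ∈ C.R := hQ hwQ
    set hw := C.prime w hwR
    set hw0 := C.ne_bot w hwR
    obtain ⟨P⟩ := nonempty_localParams hw hw0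
    obtain ⟨m, ue, hexp⟩ := P.exists_exponent C.hN (C.mem_N w hwR)
    have := P.finite_sph C.hN hexp
    let := Fintype.ofFinite (P.Sph (m + 1))
    set g' := copart hw hw0 g with hg'
    have hg'top : g' ∈ principalSubgroup ⊤ := copart_mem_principalSubgroup hw hw0 hg
    have hfix' : ∀ v ∈ C.stage ∅, rho Φ g' v = v := fun v hv => by
      rw [hg', ← rho_eq_rho_copart (hv.eigen w hwR (Set.notMem_empty w)).fixed hg, hfix v hv]
    obtain ⟨c', hc', hpos⟩ := ih g' hg'top hfix'
    set h := part hw hw0 g with hh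
    have hhK : h ∈ localK hw hw0 := part_mem_localK hw hw0 hg
    have hsfix := C.T.symm_ideal (C.fixed w hwR)
    have hk : ∀ x : P.Sph (m + 1), h * C.T.symm.gl x.out ∈ localK hw hw0 := fun x =>
      mul_mem hhK (C.T.symm.gl_mem_localK hsfix (P.out_mem x))
    let p : P.Sph (m + 1) → P.Sph (m + 1) := fun x => QuotientGroup.mk ⟨_, hk x⟩
    have hp : Injective p := fun x y hxy => by
      have h1 := QuotientGroup.eq.mp hxy
      rw [Subgroup.mem_subgroupOf] at h1
      have h2 : C.T.symm.gl ((x.out : GL (Fin 2) (AF F))⁻¹ * y.out) ∈ P.gamma (m + 1) := by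
        have h3 : (h * C.T.symm.gl x.out)⁻¹ * (h * C.T.symm.gl y.out) ∈ P.gamma (m + 1) := h1
        rwa [_root_.mul_inv_rev, mul_assoc, inv_mul_cancel_left, ← map_inv, ← map_mul] at h3
      have h4 := C.T.gl_gamma P (C.fixed w hwR) h2
      rw [C.T.gl_gl_symm] at h4
      rw [← QuotientGroup.out_eq' y, P.sph_eq_iff]
      exact h4
    let pe : P.Sph (m + 1) ≃ P.Sph (m + 1) :=
      Equiv.ofBijective p (Finite.injective_iff_bijective.mp hp)
    set L := C.sphereEquiv hwR hwT P hexp
    have hkey : C.stageOp (insert w T) g hg =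
        L.conj (monomialMap pe.symm (C.stageOp T g' hg'top)) := by
      refine LinearMap.ext fun z => ?_
      obtain ⟨a, rfl⟩ := L.surjective z
      rw [LinearEquiv.conj_apply_apply, LinearEquiv.symm_apply_apply]
      refine Subtype.ext ?_
      show rho Φ g (C.T.twist (C.sphereMap hwR hwT P hexp a : Smooth Φ)) =
        (C.sphereMap hwR hwT P hexp (monomialMap pe.symm (C.stageOp T g' hg'top) a) : Smooth Φ)
      rw [C.sphereMap_val, C.sphereMap_val, map_sum, map_sum]
      refine Fintype.sum_equiv pe _ _ fun x => ?_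
      rw [monomialMap_apply, Equiv.symm_apply_apply, C.stageOp_val]
      have hfl : LocalFixed hw hw0 (C.T.twist (a x).1) :=
        ((C.twist_mem_stage (a x).2).eigen w hwR hwT).fixed
      have hgl : g' ∈ awayGroup hw hw0 := copart_mem_awayGroup hw hw0 g
      have hcomm : Commute (C.T.symm.gl x.out * P.tree.D ^ (m + 1)) g' :=
        commute_away (mul_mem (C.T.symm.gl_mem_localK hsfix (P.out_mem x)).1 (P.localAt_pow _)) hgl
      conv_lhs =>
        rw [C.T.twist_rho, map_mul, ← mul_inv_cancel_left (P.tree.D ^ (m + 1))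
          (C.T.symm.gl (P.tree.D ^ (m + 1))), ← mul_assoc, rho_mul,
          hfl _ (C.T.symm.pow_inv_mul_gl_mem P hsfix (m + 1)), ← part_mul_copart hw hw0 g,
          ← rho_mul, mul_assoc, ← hcomm.eq, ← mul_assoc, rho_mul, ← mul_assoc]
      refine P.rho_vertex
          ((C.rho_mem_stage (C.twist_mem_stage (a x).2) hg'top).eigen w hwR hwT).fixed ?_
      exact (P.sph_eq_iff (x := pe x) (k := ⟨_, hk x⟩)).mp rfl
    have htr : LinearMap.trace ℂ _ (C.stageOp (insert w T) g hg) =
        ((Finset.univ.filter fun x => pe.symm x = x).card : ℂ) *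
          LinearMap.trace ℂ _ (C.stageOp T g' hg'top) := by
      rw [hkey, LinearMap.trace_conj', trace_monomialMap]
    refine ⟨(Finset.univ.filter fun x => pe.symm x = x).card * c', ?_, fun h1 => ?_⟩
    · rw [htr, hc', Nat.cast_mul, mul_assoc]
    · refine Nat.mul_pos (Finset.card_pos.mpr ⟨QuotientGroup.mk 1, ?_⟩)
        (hpos (by rw [hg', h1, map_one]))
      refine Finset.mem_filter.mpr ⟨Finset.mem_univ _, pe.symm_apply_eq.mpr ?_⟩
      set x₁ : P.Sph (m + 1) := QuotientGroup.mk 1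
      show x₁ = QuotientGroup.mk ⟨_, hk x₁⟩
      rw [QuotientGroup.eq, Subgroup.mem_subgroupOf]
      have hx : (x₁.out : GL (Fin 2) (AF F))⁻¹ * 1 ∈ P.gamma (m + 1) :=
        (P.sph_eq_iff (x := x₁) (k := 1)).mp rfl
      rw [mul_one] at hx
      show (1 : GL (Fin 2) (AF F))⁻¹ * (h * C.T.symm.gl x₁.out) ∈ P.gamma (m + 1)
      rw [inv_one, one_mul, hh, h1, map_one, one_mul, ← inv_inv (x₁.out : GL (Fin 2) (AF F)),
        map_inv]
      exact inv_mem (C.T.symm.gl_gamma P hsfix hx)

end Ctx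

end FLTAgent.LanglandsTunnell.Isolation
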