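import Fermat.Agent.LanglandsTunnell.Isolation.Weights
import Fermat.Agent.LanglandsTunnell.Isolation.RamKernel
import Fermat.Agent.LanglandsTunnell.Isolation.Galois

/-!
# The trace identity on joint systems

The twisted diagonal integrals along the isolating sequence tend to weighted sums of eigenvalues.
-/

set_option autoImplicit false

noncomputable section

namespace FLTAgent.LanglandsTunnell.Isolation

open FLTAgent.LanglandsTunnell MeasureTheory NumberField Filter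
open scoped InnerProductSpace ComplexConjugate Topology

/-- A joint orthonormal basis of the eigenspace of a side. -/
structure Systems {F : Type} [Field F] [NumberField F] {ι : Type} [Fintype ι]
    {Φ : PlaceChoice F ι} {n : Ideal (𝓞 F)} (d : Side Φ n) (ok : Ideal (𝓞 F) → Prop) :
    Type where
  m : ℕ
  e : OrthonormalBasis (Fin m) ℂ d.V
  b : Fin m → Ideal (𝓞 F) → ℂ
  z : Fin m → (ι → ℝ → ℝ) → ℂ
  joint : ∀ j, Joint ok (d.efun (e j)) (b j) (z j)

namespace Systems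

variable {F : Type} [Field F] [NumberField F] {ι : Type} [Fintype ι] {Φ : PlaceChoice F ι}
  {n : Ideal (𝓞 F)} {d : Side Φ n} {ok : Ideal (𝓞 F) → Prop} (s : Systems d ok)

/-- The function of a member of the basis. -/
def f (j : Fin s.m) : Pt F ι n → ℂ := d.efun (s.e j)

theorem f_ne_zero (j : Fin s.m) : ∃ x, s.f j x ≠ 0 := by
  by_contra h
  simp only [not_exists, not_not] at h
  refine s.e.orthonormal.ne_zero j (d.efun_injective ?_)
  have h1 : d.efun (0 : d.V) = 0 := funext fun x => by simp [Side.efun]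
  rw [h1]
  exact funext h

theorem z_mulW (j : Fin s.m) {g h : ι → ℝ → ℝ} (hg : GoodW g) (hh : GoodW h) :
    s.z j (mulW g h) = s.z j g * s.z j h :=
  (s.joint j).z_mulW d.hn (s.f_ne_zero j) hg hh

/-- A combination acting by a scalar pairs rows with the basis. -/
theorem inner_row {A : Comb F ι} (hA : d.Tested A) (j : Fin s.m) {θ : ℂ}
    (hθ : ∀ x, Kernel.op (A.kernel n) (s.f j) x = θ * s.f j x) (y x : Pt F ι n) :
    ⟪hA.row.rowVec y, (s.e j : Lp ℂ 2 (domMeasure d.S))⟫_ℂ *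
      ⟪(s.e j : Lp ℂ 2 (domMeasure d.S)), d.rowK.rowVec x⟫_ℂ =
        (d.l : ℂ) ^ 3 * θ * (s.f j y * conj (s.f j x)) := by
  have e : ⟪d.rowK.rowVec x, (s.e j : Lp ℂ 2 (domMeasure d.S))⟫_ℂ = d.l * s.f j x := by
    rw [f, Side.efun, ← mul_assoc, mul_inv_cancel₀ (Complex.ofReal_ne_zero.mpr d.hl), one_mul]
  rw [hA.inner_row, show Kernel.op (A.kernel n) (d.efun (s.e j)) y = θ * s.f j y from hθ y,
    ← inner_conj_symm (s.e j : Lp ℂ 2 (domMeasure d.S)), e, map_mul, Complex.conj_ofReal]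
  ring

theorem measurable_f (j : Fin s.m) : Measurable (s.f j) := (d.bddAuto_efun _).meas

theorem exists_bound_f : ∃ B : ℝ, 0 ≤ B ∧ ∀ j x, ‖s.f j x‖ ≤ B := by
  choose C hC using fun j => (d.bddAuto_efun (s.e j)).bdd
  exact ⟨∑ j, |C j|, Finset.sum_nonneg fun j _ => abs_nonneg _, fun j x =>
    ((hC j x).trans (le_abs_self _)).trans
      (Finset.single_le_sum (fun i _ => abs_nonneg (C i)) (Finset.mem_univ j))⟩

end Systems

/-- The two sides of one test level. -/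
structure Frame (D : Datum) (P : ExtPlaces D) : Type where
  σ : D.M ≃ₐ[ℚ] D.M
  e : Fin 3 ≃ Fin 3
  σ_ne : σ ≠ AlgEquiv.refl
  σ_fix : ∀ x, σ (D.incl x) = D.incl x
  e_emb : ∀ i, P.placesM.emb (e i) = (P.placesM.emb i).comp σ.toAlgHom.toRingHom
  k : ℕ
  B : ℕ
  hB : 0 < B
  R : Finset Nat.Primes
  N₀ : ℕ
  N₁ : ℕ
  N : ℕ
  N' : ℕ
  c : ℂ
  hc : c ≠ 0
  test : IsTestLevel D σ k B R N₀ N₁ N N'
  dM : Side P.placesM (lv D.M N')
  dE : Side P.placesE (lv D.E N)
  pair : IsKillingPair P N N' dM.S dE.S dM.K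
  hK : dE.K = D.descComb dM.K
  hl : dE.l = dM.l
  trace : ∀ u₀ : Ideal (𝓞 D.M), D.SplitOK N' u₀ →
    (∀ T ∈ dM.K, ∀ w ∈ T.word, D.under w ≠ D.under u₀) →
    ∀ C : Comb D.M (Fin 3), C.Good (D.TestOK N') →
      (∀ T ∈ C, ∃ ws : List (Ideal (𝓞 D.M)), T.word = u₀ :: ws ∧
        (∀ w ∈ ws, D.under w ≠ D.under u₀) ∧
        ∀ w ∈ ws, D.DegreeThree w → ws.count w ≤ 1) →
      ∫ x in dM.S, twistedDiag P σ e R N₀ N₁ N' ((dM.K.mul C).mul dM.K) x ∂volPt =
        c * ∫ y in dE.S, Kernel.periodise P.placesE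
          ((((D.descComb dM.K).mul (D.descComb C)).mul (D.descComb dM.K)).kernel
            (Ideal.span {(N : 𝓞 D.E)})) y y ∂volPt

namespace Frame

variable {D : Datum} {P : ExtPlaces D} (S : Frame D P)

/-- The primes of `E` prime to the level. -/
def okE (v : Ideal (𝓞 D.E)) : Prop := v.IsPrime ∧ v ≠ ⊥ ∧ ¬ v ∣ lv D.E S.N

theorem not_dvd_N {w : Ideal (𝓞 D.M)} (hw : ¬ w ∣ lv D.M S.N') :
    ¬ D.under w ∣ lv D.E S.N := fun h => by
  refine not_dvd_under D hw (h.trans (Ideal.dvd_iff_le.mpr ?_))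
  exact lv_le S.test.dvd

theorem okPrime_testOK {w : Ideal (𝓞 D.M)} (h : D.TestOK S.N' w) :
    Killing.OKPrime (lv D.M S.N') w := by
  rcases h.1 with h1 | h1 <;> exact ⟨h1.1, h1.2.1, h.2.1⟩

theorem testOK_of_splitOK {w : Ideal (𝓞 D.M)} (h : D.SplitOK S.N' w) : D.TestOK S.N' w :=
  ⟨Or.inl h.1, h.2.2, not_dvd_under D h.2.2⟩

theorem okE_under {w : Ideal (𝓞 D.M)} (h : D.TestOK S.N' w) : S.okE (D.under w) := by
  obtain ⟨hw, hw0, hwN⟩ := S.okPrime_testOK h
  have := hw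
  exact ⟨under_isPrime D w, under_ne_bot D hw0, S.not_dvd_N hwN⟩

theorem testedM {A : Comb D.M (Fin 3)} (hA : A.Good (D.TestOK S.N')) : S.dM.Tested A :=
  ⟨Comb.Good.mono hA fun _ => S.okPrime_testOK, S.pair.boundedM A hA⟩

theorem testedE {A : Comb D.E Unit} (hA : A.Good S.okE) : S.dE.Tested A := by
  refine ⟨hA, ?_⟩
  obtain ⟨B, hB⟩ := S.pair.boundedE A hA
  exact ⟨B, fun x y => by rw [S.hK]; exact hB x y⟩

/-- The twist of points. -/
abbrev τ : Pt D.M (Fin 3) (lv D.M S.N') → Pt D.M (Fin 3) (lv D.M S.N') :=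
  sigmaPt S.σ.toAlgHom.toRingHom S.e

theorem measurable_τ : Measurable S.τ := by
  refine measurable_of_fst_sections (lv_ne_bot S.test.ne_zero) fun v => ?_
  have h2 : Measurable fun P : Fin 3 → H3 => fun i => P (S.e i) :=
    measurable_pi_iff.mpr fun i => measurable_pi_apply (X := fun _ : Fin 3 => H3) (S.e i)
  exact (measurable_const (a := ((Matrix.GeneralLinearGroup.map
    (mapAF S.σ.toAlgHom.toRingHom).toRingHom v.out : GL (Fin 2) (AF D.M)) :
      FinPt D.M (lv D.M S.N')))).prodMk h2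

theorem hinv : ∀ ω k, ramElement D S.σ S.R S.N₀ S.N₁ S.N' ω →
    k ∈ principalSubgroup (lv D.M S.N') →
    ramElement D S.σ S.R S.N₀ S.N₁ S.N' (ω * k) ∧ ramElement D S.σ S.R S.N₀ S.N₁ S.N' (k * ω) :=
  S.test.ram_invariant

/-- The test element on a function. -/
def ramSum (f : Pt D.M (Fin 3) (lv D.M S.N') → ℂ) (x : Pt D.M (Fin 3) (lv D.M S.N')) : ℂ :=
  ∑ q ∈ (finite_ramClasses (σ := S.σ) (R := S.R) (N₀ := S.N₀) (N₁ := S.N₁)
      S.test.ne_zero).toFinset,
    f (((x.1.out * ramRep D S.σ S.R S.N₀ S.N₁ S.N' q : GL (Fin 2) (AF D.M)) :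
      FinPt D.M (lv D.M S.N')), x.2)

/-- The weight of a function over `M`. -/
def tauM (f : Pt D.M (Fin 3) (lv D.M S.N') → ℂ) : ℂ :=
  ∫ x in S.dM.S, S.ramSum f x * conj (f (S.τ x)) ∂volPt

/-- The weight of a function over `E`. -/
def tauE (f : Pt D.E Unit (lv D.E S.N) → ℂ) : ℂ :=
  ∫ y in S.dE.S, f y * conj (f y) ∂volPt

theorem integrable_weightM {f : Pt D.M (Fin 3) (lv D.M S.N') → ℂ}
    (hc : ∀ v, Continuous fun P : Fin 3 → H3 => f (v, P)) {B : ℝ} (hB : ∀ x, ‖f x‖ ≤ B) :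
    Integrable (fun x => S.ramSum f x * conj (f (S.τ x))) (domMeasure S.dM.S) := by
  have hn := lv_ne_bot (F := D.M) S.test.ne_zero
  have hm : Measurable f := measurable_of_fst_sections hn fun v => (hc v).measurable
  have hm1 : Measurable (S.ramSum f) := measurable_of_fst_sections hn fun v =>
    Finset.measurable_sum _ fun q _ => (hc (((v.out * ramRep D S.σ S.R S.N₀ S.N₁ S.N' q :
      GL (Fin 2) (AF D.M)) : FinPt D.M (lv D.M S.N')))).measurable
  refine Integrable.of_bound (hm1.mul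
    (Complex.continuous_conj.measurable.comp (hm.comp S.measurable_τ))).aestronglyMeasurable
    ((∑ _q ∈ (finite_ramClasses (σ := S.σ) (R := S.R) (N₀ := S.N₀) (N₁ := S.N₁)
      S.test.ne_zero).toFinset, B) * B) (Eventually.of_forall fun x => ?_)
  rw [norm_mul, Complex.norm_conj]
  exact mul_le_mul ((norm_sum_le _ _).trans (Finset.sum_le_sum fun q _ => hB _)) (hB _)
    (norm_nonneg _) (Finset.sum_nonneg fun q _ => (norm_nonneg _).trans (hB x))

theorem integrable_weightE {f : Pt D.E Unit (lv D.E S.N) → ℂ} (hm : Measurable f) {B : ℝ}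
    (hB : ∀ y, ‖f y‖ ≤ B) :
    Integrable (fun y => f y * conj (f y)) (domMeasure S.dE.S) :=
  Integrable.of_bound (hm.mul (Complex.continuous_conj.measurable.comp hm)).aestronglyMeasurable
    (B * B) (Eventually.of_forall fun y => by
      rw [norm_mul, Complex.norm_conj]
      exact mul_le_mul (hB _) (hB _) (norm_nonneg _) ((norm_nonneg _).trans (hB y)))

variable (sM : Systems S.dM (D.TestOK S.N')) (sE : Systems S.dE S.okE)

theorem limitM {A : Comb D.M (Fin 3)} (hA : S.dM.Tested A) {θ : Fin sM.m → ℂ}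
    (hθ : ∀ j x, Kernel.op (A.kernel (lv D.M S.N')) (sM.f j) x = θ j * sM.f j x) :
    ∫ x, (∑ᶠ u, ramKernel D S.σ S.R S.N₀ S.N₁ S.N' x.1 u *
        ∑ j, ⟪hA.row.rowVec (u, x.2), (sM.e j : Lp ℂ 2 (domMeasure S.dM.S))⟫_ℂ *
          ⟪(sM.e j : Lp ℂ 2 (domMeasure S.dM.S)), S.dM.rowK.rowVec (S.τ x)⟫_ℂ)
        ∂domMeasure S.dM.S = (S.dM.l : ℂ) ^ 3 * ∑ j, θ j * S.tauM (sM.f j) := by
  obtain ⟨B, hB0, hB⟩ := sM.exists_bound_f
  have e1 : ∀ x : Pt D.M (Fin 3) (lv D.M S.N'),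
      (∑ᶠ u, ramKernel D S.σ S.R S.N₀ S.N₁ S.N' x.1 u *
        ∑ j, ⟪hA.row.rowVec (u, x.2), (sM.e j : Lp ℂ 2 (domMeasure S.dM.S))⟫_ℂ *
          ⟪(sM.e j : Lp ℂ 2 (domMeasure S.dM.S)), S.dM.rowK.rowVec (S.τ x)⟫_ℂ) =
      ∑ j, (S.dM.l : ℂ) ^ 3 * θ j * (S.ramSum (sM.f j) x * conj (sM.f j (S.τ x))) := fun x => by
    rw [finsum_ramKernel S.test.ne_zero S.hinv, Finset.sum_comm]
    refine Finset.sum_congr rfl fun j _ => ?_
    simp only [sM.inner_row hA j (hθ j), ramSum, Finset.sum_mul, Finset.mul_sum]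
  simp only [e1]
  rw [integral_finsetSum _ fun j _ =>
    (S.integrable_weightM (f := sM.f j) (sM.joint j).cts (hB j)).const_mul _, Finset.mul_sum]
  refine Finset.sum_congr rfl fun j _ => ?_
  rw [integral_const_mul, tauM]
  ring

theorem limitE {A : Comb D.E Unit} (hA : S.dE.Tested A) {θ : Fin sE.m → ℂ}
    (hθ : ∀ j x, Kernel.op (A.kernel (lv D.E S.N)) (sE.f j) x = θ j * sE.f j x) :
    ∫ x, (∑ᶠ u, oneKernel x.1 u *
        ∑ j, ⟪hA.row.rowVec (u, x.2), (sE.e j : Lp ℂ 2 (domMeasure S.dE.S))⟫_ℂ *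
          ⟪(sE.e j : Lp ℂ 2 (domMeasure S.dE.S)), S.dE.rowK.rowVec (id x)⟫_ℂ)
        ∂domMeasure S.dE.S = (S.dE.l : ℂ) ^ 3 * ∑ j, θ j * S.tauE (sE.f j) := by
  obtain ⟨B, hB0, hB⟩ := sE.exists_bound_f
  simp only [finsum_oneKernel, Prod.mk.eta, id_eq, fun j x => sE.inner_row hA j (hθ j) x x]
  rw [integral_finsetSum _ fun j _ =>
    (S.integrable_weightE (f := sE.f j) (sE.measurable_f j) (hB j)).const_mul _, Finset.mul_sum]
  refine Finset.sum_congr rfl fun j _ => ?_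
  rw [integral_const_mul, tauE]
  ring

/-- **The identity of the systems.** -/
theorem identity {u₀ : Ideal (𝓞 D.M)} (hu₀ : D.SplitOK S.N' u₀)
    (hKu : ∀ T ∈ S.dM.K, ∀ w ∈ T.word, D.under w ≠ D.under u₀)
    {ws : List (Ideal (𝓞 D.M))}
    (hws : ∀ w ∈ ws, D.TestOK S.N' w ∧ D.under w ≠ D.under u₀ ∧
      (D.DegreeThree w → ws.count w ≤ 1))
    {h : Fin 3 → ℝ → ℝ} (hh : GoodW h) :
    ∑ j, ((u₀ :: ws).map (sM.b j)).prod * sM.z j h * S.tauM (sM.f j) =
      S.c * ∑ j, ((u₀ :: ws).map (bdesc D (sE.b j))).prod * sE.z j (descW h) *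
        S.tauE (sE.f j) := by
  classical
  set n := lv D.M S.N'
  set nE := lv D.E S.N
  have hnE : nE ≠ ⊥ := S.dE.hn
  set X : Comb D.M (Fin 3) := [term1 1 (u₀ :: ws) h]
  have hXw : ∀ w ∈ u₀ :: ws, D.TestOK S.N' w := fun w hw => by
    rcases List.mem_cons.mp hw with rfl | hw
    exacts [S.testOK_of_splitOK hu₀, (hws w hw).1]
  have hX : X.Good (D.TestOK S.N') := fun T hT => by
    rw [List.mem_singleton] at hT
    subst hT
    exact ⟨hh.weightsOK, hXw⟩
  have hKg : S.dM.K.Good (D.TestOK S.N') :=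
    Comb.Good.mono S.pair.good fun _ => S.testOK_of_splitOK
  have hbotM : ∀ w, D.TestOK S.N' w → w ≠ ⊥ := fun w hw => (S.okPrime_testOK hw).2.1
  have hbotE : ∀ w, D.TestOK S.N' w → D.under w ≠ ⊥ := fun w hw => (S.okE_under hw).2.1
  have hXE : (D.descComb X).Good S.okE := good_descComb D (fun _ => S.okE_under) hX
  have hTM := S.testedM hX
  have hTE := S.testedE hXE
  set A := ‖S.dM.rowK.toOp‖ + |S.dM.l| + (‖S.dE.rowK.toOp‖ + |S.dE.l|) + 1 with hA
  set r : ℝ := (A ^ 2)⁻¹ with hr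
  have hApos : 0 < A := by positivity
  have hr0 : 0 < r := by positivity
  have hbnd : ∀ a : ℝ, 0 ≤ a → a ≤ A → r * a ^ 2 ≤ 1 := fun a ha haA => by
    rw [hr, inv_mul_le_iff₀ (by positivity), mul_one]
    exact pow_le_pow_left₀ ha haA 2
  have limM := tendsto_diag S.dM.hn S.dM.hS (Comb.Good.mono hKg hbotM) (Comb.Good.mono hX hbotM)
    S.dM.rowK hTM.row S.dM.killing.symm (isFiniteReal_ramKernel S.test.ne_zero S.hinv)
    S.measurable_τ S.dM.l hr0 (hbnd _ (by positivity) (by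
      rw [hA]; nlinarith [norm_nonneg S.dE.rowK.toOp, abs_nonneg S.dE.l])) sM.e
  rw [S.limitM sM hTM (θ := fun j => ((u₀ :: ws).map (sM.b j)).prod * sM.z j h)
    fun j x => (sM.joint j).op_term S.dM.hn (fun _ => S.okPrime_testOK) hh hXw x] at limM
  have limE := tendsto_diag S.dE.hn S.dE.hS (LanglandsTunnell.Isolation.Fine.good S.dE.fine)
    (Comb.Good.mono hXE fun _ hw => hw.2.1) S.dE.rowK hTE.row S.dE.killing.symm
    isFiniteReal_oneKernel measurable_id S.dE.l hr0 (hbnd _ (by positivity) (by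
      rw [hA]; nlinarith [norm_nonneg S.dM.rowK.toOp, abs_nonneg S.dM.l])) sE.e
  rw [S.limitE sE hTE (θ := fun j => ((u₀ :: ws).map (bdesc D (sE.b j))).prod * sE.z j (descW h))
    fun j x => (sE.joint j).op_descComb D hnE (fun _ hv => hv) hh
      (fun w hw => S.okE_under (hXw w hw)) x] at limE
  have heq : ∀ m : ℕ,
      (∫ x, (∑ᶠ u, ramKernel D S.σ S.R S.N₀ S.N₁ S.N' x.1 u * Kernel.periodise P.placesM
        (((S.dM.K.mul (isoSeq S.dM.K X S.dM.l r m)).mul S.dM.K).kernel n) (u, x.2) (S.τ x))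
          ∂domMeasure S.dM.S) =
      S.c * ∫ x, (∑ᶠ u, oneKernel x.1 u * Kernel.periodise P.placesE
        (((S.dE.K.mul (isoSeq S.dE.K (D.descComb X) S.dE.l r m)).mul S.dE.K).kernel nE)
          (u, x.2) (id x)) ∂domMeasure S.dE.S := by
    intro m
    have hC := good_isoSeq hKg hX S.dM.l r m
    refine (S.trace u₀ hu₀ hKu _ hC fun T hT => ?_).trans (congrArg (S.c * ·) ?_)
    · obtain ⟨T₀, hT₀, ks, e, hks⟩ := word_isoSeq S.dM.K X S.dM.l r m T hT
      rw [List.mem_singleton] at hT₀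
      subst hT₀
      have hk : ∀ w ∈ ks, D.DegreeOne w ∧ D.under w ≠ D.under u₀ := fun w hw => by
        obtain ⟨T', hT', hw'⟩ := hks w hw
        exact ⟨((S.pair.good T' hT').2 w hw').1, hKu T' hT' w hw'⟩
      refine ⟨ws ++ ks, e.trans rfl, fun w hw => ?_, fun w hw h3 => ?_⟩
      · rcases List.mem_append.mp hw with hw | hw
        exacts [(hws w hw).2.1, (hk w hw).2]
      · have hnot : w ∉ ks := fun hw' => not_degreeThree (hk w hw').1 h3
        rw [List.count_append, List.count_eq_zero.mpr hnot, add_zero]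
        exact (hws w ((List.mem_append.mp hw).resolve_right hnot)).2.2 h3
    · refine integral_congr_ae (Eventually.of_forall fun y => ?_)
      simp only [finsum_oneKernel, Prod.mk.eta, id_eq]
      have hk := kernel_descComb_isoSeq D P.placesE hnE hbotE hKg hX S.dM.l r m
      have dK := good_descComb D (ok' := fun v => v ≠ ⊥) hbotE hKg
      have dX := good_descComb D (ok' := fun v => v ≠ ⊥) hbotE hX
      have dC := good_descComb D (ok' := fun v => v ≠ ⊥) hbotE hC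
      have dI := good_isoSeq dK dX S.dM.l r m
      rw [S.hK, S.hl, kernel_mul_congr P.placesE hnE (good_mul dK dC) (good_mul dK dI) dK dK
        (kernel_mul_congr P.placesE hnE dK dK dC dI rfl hk) rfl]
  have hl3 : (S.dM.l : ℂ) ^ 3 ≠ 0 := pow_ne_zero _ (Complex.ofReal_ne_zero.mpr S.dM.hl)
  have h1 := tendsto_nhds_unique (limM.congr heq) (limE.const_mul S.c)
  rw [S.hl] at h1
  refine mul_left_cancel₀ hl3 (h1.trans ?_)
  ring

end Frame

end FLTAgent.LanglandsTunnell.Isolation
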