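import Fermat.Agent.LanglandsTunnell.Isolation.EigenSpace
import Fermat.Agent.LanglandsTunnell.Killing.Eigen
import Fermat.Agent.LanglandsTunnell.Killing.Symmetry

/-!
# Real weights at infinity and joint systems

A joint system is a function on which the invariants at infinity and the Hecke operators at the
allowed primes act by scalars.
-/

set_option autoImplicit false

noncomputable section

namespace FLTAgent.LanglandsTunnell.Isolation

open FLTAgent.LanglandsTunnell MeasureTheory NumberField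
open FLTAgent.LanglandsTunnell.Trace (continuous_h3conv hasCompactSupport_h3conv h3conv_assoc)
open FLTAgent.LanglandsTunnell.Killing (Fine OKPrime LocI op_kernel wordSum wordSum_nil wordSum_cons
  WeightsOK infApply infOp conj_h3conv_real op_mul)
open scoped ComplexConjugate

variable {F : Type} [Field F] [NumberField F] {ι : Type} [Fintype ι] {n : Ideal (𝓞 F)}

/-- Continuous compactly supported real weights. -/
def GoodW (h : ι → ℝ → ℝ) : Prop := ∀ i, Continuous (h i) ∧ HasCompactSupport (h i)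

/-- Real weights as complex ones. -/
def cw (h : ι → ℝ → ℝ) : ι → ℝ → ℂ := fun i c => (h i c : ℂ)

omit [Fintype ι] in
theorem GoodW.weightsOK {h : ι → ℝ → ℝ} (hh : GoodW h) : WeightsOK (cw h) := fun i =>
  ⟨Complex.continuous_ofReal.comp (hh i).1, (hh i).2.comp_left Complex.ofReal_zero⟩

/-- Componentwise convolution of real weights. -/
def mulW (g h : ι → ℝ → ℝ) : ι → ℝ → ℝ := fun i c => (h3conv (cw g i) (cw h i) c).re

theorem ofReal_re_of_conj {z : ℂ} (h : conj z = z) : ((z.re : ℝ) : ℂ) = z :=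
  Complex.conj_eq_iff_re.mp h

omit [Fintype ι] in
theorem cw_mulW (g h : ι → ℝ → ℝ) : cw (mulW g h) = fun i => h3conv (cw g i) (cw h i) :=
  funext fun _ => funext fun c =>
    ofReal_re_of_conj (conj_h3conv_real (fun _ => Complex.conj_ofReal _)
      (fun _ => Complex.conj_ofReal _) c)

omit [Fintype ι] in
theorem GoodW.mulW {g h : ι → ℝ → ℝ} (hg : GoodW g) (hh : GoodW h) :
    GoodW (LanglandsTunnell.Isolation.mulW g h) := fun i =>
  ⟨Complex.continuous_re.comp
      (continuous_h3conv (hg.weightsOK i).1 (hg.weightsOK i).2 (hh.weightsOK i).1),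
    (hasCompactSupport_h3conv (hg.weightsOK i).2 (hh.weightsOK i).2).comp_left Complex.zero_re⟩

/-- The weight over `E` of three weights over `M`. -/
def descW (h : Fin 3 → ℝ → ℝ) : Unit → ℝ → ℝ :=
  fun _ c => (h3conv (h3conv (cw h 0) (cw h 1)) (cw h 2) c).re

theorem cw_descW (h : Fin 3 → ℝ → ℝ) :
    cw (descW h) = fun _ => h3conv (h3conv (cw h 0) (cw h 1)) (cw h 2) :=
  funext fun _ => funext fun c =>
    ofReal_re_of_conj (conj_h3conv_real (conj_h3conv_real (fun _ => Complex.conj_ofReal _)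
      (fun _ => Complex.conj_ofReal _)) (fun _ => Complex.conj_ofReal _) c)

theorem GoodW.descW {h : Fin 3 → ℝ → ℝ} (hh : GoodW h) :
    GoodW (LanglandsTunnell.Isolation.descW h) := fun _ => by
  have hw := hh.weightsOK
  have hc := continuous_h3conv (hw 0).1 (hw 0).2 (hw 1).1
  have hs := hasCompactSupport_h3conv (hw 0).2 (hw 1).2
  exact ⟨Complex.continuous_re.comp (continuous_h3conv hc hs (hw 2).1),
    (hasCompactSupport_h3conv hs (hw 2).2).comp_left Complex.zero_re⟩

theorem descW_mulW {g h : Fin 3 → ℝ → ℝ} (hg : GoodW g) (hh : GoodW h) :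
    descW (mulW g h) = mulW (descW g) (descW h) := by
  funext u c
  show (h3conv (h3conv (cw (mulW g h) 0) (cw (mulW g h) 1)) (cw (mulW g h) 2) c).re =
    (h3conv (cw (descW g) u) (cw (descW h) u) c).re
  rw [cw_mulW, cw_descW, cw_descW, h3conv_triple hg.weightsOK hh.weightsOK]

/-- One term with real weights. -/
def term1 (a : ℂ) (ws : List (Ideal (𝓞 F))) (h : ι → ℝ → ℝ) : Term F ι := ⟨a, ws, cw h⟩

/-- A function on which the operators of the allowed primes and at infinity act by scalars. -/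
structure Joint (ok : Ideal (𝓞 F) → Prop) (f : Pt F ι n → ℂ) (b : Ideal (𝓞 F) → ℂ)
    (z : (ι → ℝ → ℝ) → ℂ) : Prop where
  cts : ∀ v, Continuous fun P : ι → H3 => f (v, P)
  inf : ∀ h, GoodW h → ∀ x, infApply (cw h) f x = z h * f x
  hecke : ∀ w, ok w → ∀ x : Pt F ι n, ∑ᶠ u ∈ nbrs n w x.1, f (u, x.2) = b w * f x

namespace Joint

variable {ok : Ideal (𝓞 F) → Prop} {f : Pt F ι n → ℂ} {b : Ideal (𝓞 F) → ℂ}
  {z : (ι → ℝ → ℝ) → ℂ}

theorem wordSum (hj : Joint ok f b z) (hn : n ≠ ⊥) (hok : ∀ w, ok w → OKPrime n w)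
    {ws : List (Ideal (𝓞 F))} (hws : ∀ w ∈ ws, ok w) (v : FinPt F n) (P : ι → H3) :
    Killing.wordSum n ws v (fun u => f (u, P)) = (ws.map b).prod * f (v, P) := by
  induction ws generalizing v with
  | nil => simp [wordSum_nil]
  | cons w ws ih =>
    have hw := hws w List.mem_cons_self
    have hws' : ∀ x ∈ ws, ok x := fun x hx => hws x (List.mem_cons_of_mem _ hx)
    rw [wordSum_cons hn (hok w hw) fun x hx => hok x (hws' x hx)]
    simp only [ih hws']
    rw [← mul_finsum_mem (s := nbrs n w v) (fun u => f (u, P)) ((ws.map b).prod),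
      hj.hecke w hw (v, P), List.map_cons, List.prod_cons]
    ring

theorem op_terms (hj : Joint ok f b z) (hn : n ≠ ⊥) (hok : ∀ w, ok w → OKPrime n w) {h : ι → ℝ → ℝ}
    (hh : GoodW h) {L : List (ℂ × List (Ideal (𝓞 F)))} (hL : ∀ a ∈ L, ∀ w ∈ a.2, ok w)
    (x : Pt F ι n) :
    Kernel.op (Comb.kernel n (L.map fun a => term1 a.1 a.2 h)) f x =
      (L.map fun a => a.1 * (a.2.map b).prod).sum * z h * f x := by
  have hfine : Fine n (L.map fun a => term1 a.1 a.2 h) := fun T hT => by
    obtain ⟨a, ha, rfl⟩ := List.mem_map.mp hT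
    exact ⟨hh.weightsOK, fun w hw => hok w (hL a ha w hw)⟩
  rw [op_kernel hn hfine (LocI.of_continuous hj.cts), List.map_map, mul_assoc,
    ← List.sum_map_mul_right]
  refine congrArg List.sum (List.map_congr_left fun a ha => ?_)
  show a.1 * Killing.wordSum n a.2 x.1 (fun u => infApply (cw h) f (u, x.2)) = _
  simp only [hj.inf h hh]
  rw [Killing.wordSum, finsum_congr (fun u => mul_left_comm _ (z h) _), ← mul_finsum]
  show a.1 * (z h * Killing.wordSum n a.2 x.1 fun u => f (u, x.2)) = _
  rw [hj.wordSum hn hok (hL a ha)]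
  ring

theorem op_term (hj : Joint ok f b z) (hn : n ≠ ⊥) (hok : ∀ w, ok w → OKPrime n w) {h : ι → ℝ → ℝ}
    (hh : GoodW h) {ws : List (Ideal (𝓞 F))} (hws : ∀ w ∈ ws, ok w) (x : Pt F ι n) :
    Kernel.op (Comb.kernel n [term1 1 ws h]) f x = (ws.map b).prod * z h * f x := by
  have h1 := hj.op_terms hn hok hh (L := [(1, ws)]) (by simpa using hws) x
  simpa using h1

theorem z_mulW (hj : Joint ok f b z) (hn : n ≠ ⊥) (hne : ∃ x, f x ≠ 0) {g h : ι → ℝ → ℝ}
    (hg : GoodW g) (hh : GoodW h) : z (mulW g h) = z g * z h := by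
  obtain ⟨x, hx⟩ := hne
  have hloc := LocI.of_continuous hj.cts
  have e : ∀ h, GoodW h → Kernel.op (Comb.kernel n [term1 1 [] h]) f = fun y => z h * f y :=
    fun h hh => by
      refine funext fun y => ?_
      rw [show ([term1 1 [] h] : Comb F ι) = Killing.single (cw h) from rfl,
        Killing.op_single hn hh.weightsOK hloc, hj.inf h hh]
  have e1 : Comb.mul ([term1 1 [] g] : Comb F ι) [term1 1 [] h] = [term1 1 [] (mulW g h)] := by
    simp [Comb.mul, term1, cw_mulW]
  have h1 := congrFun (op_mul hn (Killing.fine_single hg.weightsOK)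
    (Killing.fine_single hh.weightsOK) hloc) x
  simp only [Killing.single] at h1
  rw [show ([⟨1, [], cw g⟩] : Comb F ι) = [term1 1 [] g] from rfl,
    show ([⟨1, [], cw h⟩] : Comb F ι) = [term1 1 [] h] from rfl, e1, e h hh, op_smul,
    e g hg, e _ (hg.mulW hh)] at h1
  exact mul_right_cancel₀ hx (h1.trans (by ring))

end Joint

section Descent

variable (D : Datum)

/-- The scalar of the image of a prime. -/
def bdesc (b : Ideal (𝓞 D.E) → ℂ) (w : Ideal (𝓞 D.M)) : ℂ :=
  ((D.descPrime w).map fun a => a.1 * (a.2.map b).prod).sum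

theorem bdesc_degreeOne (b : Ideal (𝓞 D.E) → ℂ) {w : Ideal (𝓞 D.M)} (hw : D.DegreeOne w) :
    bdesc D b w = b (D.under w) := by
  simp [bdesc, Datum.descPrime, hw]

theorem sum_descWord (b : Ideal (𝓞 D.E) → ℂ) (ws : List (Ideal (𝓞 D.M))) :
    ((D.descWord ws).map fun a => a.1 * (a.2.map b).prod).sum = (ws.map (bdesc D b)).prod := by
  induction ws with
  | nil => simp [Datum.descWord]
  | cons w ws ih =>
    rw [List.map_cons, List.prod_cons, ← ih, bdesc, Datum.descWord]
    simp only [sum_flatMap_map, List.map_map]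
    rw [← List.sum_map_mul_right]
    refine congrArg List.sum (List.map_congr_left fun a _ => ?_)
    rw [← List.sum_map_mul_left]
    refine congrArg List.sum (List.map_congr_left fun c _ => ?_)
    simp only [Function.comp_apply, List.map_append, List.prod_append]
    ring

theorem descComb_term1 (ws : List (Ideal (𝓞 D.M))) (h : Fin 3 → ℝ → ℝ) :
    D.descComb [term1 1 ws h] = (D.descWord ws).map fun a => term1 a.1 a.2 (descW h) := by
  simp [Datum.descComb, term1, cw_descW]

variable {n : Ideal (𝓞 D.E)} {ok : Ideal (𝓞 D.E) → Prop} {f : Pt D.E Unit n → ℂ}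
  {b : Ideal (𝓞 D.E) → ℂ} {z : (Unit → ℝ → ℝ) → ℂ}

theorem Joint.op_descComb (hj : Joint ok f b z) (hn : n ≠ ⊥) (hok : ∀ w, ok w → OKPrime n w)
    {h : Fin 3 → ℝ → ℝ} (hh : GoodW h) {ws : List (Ideal (𝓞 D.M))}
    (hws : ∀ w ∈ ws, ok (D.under w)) (x : Pt D.E Unit n) :
    Kernel.op ((D.descComb [term1 1 ws h]).kernel n) f x =
      (ws.map (bdesc D b)).prod * z (descW h) * f x := by
  rw [descComb_term1, hj.op_terms hn hok hh.descW (fun a ha v hv => ?_), sum_descWord]
  obtain ⟨w, hw, rfl⟩ := mem_descWord D ha v hv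
  exact hws w hw

end Descent

end FLTAgent.LanglandsTunnell.Isolation
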